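/-
P4 / Layer A: dimension shifting toolkit in Mathlib's `groupCohomology` language.

* `δ_naturality_map`: the connecting homomorphisms commute with `groupCohomology.map f φ`
  (change of groups).
-/
import Mathlib

set_option autoImplicit false

namespace Fermat.Agent.CFT.Coh

open CategoryTheory groupCohomology Rep

section DeltaNaturality

variable {k G H : Type} [CommRing k] [Group G] [Group H] (f : G →* H)
  {X : ShortComplex (Rep k H)} {Y : ShortComplex (Rep k G)}

/-- the morphism of short complexes of cochain complexes induced by a morphism of short complexes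
of representations over a group homomorphism -/
noncomputable def cochainsMapShortComplex
    (φ₁ : res f X.X₁ ⟶ Y.X₁) (φ₂ : res f X.X₂ ⟶ Y.X₂) (φ₃ : res f X.X₃ ⟶ Y.X₃)
    (h₁₂ : (resFunctor f).map X.f ≫ φ₂ = φ₁ ≫ Y.f)
    (h₂₃ : (resFunctor f).map X.g ≫ φ₃ = φ₂ ≫ Y.g) :
    X.map (cochainsFunctor k H) ⟶ Y.map (cochainsFunctor k G) where
  τ₁ := cochainsMap f φ₁
  τ₂ := cochainsMap f φ₂
  τ₃ := cochainsMap f φ₃
  comm₁₂ := by
    change cochainsMap f φ₁ ≫ cochainsMap (MonoidHom.id G) Y.f =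
      cochainsMap (MonoidHom.id H) X.f ≫ cochainsMap f φ₂
    rw [← cochainsMap_comp, ← cochainsMap_comp]
    exact cochainsMap_congr rfl (by rw [h₁₂]; rfl)
  comm₂₃ := by
    change cochainsMap f φ₂ ≫ cochainsMap (MonoidHom.id G) Y.g =
      cochainsMap (MonoidHom.id H) X.g ≫ cochainsMap f φ₃
    rw [← cochainsMap_comp, ← cochainsMap_comp]
    exact cochainsMap_congr rfl (by rw [h₂₃]; rfl)

/-- The connecting homomorphisms of group cohomology commute with change of groups. -/
theorem δ_naturality_map (hX : X.ShortExact) (hY : Y.ShortExact)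
    (φ₁ : res f X.X₁ ⟶ Y.X₁) (φ₂ : res f X.X₂ ⟶ Y.X₂) (φ₃ : res f X.X₃ ⟶ Y.X₃)
    (h₁₂ : (resFunctor f).map X.f ≫ φ₂ = φ₁ ≫ Y.f)
    (h₂₃ : (resFunctor f).map X.g ≫ φ₃ = φ₂ ≫ Y.g) (i j : ℕ) (hij : i + 1 = j) :
    δ hX i j hij ≫ map f φ₁ j = map f φ₃ i ≫ δ hY i j hij :=
  HomologicalComplex.HomologySequence.δ_naturality
    (cochainsMapShortComplex f φ₁ φ₂ φ₃ h₁₂ h₂₃)
    (map_cochainsFunctor_shortExact hX) (map_cochainsFunctor_shortExact hY) i j hij

/-- `map` commutes with the maps induced by morphisms of coefficients (functoriality square). -/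
theorem map_comp_map_square {A A' : Rep k H} {B B' : Rep k G} (u : A ⟶ A') (v : B ⟶ B')
    (φ : res f A ⟶ B) (φ' : res f A' ⟶ B') (h : (resFunctor f).map u ≫ φ' = φ ≫ v) (n : ℕ) :
    map (MonoidHom.id H) u n ≫ map f φ' n = map f φ n ≫ map (MonoidHom.id G) v n := by
  rw [← map_comp, ← map_comp]
  exact map_congr rfl (by rw [h]; rfl) n

end DeltaNaturality

end Fermat.Agent.CFT.Coh
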