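/-
P4 / Layer A: Shapiro's lemma with an explicit map.

For a subgroup `H ≤ G` and `B : Rep k H`, the map
`shapiroMap H B n : Hⁿ(G, coind B) ⟶ Hⁿ(H, B)` induced by `H ↪ G` and evaluation at `1` is
bijective (by dimension shifting; Mathlib's abstract `coindIso` is used only for acyclicity).
-/
import Fermat.Agent.Lib.CFT.Coh.DimShift

set_option autoImplicit false

namespace Fermat.Agent.CFT.Coh

open CategoryTheory groupCohomology Rep Limits

section LES

variable {k G : Type} [CommRing k] [Group G] {X : ShortComplex (Rep k G)} (hX : X.ShortExact)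

theorem δ_surjective_of_isZero (n : ℕ) (h : IsZero (groupCohomology X.X₂ (n + 1))) :
    Function.Surjective (δ hX n (n + 1) rfl) :=
  (ModuleCat.epi_iff_surjective _).1 (epi_δ_of_isZero hX n h)

theorem δ_injective_of_isZero (n : ℕ) (h : IsZero (groupCohomology X.X₂ n)) :
    Function.Injective (δ hX n (n + 1) rfl) :=
  (ModuleCat.mono_iff_injective _).1 (mono_δ_of_isZero hX n h)


theorem exists_map_g_eq_of_δ_eq_zero (n : ℕ) (y : groupCohomology X.X₃ n)
    (hy : δ hX n (n + 1) rfl y = 0) :
    ∃ z : groupCohomology X.X₂ n, map (MonoidHom.id G) X.g n z = y :=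
  (ShortComplex.moduleCat_exact_iff _).1 (mapShortComplex₃_exact hX rfl) y hy

theorem exists_δ_eq_of_map_f_eq_zero (n : ℕ) (x : groupCohomology X.X₁ (n + 1))
    (hx : map (MonoidHom.id G) X.f (n + 1) x = 0) :
    ∃ y : groupCohomology X.X₃ n, δ hX n (n + 1) rfl y = x :=
  (ShortComplex.moduleCat_exact_iff _).1 (mapShortComplex₁_exact hX rfl) x hx

include hX in
theorem exists_map_f_eq_of_map_g_eq_zero (n : ℕ) (y : groupCohomology X.X₂ n)
    (hy : map (MonoidHom.id G) X.g n y = 0) :
    ∃ x : groupCohomology X.X₁ n, map (MonoidHom.id G) X.f n x = y :=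
  (ShortComplex.moduleCat_exact_iff _).1 (mapShortComplex₂_exact hX n) y hy

theorem δ_map_g_apply (n : ℕ) (z : groupCohomology X.X₂ n) :
    δ hX n (n + 1) rfl (map (MonoidHom.id G) X.g n z) = 0 := by
  have := (mapShortComplex₃ hX (rfl : n + 1 = n + 1)).zero
  exact congr($this z)

theorem map_f_δ_apply (n : ℕ) (y : groupCohomology X.X₃ n) :
    map (MonoidHom.id G) X.f (n + 1) (δ hX n (n + 1) rfl y) = 0 := by
  have := (mapShortComplex₁ hX (rfl : n + 1 = n + 1)).zero
  exact congr($this y)

end LES

section Up

variable {k Γ : Type} [CommRing k] [Group Γ] (B : Rep k Γ)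

/-- the coinduced module `Fun(Γ, B)` -/
noncomputable abbrev coindBot : Rep k Γ :=
  coind (⊥ : Subgroup Γ).subtype (res (⊥ : Subgroup Γ).subtype B)

/-- the unit `B ⟶ Fun(Γ, B)`, `b ↦ (g ↦ g • b)` -/
noncomputable def toCoindBot : B ⟶ coindBot B :=
  resCoindToHom (⊥ : Subgroup Γ).subtype B (res (⊥ : Subgroup Γ).subtype B) (𝟙 _)

theorem toCoindBot_apply (b : B) (g : Γ) : ((toCoindBot B).hom b).1 g = B.ρ g b := rfl

instance : Mono (toCoindBot B) := by
  rw [Rep.mono_iff_injective]
  intro b b' h
  have h1 : ((toCoindBot B).hom b).1 1 = ((toCoindBot B).hom b').1 1 := by rw [h]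
  rw [toCoindBot_apply, toCoindBot_apply, map_one] at h1
  exact h1

/-- the short exact sequence `0 ⟶ B ⟶ Fun(Γ, B) ⟶ up B ⟶ 0` -/
noncomputable def upSC : ShortComplex (Rep k Γ) :=
  ShortComplex.mk (toCoindBot B) (cokernel.π (toCoindBot B)) (cokernel.condition _)

theorem upSC_shortExact : (upSC B).ShortExact :=
  ShortComplex.ShortExact.mk' (ShortComplex.exact_cokernel _) (inferInstanceAs (Mono (toCoindBot B)))
    (inferInstanceAs (Epi (cokernel.π (toCoindBot B))))

theorem isZero_groupCohomology_coind_succ {G : Type} [Group G] (H : Subgroup G) (M : Rep k H)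
    (n : ℕ) (h : IsZero (groupCohomology M (n + 1))) :
    IsZero (groupCohomology (coind H.subtype M) (n + 1)) :=
  h.of_iso (coindIso M (n + 1))

theorem isZero_groupCohomology_coindBot (n : ℕ) :
    IsZero (groupCohomology (coindBot B) (n + 1)) :=
  isZero_groupCohomology_coind_succ _ _ n (isZero_groupCohomology_succ_of_subsingleton _ n)

end Up

section CoindExact

variable {k G : Type} [CommRing k] [Group G] (H : Subgroup G)

noncomputable instance : (coindFunctor k H.subtype : Rep.{0} k H ⥤ Rep.{0} k G).IsRightAdjoint :=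
  (resCoindAdjunction.{0} k H.subtype).isRightAdjoint

/-- coinduction is exact -/
theorem shortExact_map_coind {X : ShortComplex (Rep.{0} k H)} (hX : X.ShortExact) :
    (X.map (coindFunctor k H.subtype)).ShortExact := by
  have := hX.mono_f
  have := hX.epi_g
  refine ShortComplex.ShortExact.mk'
    (hX.exact.map_of_mono_of_preservesKernel _ hX.mono_f inferInstance) ?_ ?_
  · exact (inferInstance : Mono ((coindFunctor k H.subtype).map X.f))
  · exact (inferInstance : Epi ((coindFunctor k H.subtype).map X.g))

end CoindExact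

section Shapiro

variable {k G : Type} [CommRing k] [Group G] (H : Subgroup G)

/-- evaluation at `1`: the counit `res (coind B) ⟶ B` -/
noncomputable def coindEv (B : Rep k H) : res H.subtype (coind H.subtype B) ⟶ B :=
  (resCoindHomEquiv H.subtype (coind H.subtype B) B).symm (𝟙 _)

theorem coindEv_apply (B : Rep k H) (x : coind H.subtype B) : (coindEv H B).hom x = x.1 1 := rfl

theorem coindEv_naturality {B B' : Rep k H} (u : B ⟶ B') :
    (resFunctor H.subtype).map ((coindFunctor k H.subtype).map u) ≫ coindEv H B' =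
      coindEv H B ≫ u := by
  ext x
  rfl

/-- the Shapiro map `Hⁿ(G, coind B) ⟶ Hⁿ(H, B)` -/
noncomputable def shapiroMap (B : Rep k H) (n : ℕ) :
    groupCohomology (coind H.subtype B) n ⟶ groupCohomology B n :=
  map H.subtype (coindEv H B) n

end Shapiro


section Shapiro0

variable {k G : Type} [CommRing k] [Group G] (H : Subgroup G)

theorem coind_ρ_apply (B : Rep k H) (g x : G) (v : coind H.subtype B) :
    ((coind H.subtype B).ρ g v).1 x = v.1 (x * g) := rfl

theorem shapiroMap_zero_injective (B : Rep k H) : Function.Injective (shapiroMap H B 0) := by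
  rw [injective_iff_map_eq_zero]
  intro x hx
  have h1 := map_H0Iso_hom_f_apply H.subtype (coindEv H B) x
  unfold shapiroMap at hx
  rw [hx] at h1
  simp only [map_zero] at h1
  set v := (H0Iso (coind H.subtype B)).hom x with hv
  have hv1 : (v.1 : coind H.subtype B).1 1 = 0 := h1.symm
  have hvg : ∀ g : G, (v.1 : coind H.subtype B).1 g = 0 := by
    intro g
    have := v.2 g
    have h2 : ((coind H.subtype B).ρ g v.1).1 1 = (v.1 : coind H.subtype B).1 1 := by rw [this]
    rw [coind_ρ_apply, one_mul] at h2
    rw [h2, hv1]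
  have hv0 : v = 0 := by
    apply Subtype.ext
    apply Subtype.ext
    funext g
    exact hvg g
  have : Function.Injective (H0Iso (coind H.subtype B)).hom :=
    (ModuleCat.mono_iff_injective _).1 inferInstance
  apply this
  rw [← hv, hv0, map_zero]

end Shapiro0


section Shapiro0s

variable {k G : Type} [CommRing k] [Group G] (H : Subgroup G)

theorem shapiroMap_zero_surjective (B : Rep k H) : Function.Surjective (shapiroMap H B 0) := by
  intro y
  set w := (H0Iso B).hom y with hw
  -- the constant function with value `w`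
  let cw : coind H.subtype B := ⟨fun _ => w.1, fun h g => (w.2 h).symm⟩
  have hcw : cw ∈ (coind H.subtype B).ρ.invariants := by
    intro g
    apply Subtype.ext
    funext x
    rfl
  refine ⟨(H0Iso (coind H.subtype B)).inv ⟨cw, hcw⟩, ?_⟩
  have hinj : Function.Injective (H0Iso B).hom :=
    (ModuleCat.mono_iff_injective _).1 inferInstance
  apply hinj
  apply Subtype.ext
  have h1 := map_H0Iso_hom_f_apply H.subtype (coindEv H B)
    ((H0Iso (coind H.subtype B)).inv ⟨cw, hcw⟩)
  unfold shapiroMap
  refine h1.trans ?_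
  rw [Iso.inv_hom_id_apply]
  rfl

theorem shapiroMap_zero_bijective (B : Rep k H) : Function.Bijective (shapiroMap H B 0) :=
  ⟨shapiroMap_zero_injective H B, shapiroMap_zero_surjective H B⟩

end Shapiro0s

section ShapiroInd

variable {k G : Type} [CommRing k] [Group G] (H : Subgroup G)

/-- **Shapiro's lemma**, explicit form: `Hⁿ(G, coind B) ⟶ Hⁿ(H, B)` is bijective. -/
theorem shapiroMap_bijective (B : Rep k H) (n : ℕ) : Function.Bijective (shapiroMap H B n) := by
  induction n generalizing B with
  | zero => exact shapiroMap_zero_bijective H B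
  | succ n ih =>
    have hX : (upSC B).ShortExact := upSC_shortExact B
    have hY : ((upSC B).map (coindFunctor k H.subtype)).ShortExact := shortExact_map_coind H hX
    have hδ := δ_naturality_map H.subtype hY hX (coindEv H (upSC B).X₁) (coindEv H (upSC B).X₂)
      (coindEv H (upSC B).X₃) (coindEv_naturality H (upSC B).f) (coindEv_naturality H (upSC B).g)
      n (n + 1) rfl
    have hsq := map_comp_map_square H.subtype ((coindFunctor k H.subtype).map (upSC B).g)
      (upSC B).g (coindEv H (upSC B).X₂) (coindEv H (upSC B).X₃)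
      (coindEv_naturality H (upSC B).g) n
    have hzX : IsZero (groupCohomology (upSC B).X₂ (n + 1)) := isZero_groupCohomology_coindBot B n
    have hzY : IsZero (groupCohomology ((upSC B).map (coindFunctor k H.subtype)).X₂ (n + 1)) :=
      isZero_groupCohomology_coind_succ H _ n hzX
    constructor
    · rw [injective_iff_map_eq_zero]
      intro x hx
      obtain ⟨w, rfl⟩ := δ_surjective_of_isZero hY n hzY x
      have h1 : δ hX n (n + 1) rfl (shapiroMap H (upSC B).X₃ n w) = 0 :=
        (congr($hδ w)).symm.trans hx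
      obtain ⟨u, hu⟩ := exists_map_g_eq_of_δ_eq_zero hX n _ h1
      obtain ⟨u', rfl⟩ := (ih (upSC B).X₂).2 u
      have h2 : shapiroMap H (upSC B).X₃ n
          (map (MonoidHom.id G) ((upSC B).map (coindFunctor k H.subtype)).g n u') =
            shapiroMap H (upSC B).X₃ n w :=
        (congr($hsq u')).trans hu
      have h3 := (ih (upSC B).X₃).1 h2
      exact (congrArg (δ hY n (n + 1) rfl) h3).symm.trans (δ_map_g_apply hY n u')
    · intro y
      obtain ⟨z, rfl⟩ := δ_surjective_of_isZero hX n hzX y
      obtain ⟨w, rfl⟩ := (ih (upSC B).X₃).2 z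
      exact ⟨δ hY n (n + 1) rfl w, congr($hδ w)⟩

/-- the Shapiro isomorphism with explicit `hom` -/
noncomputable def shapiroIso (B : Rep k H) (n : ℕ) :
    groupCohomology (coind H.subtype B) n ≅ groupCohomology B n :=
  (LinearEquiv.ofBijective (shapiroMap H B n).hom (shapiroMap_bijective H B n)).toModuleIso

theorem shapiroIso_hom (B : Rep k H) (n : ℕ) : (shapiroIso H B n).hom = shapiroMap H B n := rfl

end ShapiroInd

end Fermat.Agent.CFT.Coh
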