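/-
P4 / Layer A, task A2: corestriction (transfer), `cores ∘ res = index`, Sylow.

`cores := shapiroIso⁻¹ ≫ Hⁿ(G, trace)` where `trace : coind_H^G (res A) ⟶ A`,
`f ↦ ∑_{xH} x • f x⁻¹`, and `shapiroIso` is Shapiro's isomorphism with explicit map
(`Shapiro.lean`).  Also valid for subgroups of finite index in infinite groups
(`coresOfFiniteIndex`).
-/
import Fermat.Agent.Lib.CFT.Coh.Shapiro

set_option autoImplicit false
set_option linter.unusedSectionVars false
set_option linter.style.haveILetI false
set_option linter.unusedVariables false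

namespace Fermat.Agent.CFT.Coh

open CategoryTheory groupCohomology Rep Limits

section Trace

variable {k G : Type} [CommRing k] [Group G] (A : Rep k G) (H : Subgroup G)

/-- the unit `A ⟶ coind (res A)`, `a ↦ (g ↦ g • a)` -/
noncomputable def coindUnit : A ⟶ coind H.subtype (res H.subtype A) :=
  resCoindToHom H.subtype A (res H.subtype A) (𝟙 _)

theorem coindUnit_apply (a : A) (g : G) : ((coindUnit A H).hom a).1 g = A.ρ g a := rfl

theorem coindUnit_comp_coindEv :
    (resFunctor H.subtype).map (coindUnit A H) ≫ coindEv H (res H.subtype A) = 𝟙 _ := by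
  ext x
  change A.ρ 1 x = x
  rw [map_one]
  rfl

/-- `res = shapiro ∘ Hⁿ(unit)` -/
theorem map_coindUnit_comp_shapiroMap (n : ℕ) :
    map (MonoidHom.id G) (coindUnit A H) n ≫ shapiroMap H (res H.subtype A) n =
      map H.subtype (𝟙 (res H.subtype A)) n := by
  unfold shapiroMap
  rw [← map_comp]
  exact map_congr rfl (congrArg (fun φ => φ.hom.toLinearMap) (coindUnit_comp_coindEv A H)) n

/-- the summand of the trace attached to a coset -/
noncomputable def traceTerm (q : G ⧸ H) : (coind H.subtype (res H.subtype A)).V →ₗ[k] A.V :=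
  Quotient.liftOn' q
    (fun x => (A.ρ x : A.V →ₗ[k] A.V) ∘ₗ (LinearMap.proj x⁻¹ : (G → A.V) →ₗ[k] A.V) ∘ₗ
      (Representation.coindV H.subtype (res H.subtype A).ρ).subtype)
    (by
      intro x y hxy
      rw [QuotientGroup.leftRel_apply] at hxy
      ext f
      simp only [LinearMap.comp_apply, Submodule.subtype_apply, LinearMap.proj_apply]
      have h1 : y⁻¹ = (⟨x⁻¹ * y, hxy⟩ : H)⁻¹.1 * x⁻¹ := by
        simp
      have h2 := f.2 (⟨x⁻¹ * y, hxy⟩ : H)⁻¹ x⁻¹
      rw [h1]
      erw [h2]
      change A.ρ x (f.1 x⁻¹) = A.ρ y (A.ρ ((x⁻¹ * y)⁻¹) (f.1 x⁻¹))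
      rw [← Module.End.mul_apply, ← map_mul]
      congr 2
      group)

theorem traceTerm_mk (x : G) (f : (coind H.subtype (res H.subtype A)).V) :
    traceTerm A H (x : G ⧸ H) f = A.ρ x (f.1 x⁻¹) := rfl


variable [H.FiniteIndex]

/-- the trace `coind (res A) ⟶ A`, `f ↦ ∑_{xH} x • f x⁻¹`, as a linear map -/
noncomputable def coindTraceLin : (coind H.subtype (res H.subtype A)).V →ₗ[k] A.V :=
  letI := Fintype.ofFinite (G ⧸ H)
  ∑ q : G ⧸ H, traceTerm A H q

theorem coindTraceLin_apply (f : (coind H.subtype (res H.subtype A)).V) :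
    coindTraceLin A H f =
      letI := Fintype.ofFinite (G ⧸ H)
      ∑ q : G ⧸ H, traceTerm A H q f := by
  unfold coindTraceLin
  rw [LinearMap.sum_apply]

theorem traceTerm_smul (g : G) (q : G ⧸ H) (f : (coind H.subtype (res H.subtype A)).V) :
    traceTerm A H q ((coind H.subtype (res H.subtype A)).ρ g f) =
      A.ρ g (traceTerm A H (g⁻¹ • q) f) := by
  induction q using QuotientGroup.induction_on with | H x =>
  rw [traceTerm_mk, coind_ρ_apply]
  have : (g⁻¹ • (x : G ⧸ H)) = ((g⁻¹ * x : G) : G ⧸ H) := rfl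
  rw [this, traceTerm_mk, ← Module.End.mul_apply, ← map_mul]
  have h1 : g * (g⁻¹ * x) = x := by group
  have h2 : (g⁻¹ * x)⁻¹ = x⁻¹ * g := by group
  rw [h1, h2]

/-- the trace `coind (res A) ⟶ A` -/
noncomputable def coindTrace : coind H.subtype (res H.subtype A) ⟶ A :=
  Rep.ofHom ⟨coindTraceLin A H, fun g => by
    ext f
    simp only [LinearMap.comp_apply]
    letI := Fintype.ofFinite (G ⧸ H)
    rw [coindTraceLin_apply, coindTraceLin_apply, map_sum]
    exact Fintype.sum_equiv (MulAction.toPerm g⁻¹) _ _ (fun q => traceTerm_smul A H g q f)⟩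

theorem coindUnit_comp_coindTrace :
    coindUnit A H ≫ coindTrace A H = (H.index : k) • 𝟙 A := by
  ext a
  letI := Fintype.ofFinite (G ⧸ H)
  change coindTraceLin A H ((coindUnit A H).hom a) = (H.index : k) • a
  rw [coindTraceLin_apply]
  have : ∀ q : G ⧸ H, traceTerm A H q ((coindUnit A H).hom a) = a := by
    intro q
    induction q using QuotientGroup.induction_on with | H x =>
    rw [traceTerm_mk, coindUnit_apply, ← Module.End.mul_apply, ← map_mul, mul_inv_cancel, map_one,
      Module.End.one_apply]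
  simp only [this, Finset.sum_const, Finset.card_univ]
  rw [Subgroup.index, Nat.card_eq_fintype_card, Nat.cast_smul_eq_nsmul]

end Trace

section Additive

variable {k G : Type} [CommRing k] [Group G]

theorem map_id_add {A B : Rep k G} (φ ψ : A ⟶ B) (n : ℕ) :
    map (MonoidHom.id G) (φ + ψ) n = map (MonoidHom.id G) φ n + map (MonoidHom.id G) ψ n := by
  change HomologicalComplex.homologyMap (cochainsMap (MonoidHom.id G) (φ + ψ)) n =
    HomologicalComplex.homologyMap (cochainsMap (MonoidHom.id G) φ) n +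
      HomologicalComplex.homologyMap (cochainsMap (MonoidHom.id G) ψ) n
  rw [← HomologicalComplex.homologyMap_add]
  rfl

instance functor_additive (n : ℕ) : (functor k G n).Additive where
  map_add {A B φ ψ} := map_id_add φ ψ n

theorem map_id_nsmul {A B : Rep k G} (m : ℕ) (φ : A ⟶ B) (n : ℕ) :
    map (MonoidHom.id G) (m • φ) n = m • map (MonoidHom.id G) φ n :=
  (functor k G n).map_nsmul

end Additive

section CoresGeneral

variable {k G : Type} [CommRing k] [Group G] (A : Rep k G) (H : Subgroup G) [H.FiniteIndex]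

/-- corestriction `Hⁿ(H, A) ⟶ Hⁿ(G, A)` for a subgroup of finite index -/
noncomputable def coresOfFiniteIndex (n : ℕ) :
    groupCohomology (res H.subtype A) n ⟶ groupCohomology A n :=
  (shapiroIso H (res H.subtype A) n).inv ≫ map (MonoidHom.id G) (coindTrace A H) n

/-- `cores ∘ res = [G : H]` -/
theorem res_comp_coresOfFiniteIndex (n : ℕ) :
    map H.subtype (𝟙 (res H.subtype A)) n ≫ coresOfFiniteIndex A H n = (H.index : k) • 𝟙 _ := by
  have h1 : map (MonoidHom.id G) (coindUnit A H ≫ coindTrace A H) n = (H.index : k) • 𝟙 _ := by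
    have : map (MonoidHom.id G) (coindUnit A H ≫ coindTrace A H) n =
        map (MonoidHom.id G) ((H.index : k) • 𝟙 A) n :=
      congrArg (fun φ : A ⟶ A => map (MonoidHom.id G) φ n) (coindUnit_comp_coindTrace A H)
    rw [this, Nat.cast_smul_eq_nsmul, map_id_nsmul, map_id, Nat.cast_smul_eq_nsmul]
  unfold coresOfFiniteIndex
  rw [← map_coindUnit_comp_shapiroMap, Category.assoc, ← shapiroIso_hom, Iso.hom_inv_id_assoc,
    ← map_id_comp, h1]

/-- `[G : H] • x = 0` if `res x = 0` -/
theorem index_smul_eq_zero_of_res_eq_zero (n : ℕ) (x : groupCohomology A n)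
    (hx : map H.subtype (𝟙 (res H.subtype A)) n x = 0) : (H.index : k) • x = 0 := by
  have := congr($(res_comp_coresOfFiniteIndex A H n) x)
  rw [ConcreteCategory.comp_apply, hx, map_zero] at this
  rw [this]
  simp

end CoresGeneral

/-! ### A2 : corestriction (transfer) in positive degrees, Sylow -/
section Transfer

variable {k G : Type} [CommRing k] [Group G] [Fintype G] (A : Rep k G) (H : Subgroup G)

/-- corestriction `Hⁿ(H, A) ⟶ Hⁿ(G, A)` -/
noncomputable def cores (n : ℕ) :
    groupCohomology (res H.subtype A) n ⟶ groupCohomology A n :=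
  coresOfFiniteIndex A H n

/-- `cores ∘ res = [G : H]` -/
theorem res_comp_cores (n : ℕ) :
    map H.subtype (𝟙 (res H.subtype A)) n ≫ cores A H n = (H.index : k) • 𝟙 _ :=
  res_comp_coresOfFiniteIndex A H n

/-- `Hⁿ(G, A)` is killed by `|G|` for `n ≥ 1`. -/
theorem card_smul_eq_zero (n : ℕ) (hn : 0 < n) (x : groupCohomology A n) :
    (Fintype.card G : k) • x = 0 := by
  obtain ⟨m, rfl⟩ := Nat.exists_eq_succ_of_ne_zero hn.ne'
  have hz : IsZero (groupCohomology (res (⊥ : Subgroup G).subtype A) (m + 1)) :=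
    isZero_groupCohomology_succ_of_subsingleton _ m
  have h0 : map (⊥ : Subgroup G).subtype (𝟙 (res (⊥ : Subgroup G).subtype A)) (m + 1) x = 0 :=
    (ModuleCat.isZero_iff_subsingleton.1 hz).elim _ _
  have := index_smul_eq_zero_of_res_eq_zero A ⊥ (m + 1) x h0
  rwa [Subgroup.index_bot, Nat.card_eq_fintype_card] at this

/-- If `Hⁿ(P, A) = 0` for a `p`-Sylow subgroup `P` then `Hⁿ(G, A)` has no `p`-torsion. -/
theorem eq_zero_of_sylow (p : ℕ) [Fact p.Prime] (P : Sylow p G) (n : ℕ) (hn : 0 < n)
    (h : Limits.IsZero (groupCohomology (res (P : Subgroup G).subtype A) n))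
    (x : groupCohomology A n) (hx : ∃ j : ℕ, ((p : k) ^ j) • x = 0) : x = 0 := by
  obtain ⟨j, hj⟩ := hx
  have h0 : map (P : Subgroup G).subtype (𝟙 (res (P : Subgroup G).subtype A)) n x = 0 :=
    (ModuleCat.isZero_iff_subsingleton.1 h).elim _ _
  have h1 := index_smul_eq_zero_of_res_eq_zero A (P : Subgroup G) n x h0
  have hcop : Nat.Coprime (p ^ j) (P : Subgroup G).index :=
    Nat.Coprime.pow_left j ((Nat.Prime.coprime_iff_not_dvd Fact.out).2 P.not_dvd_index)
  obtain ⟨u, v, huv⟩ := (Nat.isCoprime_iff_coprime.2 hcop)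
  have h2 : ((u : k) * ((p : k) ^ j) + (v : k) * ((P : Subgroup G).index : k)) = 1 := by
    have := congrArg (Int.cast : ℤ → k) huv
    push_cast at this
    exact this
  calc x = (1 : k) • x := (one_smul k x).symm
    _ = ((u : k) * ((p : k) ^ j) + (v : k) * ((P : Subgroup G).index : k)) • x := by rw [h2]
    _ = (u : k) • (((p : k) ^ j) • x) + (v : k) • (((P : Subgroup G).index : k) • x) := by
        rw [add_smul, mul_smul, mul_smul]
    _ = 0 := by rw [hj, h1, smul_zero, smul_zero, add_zero]

end Transfer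
end Fermat.Agent.CFT.Coh
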