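/-
P4 / Layer A: Shapiro's lemma for decomposed modules (for Layer C: semi-local units
`(L ⊗ ℚ_q)ˣ = ∏_{w ∣ q} L_wˣ` with `G` permuting the factors transitively).

If `ψ : res_H M ⟶ N` has an `H`-equivariant section `ι`, `ψ (g • ι x) = 0` for `g ∉ H`, and
`∑_{tH} t • ι (ψ (t⁻¹ • m)) = m`, then `M ≅ coind_H^G N` and
`map H.subtype ψ n : Hⁿ(G, M) ⟶ Hⁿ(H, N)` is bijective for all `n`.
-/
import Fermat.Agent.Lib.CFT.Coh.Shapiro

set_option autoImplicit false
set_option linter.unusedSectionVars false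
set_option linter.style.haveILetI false

namespace Fermat.Agent.CFT.Coh

open CategoryTheory groupCohomology Rep Limits

section Adjoint

variable {k G : Type} [CommRing k] [Group G] (H : Subgroup G) {M : Rep k G} {N : Rep k H}

/-- the adjoint `M ⟶ coind_H^G N` of `ψ : res_H M ⟶ N`, `m ↦ (g ↦ ψ (g • m))` -/
noncomputable def coindAdj (ψ : res H.subtype M ⟶ N) : M ⟶ coind H.subtype N :=
  resCoindToHom H.subtype M N ψ

theorem coindAdj_apply (ψ : res H.subtype M ⟶ N) (m : M) (g : G) :
    ((coindAdj H ψ).hom m).1 g = ψ.hom (M.ρ g m) := rfl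

theorem res_coindAdj_comp_coindEv (ψ : res H.subtype M ⟶ N) :
    (resFunctor H.subtype).map (coindAdj H ψ) ≫ coindEv H N = ψ := by
  ext x
  change ψ.hom (M.ρ 1 x) = ψ.hom x
  rw [map_one]
  rfl

/-- `map H.subtype ψ n` factors through the Shapiro map. -/
theorem map_eq_map_coindAdj_comp_shapiroMap (ψ : res H.subtype M ⟶ N) (n : ℕ) :
    map H.subtype ψ n = map (MonoidHom.id G) (coindAdj H ψ) n ≫ shapiroMap H N n := by
  unfold shapiroMap
  rw [← map_comp]
  exact map_congr rfl
    (congrArg (fun φ => φ.hom.toLinearMap) (res_coindAdj_comp_coindEv H ψ)).symm n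

/-- a bijective morphism of representations induces bijections in cohomology -/
theorem map_id_bijective_of_bijective {A B : Rep k G} (φ : A ⟶ B)
    (hφ : Function.Bijective φ.hom) (n : ℕ) : Function.Bijective (map (MonoidHom.id G) φ n) := by
  haveI : Mono φ := (Rep.mono_iff_injective φ).2 hφ.1
  haveI : Epi φ := (Rep.epi_iff_surjective φ).2 hφ.2
  haveI : IsIso φ := isIso_of_mono_of_epi φ
  haveI : IsIso ((functor k G n).map φ) := Functor.map_isIso _ _
  exact ConcreteCategory.bijective_of_isIso ((functor k G n).map φ)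

/-- If the adjoint `M ⟶ coind_H^G N` of `ψ` is bijective, then
`map H.subtype ψ n : Hⁿ(G, M) ⟶ Hⁿ(H, N)` is bijective. -/
theorem map_bijective_of_bijective_coindAdj (ψ : res H.subtype M ⟶ N)
    (hψ : Function.Bijective (coindAdj H ψ).hom) (n : ℕ) :
    Function.Bijective (map H.subtype ψ n) := by
  rw [map_eq_map_coindAdj_comp_shapiroMap]
  have h1 := map_id_bijective_of_bijective (coindAdj H ψ) hψ n
  have h2 := shapiroMap_bijective H N n
  have hcomp : ⇑(ConcreteCategory.hom
      (map (MonoidHom.id G) (coindAdj H ψ) n ≫ shapiroMap H N n)) =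
      ⇑(ConcreteCategory.hom (shapiroMap H N n)) ∘
        ⇑(ConcreteCategory.hom (map (MonoidHom.id G) (coindAdj H ψ) n)) := by
    funext x
    rfl
  rw [hcomp]
  exact h2.comp h1

end Adjoint

section Decomposition

variable {k G : Type} [CommRing k] [Group G] (H : Subgroup G) [H.FiniteIndex]
  {M : Rep k G} {N : Rep k H}

/-- Recognition of coinduced modules: `ψ : res_H M ⟶ N` with an `H`-equivariant section `ι`,
orthogonality and completeness of the conjugates of the idempotent `ι ∘ ψ`. -/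
theorem coindAdj_bijective_of_decomposition (ψ : res H.subtype M ⟶ N)
    (ι : N ⟶ res H.subtype M) (hψι : ∀ x : N, ψ.hom (ι.hom x) = x)
    (horth : ∀ g : G, g ∉ H → ∀ x : N, ψ.hom (M.ρ g (ι.hom x)) = 0)
    (hsum : ∀ m : M, ∑ᶠ q : G ⧸ H, M.ρ q.out (ι.hom (ψ.hom (M.ρ q.out⁻¹ m))) = m) :
    Function.Bijective (coindAdj H ψ).hom := by
  classical
  letI := Fintype.ofFinite (G ⧸ H)
  constructor
  · rw [injective_iff_map_eq_zero]
    intro m hm
    have h0 : ∀ g : G, ψ.hom (M.ρ g m) = 0 := fun g => by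
      rw [← coindAdj_apply, hm]
      rfl
    rw [← hsum m]
    refine finsum_eq_zero_of_forall_eq_zero (fun q => ?_)
    rw [h0, map_zero, map_zero]
  · intro f
    refine ⟨∑ q : G ⧸ H, M.ρ q.out (ι.hom (f.1 q.out⁻¹)), ?_⟩
    apply Subtype.ext
    funext g
    rw [coindAdj_apply, map_sum, map_sum]
    have hq : ∀ q : G ⧸ H, g * q.out ∈ H ↔ q = ((g⁻¹ : G) : G ⧸ H) := by
      intro q
      constructor
      · intro h
        rw [← QuotientGroup.out_eq' q]
        exact (QuotientGroup.eq.2 (by rwa [inv_inv])).symm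
      · intro h
        have h' : ((g⁻¹ : G) : G ⧸ H) = ((q.out : G) : G ⧸ H) := by
          rw [QuotientGroup.out_eq', h]
        have := QuotientGroup.eq.1 h'
        rwa [inv_inv] at this
    rw [Finset.sum_eq_single ((g⁻¹ : G) : G ⧸ H)]
    · -- the surviving term
      set t := ((g⁻¹ : G) : G ⧸ H).out with ht
      have hmem : g * t ∈ H := (hq _).2 rfl
      have h1 : M.ρ g (M.ρ t (ι.hom (f.1 t⁻¹))) = ι.hom (N.ρ ⟨g * t, hmem⟩ (f.1 t⁻¹)) := by
        rw [← Module.End.mul_apply, ← map_mul]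
        exact (hom_comm_apply ι ⟨g * t, hmem⟩ (f.1 t⁻¹)).symm
      rw [h1, hψι]
      have h2 := f.2 ⟨g * t, hmem⟩ t⁻¹
      rw [← h2]
      simp
    · intro q _ hne
      have hnm : g * q.out ∉ H := fun h => hne ((hq q).1 h)
      rw [← Module.End.mul_apply, ← map_mul]
      exact horth _ hnm _
    · intro h
      exact absurd (Finset.mem_univ _) h

/-- **Shapiro's lemma for decomposed modules.** -/
theorem map_bijective_of_decomposition (ψ : res H.subtype M ⟶ N)
    (ι : N ⟶ res H.subtype M) (hψι : ∀ x : N, ψ.hom (ι.hom x) = x)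
    (horth : ∀ g : G, g ∉ H → ∀ x : N, ψ.hom (M.ρ g (ι.hom x)) = 0)
    (hsum : ∀ m : M, ∑ᶠ q : G ⧸ H, M.ρ q.out (ι.hom (ψ.hom (M.ρ q.out⁻¹ m))) = m) (n : ℕ) :
    Function.Bijective (map H.subtype ψ n) :=
  map_bijective_of_bijective_coindAdj H ψ
    (coindAdj_bijective_of_decomposition H ψ ι hψι horth hsum) n

end Decomposition

end Fermat.Agent.CFT.Coh
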