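/-
P4 / Layer A (for Layer C1f): vanishing of cohomology for modules decomposed into finitely many
coinduced blocks.

* `isZero_groupCohomology_of_sum_comp_eq_id` : if `𝟙 M = ∑ i, a i ≫ b i` factors through objects
  `N i` with `Hⁿ(G, N i) = 0`, then `Hⁿ(G, M) = 0`.
* `coindBack` : for `ι : N ⟶ res_H M` the morphism `coind_H^G N ⟶ M`, `f ↦ ∑_{tH} t • ι (f t⁻¹)`.
* `isZero_groupCohomology_of_decomposition_family` : if
  `m = ∑_i ∑_{t ∈ G/H_i} t • ι_i (ψ_i (t⁻¹ • m))` for all `m`, and `Hⁿ(H_i, N_i) = 0` for all `i`,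
  then `Hⁿ(G, M) = 0`.
-/
import Fermat.Agent.Lib.CFT.Coh.ShapiroDec
import Fermat.Agent.Lib.CFT.Coh.Cores

set_option autoImplicit false
set_option linter.unusedSectionVars false
set_option linter.style.haveILetI false

namespace Fermat.Agent.CFT.Coh

open CategoryTheory groupCohomology Rep Limits

section Retract

variable {k G : Type} [CommRing k] [Group G]

/-- If the identity of `M` is a finite sum of morphisms factoring through objects with vanishing
`Hⁿ`, then `Hⁿ(G, M) = 0`. -/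
theorem isZero_groupCohomology_of_sum_comp_eq_id {M : Rep k G} {I : Type} (s : Finset I)
    (N : I → Rep k G) (a : ∀ i, M ⟶ N i) (b : ∀ i, N i ⟶ M)
    (h : ∑ i ∈ s, a i ≫ b i = 𝟙 M) (n : ℕ)
    (hN : ∀ i ∈ s, IsZero (groupCohomology (N i) n)) : IsZero (groupCohomology M n) := by
  rw [IsZero.iff_id_eq_zero]
  have h1 : 𝟙 (groupCohomology M n) = (functor k G n).map (𝟙 M) :=
    ((functor k G n).map_id M).symm
  rw [h1, ← h, Functor.map_sum]
  refine Finset.sum_eq_zero (fun i hi => ?_)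
  rw [Functor.map_comp]
  have h2 : (functor k G n).map (a i) = 0 :=
    IsZero.eq_of_tgt (show IsZero ((functor k G n).obj (N i)) from hN i hi) _ _
  rw [h2]
  exact zero_comp

end Retract

section Back

variable {k G : Type} [CommRing k] [Group G] (H : Subgroup G) [H.FiniteIndex]
  {M : Rep k G} {N : Rep k H}

/-- for `ι : N ⟶ res_H M`, the morphism `coind_H^G N ⟶ M`, `f ↦ ∑_{tH} t • ι (f t⁻¹)` -/
noncomputable def coindBack (ι : N ⟶ res H.subtype M) : coind H.subtype N ⟶ M :=
  coindMap H.subtype ι ≫ coindTrace M H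

theorem coindBack_apply (ι : N ⟶ res H.subtype M) (f : coind H.subtype N) :
    (coindBack H ι).hom f = ∑ᶠ t : G ⧸ H, M.ρ t.out (ι.hom (f.1 t.out⁻¹)) := by
  classical
  letI := Fintype.ofFinite (G ⧸ H)
  rw [finsum_eq_sum_of_fintype]
  change coindTraceLin M H ((coindMap H.subtype ι).hom f) = _
  rw [coindTraceLin_apply]
  refine Finset.sum_congr rfl (fun t _ => ?_)
  conv_lhs => rw [← QuotientGroup.out_eq' t]
  rw [traceTerm_mk]
  rfl

theorem coindAdj_comp_coindBack_apply (ψ : res H.subtype M ⟶ N) (ι : N ⟶ res H.subtype M)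
    (m : M) :
    (coindAdj H ψ ≫ coindBack H ι).hom m =
      ∑ᶠ t : G ⧸ H, M.ρ t.out (ι.hom (ψ.hom (M.ρ t.out⁻¹ m))) := by
  change (coindBack H ι).hom ((coindAdj H ψ).hom m) = _
  rw [coindBack_apply]
  rfl

end Back

section Family

variable {k G : Type} [CommRing k] [Group G]

/-- **Vanishing for modules decomposed into finitely many coinduced blocks.** -/
theorem isZero_groupCohomology_of_decomposition_family {M : Rep k G} {I : Type} [Finite I]
    (H : I → Subgroup G) [∀ i, (H i).FiniteIndex] (N : ∀ i, Rep k (H i))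
    (ψ : ∀ i, res (H i).subtype M ⟶ N i) (ι : ∀ i, N i ⟶ res (H i).subtype M)
    (hsum : ∀ m : M, ∑ᶠ i, ∑ᶠ t : G ⧸ H i,
      M.ρ t.out ((ι i).hom ((ψ i).hom (M.ρ t.out⁻¹ m))) = m)
    (n : ℕ) (hN : ∀ i, IsZero (groupCohomology (N i) n)) : IsZero (groupCohomology M n) := by
  classical
  letI := Fintype.ofFinite I
  refine isZero_groupCohomology_of_sum_comp_eq_id (Finset.univ : Finset I)
    (fun i => coind (H i).subtype (N i)) (fun i => coindAdj (H i) (ψ i))
    (fun i => coindBack (H i) (ι i)) ?_ n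
    (fun i _ => (hN i).of_iso (shapiroIso (H i) (N i) n))
  ext m
  rw [Rep.sum_hom]
  rw [Representation.IntertwiningMap.toLinearMap_sum, LinearMap.sum_apply]
  have h1 : ∀ i : I, (coindAdj (H i) (ψ i) ≫ coindBack (H i) (ι i)).hom.toLinearMap m =
      ∑ᶠ t : G ⧸ H i, M.ρ t.out ((ι i).hom ((ψ i).hom (M.ρ t.out⁻¹ m))) :=
    fun i => coindAdj_comp_coindBack_apply (H i) (ψ i) (ι i) m
  rw [Finset.sum_congr rfl (fun i _ => h1 i), ← finsum_eq_sum_of_fintype]
  exact hsum m

end Family

end Fermat.Agent.CFT.Coh
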