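/-
P4 / Layer A (for Layer C): multiplicative front end for `Rep.ofMulDistribMulAction`.

* `mulRepHom φ f hf`, `mulRepHomBack φ f hf`, `mulRepHomId f hf`: morphisms of representations from
  equivariant monoid homomorphisms;
* `map_bijective_of_mul_decomposition`: Shapiro for decomposed modules, multiplicative form;
* `isZero_groupCohomology_of_mul_decomposition_family`: vanishing of `Hⁿ` for a finite product of
  coinduced blocks, multiplicative form;
* `isZero_H1_iff_forall_isMulCoboundary₁`: `H¹ = 0` in terms of multiplicative cocycles.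
-/
import Fermat.Agent.Lib.CFT.Coh.ShapiroSum

set_option autoImplicit false
set_option linter.unusedSectionVars false
set_option linter.style.haveILetI false

namespace Fermat.Agent.CFT.Coh

open CategoryTheory groupCohomology Rep Limits

section Hom

variable {G H : Type} [Group G] [Group H] (φ : H →* G) {A B : Type} [CommGroup A] [CommGroup B]
  [MulDistribMulAction G A] [MulDistribMulAction H B]

/-- the morphism of representations attached to a monoid homomorphism `f : A →* B` which is
equivariant along `φ : H →* G` -/
noncomputable def mulRepHom (f : A →* B) (hf : ∀ (h : H) (a : A), f (φ h • a) = h • f a) :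
    res φ (Rep.ofMulDistribMulAction G A) ⟶ Rep.ofMulDistribMulAction H B :=
  Rep.ofHom ⟨(MonoidHom.toAdditive f).toIntLinearMap, fun h => by
    ext a
    exact congrArg Additive.ofMul (hf h a.toMul)⟩

theorem mulRepHom_apply (f : A →* B) (hf : ∀ (h : H) (a : A), f (φ h • a) = h • f a)
    (a : Additive A) : (mulRepHom φ f hf).hom a = Additive.ofMul (f a.toMul) := rfl

/-- the morphism of representations attached to a monoid homomorphism `f : B →* A` which is
equivariant along `φ : H →* G` -/
noncomputable def mulRepHomBack (f : B →* A) (hf : ∀ (h : H) (b : B), f (h • b) = φ h • f b) :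
    Rep.ofMulDistribMulAction H B ⟶ res φ (Rep.ofMulDistribMulAction G A) :=
  Rep.ofHom ⟨(MonoidHom.toAdditive f).toIntLinearMap, fun h => by
    ext b
    exact congrArg Additive.ofMul (hf h b.toMul)⟩

theorem mulRepHomBack_apply (f : B →* A) (hf : ∀ (h : H) (b : B), f (h • b) = φ h • f b)
    (b : Additive B) : (mulRepHomBack φ f hf).hom b = Additive.ofMul (f b.toMul) := rfl

end Hom

section HomId

variable {G : Type} [Group G] {A B : Type} [CommGroup A] [CommGroup B]
  [MulDistribMulAction G A] [MulDistribMulAction G B]

/-- the morphism of representations attached to an equivariant monoid homomorphism -/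
noncomputable def mulRepHomId (f : A →* B) (hf : ∀ (g : G) (a : A), f (g • a) = g • f a) :
    Rep.ofMulDistribMulAction G A ⟶ Rep.ofMulDistribMulAction G B :=
  Rep.ofHom ⟨(MonoidHom.toAdditive f).toIntLinearMap, fun g => by
    ext a
    exact congrArg Additive.ofMul (hf g a.toMul)⟩

theorem mulRepHomId_apply (f : A →* B) (hf : ∀ (g : G) (a : A), f (g • a) = g • f a)
    (a : Additive A) : (mulRepHomId f hf).hom a = Additive.ofMul (f a.toMul) := rfl

end HomId

section Finprod

theorem finsum_ofMul_eq {α M : Type} [Finite α] [CommMonoid M] (f : α → M) :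
    ∑ᶠ i, Additive.ofMul (f i) = Additive.ofMul (∏ᶠ i, f i) := by
  classical
  letI := Fintype.ofFinite α
  rw [finsum_eq_sum_of_fintype, finprod_eq_prod_of_fintype, ofMul_prod]

end Finprod

section Decomposition

variable {G : Type} [Group G] {A : Type} [CommGroup A] [MulDistribMulAction G A]

/-- **Shapiro's lemma for decomposed modules**, multiplicative form. -/
theorem map_bijective_of_mul_decomposition (H : Subgroup G) [H.FiniteIndex]
    {B : Type} [CommGroup B] [MulDistribMulAction H B] (ψ : A →* B) (ι : B →* A)
    (hψ : ∀ (h : H) (a : A), ψ ((h : G) • a) = h • ψ a)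
    (hι : ∀ (h : H) (b : B), ι (h • b) = (h : G) • ι b)
    (hψι : ∀ b : B, ψ (ι b) = b)
    (horth : ∀ g : G, g ∉ H → ∀ b : B, ψ (g • ι b) = 1)
    (hprod : ∀ a : A, ∏ᶠ t : G ⧸ H, (t.out : G) • ι (ψ ((t.out : G)⁻¹ • a)) = a) (n : ℕ) :
    Function.Bijective (map H.subtype (mulRepHom H.subtype ψ hψ) n) := by
  refine map_bijective_of_decomposition H (mulRepHom H.subtype ψ hψ)
    (mulRepHomBack H.subtype ι hι) ?_ ?_ ?_ n
  · intro x
    exact congrArg Additive.ofMul (hψι x.toMul)
  · intro g hg x
    exact congrArg Additive.ofMul (horth g hg x.toMul)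
  · intro m
    have := congrArg Additive.ofMul (hprod m.toMul)
    rw [← finsum_ofMul_eq] at this
    exact this

/-- **Vanishing of cohomology for a finite product of coinduced blocks**, multiplicative form. -/
theorem isZero_groupCohomology_of_mul_decomposition_family {I : Type} [Finite I]
    (H : I → Subgroup G) [∀ i, (H i).FiniteIndex]
    (B : I → Type) [∀ i, CommGroup (B i)] [∀ i, MulDistribMulAction (H i) (B i)]
    (ψ : ∀ i, A →* B i) (ι : ∀ i, B i →* A)
    (hψ : ∀ (i : I) (h : H i) (a : A), ψ i ((h : G) • a) = h • ψ i a)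
    (hι : ∀ (i : I) (h : H i) (b : B i), ι i (h • b) = (h : G) • ι i b)
    (hprod : ∀ a : A, ∏ᶠ i, ∏ᶠ t : G ⧸ H i, (t.out : G) • ι i (ψ i ((t.out : G)⁻¹ • a)) = a)
    (n : ℕ) (hB : ∀ i, IsZero (groupCohomology (Rep.ofMulDistribMulAction (H i) (B i)) n)) :
    IsZero (groupCohomology (Rep.ofMulDistribMulAction G A) n) := by
  refine isZero_groupCohomology_of_decomposition_family H
    (fun i => Rep.ofMulDistribMulAction (H i) (B i))
    (fun i => mulRepHom (H i).subtype (ψ i) (hψ i))
    (fun i => mulRepHomBack (H i).subtype (ι i) (hι i)) ?_ n hB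
  intro m
  have := congrArg Additive.ofMul (hprod m.toMul)
  rw [← finsum_ofMul_eq] at this
  simp only [← finsum_ofMul_eq] at this
  exact this

end Decomposition

section H1

variable {G : Type} [Group G] {A : Type} [CommGroup A] [MulDistribMulAction G A]

/-- `H¹(G, A) = 0` iff every multiplicative 1-cocycle is a coboundary. -/
theorem isZero_H1_iff_forall_isMulCoboundary₁ :
    IsZero (groupCohomology (Rep.ofMulDistribMulAction G A) 1) ↔
      ∀ f : G → A, IsMulCocycle₁ f → IsMulCoboundary₁ f := by
  constructor
  · intro h f hf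
    have h0 : H1π (Rep.ofMulDistribMulAction G A) (cocyclesOfIsMulCocycle₁ hf) = 0 :=
      (ModuleCat.isZero_iff_subsingleton.1 h).elim _ _
    rw [H1π_eq_zero_iff] at h0
    exact isMulCoboundary₁_of_mem_coboundaries₁ _ h0
  · intro h
    rw [ModuleCat.isZero_iff_subsingleton]
    refine ⟨fun x y => ?_⟩
    have key : ∀ z : H1 (Rep.ofMulDistribMulAction G A), z = 0 := by
      intro z
      induction z using H1_induction_on with | h c =>
      rw [H1π_eq_zero_iff]
      have hc := isMulCocycle₁_of_mem_cocycles₁ (M := A) (⇑c) c.2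
      obtain ⟨x, hx⟩ := h _ hc
      exact ⟨Additive.ofMul x, funext fun g => congrArg Additive.ofMul (hx g)⟩
    rw [key x, key y]

end H1

end Fermat.Agent.CFT.Coh
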