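/-
P4 / D-INV0 (cohomology part 1): restriction `Hⁿ(U, A) ⟶ Hⁿ(V, A)` for subgroups `V ≤ U ≤ G` of
the same ambient group, transitivity, and `res^U_V x = 0 ⇒ [U : V] • x = 0`.
-/
import Fermat.Agent.Lib.CFT.Coh.Cores

set_option autoImplicit false
set_option linter.unusedSectionVars false
set_option linter.style.haveILetI false

namespace Fermat.Agent.CFT.Coh

open CategoryTheory groupCohomology Rep Limits

section RelRes

variable {k G : Type} [CommRing k] [Group G] (A : Rep.{0} k G)

/-- restriction `Hⁿ(U, A) ⟶ Hⁿ(V, A)` for `V ≤ U ≤ G` -/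
noncomputable def resLE {V U : Subgroup G} (h : V ≤ U) (n : ℕ) :
    groupCohomology (res U.subtype A) n ⟶ groupCohomology (res V.subtype A) n :=
  map (Subgroup.inclusion h) (𝟙 (res V.subtype A)) n

theorem res_comp_resLE {V U : Subgroup G} (h : V ≤ U) (n : ℕ) :
    map U.subtype (𝟙 (res U.subtype A)) n ≫ resLE A h n =
      map V.subtype (𝟙 (res V.subtype A)) n := by
  unfold resLE
  rw [← map_comp]
  exact map_congr rfl rfl n

theorem resLE_comp {W V U : Subgroup G} (h : W ≤ V) (h' : V ≤ U) (n : ℕ) :
    resLE A h' n ≫ resLE A h n = resLE A (h.trans h') n := by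
  unfold resLE
  rw [← map_comp]
  exact map_congr rfl rfl n

theorem resLE_refl (U : Subgroup G) (n : ℕ) : resLE A (le_refl U) n = 𝟙 _ := by
  unfold resLE
  rw [← map_id]
  exact map_congr rfl rfl n

variable [Finite G]

/-- `[U : V] • x = 0` if `res^U_V x = 0` -/
theorem relIndex_smul_eq_zero_of_resLE_eq_zero {V U : Subgroup G} (h : V ≤ U) (n : ℕ)
    (x : groupCohomology (res U.subtype A) n) (hx : resLE A h n x = 0) :
    (V.relIndex U : k) • x = 0 := by
  apply index_smul_eq_zero_of_res_eq_zero (res U.subtype A) (V.subgroupOf U) n x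
  have h1 : map (V.subgroupOf U).subtype (𝟙 (res (V.subgroupOf U).subtype (res U.subtype A))) n =
      resLE A h n ≫ map (Subgroup.subgroupOfEquivOfLe h).toMonoidHom
        (𝟙 (res (V.subgroupOf U).subtype (res U.subtype A))) n := by
    unfold resLE
    rw [← map_comp]
    exact map_congr rfl rfl n
  rw [h1, ConcreteCategory.comp_apply, hx, map_zero]

theorem relIndex_nsmul_eq_zero_of_resLE_eq_zero {V U : Subgroup G} (h : V ≤ U) (n : ℕ)
    (x : groupCohomology (res U.subtype A) n) (hx : resLE A h n x = 0) :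
    V.relIndex U • x = 0 := by
  rw [← Nat.cast_smul_eq_nsmul k]
  exact relIndex_smul_eq_zero_of_resLE_eq_zero A h n x hx

/-- `Hⁿ⁺¹(U, A)` is killed by `|U|` -/
theorem card_nsmul_cohomology_eq_zero (U : Subgroup G) (n : ℕ) (x : groupCohomology (res U.subtype A) (n + 1)) :
    Nat.card U • x = 0 := by
  classical
  letI : Fintype U := Fintype.ofFinite U
  rw [← Nat.cast_smul_eq_nsmul k, Nat.card_eq_fintype_card]
  exact card_smul_eq_zero (res U.subtype A) (n + 1) (Nat.succ_pos n) x

theorem relIndex_mul_card_eq {V U : Subgroup G} (h : V ≤ U) :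
    V.relIndex U * Nat.card V = Nat.card U := by
  have h1 := Subgroup.relIndex_mul_index h
  have h2 := V.index_mul_card
  have h3 := U.index_mul_card
  have hU : U.index ≠ 0 := Subgroup.index_ne_zero_of_finite
  have : U.index * (V.relIndex U * Nat.card V) = U.index * Nat.card U := by
    rw [h3, ← h2, ← h1]; ring
  exact Nat.eq_of_mul_eq_mul_left (Nat.pos_of_ne_zero hU) this

end RelRes

end Fermat.Agent.CFT.Coh
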