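/-
P4 / Layer A, task A-RESCORES-LOW: restriction and corestriction on `Ĥ⁰` and `Ĥ⁻¹`.

For a subgroup `S ≤ G` of a finite group and `A : Rep k G`:
* `TateH0.res : Ĥ⁰(G, A) → Ĥ⁰(S, A)` (inclusion `A^G ⊆ A^S`),
  `TateH0.cores : Ĥ⁰(S, A) → Ĥ⁰(G, A)` (relative norm `N_{G/S} = ∑_{tS} t`),
* `TateHm1.res : Ĥ⁻¹(G, A) → Ĥ⁻¹(S, A)` (`x ↦ ∑_{St} t x`),
  `TateHm1.cores : Ĥ⁻¹(S, A) → Ĥ⁻¹(G, A)` (identity on representatives),
* `cores ∘ res = [G : S]`, and the Sylow consequences.
-/
import Fermat.Agent.Lib.CFT.Coh.LowTate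

set_option autoImplicit false
set_option linter.unusedSectionVars false
set_option linter.style.haveILetI false

universe u

namespace Fermat.Agent.CFT.Coh

open CategoryTheory Representation

section Sums

variable {G : Type u} [Group G] (S : Subgroup G)

/-- the bijection `G ⧸ S × S → G`, `(q, s) ↦ q.out * s` -/
theorem bijective_out_mul : Function.Bijective (fun p : (G ⧸ S) × S => p.1.out * (p.2 : G)) := by
  constructor
  · rintro ⟨q, s⟩ ⟨q', s'⟩ h
    change q.out * (s : G) = q'.out * (s' : G) at h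
    have hq : q = q' := by
      have h1 : ((q.out * (s : G) : G) : G ⧸ S) = ((q'.out * (s' : G) : G) : G ⧸ S) := by rw [h]
      rwa [QuotientGroup.mk_mul_of_mem _ s.2, QuotientGroup.mk_mul_of_mem _ s'.2,
        QuotientGroup.out_eq', QuotientGroup.out_eq'] at h1
    subst hq
    have hs : (s : G) = (s' : G) := mul_left_cancel h
    rw [Subtype.ext hs]
  · intro g
    have hmem : ((g : G ⧸ S)).out⁻¹ * g ∈ S := by
      rw [← QuotientGroup.eq, QuotientGroup.out_eq']
    refine ⟨((g : G ⧸ S), ⟨((g : G ⧸ S)).out⁻¹ * g, hmem⟩), ?_⟩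
    simp only
    group

variable {M : Type*} [AddCommMonoid M] [Fintype G] [Fintype S] [Fintype (G ⧸ S)]

/-- `∑_g F g = ∑_{qS} ∑_{s ∈ S} F (q.out s)` -/
theorem sum_eq_sum_out_mul (F : G → M) :
    ∑ g : G, F g = ∑ q : G ⧸ S, ∑ s : S, F (q.out * (s : G)) := by
  rw [← Finset.sum_product', Finset.univ_product_univ]
  exact (Fintype.sum_bijective _ (bijective_out_mul S) _ _ (fun p => rfl)).symm

/-- `∑_g F g = ∑_{s ∈ S} ∑_{qS} F (s q.out⁻¹)` -/
theorem sum_eq_sum_mul_out_inv (F : G → M) :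
    ∑ g : G, F g = ∑ s : S, ∑ q : G ⧸ S, F ((s : G) * q.out⁻¹) := by
  have h1 : ∑ g : G, F g = ∑ g : G, F g⁻¹ :=
    (Fintype.sum_equiv (Equiv.inv G) _ _ (fun g => rfl)).symm
  rw [h1, sum_eq_sum_out_mul S (fun g => F g⁻¹), Finset.sum_comm]
  refine Fintype.sum_equiv (Equiv.inv S) _ _ (fun s => ?_)
  refine Finset.sum_congr rfl (fun q _ => ?_)
  congr 1
  simp

end Sums

section RelNorm

variable {k G : Type u} [CommRing k] [Group G] (A : Rep.{u} k G) (S : Subgroup G)

/-- for `x ∈ A^S`, `(aS).out • x = a • x` -/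
theorem out_smul_of_invariant (x : A.V) (hx : ∀ s : S, A.ρ (s : G) x = x) (a : G) :
    A.ρ ((a : G ⧸ S)).out x = A.ρ a x := by
  obtain ⟨s, hs⟩ := QuotientGroup.mk_out_eq_mul S a
  rw [hs, map_mul, Module.End.mul_apply, hx s]

variable [Finite G]

/-- the relative norm `N_{G/S} = ∑_{qS} q.out` -/
noncomputable def relNorm : A.V →ₗ[k] A.V :=
  letI := Fintype.ofFinite (G ⧸ S)
  ∑ q : G ⧸ S, (A.ρ q.out : A.V →ₗ[k] A.V)

/-- the sum over the right transversal `∑_{qS} q.out⁻¹` -/
noncomputable def relNormInv : A.V →ₗ[k] A.V :=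
  letI := Fintype.ofFinite (G ⧸ S)
  ∑ q : G ⧸ S, (A.ρ q.out⁻¹ : A.V →ₗ[k] A.V)

theorem relNorm_apply [Fintype (G ⧸ S)] (x : A.V) :
    relNorm A S x = ∑ q : G ⧸ S, A.ρ q.out x := by
  have h : relNorm A S x =
      ∑ q ∈ (@Finset.univ _ (Fintype.ofFinite (G ⧸ S))), A.ρ q.out x := by
    unfold relNorm
    exact LinearMap.sum_apply _ _ _
  rw [h]
  exact Finset.sum_congr (Finset.ext (fun _ => by simp)) (fun _ _ => rfl)

theorem relNormInv_apply [Fintype (G ⧸ S)] (x : A.V) :
    relNormInv A S x = ∑ q : G ⧸ S, A.ρ q.out⁻¹ x := by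
  have h : relNormInv A S x =
      ∑ q ∈ (@Finset.univ _ (Fintype.ofFinite (G ⧸ S))), A.ρ q.out⁻¹ x := by
    unfold relNormInv
    exact LinearMap.sum_apply _ _ _
  rw [h]
  exact Finset.sum_congr (Finset.ext (fun _ => by simp)) (fun _ _ => rfl)

variable [Fintype G] [Fintype S]

/-- `N_G = N_S ∘ (∑ q.out⁻¹)` -/
theorem norm_eq_norm_res_relNormInv (x : A.V) :
    A.ρ.norm x = (Rep.res S.subtype A).ρ.norm (relNormInv A S x) := by
  classical
  letI := Fintype.ofFinite (G ⧸ S)
  rw [relNormInv_apply]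
  simp only [Representation.norm, LinearMap.coe_sum, Finset.sum_apply, map_sum]
  have h1 : ∑ g : G, A.ρ g x = ∑ s : S, ∑ q : G ⧸ S, A.ρ ((s : G) * q.out⁻¹) x :=
    sum_eq_sum_mul_out_inv S (fun g => A.ρ g x)
  rw [h1, Finset.sum_comm]
  refine Finset.sum_congr rfl (fun q _ => ?_)
  refine Finset.sum_congr rfl (fun s _ => ?_)
  change _ = A.ρ (s : G) (A.ρ q.out⁻¹ x)
  rw [map_mul]
  rfl

/-- `N_G = N_{G/S} ∘ N_S` -/
theorem norm_eq_relNorm_norm_res (x : A.V) :
    A.ρ.norm x = relNorm A S ((Rep.res S.subtype A).ρ.norm x) := by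
  classical
  letI := Fintype.ofFinite (G ⧸ S)
  rw [relNorm_apply]
  simp only [Representation.norm, LinearMap.coe_sum, Finset.sum_apply, map_sum]
  have h1 : ∑ g : G, A.ρ g x = ∑ q : G ⧸ S, ∑ s : S, A.ρ (q.out * (s : G)) x :=
    sum_eq_sum_out_mul S (fun g => A.ρ g x)
  rw [h1]
  refine Finset.sum_congr rfl (fun q _ => ?_)
  refine Finset.sum_congr rfl (fun s _ => ?_)
  change _ = A.ρ q.out (A.ρ (s : G) x)
  rw [map_mul]
  rfl

/-- the relative norm maps `A^S` into `A^G` -/
theorem relNorm_mem_invariants (x : A.V) (hx : ∀ s : S, A.ρ (s : G) x = x) (g : G) :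
    A.ρ g (relNorm A S x) = relNorm A S x := by
  classical
  letI := Fintype.ofFinite (G ⧸ S)
  rw [relNorm_apply, map_sum]
  refine Fintype.sum_equiv (MulAction.toPerm g) _ _ (fun q => ?_)
  have h1 : (MulAction.toPerm g q : G ⧸ S) = ((g * q.out : G) : G ⧸ S) := by
    change g • q = _
    conv_lhs => rw [← QuotientGroup.out_eq' q]
    rfl
  rw [h1, out_smul_of_invariant A S x hx, map_mul]
  rfl

/-- on `A^G` the relative norm is multiplication by the index -/
theorem relNorm_of_invariant (x : A.V) (hx : ∀ g : G, A.ρ g x = x) :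
    relNorm A S x = (S.index : k) • x := by
  classical
  letI := Fintype.ofFinite (G ⧸ S)
  rw [relNorm_apply]
  simp only [hx, Finset.sum_const, Finset.card_univ]
  rw [Subgroup.index, Nat.card_eq_fintype_card, Nat.cast_smul_eq_nsmul]

end RelNorm

section TateH0

variable {k G : Type u} [CommRing k] [Group G] [Fintype G] (A : Rep.{u} k G) (S : Subgroup G)
  [Fintype S]

/-- the inclusion `A^G ⊆ A^S` -/
noncomputable def invIncl : A.ρ.invariants →ₗ[k] (Rep.res S.subtype A).ρ.invariants where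
  toFun x := ⟨x.1, fun s => x.2 (s : G)⟩
  map_add' _ _ := rfl
  map_smul' _ _ := rfl

@[simp] theorem invIncl_coe (x : A.ρ.invariants) : (invIncl A S x : A.V) = x.1 := rfl

/-- the relative norm `A^S → A^G` -/
noncomputable def invRelNorm : (Rep.res S.subtype A).ρ.invariants →ₗ[k] A.ρ.invariants where
  toFun x := ⟨relNorm A S x.1, fun g => relNorm_mem_invariants A S x.1 (fun s => x.2 s) g⟩
  map_add' x y := Subtype.ext (map_add (relNorm A S) x.1 y.1)
  map_smul' c x := Subtype.ext (map_smul (relNorm A S) c x.1)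

@[simp] theorem invRelNorm_coe (x : (Rep.res S.subtype A).ρ.invariants) :
    (invRelNorm A S x : A.V) = relNorm A S x.1 := rfl

/-- restriction `Ĥ⁰(G, A) → Ĥ⁰(S, A)` -/
noncomputable def TateH0.res : TateH0 A →ₗ[k] TateH0 (Rep.res S.subtype A) :=
  Submodule.mapQ _ _ (invIncl A S) (by
    rintro _ ⟨c, rfl⟩
    obtain ⟨x, rfl⟩ := Coinvariants.mk_surjective A.ρ c
    refine ⟨Coinvariants.mk _ (relNormInv A S x), ?_⟩
    apply Subtype.ext
    rw [normBar_mk, normToInvariants_coe, invIncl_coe, normBar_mk, normToInvariants_coe]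
    exact (norm_eq_norm_res_relNormInv A S x).symm)

/-- corestriction `Ĥ⁰(S, A) → Ĥ⁰(G, A)` -/
noncomputable def TateH0.cores : TateH0 (Rep.res S.subtype A) →ₗ[k] TateH0 A :=
  Submodule.mapQ _ _ (invRelNorm A S) (by
    rintro _ ⟨c, rfl⟩
    obtain ⟨x, rfl⟩ := Coinvariants.mk_surjective (Rep.res S.subtype A).ρ c
    refine ⟨Coinvariants.mk _ x, ?_⟩
    apply Subtype.ext
    rw [normBar_mk, normToInvariants_coe, invRelNorm_coe, normBar_mk, normToInvariants_coe]
    exact norm_eq_relNorm_norm_res A S x)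

@[simp] theorem TateH0.res_mk (x : A.ρ.invariants) :
    TateH0.res A S (TateH0.mk A x) = TateH0.mk _ (invIncl A S x) := rfl

@[simp] theorem TateH0.cores_mk (x : (Rep.res S.subtype A).ρ.invariants) :
    TateH0.cores A S (TateH0.mk _ x) = TateH0.mk A (invRelNorm A S x) := rfl

/-- `cores ∘ res = [G : S]` on `Ĥ⁰` -/
theorem TateH0.cores_res (x : TateH0 A) :
    TateH0.cores A S (TateH0.res A S x) = (S.index : k) • x := by
  obtain ⟨x, rfl⟩ := TateH0.mk_surjective A x
  rw [TateH0.res_mk, TateH0.cores_mk, ← map_smul]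
  congr 1
  apply Subtype.ext
  rw [invRelNorm_coe, invIncl_coe]
  exact relNorm_of_invariant A S x.1 x.2

end TateH0

section TateHm1

variable {k G : Type u} [CommRing k] [Group G] [Fintype G] (A : Rep.{u} k G) (S : Subgroup G)
  [Fintype S]

/-- modulo `I_S A`, `a⁻¹ y ≡ (aS).out⁻¹ y` -/
theorem mk_out_inv_smul (y : A.V) (a : G) :
    Coinvariants.mk (Rep.res S.subtype A).ρ (A.ρ ((a : G ⧸ S)).out⁻¹ y) =
      Coinvariants.mk (Rep.res S.subtype A).ρ (A.ρ a⁻¹ y) := by
  obtain ⟨s, hs⟩ := QuotientGroup.mk_out_eq_mul S a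
  rw [hs, mul_inv_rev, map_mul, Module.End.mul_apply]
  exact Coinvariants.mk_self_apply (Rep.res S.subtype A).ρ s⁻¹ (A.ρ a⁻¹ y)

/-- restriction on coinvariants `A_G → A_S`, `[x] ↦ [∑ q.out⁻¹ x]` -/
noncomputable def coinvRes : A.ρ.Coinvariants →ₗ[k] (Rep.res S.subtype A).ρ.Coinvariants :=
  Coinvariants.lift A.ρ
    ((Coinvariants.mk (Rep.res S.subtype A).ρ).comp (relNormInv A S)) (fun g => by
      classical
      letI := Fintype.ofFinite (G ⧸ S)
      ext y
      simp only [LinearMap.comp_apply]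
      rw [relNormInv_apply, relNormInv_apply, map_sum, map_sum]
      refine Fintype.sum_equiv (MulAction.toPerm g⁻¹) _ _ (fun q => ?_)
      have h1 : (MulAction.toPerm g⁻¹ q : G ⧸ S) = ((g⁻¹ * q.out : G) : G ⧸ S) := by
        change g⁻¹ • q = _
        conv_lhs => rw [← QuotientGroup.out_eq' q]
        rfl
      rw [h1, mk_out_inv_smul, ← Module.End.mul_apply, ← map_mul]
      congr 3
      group)

@[simp] theorem coinvRes_mk (x : A.V) :
    coinvRes A S (Coinvariants.mk A.ρ x) = Coinvariants.mk _ (relNormInv A S x) := rfl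

/-- corestriction on coinvariants `A_S → A_G`, induced by the identity -/
noncomputable def coinvCores : (Rep.res S.subtype A).ρ.Coinvariants →ₗ[k] A.ρ.Coinvariants :=
  Coinvariants.lift (Rep.res S.subtype A).ρ (Coinvariants.mk A.ρ) (fun s => by
    ext y
    exact Coinvariants.mk_self_apply A.ρ (s : G) y)

@[simp] theorem coinvCores_mk (x : A.V) :
    coinvCores A S (Coinvariants.mk _ x) = Coinvariants.mk A.ρ x := rfl

theorem normBar_coinvRes (c : A.ρ.Coinvariants) :
    normBar (Rep.res S.subtype A) (coinvRes A S c) = invIncl A S (normBar A c) := by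
  obtain ⟨x, rfl⟩ := Coinvariants.mk_surjective A.ρ c
  apply Subtype.ext
  rw [coinvRes_mk, normBar_mk, normToInvariants_coe, invIncl_coe, normBar_mk, normToInvariants_coe]
  exact (norm_eq_norm_res_relNormInv A S x).symm

theorem normBar_coinvCores (c : (Rep.res S.subtype A).ρ.Coinvariants) :
    normBar A (coinvCores A S c) = invRelNorm A S (normBar (Rep.res S.subtype A) c) := by
  obtain ⟨x, rfl⟩ := Coinvariants.mk_surjective _ c
  apply Subtype.ext
  rw [coinvCores_mk, normBar_mk, normToInvariants_coe, invRelNorm_coe, normBar_mk,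
    normToInvariants_coe]
  exact norm_eq_relNorm_norm_res A S x

/-- restriction `Ĥ⁻¹(G, A) → Ĥ⁻¹(S, A)` -/
noncomputable def TateHm1.res : TateHm1 A →ₗ[k] TateHm1 (Rep.res S.subtype A) :=
  (coinvRes A S).restrict (fun c hc => by
    rw [LinearMap.mem_ker] at hc ⊢
    rw [normBar_coinvRes, hc, map_zero])

/-- corestriction `Ĥ⁻¹(S, A) → Ĥ⁻¹(G, A)` -/
noncomputable def TateHm1.cores : TateHm1 (Rep.res S.subtype A) →ₗ[k] TateHm1 A :=
  (coinvCores A S).restrict (fun c hc => by
    rw [LinearMap.mem_ker] at hc ⊢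
    rw [normBar_coinvCores, hc, map_zero])

@[simp] theorem TateHm1.res_coe (x : TateHm1 A) :
    (TateHm1.res A S x : (Rep.res S.subtype A).ρ.Coinvariants) = coinvRes A S x.1 := rfl

@[simp] theorem TateHm1.cores_coe (x : TateHm1 (Rep.res S.subtype A)) :
    (TateHm1.cores A S x : A.ρ.Coinvariants) = coinvCores A S x.1 := rfl

/-- `cores ∘ res = [G : S]` on coinvariants -/
theorem coinvCores_coinvRes (c : A.ρ.Coinvariants) :
    coinvCores A S (coinvRes A S c) = (S.index : k) • c := by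
  classical
  letI := Fintype.ofFinite (G ⧸ S)
  obtain ⟨x, rfl⟩ := Coinvariants.mk_surjective A.ρ c
  rw [coinvRes_mk, coinvCores_mk, relNormInv_apply, map_sum]
  simp only [Coinvariants.mk_self_apply, Finset.sum_const, Finset.card_univ]
  rw [Subgroup.index, Nat.card_eq_fintype_card, Nat.cast_smul_eq_nsmul]

/-- `cores ∘ res = [G : S]` on `Ĥ⁻¹` -/
theorem TateHm1.cores_res (x : TateHm1 A) :
    TateHm1.cores A S (TateHm1.res A S x) = (S.index : k) • x := by
  apply Subtype.ext
  rw [TateHm1.cores_coe, TateHm1.res_coe, coinvCores_coinvRes]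
  rfl

end TateHm1

section Sylow

variable {k G : Type u} [CommRing k] [Group G] [Fintype G] (A : Rep.{u} k G)

/-- an element killed by two coprime integers is zero -/
theorem eq_zero_of_coprime_smul {M : Type*} [AddCommGroup M] [Module k M] (x : M) (a b : ℕ)
    (hab : Nat.Coprime a b) (ha : (a : k) • x = 0) (hb : (b : k) • x = 0) : x = 0 := by
  obtain ⟨u, v, huv⟩ := Nat.isCoprime_iff_coprime.2 hab
  have h2 : ((u : k) * (a : k) + (v : k) * (b : k)) = 1 := by
    have := congrArg (Int.cast : ℤ → k) huv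
    push_cast at this
    exact this
  calc x = (1 : k) • x := (one_smul k x).symm
    _ = ((u : k) * (a : k) + (v : k) * (b : k)) • x := by rw [h2]
    _ = (u : k) • ((a : k) • x) + (v : k) • ((b : k) • x) := by
        rw [add_smul, mul_smul, mul_smul]
    _ = 0 := by rw [ha, hb, smul_zero, smul_zero, add_zero]

/-- If `Ĥ⁰(P, A) = 0` for a `p`-Sylow subgroup `P` then `Ĥ⁰(G, A)` has no `p`-torsion. -/
theorem TateH0.eq_zero_of_sylow (p : ℕ) [Fact p.Prime] (P : Sylow p G)
    [Fintype (P : Subgroup G)]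
    (h : Subsingleton (TateH0 (Rep.res (P : Subgroup G).subtype A))) (x : TateH0 A)
    (hx : ∃ j : ℕ, ((p : k) ^ j) • x = 0) : x = 0 := by
  obtain ⟨j, hj⟩ := hx
  have h1 : ((P : Subgroup G).index : k) • x = 0 := by
    rw [← TateH0.cores_res A (P : Subgroup G) x, Subsingleton.elim (TateH0.res A _ x) 0, map_zero]
  have hcop : Nat.Coprime (p ^ j) (P : Subgroup G).index :=
    Nat.Coprime.pow_left j ((Nat.Prime.coprime_iff_not_dvd Fact.out).2 P.not_dvd_index)
  refine eq_zero_of_coprime_smul x (p ^ j) _ hcop ?_ h1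
  rw [Nat.cast_pow]
  exact hj

/-- If `Ĥ⁻¹(P, A) = 0` for a `p`-Sylow subgroup `P` then `Ĥ⁻¹(G, A)` has no `p`-torsion. -/
theorem TateHm1.eq_zero_of_sylow (p : ℕ) [Fact p.Prime] (P : Sylow p G)
    [Fintype (P : Subgroup G)]
    (h : Subsingleton (TateHm1 (Rep.res (P : Subgroup G).subtype A))) (x : TateHm1 A)
    (hx : ∃ j : ℕ, ((p : k) ^ j) • x = 0) : x = 0 := by
  obtain ⟨j, hj⟩ := hx
  have h1 : ((P : Subgroup G).index : k) • x = 0 := by
    rw [← TateHm1.cores_res A (P : Subgroup G) x, Subsingleton.elim (TateHm1.res A _ x) 0,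
      map_zero]
  have hcop : Nat.Coprime (p ^ j) (P : Subgroup G).index :=
    Nat.Coprime.pow_left j ((Nat.Prime.coprime_iff_not_dvd Fact.out).2 P.not_dvd_index)
  refine eq_zero_of_coprime_smul x (p ^ j) _ hcop ?_ h1
  rw [Nat.cast_pow]
  exact hj

/-- `Ĥ⁰(G, A)` is killed by `|G|`. -/
theorem TateH0.card_smul_eq_zero (x : TateH0 A) : (Fintype.card G : k) • x = 0 := by
  obtain ⟨x, rfl⟩ := TateH0.mk_surjective A x
  rw [← map_smul, TateH0.mk_eq_zero_iff]
  refine ⟨x.1, ?_⟩
  simp only [Representation.norm, LinearMap.coe_sum, Finset.sum_apply]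
  rw [Finset.sum_congr rfl (fun g _ => x.2 g), Finset.sum_const, Finset.card_univ,
    Submodule.coe_smul, Nat.cast_smul_eq_nsmul]

/-- `Ĥ⁻¹(G, A)` is killed by `|G|`. -/
theorem TateHm1.card_smul_eq_zero (x : TateHm1 A) : (Fintype.card G : k) • x = 0 := by
  obtain ⟨x, hx, rfl⟩ := TateHm1.mk_surjective A x
  apply Subtype.ext
  change (Fintype.card G : k) • Coinvariants.mk A.ρ x = 0
  have h1 : Coinvariants.mk A.ρ (A.ρ.norm x) = (Fintype.card G : k) • Coinvariants.mk A.ρ x := by
    simp only [Representation.norm, LinearMap.coe_sum, Finset.sum_apply, map_sum,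
      Coinvariants.mk_self_apply, Finset.sum_const, Finset.card_univ]
    rw [Nat.cast_smul_eq_nsmul]
  rw [← h1, hx, map_zero]

end Sylow

section Naturality

variable {k G : Type u} [CommRing k] [Group G] [Fintype G] {A B : Rep.{u} k G} (f : A ⟶ B)
  (S : Subgroup G) [Fintype S]

theorem hom_relNorm_apply (x : A.V) : f.hom (relNorm A S x) = relNorm B S (f.hom x) := by
  classical
  letI := Fintype.ofFinite (G ⧸ S)
  rw [relNorm_apply, relNorm_apply, map_sum]
  exact Finset.sum_congr rfl (fun q _ => Rep.hom_comm_apply f _ x)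

theorem hom_relNormInv_apply (x : A.V) : f.hom (relNormInv A S x) = relNormInv B S (f.hom x) := by
  classical
  letI := Fintype.ofFinite (G ⧸ S)
  rw [relNormInv_apply, relNormInv_apply, map_sum]
  exact Finset.sum_congr rfl (fun q _ => Rep.hom_comm_apply f _ x)

theorem TateH0.res_map (x : TateH0 A) :
    TateH0.res B S (TateH0.map f x) =
      TateH0.map ((Rep.resFunctor S.subtype).map f) (TateH0.res A S x) := by
  obtain ⟨x, rfl⟩ := TateH0.mk_surjective A x
  rfl

theorem TateH0.cores_map (x : TateH0 (Rep.res S.subtype A)) :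
    TateH0.cores B S (TateH0.map ((Rep.resFunctor S.subtype).map f) x) =
      TateH0.map f (TateH0.cores A S x) := by
  obtain ⟨x, rfl⟩ := TateH0.mk_surjective _ x
  rw [TateH0.map_mk, TateH0.cores_mk, TateH0.cores_mk, TateH0.map_mk]
  congr 1
  apply Subtype.ext
  rw [invRelNorm_coe, invMap_coe, invMap_coe, invRelNorm_coe]
  exact (hom_relNorm_apply f S x.1).symm

theorem TateHm1.res_map (x : TateHm1 A) :
    TateHm1.res B S (TateHm1.map f x) =
      TateHm1.map ((Rep.resFunctor S.subtype).map f) (TateHm1.res A S x) := by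
  obtain ⟨x, hx, rfl⟩ := TateHm1.mk_surjective A x
  apply Subtype.ext
  change Coinvariants.mk _ (relNormInv B S (f.hom x)) =
    Coinvariants.mk _ (f.hom (relNormInv A S x))
  rw [hom_relNormInv_apply]

theorem TateHm1.cores_map (x : TateHm1 (Rep.res S.subtype A)) :
    TateHm1.cores B S (TateHm1.map ((Rep.resFunctor S.subtype).map f) x) =
      TateHm1.map f (TateHm1.cores A S x) := by
  obtain ⟨x, hx, rfl⟩ := TateHm1.mk_surjective _ x
  rfl

end Naturality

end Fermat.Agent.CFT.Coh
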