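import Mathlib
import Fermat.Agent.Lib.CFT.Coh.Shapiro

/-!
# P4 / Layer A3 : modules over `p`-groups killed by `p`

* `exists_fixed_ne_zero` : a finite `p`-group acting additively on a non trivial abelian group
  killed by `p` (of any size) has a non zero fixed vector.
* `exists_fixed_ne_zero_of_stable` : the same for a non zero stable subgroup.
-/

set_option autoImplicit false

namespace Fermat.Agent.CFT.Coh

open Module

section FixedPoint

variable {k : Type*} [CommRing k] {G : Type*} [Group G] [Finite G] {p : ℕ} [hp : Fact p.Prime]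
  (hG : IsPGroup p G) {V : Type*} [AddCommGroup V] [Module k V] (ρ : Representation k G V)
  (hpV : ∀ v : V, p • v = 0)

include hG hpV in
/-- **Fixed point lemma**: a non zero stable subgroup of a module killed by `p` over a finite
`p`-group contains a non zero fixed vector. -/
theorem exists_fixed_ne_zero_of_stable (K : AddSubgroup V) (hK : ∀ g, ∀ x ∈ K, ρ g x ∈ K)
    (hne : K ≠ ⊥) : ∃ v ∈ K, v ≠ 0 ∧ ∀ g, ρ g v = v := by
  classical
  obtain ⟨v, hvK, hv0⟩ : ∃ v ∈ K, v ≠ 0 := by
    by_contra hcon
    push Not at hcon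
    exact hne ((AddSubgroup.eq_bot_iff_forall _).2 hcon)
  -- the span of the orbit of `v`
  set W : Submodule ℤ V := Submodule.span ℤ (Set.range fun g : G => ρ g v) with hW
  have hvW : v ∈ W := Submodule.subset_span ⟨1, by simp⟩
  have hWK : ∀ w ∈ W, w ∈ K := by
    intro w hw
    refine Submodule.span_induction ?_ ?_ ?_ ?_ hw
    · rintro _ ⟨g, rfl⟩
      exact hK g v hvK
    · exact K.zero_mem
    · intro x y _ _ hx hy
      exact K.add_mem hx hy
    · intro c x _ hx
      exact K.zsmul_mem hx c
  have hWstab : ∀ g, ∀ w ∈ W, ρ g w ∈ W := by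
    intro g w hw
    refine Submodule.span_induction ?_ ?_ ?_ ?_ hw
    · rintro _ ⟨h, rfl⟩
      refine Submodule.subset_span ⟨g * h, ?_⟩
      simp
    · rw [map_zero]
      exact W.zero_mem
    · intro x y _ _ hx hy
      rw [map_add]
      exact W.add_mem hx hy
    · intro c x _ hx
      rw [map_zsmul]
      exact W.smul_mem c hx
  have hfg : Module.Finite ℤ W :=
    Module.Finite.span_of_finite ℤ (Set.finite_range _)
  have hfin : _root_.Finite W := by
    apply Module.finite_of_fg_torsion
    intro w
    refine ⟨⟨(p : ℤ), mem_nonZeroDivisors_of_ne_zero (by exact_mod_cast hp.out.ne_zero)⟩, ?_⟩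
    apply Subtype.ext
    change ((p : ℤ) • w : W).1 = 0
    rw [Submodule.coe_smul, natCast_zsmul]
    exact hpV w.1
  -- the action of `G` on `W`
  let _ : MulAction G W :=
    { smul := fun g w => ⟨ρ g w.1, hWstab g w.1 w.2⟩
      one_smul := fun w => Subtype.ext (by change ρ 1 w.1 = w.1; simp)
      mul_smul := fun g h w => Subtype.ext (by change ρ (g * h) w.1 = ρ g (ρ h w.1); simp) }
  have hsmul : ∀ (g : G) (w : W), ((g • w : W) : V) = ρ g w.1 := fun _ _ => rfl
  -- `p ∣ |W|`
  have hdvd : p ∣ Nat.card W := by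
    have h1 : addOrderOf (⟨v, hvW⟩ : W) = p := by
      apply addOrderOf_eq_prime
      · apply Subtype.ext
        change (p • (⟨v, hvW⟩ : W)).1 = 0
        rw [Submodule.coe_smul_of_tower]
        exact hpV v
      · intro h
        exact hv0 (congrArg Subtype.val h)
    rw [← h1]
    exact addOrderOf_dvd_natCard _
  have h0 : (0 : W) ∈ MulAction.fixedPoints G W := by
    intro g
    apply Subtype.ext
    rw [hsmul]
    simp
  obtain ⟨b, hb, hb0⟩ := hG.exists_fixed_point_of_prime_dvd_card_of_fixed_point W hdvd h0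
  refine ⟨b.1, hWK _ b.2, fun h => hb0 (Subtype.ext h.symm), fun g => ?_⟩
  have := hb g
  rw [← hsmul, this]

include hG hpV in
/-- **Fixed point lemma**: a finite `p`-group acting on a non trivial abelian group killed by `p`
has a non zero fixed vector. -/
theorem exists_fixed_ne_zero [Nontrivial V] : ∃ v : V, v ≠ 0 ∧ ∀ g, ρ g v = v := by
  obtain ⟨v, -, hv, hfix⟩ := exists_fixed_ne_zero_of_stable hG ρ hpV ⊤ (fun _ _ _ => trivial)
    (by
      obtain ⟨x, hx⟩ := exists_ne (0 : V)
      intro h
      exact hx ((AddSubgroup.eq_bot_iff_forall _).1 h x trivial))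
  exact ⟨v, hv, hfix⟩

end FixedPoint

section Retraction

theorem exists_additive_retraction_aux {M : Type*} [AddCommGroup M] {p : ℕ} [Fact p.Prime]
    [Module (ZMod p) M] (K : AddSubgroup M) :
    ∃ r : M →+ M, (∀ x, r x ∈ K) ∧ ∀ x ∈ K, r x = x := by
  obtain ⟨q, hq⟩ := Submodule.exists_isCompl (AddSubgroup.toZModSubmodule p K)
  refine ⟨((AddSubgroup.toZModSubmodule p K).subtype.comp
    (Submodule.projectionOnto (AddSubgroup.toZModSubmodule p K) q hq)).toAddMonoidHom, ?_, ?_⟩
  · intro x
    exact (Submodule.projectionOnto (AddSubgroup.toZModSubmodule p K) q hq x).2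
  · intro x hx
    have hx' : x ∈ AddSubgroup.toZModSubmodule p K := hx
    change ((Submodule.projectionOnto (AddSubgroup.toZModSubmodule p K) q hq x :
      AddSubgroup.toZModSubmodule p K) : M) = x
    rw [Submodule.projectionOnto_apply_of_mem_left hq hx']

/-- In an abelian group killed by a prime `p` every subgroup is a direct summand. -/
theorem exists_additive_retraction {M : Type*} [AddCommGroup M] {p : ℕ} [Fact p.Prime]
    (hpM : ∀ x : M, p • x = 0) (K : AddSubgroup M) :
    ∃ r : M →+ M, (∀ x, r x ∈ K) ∧ ∀ x ∈ K, r x = x :=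
  @exists_additive_retraction_aux M _ p _ (AddCommGroup.zmodModule hpM) K

/-- An additive map is `ℤ`-linear for any `ℤ`-module structures. -/
def addHomToIntLinear {M N : Type*} [AddCommGroup M] [AddCommGroup N] [Module ℤ M] [Module ℤ N]
    (f : M →+ N) : M →ₗ[ℤ] N where
  toFun := f
  map_add' := f.map_add
  map_smul' m x := by simpa using map_intCast_smul f ℤ ℤ m x

@[simp] theorem addHomToIntLinear_apply {M N : Type*} [AddCommGroup M] [AddCommGroup N]
    [Module ℤ M] [Module ℤ N] (f : M →+ N) (x : M) : addHomToIntLinear f x = f x := rfl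

end Retraction

section Coinduced

open CategoryTheory groupCohomology Rep

variable {k G : Type} [CommRing k] [Group G] (B : Rep k G)

/-- The morphism `B ⟶ Fun(G, V)`, `b ↦ (x ↦ r (x • b))`, attached to a linear map
`r : B → V`. -/
noncomputable def toCoindBotOfLinear (V : Type) [AddCommGroup V] [Module k V] (r : B.V →ₗ[k] V) :
    B ⟶ coindBot (Rep.trivial k G V) :=
  resCoindToHom (⊥ : Subgroup G).subtype B (res (⊥ : Subgroup G).subtype (Rep.trivial k G V))
    (Rep.ofHom ⟨r, fun g => by
      apply LinearMap.ext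
      intro b
      have hg : (g : G) = 1 := Subgroup.mem_bot.1 g.2
      change r (B.ρ (g : G) b) = r b
      rw [hg, map_one]
      rfl⟩)

theorem toCoindBotOfLinear_apply (V : Type) [AddCommGroup V] [Module k V] (r : B.V →ₗ[k] V)
    (b : B.V) (x : G) : ((toCoindBotOfLinear B V r).hom b).1 x = r (B.ρ x b) := rfl

theorem coindBot_trivial_ρ_apply (V : Type) [AddCommGroup V] [Module k V] (g x : G)
    (f : (coindBot (Rep.trivial k G V)).V) :
    ((coindBot (Rep.trivial k G V)).ρ g f).1 x = f.1 (x * g) := rfl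

/-- Every function is an element of `Fun(G, V)`. -/
def coindBotMk (V : Type) [AddCommGroup V] [Module k V] (f : G → V) :
    (coindBot (Rep.trivial k G V)).V :=
  ⟨f, fun g h => by
    have hg : (g : G) = 1 := Subgroup.mem_bot.1 g.2
    change f ((g : G) * h) = f h
    rw [hg, one_mul]⟩

@[simp] theorem coindBotMk_coe (V : Type) [AddCommGroup V] [Module k V] (f : G → V) :
    (coindBotMk (k := k) V f).1 = f := rfl

end Coinduced

section CoinducedCriterion

open CategoryTheory groupCohomology Rep

variable {k G : Type} [CommRing k] [Group G] [Finite G] {p : ℕ} [hp : Fact p.Prime]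
  (hG : IsPGroup p G) (B : Rep k G) (hpB : ∀ b : B.V, p • b = 0)
  (r : B.V →ₗ[k] B.ρ.invariants) (hr : ∀ x : B.ρ.invariants, r x = x)

include hG hpB hr in
/-- The map `B → Fun(G, B^G)`, `b ↦ (x ↦ r (x b))` attached to a retraction `r` of `B^G ⊆ B` is
injective when `G` is a `p`-group and `p B = 0`. -/
theorem toCoindBotOfLinear_injective :
    Function.Injective (toCoindBotOfLinear B B.ρ.invariants r).hom := by
  set j := toCoindBotOfLinear B B.ρ.invariants r with hj
  rw [injective_iff_map_eq_zero]
  by_contra hcon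
  push Not at hcon
  obtain ⟨b₀, hb₀, hb₀ne⟩ := hcon
  -- the kernel as a stable subgroup
  let K : AddSubgroup B.V :=
    { carrier := {b | j.hom b = 0}
      zero_mem' := map_zero _
      add_mem' := fun {a b} ha hb => by
        change j.hom (a + b) = 0
        rw [map_add, ha, hb, add_zero]
      neg_mem' := fun {a} ha => by
        change j.hom (-a) = 0
        rw [map_neg, ha, neg_zero] }
  have hKstab : ∀ g, ∀ x ∈ K, B.ρ g x ∈ K := by
    intro g x hx
    change j.hom (B.ρ g x) = 0
    rw [Rep.hom_comm_apply, hx, map_zero]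
  have hKne : K ≠ ⊥ := by
    intro h
    exact hb₀ne ((AddSubgroup.eq_bot_iff_forall _).1 h b₀ hb₀)
  obtain ⟨b, hbK, hb0, hbfix⟩ := exists_fixed_ne_zero_of_stable hG B.ρ hpB K hKstab hKne
  have h1 : ((j.hom b).1 1 : B.V) = b := by
    rw [hj, toCoindBotOfLinear_apply, map_one]
    exact congrArg Subtype.val (hr ⟨b, hbfix⟩)
  have h2 : j.hom b = 0 := hbK
  rw [h2] at h1
  exact hb0 h1.symm

include hG hpB hr in
/-- If moreover `H¹(G, B) = 0`, the map `B → Fun(G, B^G)` is surjective. -/
theorem toCoindBotOfLinear_surjective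
    (h1 : ∀ c : G → B.V, (∀ g h, c (g * h) = B.ρ g (c h) + c g) → ∃ b : B.V, ∀ g, c g = B.ρ g b - b) :
    Function.Surjective (toCoindBotOfLinear B B.ρ.invariants r).hom := by
  set T := coindBot (Rep.trivial k G B.ρ.invariants) with hT
  set j := toCoindBotOfLinear B B.ρ.invariants r with hj
  have hinj := toCoindBotOfLinear_injective hG B hpB r hr
  set W : Submodule k T.V := LinearMap.range j.hom.toLinearMap with hW
  have hWstab : ∀ g, W ≤ W.comap (T.ρ g) := by
    rintro g _ ⟨b, rfl⟩
    exact ⟨B.ρ g b, Rep.hom_comm_apply j g b⟩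
  -- the quotient representation
  set Q := T.ρ.quotient W hWstab with hQ
  by_contra hsurj
  have hnontriv : Nontrivial (T.V ⧸ W) := by
    rw [Submodule.Quotient.nontrivial_iff]
    intro htop
    apply hsurj
    intro f
    have : f ∈ W := by rw [htop]; trivial
    exact this
  have hpQ : ∀ q : T.V ⧸ W, p • q = 0 := by
    intro q
    obtain ⟨f, rfl⟩ := Submodule.Quotient.mk_surjective W q
    rw [← Submodule.Quotient.mk_smul]
    have : p • f = 0 := by
      apply Subtype.ext
      funext x
      change p • f.1 x = 0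
      apply Subtype.ext
      exact hpB (f.1 x).1
    rw [this, Submodule.Quotient.mk_zero]
  obtain ⟨q, hq0, hqfix⟩ := exists_fixed_ne_zero hG Q hpQ
  obtain ⟨f, rfl⟩ := Submodule.Quotient.mk_surjective W q
  have hfW : f ∉ W := fun h => hq0 ((Submodule.Quotient.mk_eq_zero W).2 h)
  have hdiff : ∀ g, ∃ b : B.V, j.hom b = T.ρ g f - f := by
    intro g
    have h2 : Submodule.Quotient.mk (T.ρ g f) = (Submodule.Quotient.mk f : T.V ⧸ W) := hqfix g
    rw [Submodule.Quotient.eq] at h2
    exact h2
  choose c hc using hdiff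
  have hcoc : ∀ g h, c (g * h) = B.ρ g (c h) + c g := by
    intro g h
    apply hinj
    rw [map_add, Rep.hom_comm_apply, hc, hc, hc, map_mul, map_sub]
    change T.ρ g (T.ρ h f) - f = _
    abel
  obtain ⟨b, hb⟩ := h1 c hcoc
  -- `f - j b` is invariant
  have hinv : ∀ g, T.ρ g (f - j.hom b) = f - j.hom b := by
    intro g
    have h3 : T.ρ g (j.hom b) = j.hom (B.ρ g b) := (Rep.hom_comm_apply j g b).symm
    rw [map_sub, h3]
    have h4 : j.hom (B.ρ g b) = j.hom (c g) + j.hom b := by
      rw [← map_add, hb g, sub_add_cancel]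
    rw [h4, hc]
    abel
  -- hence constant
  set f' := f - j.hom b with hf'
  have hconst : ∀ x : G, f'.1 x = f'.1 1 := by
    intro x
    have := congrArg (fun φ => φ.1 1) (hinv x)
    simp only at this
    have h5 : (T.ρ x f').1 1 = f'.1 (1 * x) := coindBot_trivial_ρ_apply _ x 1 f'
    rw [h5, one_mul] at this
    exact this
  have hf'j : f' = j.hom (f'.1 1 : B.V) := by
    apply Subtype.ext
    funext x
    rw [hj, toCoindBotOfLinear_apply, hconst x, (f'.1 1).2 x, hr]
  apply hfW
  have : f = j.hom b + j.hom (f'.1 1 : B.V) := by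
    rw [← hf'j, hf']
    abel
  rw [this, ← map_add]
  exact ⟨_, rfl⟩

end CoinducedCriterion

section Main

open CategoryTheory groupCohomology Rep

/-- The property of a ring `k` that additive maps between `k`-modules are automatically
`k`-linear (true for `ℤ`; used to avoid the `ℤ`-module instance diamond on `Rep ℤ G`). -/
def AddHomsLinear (k : Type) [CommRing k] : Prop :=
  ∀ (M N : Type) [AddCommGroup M] [AddCommGroup N] [Module k M] [Module k N] (f : M →+ N) (c : k)
    (x : M), f (c • x) = c • f x

theorem addHomsLinear_int : AddHomsLinear ℤ := by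
  intro M N _ _ _ _ f c x
  simpa using map_intCast_smul f ℤ ℤ c x

variable {k G : Type} [CommRing k] [Group G]

/-- `H¹(G, B) = 0` in terms of cocycles. -/
theorem exists_coboundary_of_isZero_H1 (B : Rep k G) (h : Limits.IsZero (groupCohomology B 1))
    (c : G → B.V) (hc : ∀ g h, c (g * h) = B.ρ g (c h) + c g) :
    ∃ b : B.V, ∀ g, c g = B.ρ g b - b := by
  have hmem : c ∈ cocycles₁ B := (mem_cocycles₁_iff c).2 hc
  have h0 : H1π B ⟨c, hmem⟩ = 0 := (ModuleCat.isZero_iff_subsingleton.1 h).elim _ _
  obtain ⟨b, hb⟩ := (H1π_eq_zero_iff _).1 h0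
  refine ⟨b, fun g => ?_⟩
  have := congrFun hb g
  exact this.symm

variable [Finite G] {p : ℕ} [hp : Fact p.Prime]

omit [Finite G] in
/-- Existence of a linear retraction onto the invariants. -/
theorem exists_retraction_invariants (hk : AddHomsLinear k) (B : Rep.{0} k G)
    (hpB : ∀ b : B.V, p • b = 0) :
    ∃ r : B.V →ₗ[k] B.ρ.invariants, ∀ x : B.ρ.invariants, r x = x := by
  obtain ⟨r₀, hr₀, hr₁⟩ := exists_additive_retraction hpB B.ρ.invariants.toAddSubgroup
  let r₁ : B.V →+ B.ρ.invariants :=
    { toFun := fun x => ⟨r₀ x, hr₀ x⟩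
      map_zero' := Subtype.ext (map_zero r₀)
      map_add' := fun x y => Subtype.ext (map_add r₀ x y) }
  refine ⟨{ toFun := r₁, map_add' := r₁.map_add, map_smul' := fun c x => hk _ _ r₁ c x }, ?_⟩
  intro x
  exact Subtype.ext (hr₁ x.1 x.2)

/-- **Modules over a `p`-group killed by `p` with `H¹ = 0` are coinduced**: the map
`B → Fun(G, B^G)`, `b ↦ (x ↦ r (x b))` is bijective for every retraction `r` of `B^G ⊆ B`. -/
theorem toCoindBotOfLinear_bijective (hG : IsPGroup p G) (B : Rep k G)
    (hpB : ∀ b : B.V, p • b = 0) (r : B.V →ₗ[k] B.ρ.invariants)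
    (hr : ∀ x : B.ρ.invariants, r x = x) (h1 : Limits.IsZero (groupCohomology B 1)) :
    Function.Bijective (toCoindBotOfLinear B B.ρ.invariants r).hom :=
  ⟨toCoindBotOfLinear_injective hG B hpB r hr,
    toCoindBotOfLinear_surjective hG B hpB r hr (exists_coboundary_of_isZero_H1 B h1)⟩

omit [Finite G] in
/-- A bijective morphism of representations is an isomorphism. -/
theorem isIso_of_bijective {A B : Rep k G} (f : A ⟶ B) (hf : Function.Bijective f.hom) :
    IsIso f := by
  have : IsIso ((forget (Rep k G)).map f) := (isIso_iff_bijective _).2 hf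
  exact isIso_of_reflects_iso f (forget (Rep k G))

/-- **Modules over a `p`-group killed by `p` with `H¹ = 0` are coinduced.** -/
theorem nonempty_iso_coindBot_of_pGroup (hk : AddHomsLinear k) (hG : IsPGroup p G) (B : Rep k G)
    (hpB : ∀ b : B.V, p • b = 0) (h1 : Limits.IsZero (groupCohomology B 1)) :
    Nonempty (B ≅ coindBot (Rep.trivial k G B.ρ.invariants)) := by
  obtain ⟨r, hr⟩ := exists_retraction_invariants hk B hpB
  have := isIso_of_bijective _ (toCoindBotOfLinear_bijective hG B hpB r hr h1)
  exact ⟨asIso (toCoindBotOfLinear B B.ρ.invariants r)⟩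

end Main

end Fermat.Agent.CFT.Coh
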