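import Mathlib

/-!
# P4 / Layer A1 (low degrees) : `Ĥ⁰` and `Ĥ⁻¹` of a finite group as explicit modules

For a finite group `G` and `A : Rep k G`:

* `normBar A : A_G →ₗ[k] A^G` the map induced by the norm `N = ∑ g`,
* `TateH0 A = A^G ⧸ range (normBar A)` (`= A^G / N A`),
* `TateHm1 A = ker (normBar A)` (`= ker N / I_G A`),
* functoriality `TateH0.map`, `TateHm1.map`,
* for a short exact sequence `0 → X₁ → X₂ → X₃ → 0` the connecting map
  `tateδ : TateHm1 X₃ → TateH0 X₁` and the exactness of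
  `Ĥ⁻¹(X₁) → Ĥ⁻¹(X₂) → Ĥ⁻¹(X₃) → Ĥ⁰(X₁) → Ĥ⁰(X₂) → Ĥ⁰(X₃)`.
-/

set_option autoImplicit false

universe u

namespace Fermat.Agent.CFT.Coh

open CategoryTheory Representation

variable {k G : Type u} [CommRing k] [Group G] [Fintype G]

/-- The norm as a map into the invariants. -/
noncomputable def normToInvariants (A : Rep.{u} k G) : A.V →ₗ[k] A.ρ.invariants :=
  A.ρ.norm.codRestrict _ (fun x g => A.ρ.self_norm_apply g x)

@[simp] theorem normToInvariants_coe (A : Rep.{u} k G) (x : A.V) :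
    (normToInvariants A x : A.V) = A.ρ.norm x := rfl

/-- The map `A_G → A^G` induced by the norm. -/
noncomputable def normBar (A : Rep.{u} k G) : A.ρ.Coinvariants →ₗ[k] A.ρ.invariants :=
  Coinvariants.lift A.ρ (normToInvariants A) (fun g => by
    ext x
    exact A.ρ.norm_self_apply g x)

@[simp] theorem normBar_mk (A : Rep.{u} k G) (x : A.V) :
    normBar A (Coinvariants.mk A.ρ x) = normToInvariants A x := rfl

theorem range_normBar (A : Rep.{u} k G) :
    LinearMap.range (normBar A) = LinearMap.range (normToInvariants A) := by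
  ext y
  constructor
  · rintro ⟨x, rfl⟩
    obtain ⟨x, rfl⟩ := Coinvariants.mk_surjective A.ρ x
    exact ⟨x, rfl⟩
  · rintro ⟨x, rfl⟩
    exact ⟨Coinvariants.mk A.ρ x, rfl⟩

/-- `Ĥ⁰(G, A) = A^G / N A`. -/
abbrev TateH0 (A : Rep.{u} k G) : Type u := A.ρ.invariants ⧸ LinearMap.range (normBar A)

/-- `Ĥ⁻¹(G, A) = ker N / I_G A`, as the kernel of `A_G → A^G`. -/
abbrev TateHm1 (A : Rep.{u} k G) : Type u := LinearMap.ker (normBar A)

namespace TateH0

variable (A : Rep.{u} k G)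

/-- The class of an invariant element. -/
noncomputable def mk : A.ρ.invariants →ₗ[k] TateH0 A := Submodule.mkQ _

theorem mk_surjective : Function.Surjective (mk A) := Submodule.mkQ_surjective _

theorem mk_eq_zero_iff (x : A.ρ.invariants) : mk A x = 0 ↔ ∃ y : A.V, A.ρ.norm y = x := by
  rw [mk, Submodule.mkQ_apply, Submodule.Quotient.mk_eq_zero, range_normBar]
  constructor
  · rintro ⟨y, hy⟩
    exact ⟨y, congrArg Subtype.val hy⟩
  · rintro ⟨y, hy⟩
    exact ⟨y, Subtype.ext hy⟩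

theorem mk_eq_mk_iff (x y : A.ρ.invariants) :
    mk A x = mk A y ↔ ∃ z : A.V, A.ρ.norm z = (x : A.V) - y := by
  rw [← sub_eq_zero, ← map_sub, mk_eq_zero_iff]
  rfl

end TateH0

namespace TateHm1

variable (A : Rep.{u} k G)

/-- The class of an element of norm `0`. -/
noncomputable def mk (x : A.V) (hx : A.ρ.norm x = 0) : TateHm1 A :=
  ⟨Coinvariants.mk A.ρ x, by
    rw [LinearMap.mem_ker, normBar_mk]
    exact Subtype.ext hx⟩

theorem mk_surjective (z : TateHm1 A) : ∃ (x : A.V) (hx : A.ρ.norm x = 0), mk A x hx = z := by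
  obtain ⟨z, hz⟩ := z
  obtain ⟨x, rfl⟩ := Coinvariants.mk_surjective A.ρ z
  refine ⟨x, ?_, rfl⟩
  rw [LinearMap.mem_ker, normBar_mk] at hz
  exact congrArg Subtype.val hz

theorem mk_eq_mk_iff (x y : A.V) (hx : A.ρ.norm x = 0) (hy : A.ρ.norm y = 0) :
    mk A x hx = mk A y hy ↔ x - y ∈ Coinvariants.ker A.ρ := by
  rw [mk, mk, Subtype.mk.injEq, Coinvariants.mk_eq_iff]

theorem mk_eq_zero_iff (x : A.V) (hx : A.ρ.norm x = 0) :
    mk A x hx = 0 ↔ x ∈ Coinvariants.ker A.ρ := by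
  have : (0 : TateHm1 A) = mk A 0 (map_zero _) := by
    apply Subtype.ext
    simp [mk]
  rw [this, mk_eq_mk_iff, sub_zero]

end TateHm1

/-! ### Functoriality -/

section Functoriality

variable {A B C : Rep.{u} k G}

theorem hom_norm_apply (f : A ⟶ B) (x : A.V) : f.hom (A.ρ.norm x) = B.ρ.norm (f.hom x) := by
  simp only [Representation.norm, LinearMap.coe_sum, Finset.sum_apply, map_sum]
  exact Finset.sum_congr rfl (fun g _ => Rep.hom_comm_apply f g x)

/-- The map induced on invariants. -/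
noncomputable def invMap (f : A ⟶ B) : A.ρ.invariants →ₗ[k] B.ρ.invariants :=
  (f.hom.toLinearMap.comp A.ρ.invariants.subtype).codRestrict _ (fun x g => by
    change B.ρ g (f.hom x.1) = f.hom x.1
    rw [← Rep.hom_comm_apply, x.2 g])

omit [Fintype G] in
@[simp] theorem invMap_coe (f : A ⟶ B) (x : A.ρ.invariants) :
    (invMap f x : B.V) = f.hom (x : A.V) := rfl

/-- The map induced on coinvariants. -/
noncomputable def coinvMap (f : A ⟶ B) : A.ρ.Coinvariants →ₗ[k] B.ρ.Coinvariants :=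
  Coinvariants.map A.ρ B.ρ f.hom

omit [Fintype G] in
@[simp] theorem coinvMap_mk (f : A ⟶ B) (x : A.V) :
    coinvMap f (Coinvariants.mk A.ρ x) = Coinvariants.mk B.ρ (f.hom x) := rfl

theorem normBar_coinvMap (f : A ⟶ B) (x : A.ρ.Coinvariants) :
    normBar B (coinvMap f x) = invMap f (normBar A x) := by
  obtain ⟨x, rfl⟩ := Coinvariants.mk_surjective A.ρ x
  apply Subtype.ext
  simp only [coinvMap_mk, normBar_mk, normToInvariants_coe, invMap_coe]
  exact (hom_norm_apply f x).symm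

theorem normBar_comp_coinvMap (f : A ⟶ B) :
    (normBar B).comp (coinvMap f) = (invMap f).comp (normBar A) :=
  LinearMap.ext (normBar_coinvMap f)

/-- Functoriality of `Ĥ⁰`. -/
noncomputable def TateH0.map (f : A ⟶ B) : TateH0 A →ₗ[k] TateH0 B :=
  Submodule.mapQ _ _ (invMap f) (by
    rintro _ ⟨x, rfl⟩
    exact ⟨coinvMap f x, normBar_coinvMap f x⟩)

@[simp] theorem TateH0.map_mk (f : A ⟶ B) (x : A.ρ.invariants) :
    TateH0.map f (TateH0.mk A x) = TateH0.mk B (invMap f x) := rfl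

/-- Functoriality of `Ĥ⁻¹`. -/
noncomputable def TateHm1.map (f : A ⟶ B) : TateHm1 A →ₗ[k] TateHm1 B :=
  (coinvMap f).restrict (fun x hx => by
    rw [LinearMap.mem_ker] at hx ⊢
    rw [normBar_coinvMap, hx, map_zero])

@[simp] theorem TateHm1.map_coe (f : A ⟶ B) (x : TateHm1 A) :
    (TateHm1.map f x : B.ρ.Coinvariants) = coinvMap f x := rfl

theorem TateHm1.map_mk (f : A ⟶ B) (x : A.V) (hx : A.ρ.norm x = 0) :
    TateHm1.map f (TateHm1.mk A x hx) =
      TateHm1.mk B (f.hom x) (by rw [← hom_norm_apply, hx, map_zero]) := rfl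

theorem TateH0.map_id (x : TateH0 A) : TateH0.map (𝟙 A) x = x := by
  obtain ⟨x, rfl⟩ := TateH0.mk_surjective A x
  rfl

theorem TateH0.map_comp (f : A ⟶ B) (g : B ⟶ C) (x : TateH0 A) :
    TateH0.map (f ≫ g) x = TateH0.map g (TateH0.map f x) := by
  obtain ⟨x, rfl⟩ := TateH0.mk_surjective A x
  rfl

theorem TateHm1.map_id (x : TateHm1 A) : TateHm1.map (𝟙 A) x = x := by
  obtain ⟨x, hx, rfl⟩ := TateHm1.mk_surjective A x
  rfl

theorem TateHm1.map_comp (f : A ⟶ B) (g : B ⟶ C) (x : TateHm1 A) :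
    TateHm1.map (f ≫ g) x = TateHm1.map g (TateHm1.map f x) := by
  obtain ⟨x, hx, rfl⟩ := TateHm1.mk_surjective A x
  rfl

end Functoriality

/-! ### The six term exact sequence -/

section Exact

variable {X : ShortComplex (Rep.{u} k G)} (hX : X.ShortExact)

omit [Fintype G] in
include hX in
theorem shortExact_injective : Function.Injective X.f.hom :=
  (Rep.mono_iff_injective X.f).1 hX.mono_f

omit [Fintype G] in
include hX in
theorem shortExact_surjective : Function.Surjective X.g.hom :=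
  (Rep.epi_iff_surjective X.g).1 hX.epi_g

omit [Fintype G] in
include hX in
theorem shortExact_exact (y : X.X₂.V) : X.g.hom y = 0 ↔ ∃ x : X.X₁.V, X.f.hom x = y := by
  have h : LinearMap.range X.f.hom.toLinearMap = LinearMap.ker X.g.hom.toLinearMap :=
    (hX.exact.map (forget₂ (Rep k G) (ModuleCat k))).moduleCat_range_eq_ker
  constructor
  · intro hy
    have : y ∈ LinearMap.range X.f.hom.toLinearMap := by
      rw [h]
      exact hy
    exact this
  · rintro ⟨x, rfl⟩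
    have : X.f.hom x ∈ LinearMap.ker X.g.hom.toLinearMap := by
      rw [← h]
      exact ⟨x, rfl⟩
    exact this

omit [Fintype G] in
include hX in
/-- Left exactness of invariants. -/
theorem invMap_injective : Function.Injective (invMap X.f) := fun _ _ h =>
  Subtype.ext (shortExact_injective hX (congrArg Subtype.val h))

omit [Fintype G] in
include hX in
theorem invMap_exact : Function.Exact (invMap X.f) (invMap X.g) := by
  intro y
  constructor
  · intro hy
    obtain ⟨x, hx⟩ := (shortExact_exact hX y.1).1 (congrArg Subtype.val hy)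
    refine ⟨⟨x, fun g => ?_⟩, Subtype.ext hx⟩
    apply shortExact_injective hX
    rw [Rep.hom_comm_apply, hx, y.2 g]
  · rintro ⟨x, rfl⟩
    apply Subtype.ext
    exact (shortExact_exact hX _).2 ⟨x.1, rfl⟩

omit [Fintype G] in
include hX in
/-- Right exactness of coinvariants. -/
theorem coinvMap_surjective : Function.Surjective (coinvMap X.g) := by
  intro z
  obtain ⟨z, rfl⟩ := Coinvariants.mk_surjective _ z
  obtain ⟨y, rfl⟩ := shortExact_surjective hX z
  exact ⟨Coinvariants.mk _ y, rfl⟩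

omit [Fintype G] in
include hX in
theorem coinvMap_exact : Function.Exact (coinvMap X.f) (coinvMap X.g) := by
  intro y
  constructor
  · intro hy
    obtain ⟨y, rfl⟩ := Coinvariants.mk_surjective _ y
    rw [coinvMap_mk, Coinvariants.mk_eq_zero] at hy
    -- `g y` is a sum of elements `ρ s z - z`; lift them
    have key : ∀ w ∈ Coinvariants.ker X.X₃.ρ, ∃ v ∈ Coinvariants.ker X.X₂.ρ, X.g.hom v = w := by
      intro w hw
      refine Submodule.span_induction ?_ ?_ ?_ ?_ hw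
      · rintro _ ⟨⟨s, z⟩, rfl⟩
        obtain ⟨v, rfl⟩ := shortExact_surjective hX z
        refine ⟨X.X₂.ρ s v - v, Coinvariants.sub_mem_ker s v, ?_⟩
        rw [map_sub, Rep.hom_comm_apply]
      · exact ⟨0, Submodule.zero_mem _, map_zero _⟩
      · rintro _ _ _ _ ⟨va, hva, rfl⟩ ⟨vb, hvb, rfl⟩
        exact ⟨va + vb, Submodule.add_mem _ hva hvb, map_add _ _ _⟩
      · rintro c a _ ⟨va, hva, rfl⟩
        exact ⟨c • va, Submodule.smul_mem _ c hva, map_smul _ _ _⟩
    obtain ⟨v, hv, hvy⟩ := key _ hy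
    obtain ⟨x, hx⟩ := (shortExact_exact hX (y - v)).1 (by rw [map_sub, hvy, sub_self])
    refine ⟨Coinvariants.mk _ x, ?_⟩
    rw [coinvMap_mk, hx, map_sub, (Coinvariants.mk_eq_zero _).2 hv, sub_zero]
  · rintro ⟨x, rfl⟩
    obtain ⟨x, rfl⟩ := Coinvariants.mk_surjective _ x
    rw [coinvMap_mk, coinvMap_mk, (shortExact_exact hX _).2 ⟨x, rfl⟩, map_zero]

/-- The connecting homomorphism `Ĥ⁻¹(X₃) → Ĥ⁰(X₁)`. -/
noncomputable def tateδ : TateHm1 X.X₃ →ₗ[k] TateH0 X.X₁ :=
  SnakeLemma.δ' (normBar X.X₁) (normBar X.X₂) (normBar X.X₃) (coinvMap X.f) (coinvMap X.g)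
    (coinvMap_exact hX) (invMap X.f) (invMap X.g) (invMap_exact hX)
    (normBar_comp_coinvMap X.f).symm (normBar_comp_coinvMap X.g).symm
    (LinearMap.ker (normBar X.X₃)).subtype (LinearMap.exact_subtype_ker_map _)
    (LinearMap.range (normBar X.X₁)).mkQ (LinearMap.exact_map_mkQ_range _)
    (coinvMap_surjective hX) (invMap_injective hX)

/-- Computation of the connecting homomorphism: if `g y = z` and `f x = N y` then
`δ [z] = [x]`. -/
theorem tateδ_mk (z : X.X₃.V) (hz : X.X₃.ρ.norm z = 0) (y : X.X₂.V) (hy : X.g.hom y = z)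
    (x : X.X₁.ρ.invariants) (hx : X.f.hom (x : X.X₁.V) = X.X₂.ρ.norm y) :
    tateδ hX (TateHm1.mk _ z hz) = TateH0.mk _ x := by
  refine SnakeLemma.δ'_eq _ _ _ _ _ _ _ _ _ _ _ _ _ _ _ _ _ (TateHm1.mk _ z hz)
    (Coinvariants.mk _ y) ?_ x ?_
  · rw [coinvMap_mk, hy]
    rfl
  · apply Subtype.ext
    rw [invMap_coe, hx]
    rfl

include hX in
/-- Exactness of `Ĥ⁻¹(X₁) → Ĥ⁻¹(X₂) → Ĥ⁻¹(X₃)`. -/
theorem TateHm1.map_exact : Function.Exact (TateHm1.map X.f) (TateHm1.map X.g) := by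
  intro y
  constructor
  · intro hy
    have h1 : coinvMap X.g y.1 = 0 := congrArg Subtype.val hy
    obtain ⟨x, hx⟩ := (coinvMap_exact hX y.1).1 h1
    refine ⟨⟨x, ?_⟩, Subtype.ext hx⟩
    rw [LinearMap.mem_ker]
    apply invMap_injective hX
    rw [← normBar_coinvMap, hx, map_zero]
    exact y.2
  · rintro ⟨x, rfl⟩
    apply Subtype.ext
    exact (coinvMap_exact hX _).2 ⟨x.1, rfl⟩

/-- Exactness of `Ĥ⁻¹(X₂) → Ĥ⁻¹(X₃) → Ĥ⁰(X₁)`. -/
theorem TateHm1.map_tateδ_exact : Function.Exact (TateHm1.map X.g) (tateδ hX) :=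
  SnakeLemma.exact_δ'_right (normBar X.X₁) (normBar X.X₂) (normBar X.X₃) (coinvMap X.f)
    (coinvMap X.g) (coinvMap_exact hX) (invMap X.f) (invMap X.g) (invMap_exact hX)
    (normBar_comp_coinvMap X.f).symm (normBar_comp_coinvMap X.g).symm
    (LinearMap.ker (normBar X.X₂)).subtype (LinearMap.exact_subtype_ker_map _)
    (LinearMap.ker (normBar X.X₃)).subtype (LinearMap.exact_subtype_ker_map _)
    (LinearMap.range (normBar X.X₁)).mkQ (LinearMap.exact_map_mkQ_range _)
    (coinvMap_surjective hX) (invMap_injective hX) (TateHm1.map X.g) rfl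
    Subtype.val_injective

/-- Exactness of `Ĥ⁻¹(X₃) → Ĥ⁰(X₁) → Ĥ⁰(X₂)`. -/
theorem tateδ_TateH0.map_exact : Function.Exact (tateδ hX) (TateH0.map X.f) :=
  SnakeLemma.exact_δ'_left (normBar X.X₁) (normBar X.X₂) (normBar X.X₃) (coinvMap X.f)
    (coinvMap X.g) (coinvMap_exact hX) (invMap X.f) (invMap X.g) (invMap_exact hX)
    (normBar_comp_coinvMap X.f).symm (normBar_comp_coinvMap X.g).symm
    (LinearMap.ker (normBar X.X₃)).subtype (LinearMap.exact_subtype_ker_map _)
    (LinearMap.range (normBar X.X₁)).mkQ (LinearMap.exact_map_mkQ_range _)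
    (LinearMap.range (normBar X.X₂)).mkQ (LinearMap.exact_map_mkQ_range _)
    (coinvMap_surjective hX) (invMap_injective hX) (TateH0.map X.f) rfl
    (Submodule.mkQ_surjective _)

include hX in
/-- Exactness of `Ĥ⁰(X₁) → Ĥ⁰(X₂) → Ĥ⁰(X₃)`. -/
theorem TateH0.map_exact : Function.Exact (TateH0.map X.f) (TateH0.map X.g) := by
  intro y
  constructor
  · intro hy
    obtain ⟨y, rfl⟩ := TateH0.mk_surjective _ y
    rw [TateH0.map_mk, TateH0.mk, Submodule.mkQ_apply, Submodule.Quotient.mk_eq_zero] at hy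
    obtain ⟨w, hw⟩ := hy
    obtain ⟨v, rfl⟩ := coinvMap_surjective hX w
    rw [normBar_coinvMap] at hw
    -- `g (y - N v) = 0`
    obtain ⟨x, hx⟩ := (invMap_exact hX (y - normBar X.X₂ v)).1 (by rw [map_sub, hw, sub_self])
    refine ⟨TateH0.mk _ x, ?_⟩
    rw [TateH0.map_mk, hx, map_sub, sub_eq_self, TateH0.mk, Submodule.mkQ_apply,
      Submodule.Quotient.mk_eq_zero]
    exact ⟨v, rfl⟩
  · rintro ⟨x, rfl⟩
    obtain ⟨x, rfl⟩ := TateH0.mk_surjective _ x
    rw [TateH0.map_mk, TateH0.map_mk, (invMap_exact hX _).2 ⟨x, rfl⟩, map_zero]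

end Exact

/-! ### The junction with Mathlib's `H¹` -/

section Junction

open groupCohomology

variable {X : ShortComplex (Rep.{u} k G)} (hX : X.ShortExact)

omit [Fintype G] in
theorem H0Iso_hom_map_apply {A B : Rep.{u} k G} (f : A ⟶ B) (w : groupCohomology A 0) :
    (H0Iso B).hom (groupCohomology.map (MonoidHom.id G) f 0 w) = invMap f ((H0Iso A).hom w) := by
  have h := congrArg (fun φ => φ.hom w) (map_id_comp_H0Iso_hom f)
  exact h

omit [Fintype G] in
theorem map_H0Iso_inv_apply {A B : Rep.{u} k G} (f : A ⟶ B) (x : A.ρ.invariants) :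
    groupCohomology.map (MonoidHom.id G) f 0 ((H0Iso A).inv x) = (H0Iso B).inv (invMap f x) := by
  apply (ModuleCat.mono_iff_injective (H0Iso B).hom).1 inferInstance
  rw [H0Iso_hom_map_apply]
  simp

/-- The connecting homomorphism `X₃^G → H¹(G, X₁)` of Mathlib, as a linear map on invariants. -/
noncomputable def δ₀inv : X.X₃.ρ.invariants →ₗ[k] groupCohomology.H1 X.X₁ :=
  ((H0Iso X.X₃).inv ≫ groupCohomology.δ hX 0 1 rfl).hom

omit [Fintype G] in
theorem δ₀inv_apply (z : X.X₃.ρ.invariants) :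
    δ₀inv hX z = groupCohomology.δ hX 0 1 rfl ((H0Iso X.X₃).inv z) := rfl

omit [Fintype G] in
theorem δ₀inv_invMap (y : X.X₂.ρ.invariants) : δ₀inv hX (invMap X.g y) = 0 := by
  rw [δ₀inv_apply, ← map_H0Iso_inv_apply]
  exact (mapShortComplex₃ hX (i := 0) (j := 1) rfl).moduleCat_zero_apply _

/-- The connecting homomorphism `Ĥ⁰(X₃) → H¹(X₁)`. -/
noncomputable def tateδ₀ : TateH0 X.X₃ →ₗ[k] groupCohomology.H1 X.X₁ :=
  Submodule.liftQ _ (δ₀inv hX) (by
    rintro _ ⟨w, rfl⟩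
    obtain ⟨v, rfl⟩ := coinvMap_surjective hX w
    rw [LinearMap.mem_ker, normBar_coinvMap, δ₀inv_invMap])

@[simp] theorem tateδ₀_mk (z : X.X₃.ρ.invariants) : tateδ₀ hX (TateH0.mk _ z) = δ₀inv hX z := rfl

/-- Computation of `Ĥ⁰(X₃) → H¹(X₁)` on cocycles. -/
theorem tateδ₀_mk_eq (z : X.X₃.ρ.invariants) (y : X.X₂.V) (hy : X.g.hom y = z)
    (x : G → X.X₁.V) (hx : X.f.hom ∘ x = d₀₁ X.X₂ y) :
    tateδ₀ hX (TateH0.mk _ z) = H1π X.X₁ ⟨x, mem_cocycles₁_of_comp_eq_d₀₁ hX hx⟩ := by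
  rw [tateδ₀_mk, δ₀inv_apply]
  exact δ₀_apply hX z y hy x hx

/-- Exactness of `Ĥ⁰(X₂) → Ĥ⁰(X₃) → H¹(X₁)`. -/
theorem TateH0.map_tateδ₀_exact : Function.Exact (TateH0.map X.g) (tateδ₀ hX) := by
  intro z
  constructor
  · intro hz
    obtain ⟨z, rfl⟩ := TateH0.mk_surjective _ z
    rw [tateδ₀_mk, δ₀inv_apply] at hz
    obtain ⟨(w : groupCohomology X.X₂ 0), hw⟩ := (ShortComplex.moduleCat_exact_iff _).1
      (mapShortComplex₃_exact hX (i := 0) (j := 1) rfl) _ hz
    have hw' : groupCohomology.map (MonoidHom.id G) X.g 0 w = (H0Iso X.X₃).inv z := hw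
    refine ⟨TateH0.mk _ ((H0Iso X.X₂).hom w), ?_⟩
    rw [TateH0.map_mk, ← H0Iso_hom_map_apply, hw']
    congr 1
    simp
  · rintro ⟨y, rfl⟩
    obtain ⟨y, rfl⟩ := TateH0.mk_surjective _ y
    rw [TateH0.map_mk, tateδ₀_mk, δ₀inv_invMap]

/-- Exactness of `Ĥ⁰(X₃) → H¹(X₁) → H¹(X₂)`. -/
theorem tateδ₀_map_exact :
    Function.Exact (tateδ₀ hX) (groupCohomology.map (MonoidHom.id G) X.f 1).hom := by
  intro c
  constructor
  · intro hc
    obtain ⟨(w : groupCohomology X.X₃ 0), hw⟩ := (ShortComplex.moduleCat_exact_iff _).1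
      (mapShortComplex₁_exact hX (i := 0) (j := 1) rfl) _ hc
    refine ⟨TateH0.mk _ ((H0Iso X.X₃).hom w), ?_⟩
    rw [tateδ₀_mk, δ₀inv_apply]
    have : (H0Iso X.X₃).inv ((H0Iso X.X₃).hom w) = w := by simp
    rw [this]
    exact hw
  · rintro ⟨z, rfl⟩
    obtain ⟨z, rfl⟩ := TateH0.mk_surjective _ z
    rw [tateδ₀_mk, δ₀inv_apply]
    exact (mapShortComplex₁ hX (i := 0) (j := 1) rfl).moduleCat_zero_apply _

end Junction

end Fermat.Agent.CFT.Coh
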