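/-
P4 / Layer A, task A-TRACE1: the "trace one" acyclicity framework.

`TraceOne M` : there is a `k`-linear `π : M → M` with `∑_g g π g⁻¹ = 1`.  Such modules are
retracts of `Fun(G, M)`, hence cohomologically trivial: `H^{n+1}(S, M) = 0` for all subgroups `S`
and all `n`, `Ĥ⁰ = Ĥ⁻¹ = 0`.  Closed under isomorphisms, restriction to subgroups, `Hom(R, -)`
and `- ⊗ R`.
-/
import Fermat.Agent.Lib.CFT.Coh.Shapiro
import Fermat.Agent.Lib.CFT.Coh.LowTate

set_option autoImplicit false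
set_option linter.unusedSectionVars false
set_option linter.style.haveILetI false

namespace Fermat.Agent.CFT.Coh

open CategoryTheory groupCohomology Rep Limits

section Def

variable {k G : Type} [CommRing k] [Group G] [Fintype G]

/-- `M` has a `k`-linear endomorphism of trace one: `∑_g g π g⁻¹ = 1`. -/
def TraceOne (M : Rep.{0} k G) : Prop :=
  ∃ π : M.V →ₗ[k] M.V, ∀ m : M.V, ∑ g : G, M.ρ g (π (M.ρ g⁻¹ m)) = m

theorem TraceOne.sum_inv {M : Rep.{0} k G} {π : M.V →ₗ[k] M.V}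
    (h : ∀ m : M.V, ∑ g : G, M.ρ g (π (M.ρ g⁻¹ m)) = m) (m : M.V) :
    ∑ g : G, M.ρ g⁻¹ (π (M.ρ g m)) = m := by
  refine (Fintype.sum_equiv (Equiv.inv G) _ _ (fun g => ?_)).trans (h m)
  simp

/-- transport along an isomorphism -/
theorem TraceOne.of_iso {M M' : Rep.{0} k G} (e : M ≅ M') (h : TraceOne M) : TraceOne M' := by
  obtain ⟨π, hπ⟩ := h
  refine ⟨e.hom.hom.toLinearMap ∘ₗ π ∘ₗ e.inv.hom.toLinearMap, fun m => ?_⟩
  have h1 : ∀ g : G, M'.ρ g (e.hom.hom (π (e.inv.hom (M'.ρ g⁻¹ m)))) =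
      e.hom.hom (M.ρ g (π (M.ρ g⁻¹ (e.inv.hom m)))) := by
    intro g
    rw [hom_comm_apply e.hom, hom_comm_apply e.inv]
  simp only [LinearMap.comp_apply]
  calc ∑ g : G, M'.ρ g (e.hom.hom (π (e.inv.hom (M'.ρ g⁻¹ m))))
      = ∑ g : G, e.hom.hom (M.ρ g (π (M.ρ g⁻¹ (e.inv.hom m)))) :=
        Finset.sum_congr rfl (fun g _ => h1 g)
    _ = e.hom.hom (∑ g : G, M.ρ g (π (M.ρ g⁻¹ (e.inv.hom m)))) := (map_sum _ _ _).symm
    _ = e.hom.hom (e.inv.hom m) := by rw [hπ]
    _ = m := by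
      have := congr($(e.inv_hom_id).hom m)
      exact this

/-- the retraction `Fun(G, M) → M`, `f ↦ ∑_x x⁻¹ π (f x)` -/
noncomputable def TraceOne.retractLin (M : Rep.{0} k G) (π : M.V →ₗ[k] M.V) :
    (coindBot M).V →ₗ[k] M.V :=
  ∑ x : G, (M.ρ x⁻¹ : M.V →ₗ[k] M.V) ∘ₗ π ∘ₗ (LinearMap.proj x : (G → M.V) →ₗ[k] M.V) ∘ₗ
    (Representation.coindV (⊥ : Subgroup G).subtype (res (⊥ : Subgroup G).subtype M).ρ).subtype

theorem TraceOne.retractLin_apply (M : Rep.{0} k G) (π : M.V →ₗ[k] M.V) (f : (coindBot M).V) :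
    TraceOne.retractLin M π f = ∑ x : G, M.ρ x⁻¹ (π (f.1 x)) := by
  unfold TraceOne.retractLin
  rw [LinearMap.sum_apply]
  rfl

/-- the retraction `Fun(G, M) ⟶ M` as a morphism of representations -/
noncomputable def TraceOne.retract (M : Rep.{0} k G) (π : M.V →ₗ[k] M.V) : coindBot M ⟶ M :=
  Rep.ofHom ⟨TraceOne.retractLin M π, fun g => by
    ext f
    simp only [LinearMap.comp_apply]
    rw [TraceOne.retractLin_apply, TraceOne.retractLin_apply, map_sum]
    refine Fintype.sum_equiv (Equiv.mulRight g) _ _ (fun x => ?_)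
    change M.ρ x⁻¹ (π (f.1 (x * g))) = M.ρ g (M.ρ (x * g)⁻¹ (π (f.1 (x * g))))
    have e1 : M.ρ g (M.ρ (x * g)⁻¹ (π (f.1 (x * g)))) =
        M.ρ (g * (x * g)⁻¹) (π (f.1 (x * g))) := by
      rw [map_mul]; rfl
    rw [e1]
    congr 2
    group⟩

theorem TraceOne.toCoindBot_comp_retract {M : Rep.{0} k G} {π : M.V →ₗ[k] M.V}
    (h : ∀ m : M.V, ∑ g : G, M.ρ g (π (M.ρ g⁻¹ m)) = m) :
    toCoindBot M ≫ TraceOne.retract M π = 𝟙 M := by
  ext m
  change TraceOne.retractLin M π ((toCoindBot M).hom m) = m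
  rw [TraceOne.retractLin_apply]
  exact TraceOne.sum_inv h m

/-- **Key**: a trace one module has trivial cohomology in positive degrees. -/
theorem TraceOne.isZero_groupCohomology {M : Rep.{0} k G} (h : TraceOne M) (n : ℕ) :
    IsZero (groupCohomology M (n + 1)) := by
  obtain ⟨π, hπ⟩ := h
  rw [IsZero.iff_id_eq_zero]
  have h1 : map (MonoidHom.id G) (toCoindBot M ≫ TraceOne.retract M π) (n + 1) =
      map (MonoidHom.id G) (𝟙 M) (n + 1) :=
    congrArg (fun φ : M ⟶ M => map (MonoidHom.id G) φ (n + 1))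
      (TraceOne.toCoindBot_comp_retract hπ)
  rw [map_id_comp, map_id] at h1
  rw [← h1, (isZero_groupCohomology_coindBot M n).eq_zero_of_tgt
    (map (MonoidHom.id G) (toCoindBot M) (n + 1)), zero_comp]

/-- `Ĥ⁰` of a trace one module vanishes. -/
theorem TraceOne.subsingleton_tateH0 {M : Rep.{0} k G} (h : TraceOne M) :
    Subsingleton (TateH0 M) := by
  obtain ⟨π, hπ⟩ := h
  refine ⟨fun a b => ?_⟩
  obtain ⟨x, rfl⟩ := TateH0.mk_surjective M a
  obtain ⟨y, rfl⟩ := TateH0.mk_surjective M b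
  have key : ∀ z : M.ρ.invariants, TateH0.mk M z = 0 := by
    intro z
    rw [TateH0.mk_eq_zero_iff]
    refine ⟨π z.1, ?_⟩
    have := hπ z.1
    simp only [Representation.norm, LinearMap.coe_sum, Finset.sum_apply]
    rw [← this]
    refine Finset.sum_congr rfl (fun g _ => ?_)
    rw [z.2 g⁻¹, this]
  rw [key x, key y]

/-- `Ĥ⁻¹` of a trace one module vanishes. -/
theorem TraceOne.subsingleton_tateHm1 {M : Rep.{0} k G} (h : TraceOne M) :
    Subsingleton (TateHm1 M) := by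
  obtain ⟨π, hπ⟩ := h
  have key : ∀ z : TateHm1 M, z = 0 := by
    intro z
    obtain ⟨x, hx, rfl⟩ := TateHm1.mk_surjective M z
    rw [TateHm1.mk_eq_zero_iff]
    have h1 : ∑ g : G, π (M.ρ g⁻¹ x) = 0 := by
      rw [← map_sum]
      have : ∑ g : G, M.ρ g⁻¹ x = M.ρ.norm x := by
        simp only [Representation.norm, LinearMap.coe_sum, Finset.sum_apply]
        exact Fintype.sum_equiv (Equiv.inv G) _ _ (fun g => rfl)
      rw [this, hx, map_zero]
    have h2 : x = ∑ g : G, (M.ρ g (π (M.ρ g⁻¹ x)) - π (M.ρ g⁻¹ x)) := by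
      rw [Finset.sum_sub_distrib, h1, sub_zero, hπ x]
    rw [h2]
    exact Submodule.sum_mem _ (fun g _ => Representation.Coinvariants.sub_mem_ker g _)
  exact ⟨fun a b => by rw [key a, key b]⟩

/-- `Fun(G, B)` has trace one (`π` = "value at `1`, placed at `1`"). -/
theorem traceOne_coindBot (B : Rep.{0} k G) : TraceOne (coindBot B) := by
  classical
  let πfun : (coindBot B).V → (coindBot B).V := fun f =>
    ⟨fun x => if x = 1 then f.1 1 else 0, fun h g => by
      have h1 : (h : G) = 1 := by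
        have := h.2
        rwa [Subgroup.mem_bot] at this
      have h2 : (⊥ : Subgroup G).subtype h = 1 := h1
      rw [h2, one_mul]
      change _ = B.ρ ((⊥ : Subgroup G).subtype h) _
      rw [h2, map_one]
      rfl⟩
  let π : (coindBot B).V →ₗ[k] (coindBot B).V :=
    { toFun := πfun
      map_add' := fun f f' => by
        apply Subtype.ext
        funext x
        change (if x = 1 then (f.1 1 + f'.1 1) else 0) =
          (if x = 1 then f.1 1 else 0) + (if x = 1 then f'.1 1 else 0)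
        split_ifs <;> simp
      map_smul' := fun c f => by
        apply Subtype.ext
        funext x
        change (if x = 1 then (c • f.1 1) else 0) = c • (if x = 1 then f.1 1 else 0)
        split_ifs <;> simp }
  refine ⟨π, fun f => ?_⟩
  apply Subtype.ext
  funext x
  have hval : ∀ g : G, (((coindBot B).ρ g (π ((coindBot B).ρ g⁻¹ f))).1 x : B.V) =
      if g = x⁻¹ then f.1 x else 0 := by
    intro g
    change (if x * g = 1 then f.1 (1 * g⁻¹) else 0) = _
    by_cases hg : g = x⁻¹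
    · subst hg
      simp
    · have : x * g ≠ 1 := fun h => hg (eq_inv_of_mul_eq_one_right h)
      rw [if_neg this, if_neg hg]
  have hsum : ((∑ g : G, (coindBot B).ρ g (π ((coindBot B).ρ g⁻¹ f))).1 x : B.V) =
      ∑ g : G, ((coindBot B).ρ g (π ((coindBot B).ρ g⁻¹ f))).1 x := by
    rw [Submodule.coe_sum, Finset.sum_apply]
  rw [hsum]
  simp only [hval]
  rw [Finset.sum_ite_eq' Finset.univ x⁻¹ (fun _ => f.1 x), if_pos (Finset.mem_univ _)]

/-- `Hom_k(R, M)` has trace one if `M` has. -/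
theorem TraceOne.linHom {M : Rep.{0} k G} (h : TraceOne M) (R : Rep.{0} k G) :
    TraceOne (Rep.of (Representation.linHom R.ρ M.ρ)) := by
  obtain ⟨π, hπ⟩ := h
  refine ⟨LinearMap.llcomp k R.V M.V M.V π, fun f => ?_⟩
  ext r
  rw [LinearMap.sum_apply]
  have h1 : ∀ g : G, ((Rep.of (Representation.linHom R.ρ M.ρ)).ρ g
      (LinearMap.llcomp k R.V M.V M.V π
        ((Rep.of (Representation.linHom R.ρ M.ρ)).ρ g⁻¹ f))) r =
      M.ρ g (π (M.ρ g⁻¹ (f r))) := by
    intro g
    change (Representation.linHom R.ρ M.ρ g (π ∘ₗ (Representation.linHom R.ρ M.ρ g⁻¹ f))) r = _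
    simp only [Representation.linHom_apply, LinearMap.comp_apply, inv_inv]
    rw [← Module.End.mul_apply (f := R.ρ g) (g := R.ρ g⁻¹), ← map_mul, mul_inv_cancel, map_one,
      Module.End.one_apply]
  rw [Finset.sum_congr rfl (fun g _ => h1 g)]
  exact hπ (f r)

/-- `M ⊗ R` has trace one if `M` has. -/
theorem TraceOne.tprod {M : Rep.{0} k G} (h : TraceOne M) (R : Rep.{0} k G) :
    TraceOne (Rep.of (Representation.tprod M.ρ R.ρ)) := by
  obtain ⟨π, hπ⟩ := h
  refine ⟨LinearMap.rTensor R.V π, fun t => ?_⟩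
  induction t using TensorProduct.induction_on with
  | zero => simp
  | add a b ha hb =>
    simp only [map_add, Finset.sum_add_distrib]
    rw [ha, hb]
  | tmul m r =>
    have h1 : ∀ g : G, (Rep.of (Representation.tprod M.ρ R.ρ)).ρ g
        (LinearMap.rTensor R.V π ((Rep.of (Representation.tprod M.ρ R.ρ)).ρ g⁻¹ (m ⊗ₜ[k] r))) =
        (M.ρ g (π (M.ρ g⁻¹ m))) ⊗ₜ[k] r := by
      intro g
      change (Representation.tprod M.ρ R.ρ g) (LinearMap.rTensor R.V π
        ((Representation.tprod M.ρ R.ρ g⁻¹) (m ⊗ₜ[k] r))) = _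
      simp only [Representation.tprod_apply, TensorProduct.map_tmul, LinearMap.rTensor_tmul]
      rw [← Module.End.mul_apply (f := R.ρ g) (g := R.ρ g⁻¹), ← map_mul, mul_inv_cancel, map_one,
        Module.End.one_apply]
    rw [Finset.sum_congr rfl (fun g _ => h1 g), ← TensorProduct.sum_tmul, hπ]

omit [Fintype G] in
/-- the bijection `S × G ⧸ S → G`, `(s, q) ↦ q.out * s⁻¹` -/
theorem bijective_out_mul_inv (S : Subgroup G) :
    Function.Bijective (fun p : S × (G ⧸ S) => p.2.out * (p.1 : G)⁻¹) := by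
  constructor
  · rintro ⟨s, q⟩ ⟨s', q'⟩ h
    change q.out * (s : G)⁻¹ = q'.out * (s' : G)⁻¹ at h
    have hq : q = q' := by
      have h1 : ((q.out * (s : G)⁻¹ : G) : G ⧸ S) = ((q'.out * (s' : G)⁻¹ : G) : G ⧸ S) := by
        rw [h]
      rwa [QuotientGroup.mk_mul_of_mem _ (S.inv_mem s.2), QuotientGroup.mk_mul_of_mem _
        (S.inv_mem s'.2), QuotientGroup.out_eq', QuotientGroup.out_eq'] at h1
    subst hq
    have hs : (s : G)⁻¹ = (s' : G)⁻¹ := mul_left_cancel h
    have hs' : s = s' := Subtype.ext (inv_injective hs)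
    rw [hs']
  · intro g
    have hmem : g⁻¹ * ((g : G ⧸ S)).out ∈ S := by
      rw [← QuotientGroup.eq, QuotientGroup.out_eq']
    refine ⟨(⟨g⁻¹ * ((g : G ⧸ S)).out, hmem⟩, (g : G ⧸ S)), ?_⟩
    simp only
    group

/-- restriction to a subgroup preserves trace one -/
theorem TraceOne.res {M : Rep.{0} k G} (h : TraceOne M) (S : Subgroup G) [Fintype S] :
    TraceOne (Rep.res S.subtype M) := by
  classical
  obtain ⟨π, hπ⟩ := h
  letI : Fintype (G ⧸ S) := Fintype.ofFinite _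
  refine ⟨∑ q : G ⧸ S, (M.ρ q.out⁻¹ : M.V →ₗ[k] M.V) ∘ₗ π ∘ₗ (M.ρ q.out : M.V →ₗ[k] M.V),
    fun m => ?_⟩
  have h1 : ∀ s : S, (Rep.res S.subtype M).ρ s
      ((∑ q : G ⧸ S, (M.ρ q.out⁻¹ : M.V →ₗ[k] M.V) ∘ₗ π ∘ₗ (M.ρ q.out : M.V →ₗ[k] M.V))
        ((Rep.res S.subtype M).ρ s⁻¹ m)) =
      ∑ q : G ⧸ S, M.ρ (q.out * (s : G)⁻¹)⁻¹ (π (M.ρ (q.out * (s : G)⁻¹) m)) := by
    intro s
    change M.ρ (s : G) ((∑ q : G ⧸ S, (M.ρ q.out⁻¹ : M.V →ₗ[k] M.V) ∘ₗ π ∘ₗ
      (M.ρ q.out : M.V →ₗ[k] M.V)) (M.ρ ((s⁻¹ : S) : G) m)) = _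
    rw [LinearMap.sum_apply, map_sum]
    refine Finset.sum_congr rfl (fun q _ => ?_)
    simp only [LinearMap.comp_apply]
    have e1 : M.ρ (s : G) (M.ρ q.out⁻¹ (π (M.ρ q.out (M.ρ ((s⁻¹ : S) : G) m)))) =
        M.ρ ((s : G) * q.out⁻¹) (π (M.ρ (q.out * ((s⁻¹ : S) : G)) m)) := by
      rw [map_mul, map_mul]; rfl
    rw [e1]
    congr 2
    · simp
  rw [Finset.sum_congr rfl (fun s _ => h1 s), ← Finset.sum_product',
    Finset.univ_product_univ]
  rw [Fintype.sum_bijective _ (bijective_out_mul_inv S) _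
    (fun g : G => M.ρ g⁻¹ (π (M.ρ g m))) (fun p => rfl)]
  exact TraceOne.sum_inv hπ m

/-- a trace one module has trivial cohomology in positive degrees on every subgroup -/
theorem TraceOne.isZero_groupCohomology_res {M : Rep.{0} k G} (h : TraceOne M) (S : Subgroup G)
    (n : ℕ) : IsZero (groupCohomology (Rep.res S.subtype M) (n + 1)) := by
  classical
  letI : Fintype S := Fintype.ofFinite _
  exact (h.res S).isZero_groupCohomology n

/-- `Fun(G, B)` is cohomologically trivial on every subgroup -/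
theorem isZero_groupCohomology_res_coindBot (B : Rep.{0} k G) (S : Subgroup G) (n : ℕ) :
    IsZero (groupCohomology (Rep.res S.subtype (coindBot B)) (n + 1)) :=
  (traceOne_coindBot B).isZero_groupCohomology_res S n

end Def

end Fermat.Agent.CFT.Coh
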