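/-
P4 / Layer A, task A3-NT-UP: the theorem of Nakayama-Tate for `p`-groups, upward form
(Serre, Local Fields, IX §5 Thm 8).

For a finite `p`-group `G` and a `G`-module `M` with `H¹(G, M) = H²(G, M) = 0` (hypothesis on `G`
only), `Hⁿ⁺¹(S, M) = 0`, `Ĥ⁰(S, M) = 0`, `Ĥ⁻¹(S, M) = 0` for every subgroup `S ≤ G`.

Steps: (1) modules killed by `p` with one vanishing `H^{q+1}(G, -)` have trace one (shift up and
use `nonempty_iso_coindBot_of_pGroup`); (2) for `p`-torsion free `R` with `H² = H³ = 0`, `R/pR`
has trace one, so `p` is surjective on all `Hⁿ⁺¹(S, R)`, `Ĥ⁰`, `Ĥ⁻¹`, which are killed by `|S|`;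
(3) present `M` as a quotient of the torsion free coinduced module `Fun(G, M →₀ k)`.
-/
import Fermat.Agent.Lib.CFT.Coh.TraceOne
import Fermat.Agent.Lib.CFT.Coh.PGroupModule
import Fermat.Agent.Lib.CFT.Coh.Cores
import Fermat.Agent.Lib.CFT.Coh.LowTateRes

set_option autoImplicit false
set_option linter.unusedSectionVars false

namespace Fermat.Agent.CFT.Coh

open CategoryTheory groupCohomology Rep Limits


section KilledByP

variable {k G : Type} [CommRing k] [Group G] [Fintype G] {p : ℕ} [hp : Fact p.Prime]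

/-- A module killed by `p` over a `p`-group with `H¹ = 0` has trace one. -/
theorem traceOne_of_isZero_H1 (hk : AddHomsLinear k) (hG : IsPGroup p G) (B : Rep k G)
    (hpB : ∀ b : B.V, p • b = 0) (h1 : IsZero (groupCohomology B 1)) : TraceOne B := by
  obtain ⟨e⟩ := nonempty_iso_coindBot_of_pGroup hk hG B hpB h1
  exact (traceOne_coindBot _).of_iso e.symm

theorem upSC_X₃_killed (B : Rep.{0} k G) (hpB : ∀ b : B.V, p • b = 0) (y : (upSC B).X₃.V) :
    p • y = 0 := by
  obtain ⟨z, rfl⟩ := shortExact_surjective (upSC_shortExact B) y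
  rw [← map_nsmul]
  have : p • z = 0 := by
    apply Subtype.ext
    funext g
    exact hpB _
  rw [this, map_zero]

/-- A module killed by `p` over a `p`-group with `H^{q+1} = 0` for one `q` has trace one. -/
theorem traceOne_of_isZero_succ (hk : AddHomsLinear k) (hG : IsPGroup p G) (q : ℕ) :
    ∀ (B : Rep k G) (_ : ∀ b : B.V, p • b = 0) (_ : IsZero (groupCohomology B (q + 1))),
      TraceOne B := by
  induction q with
  | zero => exact fun B hpB h => traceOne_of_isZero_H1 hk hG B hpB h
  | succ q ih =>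
    intro B hpB h
    have hX := upSC_shortExact B
    have hz : IsZero (groupCohomology (upSC B).X₃ (q + 1)) := by
      rw [ModuleCat.isZero_iff_subsingleton]
      refine ⟨fun a b => ?_⟩
      apply δ_injective_of_isZero hX (q + 1) (isZero_groupCohomology_coindBot B q)
      exact (ModuleCat.isZero_iff_subsingleton.1 h).elim _ _
    have h3 : TraceOne (upSC B).X₃ := ih _ (upSC_X₃_killed B hpB) hz
    have := h3.subsingleton_tateH0
    apply traceOne_of_isZero_H1 hk hG B hpB
    rw [ModuleCat.isZero_iff_subsingleton]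
    have key : ∀ c : groupCohomology B 1, c = 0 := by
      intro c
      have hc : (groupCohomology.map (MonoidHom.id G) (upSC B).f 1).hom c = 0 :=
        (ModuleCat.isZero_iff_subsingleton.1 (isZero_groupCohomology_coindBot B 0)).elim _ _
      obtain ⟨z, rfl⟩ := (tateδ₀_map_exact hX c).1 hc
      rw [Subsingleton.elim z 0]
      exact map_zero _
    exact ⟨fun a b => by rw [key a, key b]⟩

end KilledByP



section MulP

variable {k G : Type} [CommRing k] [Group G] (p : ℕ) (R : Rep.{0} k G)

theorem nsmul_id_hom_apply (x : R.V) : (p • 𝟙 R : R ⟶ R).hom x = p • x := by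
  induction p with
  | zero => simp
  | succ n ih =>
    rw [succ_nsmul, succ_nsmul]
    change (n • 𝟙 R : R ⟶ R).hom x + x = _
    rw [ih]

/-- the sequence `0 ⟶ R ⟶ R ⟶ R/pR ⟶ 0` -/
noncomputable def mulSC : ShortComplex (Rep.{0} k G) :=
  ShortComplex.mk (p • 𝟙 R : R ⟶ R) (cokernel.π (p • 𝟙 R : R ⟶ R)) (cokernel.condition _)

variable {p R}

theorem mulSC_shortExact (hR : ∀ x : R.V, p • x = 0 → x = 0) : (mulSC p R).ShortExact := by
  have hmono : Mono (p • 𝟙 R : R ⟶ R) := by
    rw [Rep.mono_iff_injective, injective_iff_map_eq_zero]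
    intro x hx
    rw [nsmul_id_hom_apply] at hx
    exact hR x hx
  exact ShortComplex.ShortExact.mk' (ShortComplex.exact_cokernel _) hmono
    (inferInstanceAs (Epi (cokernel.π (p • 𝟙 R : R ⟶ R))))

theorem mulSC_X₃_killed (hR : ∀ x : R.V, p • x = 0 → x = 0) (y : (mulSC p R).X₃.V) :
    p • y = 0 := by
  obtain ⟨z, rfl⟩ := shortExact_surjective (mulSC_shortExact hR) y
  rw [← map_nsmul, ← nsmul_id_hom_apply]
  have := (mulSC p R).zero
  exact congr($(this).hom z)

end MulP



theorem eq_zero_of_divisible_of_pow_smul {A : Type*} [AddCommGroup A] (p a : ℕ)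
    (hdiv : ∀ x : A, ∃ y, p • y = x) (hk : ∀ x : A, p ^ a • x = 0) (x : A) : x = 0 := by
  have : ∀ a (x : A), ∃ y, p ^ a • y = x := by
    intro a
    induction a with
    | zero => intro x; exact ⟨x, by simp⟩
    | succ a ih =>
      intro x
      obtain ⟨y, rfl⟩ := ih x
      obtain ⟨z, rfl⟩ := hdiv y
      exact ⟨z, by rw [pow_succ, mul_smul]⟩
  obtain ⟨y, rfl⟩ := this a x
  exact hk y

section TorsionFree

variable {k G : Type} [CommRing k] [Group G] [Fintype G] {p : ℕ} [hp : Fact p.Prime]

theorem resFunctor_map_nsmul_id (S : Subgroup G) (R : Rep.{0} k G) :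
    (resFunctor S.subtype).map (p • 𝟙 R : R ⟶ R) = p • 𝟙 (res S.subtype R) := by
  ext x
  change (p • 𝟙 R : R ⟶ R).hom x = (p • 𝟙 (res S.subtype R) : _ ⟶ _).hom x
  rw [nsmul_id_hom_apply, nsmul_id_hom_apply]

/-- `R/pR` has trace one if `R` is `p`-torsion free with `H²(G, R) = H³(G, R) = 0`. -/
theorem traceOne_mulSC_X₃ (hk : AddHomsLinear k) (hG : IsPGroup p G) (R : Rep.{0} k G)
    (hR : ∀ x : R.V, p • x = 0 → x = 0) (h2 : IsZero (groupCohomology R 2))
    (h3 : IsZero (groupCohomology R 3)) : TraceOne (mulSC p R).X₃ := by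
  have hX := mulSC_shortExact hR
  apply traceOne_of_isZero_succ hk hG 1 _ (mulSC_X₃_killed hR)
  rw [ModuleCat.isZero_iff_subsingleton]
  have key : ∀ y : groupCohomology (mulSC p R).X₃ 2, y = 0 := by
    intro y
    have hy : δ hX 2 3 rfl y = 0 := (ModuleCat.isZero_iff_subsingleton.1 h3).elim _ _
    obtain ⟨z, rfl⟩ := exists_map_g_eq_of_δ_eq_zero hX 2 y hy
    rw [(ModuleCat.isZero_iff_subsingleton.1 h2).elim z 0]
    exact map_zero _
  exact ⟨fun a b => by rw [key a, key b]⟩

/-- `p`-divisibility of `Hⁿ⁺¹(S, R)` -/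
theorem exists_nsmul_eq_of_traceOne (R : Rep.{0} k G)
    (hR : ∀ x : R.V, p • x = 0 → x = 0) (hB : TraceOne (mulSC p R).X₃) (S : Subgroup G) (n : ℕ)
    (x : groupCohomology (res S.subtype R) (n + 1)) :
    ∃ y : groupCohomology (res S.subtype R) (n + 1), p • y = x := by
  have hX := mulSC_shortExact hR
  have hXS : ((mulSC p R).map (resFunctor S.subtype)).ShortExact := (shortExact_res S.subtype).2 hX
  have hx : map (MonoidHom.id S) ((mulSC p R).map (resFunctor S.subtype)).g (n + 1) x = 0 :=
    (ModuleCat.isZero_iff_subsingleton.1 (hB.isZero_groupCohomology_res S n)).elim _ _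
  obtain ⟨y, hy⟩ := exists_map_f_eq_of_map_g_eq_zero hXS (n + 1) x hx
  refine ⟨y, ?_⟩
  have hf : ((mulSC p R).map (resFunctor S.subtype)).f = p • 𝟙 (res S.subtype R) :=
    resFunctor_map_nsmul_id S R
  have h1 : map (MonoidHom.id S) ((mulSC p R).map (resFunctor S.subtype)).f (n + 1) =
      p • 𝟙 (groupCohomology (res S.subtype R) (n + 1)) := by
    rw [hf, map_id_nsmul, map_id]
  have h2 := congr($h1 y)
  rw [← hy]
  refine Eq.trans ?_ h2.symm
  simp

theorem isZero_res_of_traceOne_mulSC (hG : IsPGroup p G) (R : Rep.{0} k G)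
    (hR : ∀ x : R.V, p • x = 0 → x = 0) (hB : TraceOne (mulSC p R).X₃) (S : Subgroup G) (n : ℕ) :
    IsZero (groupCohomology (res S.subtype R) (n + 1)) := by
  classical
  let _ : Fintype S := Fintype.ofFinite S
  obtain ⟨a, ha⟩ := IsPGroup.iff_card.1 (hG.to_subgroup S)
  rw [ModuleCat.isZero_iff_subsingleton]
  have key : ∀ x : groupCohomology (res S.subtype R) (n + 1), x = 0 := by
    apply eq_zero_of_divisible_of_pow_smul p a (exists_nsmul_eq_of_traceOne R hR hB S n)
    intro x
    have := card_smul_eq_zero (res S.subtype R) (n + 1) (Nat.succ_pos n) x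
    rwa [← Nat.card_eq_fintype_card, ha, Nat.cast_smul_eq_nsmul] at this
  exact ⟨fun a b => by rw [key a, key b]⟩

end TorsionFree


section TateLow

variable {k G : Type} [CommRing k] [Group G] [Fintype G] {p : ℕ} [hp : Fact p.Prime]

theorem TateH0.map_nsmul_id (A : Rep.{0} k G) (x : TateH0 A) :
    TateH0.map (p • 𝟙 A : A ⟶ A) x = p • x := by
  obtain ⟨x, rfl⟩ := TateH0.mk_surjective A x
  rw [TateH0.map_mk, ← map_nsmul]
  congr 1

theorem TateHm1.map_nsmul_id (A : Rep.{0} k G) (x : TateHm1 A) :
    TateHm1.map (p • 𝟙 A : A ⟶ A) x = p • x := by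
  obtain ⟨x, hx, rfl⟩ := TateHm1.mk_surjective A x
  rw [TateHm1.map_mk]
  apply Subtype.ext
  change Representation.Coinvariants.mk A.ρ ((p • 𝟙 A : A ⟶ A).hom x) =
    p • Representation.Coinvariants.mk A.ρ x
  rw [nsmul_id_hom_apply, map_nsmul]

theorem subsingleton_tateH0_res_of_traceOne_mulSC (hG : IsPGroup p G) (R : Rep.{0} k G)
    (hR : ∀ x : R.V, p • x = 0 → x = 0) (hB : TraceOne (mulSC p R).X₃) (S : Subgroup G)
    [Fintype S] : Subsingleton (TateH0 (res S.subtype R)) := by
  classical
  obtain ⟨a, ha⟩ := IsPGroup.iff_card.1 (hG.to_subgroup S)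
  have hX := mulSC_shortExact hR
  have hXS : ((mulSC p R).map (resFunctor S.subtype)).ShortExact := (shortExact_res S.subtype).2 hX
  have hf : ((mulSC p R).map (resFunctor S.subtype)).f = p • 𝟙 (res S.subtype R) :=
    resFunctor_map_nsmul_id S R
  have h0 : Subsingleton (TateH0 ((mulSC p R).map (resFunctor S.subtype)).X₃) :=
    (hB.res S).subsingleton_tateH0
  have key : ∀ x : TateH0 (res S.subtype R), x = 0 := by
    apply eq_zero_of_divisible_of_pow_smul p a
    · intro x
      obtain ⟨(y : TateH0 (res S.subtype R)), hy⟩ :=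
        (TateH0.map_exact hXS x).1 (Subsingleton.elim _ _)
      refine ⟨y, ?_⟩
      have h2 : TateH0.map ((mulSC p R).map (resFunctor S.subtype)).f y =
          TateH0.map (p • 𝟙 (res S.subtype R)) y :=
        congrArg (fun φ : res S.subtype R ⟶ res S.subtype R => TateH0.map φ y) hf
      rw [← hy, h2, TateH0.map_nsmul_id]
    · intro x
      have := TateH0.card_smul_eq_zero (A := res S.subtype R) x
      rwa [← Nat.card_eq_fintype_card, ha, Nat.cast_smul_eq_nsmul] at this
  exact ⟨fun a b => by rw [key a, key b]⟩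

theorem subsingleton_tateHm1_res_of_traceOne_mulSC (hG : IsPGroup p G) (R : Rep.{0} k G)
    (hR : ∀ x : R.V, p • x = 0 → x = 0) (hB : TraceOne (mulSC p R).X₃) (S : Subgroup G)
    [Fintype S] : Subsingleton (TateHm1 (res S.subtype R)) := by
  classical
  obtain ⟨a, ha⟩ := IsPGroup.iff_card.1 (hG.to_subgroup S)
  have hX := mulSC_shortExact hR
  have hXS : ((mulSC p R).map (resFunctor S.subtype)).ShortExact := (shortExact_res S.subtype).2 hX
  have hf : ((mulSC p R).map (resFunctor S.subtype)).f = p • 𝟙 (res S.subtype R) :=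
    resFunctor_map_nsmul_id S R
  have h0 : Subsingleton (TateHm1 ((mulSC p R).map (resFunctor S.subtype)).X₃) :=
    (hB.res S).subsingleton_tateHm1
  have key : ∀ x : TateHm1 (res S.subtype R), x = 0 := by
    apply eq_zero_of_divisible_of_pow_smul p a
    · intro x
      obtain ⟨(y : TateHm1 (res S.subtype R)), hy⟩ :=
        (TateHm1.map_exact hXS x).1 (Subsingleton.elim _ _)
      refine ⟨y, ?_⟩
      have h2 : TateHm1.map ((mulSC p R).map (resFunctor S.subtype)).f y =
          TateHm1.map (p • 𝟙 (res S.subtype R)) y :=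
        congrArg (fun φ : res S.subtype R ⟶ res S.subtype R => TateHm1.map φ y) hf
      rw [← hy, h2, TateHm1.map_nsmul_id]
    · intro x
      have := TateHm1.card_smul_eq_zero (A := res S.subtype R) x
      rwa [← Nat.card_eq_fintype_card, ha, Nat.cast_smul_eq_nsmul] at this
  exact ⟨fun a b => by rw [key a, key b]⟩

end TateLow

section Presentation

variable {k G : Type} [CommRing k] [Group G] [Fintype G] (M : Rep.{0} k G)

/-- the linear map `(M →₀ k) → M` as a morphism of representations of the trivial group -/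
noncomputable def freeCoverBot :
    res (⊥ : Subgroup G).subtype (Rep.trivial k G (M.V →₀ k)) ⟶
      res (⊥ : Subgroup G).subtype M :=
  Rep.ofHom ⟨Finsupp.linearCombination k id, fun g => by
    apply LinearMap.ext
    intro b
    have hg : (g : G) = 1 := Subgroup.mem_bot.1 g.2
    change Finsupp.linearCombination k id b = M.ρ (g : G) (Finsupp.linearCombination k id b)
    rw [hg, map_one]
    rfl⟩

/-- a coinduced, torsion free cover of `M` -/
noncomputable abbrev freeCover : Rep.{0} k G := coindBot (Rep.trivial k G (M.V →₀ k))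

/-- the surjection `Fun(G, M →₀ k) ⟶ M`, `f ↦ ∑_x x⁻¹ • [f x]` -/
noncomputable def freeCoverπ : freeCover M ⟶ M :=
  (coindFunctor k (⊥ : Subgroup G).subtype).map (freeCoverBot M) ≫
    TraceOne.retract M LinearMap.id

theorem freeCoverπ_apply (f : (freeCover M).V) :
    (freeCoverπ M).hom f = ∑ x : G, M.ρ x⁻¹ (Finsupp.linearCombination k id (f.1 x)) := by
  change TraceOne.retractLin M LinearMap.id _ = _
  rw [TraceOne.retractLin_apply]
  rfl

theorem freeCoverπ_surjective : Function.Surjective (freeCoverπ M).hom := by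
  classical
  intro m
  refine ⟨coindBotMk (k := k) (M.V →₀ k) (Pi.single 1 (Finsupp.single m 1)), ?_⟩
  rw [freeCoverπ_apply]
  rw [Finset.sum_eq_single 1]
  · simp
  · intro x _ hx
    simp [Pi.single_eq_of_ne hx]
  · intro h
    exact absurd (Finset.mem_univ _) h

instance : Epi (freeCoverπ M) := (Rep.epi_iff_surjective _).2 (freeCoverπ_surjective M)

theorem freeCover_torsionFree (p : ℕ) (hkp : ∀ c : k, (p : k) * c = 0 → c = 0)
    (f : (freeCover M).V) (hf : p • f = 0) : f = 0 := by
  apply Subtype.ext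
  funext g
  apply Finsupp.ext
  intro m
  apply hkp
  have h1 : (p • f).1 g m = 0 := by rw [hf]; rfl
  rw [← h1]
  change _ = (p • (f.1 g)) m
  rw [Finsupp.smul_apply, nsmul_eq_mul]

/-- the presentation `0 ⟶ R ⟶ Fun(G, M →₀ k) ⟶ M ⟶ 0` -/
noncomputable def presSC : ShortComplex (Rep.{0} k G) :=
  ShortComplex.mk (kernel.ι (freeCoverπ M)) (freeCoverπ M) (kernel.condition _)

theorem presSC_shortExact : (presSC M).ShortExact :=
  ShortComplex.ShortExact.mk' (ShortComplex.exact_kernel _)
    (inferInstanceAs (Mono (kernel.ι (freeCoverπ M)))) (inferInstanceAs (Epi (freeCoverπ M)))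

theorem presSC_X₁_torsionFree (p : ℕ) (hkp : ∀ c : k, (p : k) * c = 0 → c = 0)
    (x : (presSC M).X₁.V) (hx : p • x = 0) : x = 0 := by
  apply shortExact_injective (presSC_shortExact M)
  rw [map_zero]
  have h1 : p • ((presSC M).f.hom x) = 0 := by rw [← map_nsmul, hx, map_zero]
  exact freeCover_torsionFree M p hkp _ h1

end Presentation


section Main

variable {k G : Type} [CommRing k] [Group G] [Fintype G] {p : ℕ} [hp : Fact p.Prime]

/-- the kernel of the presentation has `R/pR` of trace one -/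
theorem traceOne_mulSC_presSC (hk : AddHomsLinear k) (hkp : ∀ c : k, (p : k) * c = 0 → c = 0)
    (hG : IsPGroup p G) (M : Rep.{0} k G) (h1 : IsZero (groupCohomology M 1))
    (h2 : IsZero (groupCohomology M 2)) : TraceOne (mulSC p (presSC M).X₁).X₃ := by
  have hX := presSC_shortExact M
  have key : ∀ n : ℕ, IsZero (groupCohomology M (n + 1)) →
      IsZero (groupCohomology (presSC M).X₁ (n + 2)) := by
    intro n hn
    rw [ModuleCat.isZero_iff_subsingleton]
    have h0 : ∀ x : groupCohomology (presSC M).X₁ (n + 2), x = 0 := by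
      intro x
      obtain ⟨y, rfl⟩ := δ_surjective_of_isZero hX (n + 1)
        (isZero_groupCohomology_coindBot _ (n + 1)) x
      rw [(ModuleCat.isZero_iff_subsingleton.1 hn).elim y 0]
      exact map_zero _
    exact ⟨fun a b => by rw [h0 a, h0 b]⟩
  exact traceOne_mulSC_X₃ hk hG _ (presSC_X₁_torsionFree M p hkp) (key 0 h1) (key 1 h2)

/-- **Nakayama–Tate, upward** (Serre, Local Fields IX §5 Thm 8): for a `p`-group `G` and a
`G`-module `M` with `H¹(G, M) = H²(G, M) = 0`, all `Hⁿ⁺¹(S, M)` vanish, `S ≤ G`. -/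
theorem nakayamaTate_up (hk : AddHomsLinear k) (hkp : ∀ c : k, (p : k) * c = 0 → c = 0)
    (hG : IsPGroup p G) (M : Rep.{0} k G) (h1 : IsZero (groupCohomology M 1))
    (h2 : IsZero (groupCohomology M 2)) (S : Subgroup G) (n : ℕ) :
    IsZero (groupCohomology (res S.subtype M) (n + 1)) := by
  have hX := presSC_shortExact M
  have hXS : ((presSC M).map (resFunctor S.subtype)).ShortExact := (shortExact_res S.subtype).2 hX
  have hB := traceOne_mulSC_presSC hk hkp hG M h1 h2
  have hR : IsZero (groupCohomology ((presSC M).map (resFunctor S.subtype)).X₁ (n + 1 + 1)) :=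
    isZero_res_of_traceOne_mulSC hG _ (presSC_X₁_torsionFree M p hkp) hB S (n + 1)
  have hL : IsZero (groupCohomology ((presSC M).map (resFunctor S.subtype)).X₂ (n + 1)) :=
    isZero_groupCohomology_res_coindBot _ S n
  rw [ModuleCat.isZero_iff_subsingleton]
  refine ⟨fun a b => ?_⟩
  apply δ_injective_of_isZero hXS (n + 1) hL
  exact (ModuleCat.isZero_iff_subsingleton.1 hR).elim _ _

/-- **Nakayama–Tate** in degree `0`. -/
theorem nakayamaTate_tateH0 (hk : AddHomsLinear k) (hkp : ∀ c : k, (p : k) * c = 0 → c = 0)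
    (hG : IsPGroup p G) (M : Rep.{0} k G) (h1 : IsZero (groupCohomology M 1))
    (h2 : IsZero (groupCohomology M 2)) (S : Subgroup G) [Fintype S] :
    Subsingleton (TateH0 (res S.subtype M)) := by
  have hX := presSC_shortExact M
  have hXS : ((presSC M).map (resFunctor S.subtype)).ShortExact := (shortExact_res S.subtype).2 hX
  have hB := traceOne_mulSC_presSC hk hkp hG M h1 h2
  have hR : IsZero (groupCohomology ((presSC M).map (resFunctor S.subtype)).X₁ 1) :=
    isZero_res_of_traceOne_mulSC hG _ (presSC_X₁_torsionFree M p hkp) hB S 0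
  have hL : Subsingleton (TateH0 ((presSC M).map (resFunctor S.subtype)).X₂) :=
    ((traceOne_coindBot _).res S).subsingleton_tateH0
  have key : ∀ z : TateH0 (res S.subtype M), z = 0 := by
    intro z
    obtain ⟨y, rfl⟩ := (TateH0.map_tateδ₀_exact hXS z).1
      ((ModuleCat.isZero_iff_subsingleton.1 hR).elim _ _)
    rw [Subsingleton.elim y 0]
    exact map_zero _
  exact ⟨fun a b => by rw [key a, key b]⟩

/-- **Nakayama–Tate** in degree `-1`. -/
theorem nakayamaTate_tateHm1 (hk : AddHomsLinear k) (hkp : ∀ c : k, (p : k) * c = 0 → c = 0)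
    (hG : IsPGroup p G) (M : Rep.{0} k G) (h1 : IsZero (groupCohomology M 1))
    (h2 : IsZero (groupCohomology M 2)) (S : Subgroup G) [Fintype S] :
    Subsingleton (TateHm1 (res S.subtype M)) := by
  have hX := presSC_shortExact M
  have hXS : ((presSC M).map (resFunctor S.subtype)).ShortExact := (shortExact_res S.subtype).2 hX
  have hB := traceOne_mulSC_presSC hk hkp hG M h1 h2
  have hR : Subsingleton (TateH0 ((presSC M).map (resFunctor S.subtype)).X₁) :=
    subsingleton_tateH0_res_of_traceOne_mulSC hG _ (presSC_X₁_torsionFree M p hkp) hB S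
  have hL : Subsingleton (TateHm1 ((presSC M).map (resFunctor S.subtype)).X₂) :=
    ((traceOne_coindBot _).res S).subsingleton_tateHm1
  have key : ∀ z : TateHm1 (res S.subtype M), z = 0 := by
    intro z
    obtain ⟨y, rfl⟩ := (TateHm1.map_tateδ_exact hXS z).1 (Subsingleton.elim _ _)
    rw [Subsingleton.elim y 0]
    exact map_zero _
  exact ⟨fun a b => by rw [key a, key b]⟩

/-- `ℤ`-coefficient form of `nakayamaTate_up`. -/
theorem nakayamaTate_up_int (hG : IsPGroup p G) (M : Rep.{0} ℤ G)
    (h1 : IsZero (groupCohomology M 1)) (h2 : IsZero (groupCohomology M 2)) (S : Subgroup G)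
    (n : ℕ) : IsZero (groupCohomology (res S.subtype M) (n + 1)) :=
  nakayamaTate_up addHomsLinear_int
    (fun c hc => (mul_eq_zero.1 hc).resolve_left (by exact_mod_cast hp.out.ne_zero)) hG M h1 h2 S n

end Main


end Fermat.Agent.CFT.Coh
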