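/-
P4 / Layer A, tasks A4-SPLIT / A4-H3 (general part): extensions of representations attached to
crossed homomorphisms, and the long exact sequence argument for the splitting module.

* `shortExact_of_concrete` : concrete criterion for short exactness in `Rep k G`.
* `extRep C I Φ hΦ` : for `Φ : G → Hom_k(I, C)` with `Φ (g h) = g ∘ Φ h + Φ g ∘ h`, the
  representation on `C × I`, `g (c, y) = (g c + Φ g y, g y)`; `extSC : 0 ⟶ C ⟶ extRep ⟶ I ⟶ 0`
  with `extSC_shortExact`.
* `map_extSC_f_H2π_eq_zero` : a `2`-cocycle `φ` of `C` dies in `H²(G, extRep)` as soon as there is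
  a `1`-cocycle `e : G → I` with `Φ σ (e τ) = φ (σ, τ) - φ (σ, 1)` (for the splitting module:
  `I = I_G`, `e τ = [τ] - [1]`, `Φ σ [τ] = φ (σ, τ)`).
* `isZero_H1_H2_of_splitting`, `isZero_H3_of_splitting` : the long exact sequence argument of
  Tate's theorem.
* `resTopIso`, `nakayamaTate_up_top` : Nakayama–Tate for `G` itself.
-/
import Fermat.Agent.Lib.CFT.Coh.NakayamaTateUp

set_option autoImplicit false
set_option linter.unusedSectionVars false

namespace Fermat.Agent.CFT.Coh

open CategoryTheory groupCohomology Rep Limits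


section Concrete

variable {k G : Type} [CommRing k] [Group G]

/-- concrete criterion for short exactness in `Rep k G` -/
theorem shortExact_of_concrete (X : ShortComplex (Rep.{0} k G))
    (hinj : Function.Injective X.f.hom) (hsurj : Function.Surjective X.g.hom)
    (hex : ∀ y : X.X₂.V, X.g.hom y = 0 → ∃ x : X.X₁.V, X.f.hom x = y) : X.ShortExact := by
  have hm : Mono X.f := (Rep.mono_iff_injective _).2 hinj
  have he : Epi X.g := (Rep.epi_iff_surjective _).2 hsurj
  refine ShortComplex.ShortExact.mk' ?_ hm he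
  rw [← ShortComplex.exact_map_iff_of_faithful _ (forget₂ (Rep k G) (ModuleCat k)),
    ShortComplex.moduleCat_exact_iff]
  intro y hy
  exact hex y hy

end Concrete


section ExtRep

variable {k G : Type} [CommRing k] [Group G] (C I : Rep.{0} k G)
  (Φ : G → (I.V →ₗ[k] C.V))
  (hΦ : ∀ g h y, Φ (g * h) y = C.ρ g (Φ h y) + Φ g (I.ρ h y))

include hΦ in
theorem crossed_one (y : I.V) : Φ 1 y = 0 := by
  have h := hΦ 1 1 y
  rw [mul_one, map_one, map_one] at h
  simpa using h

/-- the twisted action of one group element on `C × I` -/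
noncomputable def extρFun (g : G) : (C.V × I.V) →ₗ[k] (C.V × I.V) where
  toFun x := (C.ρ g x.1 + Φ g x.2, I.ρ g x.2)
  map_add' x y := by
    apply Prod.ext
    · change C.ρ g (x.1 + y.1) + Φ g (x.2 + y.2) = (C.ρ g x.1 + Φ g x.2) + (C.ρ g y.1 + Φ g y.2)
      rw [map_add, map_add]
      abel
    · change I.ρ g (x.2 + y.2) = I.ρ g x.2 + I.ρ g y.2
      rw [map_add]
  map_smul' c x := by
    apply Prod.ext
    · change C.ρ g (c • x.1) + Φ g (c • x.2) = c • (C.ρ g x.1 + Φ g x.2)
      rw [map_smul, map_smul, smul_add]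
    · change I.ρ g (c • x.2) = c • I.ρ g x.2
      rw [map_smul]

/-- the representation on `C × I` twisted by the crossed homomorphism `Φ` -/
noncomputable def extρ : Representation k G (C.V × I.V) where
  toFun g := extρFun C I Φ g
  map_one' := by
    apply LinearMap.ext
    rintro ⟨c, y⟩
    apply Prod.ext
    · change C.ρ 1 c + Φ 1 y = c
      rw [crossed_one C I Φ hΦ, add_zero, map_one]
      rfl
    · change I.ρ 1 y = y
      rw [map_one]
      rfl
  map_mul' g h := by
    apply LinearMap.ext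
    rintro ⟨c, y⟩
    apply Prod.ext
    · change C.ρ (g * h) c + Φ (g * h) y = C.ρ g (C.ρ h c + Φ h y) + Φ g (I.ρ h y)
      rw [hΦ, map_mul, map_add, add_assoc]
      rfl
    · change I.ρ (g * h) y = I.ρ g (I.ρ h y)
      rw [map_mul]
      rfl

theorem extρ_apply (g : G) (x : C.V × I.V) :
    extρ C I Φ hΦ g x = (C.ρ g x.1 + Φ g x.2, I.ρ g x.2) := rfl

/-- the extension of `I` by `C` attached to the crossed homomorphism `Φ : G → Hom_k(I, C)` -/
noncomputable abbrev extRep : Rep.{0} k G := Rep.of (extρ C I Φ hΦ)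

/-- `0 ⟶ C ⟶ extRep ⟶ I ⟶ 0` -/
noncomputable def extSC : ShortComplex (Rep.{0} k G) :=
  ShortComplex.mk
    (X₁ := C) (X₂ := extRep C I Φ hΦ) (X₃ := I)
    (Rep.ofHom ⟨LinearMap.inl k C.V I.V, fun g => by
      apply LinearMap.ext
      intro c
      apply Prod.ext
      · change C.ρ g c = C.ρ g c + Φ g 0
        rw [map_zero, add_zero]
      · change (0 : I.V) = I.ρ g 0
        rw [map_zero]⟩)
    (Rep.ofHom ⟨LinearMap.snd k C.V I.V, fun g => by
      apply LinearMap.ext
      rintro ⟨c, y⟩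
      rfl⟩)
    (by
      ext c
      rfl)

theorem extSC_f_apply (c : C.V) : (extSC C I Φ hΦ).f.hom c = ((c, 0) : C.V × I.V) := rfl

theorem extSC_g_apply (x : C.V × I.V) : (extSC C I Φ hΦ).g.hom x = x.2 := rfl

theorem extSC_shortExact : (extSC C I Φ hΦ).ShortExact := by
  apply shortExact_of_concrete
  · intro c c' h
    exact congrArg Prod.fst h
  · intro y
    exact ⟨((0, y) : C.V × I.V), rfl⟩
  · rintro ⟨c, y⟩ hy
    refine ⟨c, ?_⟩
    have hy' : y = 0 := hy
    rw [hy']
    rfl

/-- **The cocycle `φ` splits in the extension** attached to `Φ` as soon as there is a `1`-cocycle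
`e : G → I` with `Φ σ (e τ) = φ (σ, τ) - φ (σ, 1)`. -/
theorem map_extSC_f_H2π_eq_zero (φ : cocycles₂ C) (e : G → I.V)
    (he : ∀ σ τ, I.ρ σ (e τ) = e (σ * τ) - e σ)
    (hΦe : ∀ σ τ, Φ σ (e τ) = φ (σ, τ) - φ (σ, 1)) :
    map (MonoidHom.id G) (extSC C I Φ hΦ).f 2 (H2π C φ) = 0 := by
  have h1 := congr($(H2π_comp_map (MonoidHom.id G) (extSC C I Φ hΦ).f) φ)
  rw [ConcreteCategory.comp_apply, ConcreteCategory.comp_apply] at h1
  rw [h1, H2π_eq_zero_iff]
  refine ⟨fun τ => ((φ (1, 1), e τ) : C.V × I.V), ?_⟩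
  funext ⟨σ, τ⟩
  rw [coe_mapCocycles₂]
  change ((extρ C I Φ hΦ σ (φ (1, 1), e τ) - (φ (1, 1), e (σ * τ)) + (φ (1, 1), e σ)) :
    C.V × I.V) = ((φ (σ, τ), 0) : C.V × I.V)
  rw [extρ_apply]
  apply Prod.ext
  · change C.ρ σ (φ (1, 1)) + Φ σ (e τ) - φ (1, 1) + φ (1, 1) = φ (σ, τ)
    rw [hΦe, cocycles₂_map_one_snd φ σ]
    abel
  · change I.ρ σ (e τ) - e (σ * τ) + e σ = 0
    rw [he]
    abel

end ExtRep

section SplittingLES

variable {k Γ : Type} [CommRing k] [Group Γ] {X : ShortComplex (Rep.{0} k Γ)} (hX : X.ShortExact)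

include hX in
/-- The long exact sequence argument for the splitting module: if `H²(X₁)` is generated by a
class `u` that dies in `H²(X₂)`, `H¹(X₁) = 0`, `H²(X₃) = 0` and `|H¹(X₃)| ≤ |H²(X₁)|`, then
`H¹(X₂) = H²(X₂) = 0`. -/
theorem isZero_H1_H2_of_splitting (u : groupCohomology X.X₁ 2)
    (hu : map (MonoidHom.id Γ) X.f 2 u = 0)
    (hgen : ∀ x : groupCohomology X.X₁ 2, ∃ m : ℤ, x = m • u)
    (h1 : IsZero (groupCohomology X.X₁ 1)) (hI2 : IsZero (groupCohomology X.X₃ 2))
    [Finite (groupCohomology X.X₃ 1)]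
    (hcard : Nat.card (groupCohomology X.X₃ 1) ≤ Nat.card (groupCohomology X.X₁ 2)) :
    IsZero (groupCohomology X.X₂ 1) ∧ IsZero (groupCohomology X.X₂ 2) := by
  have hf0 : ∀ x : groupCohomology X.X₁ 2, map (MonoidHom.id Γ) X.f 2 x = 0 := by
    intro x
    obtain ⟨m, rfl⟩ := hgen x
    rw [map_zsmul, hu, smul_zero]
  have hδsurj : Function.Surjective (δ hX 1 2 rfl) := by
    intro x
    exact exists_δ_eq_of_map_f_eq_zero hX 1 x (hf0 x)
  have hδinj : Function.Injective (δ hX 1 2 rfl) :=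
    (hδsurj.bijective_of_nat_card_le hcard).1
  constructor
  · rw [ModuleCat.isZero_iff_subsingleton]
    have key : ∀ z : groupCohomology X.X₂ 1, z = 0 := by
      intro z
      have hw : map (MonoidHom.id Γ) X.g 1 z = 0 := by
        apply hδinj
        rw [δ_map_g_apply, map_zero]
      obtain ⟨c, rfl⟩ := exists_map_f_eq_of_map_g_eq_zero hX 1 z hw
      rw [(ModuleCat.isZero_iff_subsingleton.1 h1).elim c 0]
      exact map_zero _
    exact ⟨fun a b => by rw [key a, key b]⟩
  · rw [ModuleCat.isZero_iff_subsingleton]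
    have key : ∀ y : groupCohomology X.X₂ 2, y = 0 := by
      intro y
      obtain ⟨x, rfl⟩ := exists_map_f_eq_of_map_g_eq_zero hX 2 y
        ((ModuleCat.isZero_iff_subsingleton.1 hI2).elim _ _)
      exact hf0 x
    exact ⟨fun a b => by rw [key a, key b]⟩

include hX in
/-- ... and then `H³(X₁) = 0` as soon as `H³(X₂) = 0`. -/
theorem isZero_H3_of_splitting (hI2 : IsZero (groupCohomology X.X₃ 2))
    (h3 : IsZero (groupCohomology X.X₂ 3)) : IsZero (groupCohomology X.X₁ 3) := by
  rw [ModuleCat.isZero_iff_subsingleton]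
  have key : ∀ x : groupCohomology X.X₁ 3, x = 0 := by
    intro x
    obtain ⟨y, rfl⟩ := exists_δ_eq_of_map_f_eq_zero hX 2 x
      ((ModuleCat.isZero_iff_subsingleton.1 h3).elim _ _)
    rw [(ModuleCat.isZero_iff_subsingleton.1 hI2).elim y 0]
    exact map_zero _
  exact ⟨fun a b => by rw [key a, key b]⟩

end SplittingLES

section Top

variable {k G : Type} [CommRing k] [Group G]

/-- cohomology of the restriction to `⊤` is the cohomology of `G` -/
noncomputable def resTopIso (M : Rep.{0} k G) (n : ℕ) :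
    groupCohomology (res (⊤ : Subgroup G).subtype M) n ≅ groupCohomology M n :=
  mapIso (A := M) (B := res (⊤ : Subgroup G).subtype M) Subgroup.topEquiv
    (LinearEquiv.refl k M.V) (fun _ => rfl) n

variable [Fintype G] {p : ℕ} [hp : Fact p.Prime]

/-- **Nakayama–Tate, upward**, for `G` itself. -/
theorem nakayamaTate_up_top (hk : AddHomsLinear k) (hkp : ∀ c : k, (p : k) * c = 0 → c = 0)
    (hG : IsPGroup p G) (M : Rep.{0} k G) (h1 : IsZero (groupCohomology M 1))
    (h2 : IsZero (groupCohomology M 2)) (n : ℕ) : IsZero (groupCohomology M (n + 1)) :=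
  (nakayamaTate_up hk hkp hG M h1 h2 ⊤ n).of_iso (resTopIso M (n + 1)).symm

end Top


end Fermat.Agent.CFT.Coh
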