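import Mathlib

/-!
# P4 / Layer A5 : index calculus for the Herbrand quotient

Lang, *Algebraic Number Theory*, IX §1.  All statements are identities between relative indices
(`AddSubgroup.relIndex`, with value `0` for infinite index), valid without finiteness hypotheses.

* `relIndex_eq_map_mul_ker` : `(K : H) = (f K : f H) (K ∩ ker f : H ∩ ker f)`.
* `herbrand_invariance` : invariance of the Herbrand quotient under stable subgroups of finite
  index (cross-multiplied form).
* `herbrand_hexagon` : the six atomic indices of the exact hexagon of a stable subgroup.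
-/

set_option autoImplicit false

namespace Fermat.Agent.CFT.Coh.Herbrand

section IndexCalculus

variable {G G' : Type*} [AddCommGroup G] [AddCommGroup G']

/-- Lang's lemma: `(K : H) = (f K : f H) (K ∩ ker f : H ∩ ker f)`. -/
theorem relIndex_eq_map_mul_ker (f : G →+ G') {H K : AddSubgroup G} (h : H ≤ K) :
    H.relIndex K = (H.map f).relIndex (K.map f) * (H ⊓ f.ker).relIndex (K ⊓ f.ker) := by
  set X := f.ker ⊓ K with hX
  have h1 : H ⊔ X ≤ K := sup_le h inf_le_right
  have h2 : H.relIndex (H ⊔ X) * (H ⊔ X).relIndex K = H.relIndex K :=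
    AddSubgroup.relIndex_mul_relIndex H (H ⊔ X) K le_sup_left h1
  have h3 : H.relIndex (H ⊔ X) = (H ⊓ f.ker).relIndex (K ⊓ f.ker) := by
    rw [AddSubgroup.relIndex_sup_left, ← AddSubgroup.inf_relIndex_right, hX]
    congr 1
    · rw [← inf_assoc, inf_comm H f.ker, inf_assoc, inf_eq_left.2 h, inf_comm]
    · rw [inf_comm]
  have h4 : (H ⊔ X).relIndex K = (H.map f).relIndex (K.map f) := by
    rw [AddSubgroup.relIndex_map_map,
      show K ⊔ f.ker = K ⊔ (H ⊔ f.ker) by rw [← sup_assoc, sup_eq_left.2 h],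
      AddSubgroup.relIndex_sup_right, ← AddSubgroup.inf_relIndex_right (H ⊔ f.ker),
      sup_inf_assoc_of_le f.ker h]
  rw [← h2, h3, h4, mul_comm]

/-- Invariance of the Herbrand quotient under passage to a stable subgroup of finite index,
in cross-multiplied form. -/
theorem herbrand_invariance (f g : G →+ G) (hfg : ∀ x, f (g x) = 0) (hgf : ∀ x, g (f x) = 0)
    (H : AddSubgroup G) (hf : H.map f ≤ H) (hg : H.map g ≤ H) (hH : H.index ≠ 0) :
    g.range.relIndex f.ker * (H.map f).relIndex (g.ker ⊓ H) =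
      f.range.relIndex g.ker * (H.map g).relIndex (f.ker ⊓ H) := by
  have hgr : g.range ≤ f.ker := by
    rintro _ ⟨x, rfl⟩
    exact hfg x
  have hfr : f.range ≤ g.ker := by
    rintro _ ⟨x, rfl⟩
    exact hgf x
  have hHg : H.map g ≤ g.range := by
    rintro _ ⟨x, -, rfl⟩
    exact ⟨x, rfl⟩
  have hHf : H.map f ≤ f.range := by
    rintro _ ⟨x, -, rfl⟩
    exact ⟨x, rfl⟩
  have e1 : (H.map g).relIndex g.range * g.range.relIndex f.ker = (H.map g).relIndex f.ker :=
    AddSubgroup.relIndex_mul_relIndex _ _ _ hHg hgr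
  have e1' : (H.map g).relIndex (f.ker ⊓ H) * (f.ker ⊓ H).relIndex f.ker
      = (H.map g).relIndex f.ker :=
    AddSubgroup.relIndex_mul_relIndex _ _ _ (le_inf (hHg.trans hgr) hg) inf_le_left
  have e2 : (H.map f).relIndex f.range * f.range.relIndex g.ker = (H.map f).relIndex g.ker :=
    AddSubgroup.relIndex_mul_relIndex _ _ _ hHf hfr
  have e2' : (H.map f).relIndex (g.ker ⊓ H) * (g.ker ⊓ H).relIndex g.ker
      = (H.map f).relIndex g.ker :=
    AddSubgroup.relIndex_mul_relIndex _ _ _ (le_inf (hHf.trans hfr) hf) inf_le_left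
  have e3 : H.index = (H.map f).relIndex f.range * (f.ker ⊓ H).relIndex f.ker := by
    have := relIndex_eq_map_mul_ker f (le_top : H ≤ ⊤)
    rwa [AddSubgroup.relIndex_top_right, ← AddMonoidHom.range_eq_map, top_inf_eq,
      inf_comm H] at this
  have e3' : H.index = (H.map g).relIndex g.range * (g.ker ⊓ H).relIndex g.ker := by
    have := relIndex_eq_map_mul_ker g (le_top : H ≤ ⊤)
    rwa [AddSubgroup.relIndex_top_right, ← AddMonoidHom.range_eq_map, top_inf_eq,
      inf_comm H] at this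
  apply Nat.eq_of_mul_eq_mul_right (Nat.pos_of_ne_zero hH)
  calc g.range.relIndex f.ker * (H.map f).relIndex (g.ker ⊓ H) * H.index
      = ((H.map g).relIndex g.range * g.range.relIndex f.ker) *
          ((H.map f).relIndex (g.ker ⊓ H) * (g.ker ⊓ H).relIndex g.ker) := by
        rw [e3']; ring
    _ = ((H.map f).relIndex f.range * f.range.relIndex g.ker) *
          ((H.map g).relIndex (f.ker ⊓ H) * (f.ker ⊓ H).relIndex f.ker) := by
        rw [e1, e2', e2, e1', mul_comm]
    _ = f.range.relIndex g.ker * (H.map g).relIndex (f.ker ⊓ H) * H.index := by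
        rw [e3]; ring

/-! ### The hexagon of a stable subgroup -/

section Hexagon

variable (f g : G →+ G) (hfg : ∀ x, f (g x) = 0) (A : AddSubgroup G) (hfA : A.map f ≤ A)
  (hgA : A.map g ≤ A)

include hfg hgA in
/-- `(A_f : gA) = (A_f : gG ∩ A) (gG ∩ A : gA)` -/
theorem hexagon_sub :
    (A.map g).relIndex (f.ker ⊓ A) =
      (A.map g).relIndex (g.range ⊓ A) * (g.range ⊓ A).relIndex (f.ker ⊓ A) := by
  have hgr : g.range ≤ f.ker := by
    rintro _ ⟨x, rfl⟩
    exact hfg x
  have h1 : A.map g ≤ g.range ⊓ A := le_inf (by rintro _ ⟨x, -, rfl⟩; exact ⟨x, rfl⟩) hgA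
  have h2 : g.range ⊓ A ≤ f.ker ⊓ A := inf_le_inf_right _ hgr
  exact (AddSubgroup.relIndex_mul_relIndex _ _ _ h1 h2).symm

include hfg in
/-- `(G_f : gG) = (G_f : A_f + gG) (A_f : gG ∩ A)` -/
theorem hexagon_mid :
    g.range.relIndex f.ker =
      ((f.ker ⊓ A) ⊔ g.range).relIndex f.ker * (g.range ⊓ A).relIndex (f.ker ⊓ A) := by
  have hgr : g.range ≤ f.ker := by
    rintro _ ⟨x, rfl⟩
    exact hfg x
  have h1 : g.range ≤ (f.ker ⊓ A) ⊔ g.range := le_sup_right
  have h2 : (f.ker ⊓ A) ⊔ g.range ≤ f.ker := sup_le inf_le_left hgr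
  rw [← AddSubgroup.relIndex_mul_relIndex _ _ _ h1 h2, AddSubgroup.relIndex_sup_right,
    ← AddSubgroup.inf_relIndex_right g.range (f.ker ⊓ A), mul_comm]
  congr 2
  rw [← inf_assoc, inf_eq_left.2 hgr]

include hfg hfA in
/-- `(f⁻¹A : gG + A) = (fG ∩ A : fA) (G_f : A_f + gG)` -/
theorem hexagon_quot :
    (g.range ⊔ A).relIndex (A.comap f) =
      (A.map f).relIndex (f.range ⊓ A) * ((f.ker ⊓ A) ⊔ g.range).relIndex f.ker := by
  have hgr : g.range ≤ f.ker := by
    rintro _ ⟨x, rfl⟩
    exact hfg x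
  have hkc : f.ker ≤ A.comap f := by
    intro x hx
    rw [AddSubgroup.mem_comap, AddMonoidHom.mem_ker.1 hx]
    exact A.zero_mem
  have h1 : g.range ⊔ A ≤ f.ker ⊔ A := sup_le_sup_right hgr _
  have h2 : f.ker ⊔ A ≤ A.comap f := by
    refine sup_le hkc ?_
    intro x hx
    exact hfA ⟨x, hx, rfl⟩
  rw [← AddSubgroup.relIndex_mul_relIndex _ _ _ h1 h2, mul_comm]
  congr 1
  · rw [relIndex_eq_map_mul_ker f h2, AddSubgroup.map_sup,
      (AddSubgroup.map_eq_bot_iff _).2 le_rfl, bot_sup_eq, AddSubgroup.map_comap_eq,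
      inf_eq_right.2 (le_sup_left : f.ker ≤ f.ker ⊔ A), inf_eq_right.2 hkc,
      AddSubgroup.relIndex_self, mul_one]
  · rw [show f.ker ⊔ A = f.ker ⊔ (g.range ⊔ A) by rw [← sup_assoc, sup_eq_left.2 hgr],
      AddSubgroup.relIndex_sup_right, ← AddSubgroup.inf_relIndex_right (g.range ⊔ A) f.ker,
      sup_inf_assoc_of_le A hgr, sup_comm, inf_comm]

end Hexagon

end IndexCalculus

end Fermat.Agent.CFT.Coh.Herbrand
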