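import Mathlib
import Fermat.Agent.Lib.CFT.Coh.HerbrandIndex

/-!
# P4 / Layer A5 : the Herbrand quotient, elementary API

`Herbrand.Pair A` : two endomorphisms `f, g` of an abelian group with `f ∘ g = 0 = g ∘ f`
(for a cyclic group `⟨σ⟩` of order `n`: `f = σ - 1`, `g = 1 + σ + ⋯ + σ ^ (n - 1)`).
`h0 = |ker f / im g|` (`= |Ĥ⁰|`), `h1 = |ker g / im f|` (`= |Ĥ⁻¹| = |H¹|`), `q = h0 / h1`.
-/

set_option autoImplicit false

namespace Fermat.Agent.CFT.Coh.Herbrand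

/-- Two endomorphisms with `f ∘ g = 0 = g ∘ f`. -/
structure Pair (A : Type*) [AddCommGroup A] where
  /-- first endomorphism (`σ - 1`) -/
  f : A →+ A
  /-- second endomorphism (the norm) -/
  g : A →+ A
  fg : ∀ x, f (g x) = 0
  gf : ∀ x, g (f x) = 0

namespace Pair

variable {A B C : Type*} [AddCommGroup A] [AddCommGroup B] [AddCommGroup C]

/-- `|ker f / im g|`; `0` if infinite. -/
noncomputable def h0 (P : Pair A) : ℕ := P.g.range.relIndex P.f.ker

/-- `|ker g / im f|`; `0` if infinite. -/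
noncomputable def h1 (P : Pair A) : ℕ := P.f.range.relIndex P.g.ker

/-- The Herbrand quotient is defined. -/
def Defined (P : Pair A) : Prop := P.h0 ≠ 0 ∧ P.h1 ≠ 0

/-- The Herbrand quotient `h0 / h1`. -/
noncomputable def q (P : Pair A) : ℚ := (P.h0 : ℚ) / P.h1

/-- The pair with `f` and `g` exchanged. -/
def swap (P : Pair A) : Pair A := ⟨P.g, P.f, P.gf, P.fg⟩

@[simp] theorem swap_h0 (P : Pair A) : P.swap.h0 = P.h1 := rfl
@[simp] theorem swap_h1 (P : Pair A) : P.swap.h1 = P.h0 := rfl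

theorem range_g_le_ker_f (P : Pair A) : P.g.range ≤ P.f.ker := by
  rintro _ ⟨x, rfl⟩
  exact P.fg x

theorem range_f_le_ker_g (P : Pair A) : P.f.range ≤ P.g.ker := by
  rintro _ ⟨x, rfl⟩
  exact P.gf x

/-- A morphism of pairs. -/
structure Hom (P : Pair A) (Q : Pair B) where
  /-- the underlying additive map -/
  φ : A →+ B
  comm_f : ∀ x, φ (P.f x) = Q.f (φ x)
  comm_g : ∀ x, φ (P.g x) = Q.g (φ x)

theorem relIndex_mul_card_of_le {G : Type*} [AddGroup G] {H K : AddSubgroup G} (h : H ≤ K) :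
    H.relIndex K * Nat.card H = Nat.card K := by
  have h1 := AddSubgroup.card_mul_index (H.addSubgroupOf K)
  have h2 : Nat.card (H.addSubgroupOf K) = Nat.card H :=
    Nat.card_congr (AddSubgroup.addSubgroupOfEquivOfLe h).toEquiv
  rw [AddSubgroup.relIndex, ← h1, h2, mul_comm]

/-- For a finite group the Herbrand quotient is `1`. -/
theorem h0_eq_h1_of_finite [Finite A] (P : Pair A) : P.h0 = P.h1 := by
  have e1 := relIndex_mul_card_of_le P.range_g_le_ker_f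
  have e2 := relIndex_mul_card_of_le P.range_f_le_ker_g
  have e3 : Nat.card P.f.ker * Nat.card P.f.range = Nat.card A := by
    rw [← AddSubgroup.index_ker, AddSubgroup.card_mul_index]
  have e4 : Nat.card P.g.ker * Nat.card P.g.range = Nat.card A := by
    rw [← AddSubgroup.index_ker, AddSubgroup.card_mul_index]
  have hpos1 : 0 < Nat.card P.g.range := Nat.card_pos
  have hpos2 : 0 < Nat.card P.f.range := Nat.card_pos
  apply Nat.eq_of_mul_eq_mul_right (Nat.mul_pos hpos1 hpos2)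
  calc P.g.range.relIndex P.f.ker * (Nat.card P.g.range * Nat.card P.f.range)
      = (P.g.range.relIndex P.f.ker * Nat.card P.g.range) * Nat.card P.f.range := by ring
    _ = Nat.card A := by rw [e1, e3]
    _ = (P.f.range.relIndex P.g.ker * Nat.card P.f.range) * Nat.card P.g.range := by rw [e2, e4]
    _ = P.f.range.relIndex P.g.ker * (Nat.card P.g.range * Nat.card P.f.range) := by ring

theorem defined_of_finite [Finite A] (P : Pair A) : P.Defined := by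
  have h : ∀ H K : AddSubgroup A, H.relIndex K ≠ 0 := fun H K => by
    have : (H.addSubgroupOf K).FiniteIndex := inferInstance
    exact AddSubgroup.FiniteIndex.index_ne_zero
  exact ⟨h _ _, h _ _⟩

theorem q_of_finite [Finite A] (P : Pair A) : P.q = 1 := by
  have h := P.defined_of_finite
  rw [q, P.h0_eq_h1_of_finite, div_self]
  exact_mod_cast h.2

/-- Invariance under a stable subgroup of finite index (ambient form). -/
theorem index_invariance (P : Pair A) (H : AddSubgroup A) (hf : H.map P.f ≤ H)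
    (hg : H.map P.g ≤ H) (hH : H.index ≠ 0) :
    P.h0 * (H.map P.f).relIndex (P.g.ker ⊓ H) = P.h1 * (H.map P.g).relIndex (P.f.ker ⊓ H) :=
  herbrand_invariance P.f P.g P.fg P.gf H hf hg hH

section Exact

variable (P : Pair A) (Q : Pair B) (R : Pair C) (i : P.Hom Q) (π : Q.Hom R)
  (hi : Function.Injective i.φ) (hπ : Function.Surjective π.φ)
  (hex : ∀ y, π.φ y = 0 ↔ ∃ x, i.φ x = y)

include hi in
theorem h0_eq_of_injective :
    P.h0 = (i.φ.range.map Q.g).relIndex (Q.f.ker ⊓ i.φ.range) := by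
  rw [h0, ← AddSubgroup.relIndex_map_map_of_injective _ _ hi]
  congr 1
  · ext y
    constructor
    · rintro ⟨_, ⟨a, rfl⟩, rfl⟩
      exact ⟨i.φ a, ⟨a, rfl⟩, (i.comm_g a).symm⟩
    · rintro ⟨_, ⟨a, rfl⟩, rfl⟩
      exact ⟨P.g a, ⟨a, rfl⟩, i.comm_g a⟩
  · ext y
    constructor
    · rintro ⟨a, ha, rfl⟩
      refine ⟨?_, ⟨a, rfl⟩⟩
      change Q.f (i.φ a) = 0
      rw [← i.comm_f, AddMonoidHom.mem_ker.1 ha, map_zero]
    · rintro ⟨hy, ⟨a, rfl⟩⟩
      refine ⟨a, ?_, rfl⟩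
      change Q.f (i.φ a) = 0 at hy
      rw [← i.comm_f] at hy
      change P.f a = 0
      exact hi (by rw [hy, map_zero])

include hπ hex in
theorem h0_eq_of_surjective :
    R.h0 = (Q.g.range ⊔ i.φ.range).relIndex (i.φ.range.comap Q.f) := by
  have h1 : (R.f.ker.comap π.φ).map π.φ = R.f.ker :=
    AddSubgroup.map_comap_eq_self_of_surjective hπ _
  rw [h0, ← h1, ← AddSubgroup.relIndex_comap]
  congr 1
  · ext x
    rw [AddSubgroup.mem_comap]
    constructor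
    · rintro ⟨c, hc⟩
      obtain ⟨b, rfl⟩ := hπ c
      rw [← π.comm_g] at hc
      have h2 : π.φ (x - Q.g b) = 0 := by rw [map_sub, hc, sub_self]
      obtain ⟨a, ha⟩ := (hex _).1 h2
      rw [AddSubgroup.mem_sup]
      exact ⟨Q.g b, ⟨b, rfl⟩, x - Q.g b, ⟨a, ha⟩, by abel⟩
    · intro hx
      obtain ⟨y, ⟨b, rfl⟩, z, ⟨a, rfl⟩, rfl⟩ := AddSubgroup.mem_sup.1 hx
      refine ⟨π.φ b, ?_⟩
      rw [map_add, (hex (i.φ a)).2 ⟨a, rfl⟩, add_zero, π.comm_g]
  · ext x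
    rw [AddSubgroup.mem_comap, AddSubgroup.mem_comap, AddMonoidHom.mem_ker, ← π.comm_f, hex]
    rfl

include hi hπ hex in
/-- **Multiplicativity of the Herbrand quotient**, as an identity of natural numbers valid without
any finiteness assumption (`0` = infinite): there are six numbers `x₁, …, x₆` with
`h0 P = x₁ x₂`, `h0 Q = x₄ x₁`, `h0 R = x₃ x₄`, `h1 P = x₆ x₃`, `h1 Q = x₅ x₆`, `h1 R = x₂ x₅`. -/
theorem exists_hexagon : ∃ x₁ x₂ x₃ x₄ x₅ x₆ : ℕ,
    P.h0 = x₁ * x₂ ∧ Q.h0 = x₄ * x₁ ∧ R.h0 = x₃ * x₄ ∧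
    P.h1 = x₆ * x₃ ∧ Q.h1 = x₅ * x₆ ∧ R.h1 = x₂ * x₅ := by
  set A' := i.φ.range with hA'
  have hfA : A'.map Q.f ≤ A' := by
    rintro _ ⟨_, ⟨a, rfl⟩, rfl⟩
    exact ⟨P.f a, i.comm_f a⟩
  have hgA : A'.map Q.g ≤ A' := by
    rintro _ ⟨_, ⟨a, rfl⟩, rfl⟩
    exact ⟨P.g a, i.comm_g a⟩
  -- swapped homs
  let i' : P.swap.Hom Q.swap := ⟨i.φ, i.comm_g, i.comm_f⟩
  let π' : Q.swap.Hom R.swap := ⟨π.φ, π.comm_g, π.comm_f⟩
  refine ⟨(Q.g.range ⊓ A').relIndex (Q.f.ker ⊓ A'), (A'.map Q.g).relIndex (Q.g.range ⊓ A'),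
    (A'.map Q.f).relIndex (Q.f.range ⊓ A'), ((Q.f.ker ⊓ A') ⊔ Q.g.range).relIndex Q.f.ker,
    ((Q.g.ker ⊓ A') ⊔ Q.f.range).relIndex Q.g.ker, (Q.f.range ⊓ A').relIndex (Q.g.ker ⊓ A'),
    ?_, ?_, ?_, ?_, ?_, ?_⟩
  · rw [P.h0_eq_of_injective Q i hi, hexagon_sub Q.f Q.g Q.fg A' hgA, mul_comm]
  · exact hexagon_mid Q.f Q.g Q.fg A'
  · rw [h0_eq_of_surjective P Q R i π hπ hex]
    exact hexagon_quot Q.f Q.g Q.fg A' hfA
  · have := P.swap.h0_eq_of_injective Q.swap i' hi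
    rw [swap_h0] at this
    rw [this]
    have h2 := hexagon_sub Q.g Q.f Q.gf A' hfA
    rw [mul_comm]
    exact h2
  · exact hexagon_mid Q.g Q.f Q.gf A'
  · have := h0_eq_of_surjective P.swap Q.swap R.swap i' π' hπ hex
    rw [swap_h0] at this
    rw [this]
    exact hexagon_quot Q.g Q.f Q.gf A' hgA

include hi hπ hex in
/-- Multiplicativity in `ℕ`: `h0 Q * h1 P * h1 R = h1 Q * h0 P * h0 R`. -/
theorem h0_mul_h1_mul_h1 : Q.h0 * P.h1 * R.h1 = Q.h1 * P.h0 * R.h0 := by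
  obtain ⟨x₁, x₂, x₃, x₄, x₅, x₆, e1, e2, e3, e4, e5, e6⟩ :=
    exists_hexagon P Q R i π hi hπ hex
  rw [e1, e2, e3, e4, e5, e6]
  ring

include hi hπ hex in
theorem defined_mid (hP : P.Defined) (hR : R.Defined) : Q.Defined := by
  obtain ⟨x₁, x₂, x₃, x₄, x₅, x₆, e1, e2, e3, e4, e5, e6⟩ :=
    exists_hexagon P Q R i π hi hπ hex
  obtain ⟨p0, p1⟩ := hP
  obtain ⟨r0, r1⟩ := hR
  rw [e1] at p0; rw [e4] at p1; rw [e3] at r0; rw [e6] at r1
  refine ⟨?_, ?_⟩
  · rw [h0, ← h0, e2]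
    exact Nat.mul_ne_zero (right_ne_zero_of_mul r0) (left_ne_zero_of_mul p0)
  · rw [h1, ← h1, e5]
    exact Nat.mul_ne_zero (right_ne_zero_of_mul r1) (left_ne_zero_of_mul p1)

include hi hπ hex in
theorem defined_right (hP : P.Defined) (hQ : Q.Defined) : R.Defined := by
  obtain ⟨x₁, x₂, x₃, x₄, x₅, x₆, e1, e2, e3, e4, e5, e6⟩ :=
    exists_hexagon P Q R i π hi hπ hex
  obtain ⟨p0, p1⟩ := hP
  obtain ⟨q0, q1⟩ := hQ
  rw [e1] at p0; rw [e4] at p1; rw [e2] at q0; rw [e5] at q1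
  refine ⟨?_, ?_⟩
  · rw [e3]
    exact Nat.mul_ne_zero (right_ne_zero_of_mul p1) (left_ne_zero_of_mul q0)
  · rw [e6]
    exact Nat.mul_ne_zero (right_ne_zero_of_mul p0) (left_ne_zero_of_mul q1)

include hi hπ hex in
theorem defined_left (hQ : Q.Defined) (hR : R.Defined) : P.Defined := by
  obtain ⟨x₁, x₂, x₃, x₄, x₅, x₆, e1, e2, e3, e4, e5, e6⟩ :=
    exists_hexagon P Q R i π hi hπ hex
  obtain ⟨q0, q1⟩ := hQ
  obtain ⟨r0, r1⟩ := hR
  rw [e2] at q0; rw [e5] at q1; rw [e3] at r0; rw [e6] at r1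
  refine ⟨?_, ?_⟩
  · rw [e1]
    exact Nat.mul_ne_zero (right_ne_zero_of_mul q0) (left_ne_zero_of_mul r1)
  · rw [e4]
    exact Nat.mul_ne_zero (right_ne_zero_of_mul q1) (left_ne_zero_of_mul r0)

include hi hπ hex in
/-- **Multiplicativity of the Herbrand quotient** on short exact sequences. -/
theorem q_mul_of_exact (hP : P.Defined) (hR : R.Defined) : Q.q = P.q * R.q := by
  have hQ := defined_mid P Q R i π hi hπ hex hP hR
  have key := h0_mul_h1_mul_h1 P Q R i π hi hπ hex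
  have key' : (Q.h0 : ℚ) * P.h1 * R.h1 = Q.h1 * P.h0 * R.h0 := by exact_mod_cast key
  have a1 : (P.h1 : ℚ) ≠ 0 := by exact_mod_cast hP.2
  have a2 : (R.h1 : ℚ) ≠ 0 := by exact_mod_cast hR.2
  have a3 : (Q.h1 : ℚ) ≠ 0 := by exact_mod_cast hQ.2
  rw [q, q, q]
  field_simp
  linarith

end Exact

end Pair

end Fermat.Agent.CFT.Coh.Herbrand
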