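import Mathlib
import Fermat.Agent.Lib.CFT.Coh.Herbrand

/-!
# P4 / Layer A5 : Herbrand quotient of a cyclic action

* `Pair.ofCyclic σ n hσ` : `f = σ - 1`, `g = 1 + σ + ⋯ + σ ^ (n - 1)`.
* `Pair.ofCyclicHom` : an additive map commuting with the generators is a morphism of pairs.
* `Pair.q_int_trivial` : `h(ℤ) = n`.
* `Pair.restrict`, `Pair.quotient`, `Pair.q_restrict` : invariance under stable subgroups of finite
  index.
* `Pair.h0_eq_one_of_trace_one`, `Pair.h1_eq_one_of_trace_one` : induced modules (in the form: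
  there is an endomorphism `π` with `∑ i < n, σ ^ i ∘ π ∘ σ ^ (n - i) = 1`) are acyclic.
-/

set_option autoImplicit false

namespace Fermat.Agent.CFT.Coh.Herbrand

namespace Pair

open Finset

variable {A B C : Type*} [AddCommGroup A] [AddCommGroup B] [AddCommGroup C]

/-! ### Isomorphism invariance -/

theorem h0_eq_of_equiv (P : Pair A) (Q : Pair B) (e : A ≃+ B)
    (hf : ∀ x, e (P.f x) = Q.f (e x)) (hg : ∀ x, e (P.g x) = Q.g (e x)) : P.h0 = Q.h0 := by
  have h := P.h0_eq_of_injective Q ⟨e.toAddMonoidHom, hf, hg⟩ e.injective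
  have hr : (e.toAddMonoidHom).range = ⊤ := AddMonoidHom.range_eq_top.2 e.surjective
  rw [h]
  change (AddSubgroup.map Q.g (e.toAddMonoidHom).range).relIndex
    (Q.f.ker ⊓ (e.toAddMonoidHom).range) = _
  rw [hr, inf_top_eq, ← AddMonoidHom.range_eq_map, h0]

theorem h1_eq_of_equiv (P : Pair A) (Q : Pair B) (e : A ≃+ B)
    (hf : ∀ x, e (P.f x) = Q.f (e x)) (hg : ∀ x, e (P.g x) = Q.g (e x)) : P.h1 = Q.h1 :=
  h0_eq_of_equiv P.swap Q.swap e hg hf

theorem q_eq_of_equiv (P : Pair A) (Q : Pair B) (e : A ≃+ B)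
    (hf : ∀ x, e (P.f x) = Q.f (e x)) (hg : ∀ x, e (P.g x) = Q.g (e x)) : P.q = Q.q := by
  rw [q, q, h0_eq_of_equiv P Q e hf hg, h1_eq_of_equiv P Q e hf hg]

theorem defined_of_equiv (P : Pair A) (Q : Pair B) (e : A ≃+ B)
    (hf : ∀ x, e (P.f x) = Q.f (e x)) (hg : ∀ x, e (P.g x) = Q.g (e x)) (hP : P.Defined) :
    Q.Defined := by
  rw [Defined, ← h0_eq_of_equiv P Q e hf hg, ← h1_eq_of_equiv P Q e hf hg]
  exact hP

/-! ### The pair of a cyclic action -/

/-- The pair `(σ - 1, 1 + σ + ⋯ + σ ^ (n - 1))` of an endomorphism with `σ ^ n = 1`. -/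
def ofCyclic (σ : AddMonoid.End A) (n : ℕ) (hσ : σ ^ n = 1) : Pair A where
  f := (σ - 1 : AddMonoid.End A)
  g := (∑ i ∈ range n, σ ^ i : AddMonoid.End A)
  fg x := by
    have h : (σ - 1) * ∑ i ∈ range n, σ ^ i = 0 := by rw [mul_geom_sum, hσ, sub_self]
    exact DFunLike.congr_fun h x
  gf x := by
    have h : (∑ i ∈ range n, σ ^ i) * (σ - 1) = 0 := by rw [geom_sum_mul, hσ, sub_self]
    exact DFunLike.congr_fun h x

section ofCyclic

variable (σ : AddMonoid.End A) (n : ℕ) (hσ : σ ^ n = 1)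

@[simp] theorem ofCyclic_f_apply (x : A) : (ofCyclic σ n hσ).f x = σ x - x := rfl

theorem end_sum_apply {ι : Type*} (s : Finset ι) (F : ι → AddMonoid.End A) (x : A) :
    (∑ i ∈ s, F i : AddMonoid.End A) x = ∑ i ∈ s, F i x := by
  classical
  induction s using Finset.induction_on with
  | empty => rfl
  | insert a s ha ih =>
    rw [sum_insert ha, sum_insert ha, ← ih]
    rfl

theorem ofCyclic_g_apply (x : A) : (ofCyclic σ n hσ).g x = ∑ i ∈ range n, (σ ^ i) x :=
  end_sum_apply _ _ x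

theorem mem_ker_ofCyclic_f {x : A} : x ∈ (ofCyclic σ n hσ).f.ker ↔ σ x = x := by
  rw [AddMonoidHom.mem_ker, ofCyclic_f_apply, sub_eq_zero]

theorem pow_apply_of_fixed {x : A} (hx : σ x = x) (i : ℕ) : (σ ^ i) x = x := by
  induction i with
  | zero => rfl
  | succ i ih =>
    rw [pow_succ]
    change (σ ^ i) (σ x) = x
    rw [hx, ih]

theorem ofCyclic_g_apply_of_fixed {x : A} (hx : σ x = x) : (ofCyclic σ n hσ).g x = n • x := by
  rw [ofCyclic_g_apply, sum_congr rfl (fun i _ => pow_apply_of_fixed σ hx i), sum_const,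
    card_range]

/-- A subgroup stable under `σ` is stable under `f` and `g`. -/
theorem ofCyclic_stable (H : AddSubgroup A) (hH : ∀ x ∈ H, σ x ∈ H) :
    (∀ x ∈ H, (ofCyclic σ n hσ).f x ∈ H) ∧ (∀ x ∈ H, (ofCyclic σ n hσ).g x ∈ H) := by
  have hpow : ∀ i : ℕ, ∀ x ∈ H, (σ ^ i) x ∈ H := by
    intro i
    induction i with
    | zero => intro x hx; exact hx
    | succ i ih =>
      intro x hx
      rw [pow_succ]
      exact ih _ (hH x hx)
  refine ⟨fun x hx => ?_, fun x hx => ?_⟩
  · rw [ofCyclic_f_apply]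
    exact H.sub_mem (hH x hx) hx
  · rw [ofCyclic_g_apply]
    exact H.sum_mem (fun i _ => hpow i x hx)

end ofCyclic

/-- An additive map commuting with the generators is a morphism of the cyclic pairs. -/
def ofCyclicHom (σ : AddMonoid.End A) (τ : AddMonoid.End B) (n : ℕ) (hσ : σ ^ n = 1)
    (hτ : τ ^ n = 1) (φ : A →+ B) (h : ∀ x, φ (σ x) = τ (φ x)) :
    (ofCyclic σ n hσ).Hom (ofCyclic τ n hτ) where
  φ := φ
  comm_f x := by
    rw [ofCyclic_f_apply, ofCyclic_f_apply, map_sub, h]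
  comm_g x := by
    have hpow : ∀ i : ℕ, ∀ x, φ ((σ ^ i) x) = (τ ^ i) (φ x) := by
      intro i
      induction i with
      | zero => intro x; rfl
      | succ i ih =>
        intro x
        rw [pow_succ, pow_succ]
        change φ ((σ ^ i) (σ x)) = (τ ^ i) (τ (φ x))
        rw [ih, h]
    rw [ofCyclic_g_apply, ofCyclic_g_apply, map_sum]
    exact sum_congr rfl (fun i _ => hpow i x)

@[simp] theorem ofCyclicHom_φ (σ : AddMonoid.End A) (τ : AddMonoid.End B) (n : ℕ)
    (hσ : σ ^ n = 1) (hτ : τ ^ n = 1) (φ : A →+ B) (h : ∀ x, φ (σ x) = τ (φ x)) :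
    (ofCyclicHom σ τ n hσ hτ φ h).φ = φ := rfl

/-! ### Trivial action -/

theorem ofCyclic_one_f (n : ℕ) : (ofCyclic (1 : AddMonoid.End A) n (one_pow n)).f = 0 := by
  ext x
  simp

theorem ofCyclic_one_g (n : ℕ) :
    (ofCyclic (1 : AddMonoid.End A) n (one_pow n)).g = nsmulAddMonoidHom n := by
  ext x
  rw [ofCyclic_g_apply_of_fixed _ _ _ rfl]
  rfl

/-- Trivial action: `h0 = |A / n A|`. -/
theorem h0_ofCyclic_one (n : ℕ) :
    (ofCyclic (1 : AddMonoid.End A) n (one_pow n)).h0 = (nsmulAddMonoidHom (α := A) n).range.index := by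
  rw [h0, ofCyclic_one_f, ofCyclic_one_g, AddMonoidHom.ker_zero, AddSubgroup.relIndex_top_right]

/-- Trivial action: `h1 = |A[n]|`. -/
theorem h1_ofCyclic_one (n : ℕ) :
    (ofCyclic (1 : AddMonoid.End A) n (one_pow n)).h1 = Nat.card (nsmulAddMonoidHom (α := A) n).ker := by
  rw [h1, ofCyclic_one_f, ofCyclic_one_g, AddMonoidHom.range_zero, AddSubgroup.relIndex_bot_left]

/-- `ℤ` with trivial action of a cyclic group of order `n`: `h0 = n`, `h1 = 1`. -/
theorem h0_int_trivial (n : ℕ) :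
    (ofCyclic (1 : AddMonoid.End ℤ) n (one_pow n)).h0 = n := by
  rw [h0_ofCyclic_one, Int.range_nsmulAddMonoidHom, Int.index_zmultiples, Int.natAbs_natCast]

theorem h1_int_trivial (n : ℕ) (hn : n ≠ 0) :
    (ofCyclic (1 : AddMonoid.End ℤ) n (one_pow n)).h1 = 1 := by
  rw [h1_ofCyclic_one]
  have : (nsmulAddMonoidHom (α := ℤ) n).ker = ⊥ := by
    rw [eq_bot_iff]
    intro x hx
    have h : n • x = 0 := hx
    rw [nsmul_eq_mul, mul_eq_zero] at h
    rcases h with h | h
    · exact absurd (by exact_mod_cast h) hn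
    · exact h
  rw [this]
  exact Nat.card_unique

theorem defined_int_trivial (n : ℕ) (hn : n ≠ 0) :
    (ofCyclic (1 : AddMonoid.End ℤ) n (one_pow n)).Defined := by
  refine ⟨?_, ?_⟩
  · rw [h0_int_trivial]; exact hn
  · rw [h1_int_trivial n hn]; exact one_ne_zero

/-- `ℤ` with trivial action of a cyclic group of order `n`: `h = n`. -/
theorem q_int_trivial (n : ℕ) (hn : n ≠ 0) :
    (ofCyclic (1 : AddMonoid.End ℤ) n (one_pow n)).q = n := by
  rw [q, h0_int_trivial, h1_int_trivial n hn, Nat.cast_one, div_one]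

/-! ### Restriction to a stable subgroup, quotient, invariance under finite index -/

section Restrict

variable (P : Pair A) (H : AddSubgroup A) (hf : ∀ x ∈ H, P.f x ∈ H) (hg : ∀ x ∈ H, P.g x ∈ H)

/-- Restriction of a pair to a stable subgroup. -/
def restrict : Pair H where
  f := (P.f.comp H.subtype).codRestrict H (fun x => hf x x.2)
  g := (P.g.comp H.subtype).codRestrict H (fun x => hg x x.2)
  fg x := Subtype.ext (P.fg x)
  gf x := Subtype.ext (P.gf x)

@[simp] theorem restrict_f_coe (x : H) : ((P.restrict H hf hg).f x : A) = P.f x := rfl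
@[simp] theorem restrict_g_coe (x : H) : ((P.restrict H hf hg).g x : A) = P.g x := rfl

/-- The quotient of a pair by a stable subgroup. -/
def quotient : Pair (A ⧸ H) where
  f := QuotientAddGroup.map H H P.f (fun x hx => hf x hx)
  g := QuotientAddGroup.map H H P.g (fun x hx => hg x hx)
  fg x := by
    induction x using QuotientAddGroup.induction_on with
    | H x =>
      change ((P.f (P.g x) : A) : A ⧸ H) = 0
      rw [P.fg]; rfl
  gf x := by
    induction x using QuotientAddGroup.induction_on with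
    | H x =>
      change ((P.g (P.f x) : A) : A ⧸ H) = 0
      rw [P.gf]; rfl

@[simp] theorem quotient_f_mk (x : A) : (P.quotient H hf hg).f (x : A ⧸ H) = (P.f x : A ⧸ H) := rfl
@[simp] theorem quotient_g_mk (x : A) : (P.quotient H hf hg).g (x : A ⧸ H) = (P.g x : A ⧸ H) := rfl

/-- The inclusion of a stable subgroup as a morphism of pairs. -/
def restrictHom : (P.restrict H hf hg).Hom P := ⟨H.subtype, fun _ => rfl, fun _ => rfl⟩

/-- The projection to the quotient as a morphism of pairs. -/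
def quotientHom : P.Hom (P.quotient H hf hg) := ⟨QuotientAddGroup.mk' H, fun _ => rfl, fun _ => rfl⟩

theorem restrictHom_injective : Function.Injective (P.restrictHom H hf hg).φ :=
  Subtype.val_injective

theorem quotientHom_surjective : Function.Surjective (P.quotientHom H hf hg).φ :=
  QuotientAddGroup.mk_surjective

theorem restrict_quotient_exact (y : A) :
    (P.quotientHom H hf hg).φ y = 0 ↔ ∃ x, (P.restrictHom H hf hg).φ x = y := by
  change (y : A ⧸ H) = 0 ↔ _
  rw [QuotientAddGroup.eq_zero_iff]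
  constructor
  · intro hy; exact ⟨⟨y, hy⟩, rfl⟩
  · rintro ⟨x, rfl⟩; exact x.2

/-- `h(A) = h(H) h(A / H)`. -/
theorem q_eq_restrict_mul_quotient (hH : (P.restrict H hf hg).Defined)
    (hQ : (P.quotient H hf hg).Defined) :
    P.Defined ∧ P.q = (P.restrict H hf hg).q * (P.quotient H hf hg).q :=
  ⟨defined_mid _ _ _ _ _ (P.restrictHom_injective H hf hg) (P.quotientHom_surjective H hf hg)
    (P.restrict_quotient_exact H hf hg) hH hQ,
   q_mul_of_exact _ _ _ _ _ (P.restrictHom_injective H hf hg) (P.quotientHom_surjective H hf hg)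
    (P.restrict_quotient_exact H hf hg) hH hQ⟩

/-- Invariance of definedness under a stable subgroup of finite index. -/
theorem defined_restrict_iff (hH : H.index ≠ 0) : (P.restrict H hf hg).Defined ↔ P.Defined := by
  have : H.FiniteIndex := ⟨hH⟩
  have hfin : Finite (A ⧸ H) := AddSubgroup.finite_quotient_of_finiteIndex
  have hQ := (P.quotient H hf hg).defined_of_finite
  constructor
  · intro h
    exact (P.q_eq_restrict_mul_quotient H hf hg h hQ).1
  · intro h
    exact defined_left _ _ _ _ _ (P.restrictHom_injective H hf hg)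
      (P.quotientHom_surjective H hf hg) (P.restrict_quotient_exact H hf hg) h hQ

/-- **Invariance of the Herbrand quotient under a stable subgroup of finite index.** -/
theorem q_restrict (hH : H.index ≠ 0) (hP : P.Defined) : (P.restrict H hf hg).q = P.q := by
  have : H.FiniteIndex := ⟨hH⟩
  have hfin : Finite (A ⧸ H) := AddSubgroup.finite_quotient_of_finiteIndex
  have hQ := (P.quotient H hf hg).defined_of_finite
  have hR := (P.defined_restrict_iff H hf hg hH).2 hP
  rw [(P.q_eq_restrict_mul_quotient H hf hg hR hQ).2, (P.quotient H hf hg).q_of_finite, mul_one]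

end Restrict

/-! ### Restriction of a cyclic action -/

/-- Restriction of an endomorphism to a stable subgroup. -/
def endRestrict (σ : AddMonoid.End A) (H : AddSubgroup A) (hH : ∀ x ∈ H, σ x ∈ H) :
    AddMonoid.End H :=
  (AddMonoidHom.comp σ H.subtype).codRestrict H (fun x => hH x x.2)

@[simp] theorem endRestrict_coe (σ : AddMonoid.End A) (H : AddSubgroup A)
    (hH : ∀ x ∈ H, σ x ∈ H) (x : H) : ((endRestrict σ H hH x : H) : A) = σ x := rfl

theorem endRestrict_pow_coe (σ : AddMonoid.End A) (H : AddSubgroup A)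
    (hH : ∀ x ∈ H, σ x ∈ H) (i : ℕ) (x : H) :
    (((endRestrict σ H hH ^ i) x : H) : A) = (σ ^ i) x := by
  induction i generalizing x with
  | zero => rfl
  | succ i ih =>
    rw [pow_succ, pow_succ]
    change ((endRestrict σ H hH ^ i) (endRestrict σ H hH x) : A) = (σ ^ i) (σ x)
    rw [ih]; rfl

theorem endRestrict_pow_eq_one (σ : AddMonoid.End A) (H : AddSubgroup A)
    (hH : ∀ x ∈ H, σ x ∈ H) (n : ℕ) (hσ : σ ^ n = 1) : endRestrict σ H hH ^ n = 1 := by
  ext x
  rw [endRestrict_pow_coe, hσ]; rfl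

theorem ofCyclic_restrict (σ : AddMonoid.End A) (n : ℕ) (hσ : σ ^ n = 1) (H : AddSubgroup A)
    (hH : ∀ x ∈ H, σ x ∈ H) :
    (ofCyclic σ n hσ).restrict H (ofCyclic_stable σ n hσ H hH).1 (ofCyclic_stable σ n hσ H hH).2 =
      ofCyclic (endRestrict σ H hH) n (endRestrict_pow_eq_one σ H hH n hσ) := by
  have h1 : ((ofCyclic σ n hσ).restrict H (ofCyclic_stable σ n hσ H hH).1
      (ofCyclic_stable σ n hσ H hH).2).f =
      (ofCyclic (endRestrict σ H hH) n (endRestrict_pow_eq_one σ H hH n hσ)).f := by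
    ext x
    rfl
  have h2 : ((ofCyclic σ n hσ).restrict H (ofCyclic_stable σ n hσ H hH).1
      (ofCyclic_stable σ n hσ H hH).2).g =
      (ofCyclic (endRestrict σ H hH) n (endRestrict_pow_eq_one σ H hH n hσ)).g := by
    ext x
    rw [restrict_g_coe, ofCyclic_g_apply, ofCyclic_g_apply, AddSubgroup.val_finsetSum]
    exact sum_congr rfl (fun i _ => (endRestrict_pow_coe σ H hH i x).symm)
  cases hP : (ofCyclic σ n hσ).restrict H (ofCyclic_stable σ n hσ H hH).1
      (ofCyclic_stable σ n hσ H hH).2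
  cases hQ : ofCyclic (endRestrict σ H hH) n (endRestrict_pow_eq_one σ H hH n hσ)
  rw [hP] at h1 h2
  rw [hQ] at h1 h2
  simp only at h1 h2
  subst h1 h2
  rfl

/-! ### Products -/

/-- The product of two pairs. -/
def prod (P : Pair A) (Q : Pair B) : Pair (A × B) where
  f := P.f.prodMap Q.f
  g := P.g.prodMap Q.g
  fg x := Prod.ext (P.fg x.1) (Q.fg x.2)
  gf x := Prod.ext (P.gf x.1) (Q.gf x.2)

theorem q_prod (P : Pair A) (Q : Pair B) (hP : P.Defined) (hQ : Q.Defined) :
    (P.prod Q).Defined ∧ (P.prod Q).q = P.q * Q.q := by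
  let i : P.Hom (P.prod Q) := ⟨AddMonoidHom.inl A B, fun x => by
    change (P.f x, (0 : B)) = (P.f x, Q.f 0); rw [map_zero], fun x => by
    change (P.g x, (0 : B)) = (P.g x, Q.g 0); rw [map_zero]⟩
  let π : (P.prod Q).Hom Q := ⟨AddMonoidHom.snd A B, fun _ => rfl, fun _ => rfl⟩
  have hi : Function.Injective i.φ := fun x y h => (Prod.ext_iff.1 h).1
  have hπ : Function.Surjective π.φ := fun y => ⟨(0, y), rfl⟩
  have hex : ∀ y, π.φ y = 0 ↔ ∃ x, i.φ x = y := by
    rintro ⟨a, b⟩
    change b = 0 ↔ ∃ x, (x, (0 : B)) = (a, b)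
    constructor
    · rintro rfl; exact ⟨a, rfl⟩
    · rintro ⟨x, hx⟩; exact (Prod.ext_iff.1 hx).2.symm
  exact ⟨defined_mid _ _ _ i π hi hπ hex hP hQ, q_mul_of_exact _ _ _ i π hi hπ hex hP hQ⟩

/-! ### Induced modules -/

/-- A telescoping identity in a (non commutative) ring. -/
theorem trace_one_key {R : Type*} [Ring R] (σ π : R) (t : ℕ → R) (k : ℕ) :
    (σ - 1) * ∑ i ∈ range k, σ ^ i * π * ∑ j ∈ range (i + 1), t j =
      σ ^ k * π * ∑ j ∈ range k, t j - ∑ i ∈ range k, σ ^ i * π * t i := by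
  induction k with
  | zero => simp
  | succ k ih =>
    rw [sum_range_succ, mul_add, ih, sum_range_succ (fun i => σ ^ i * π * t i),
      sum_range_succ t k, pow_succ']
    noncomm_ring

section TraceOne

variable (σ : AddMonoid.End A) (n : ℕ) (hσ : σ ^ n = 1) (π : AddMonoid.End A)
  (hπ : ∀ x, ∑ i ∈ range n, (σ ^ i) (π ((σ ^ (n - i)) x)) = x)

include hπ in
/-- Induced modules have trivial `Ĥ⁰`: if `∑ i < n, σ ^ i ∘ π ∘ σ ^ (n - i) = 1` then every fixed
element is a norm. -/
theorem ker_f_le_range_g_of_trace_one : (ofCyclic σ n hσ).f.ker ≤ (ofCyclic σ n hσ).g.range := by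
  intro x hx
  rw [mem_ker_ofCyclic_f] at hx
  refine ⟨π x, ?_⟩
  rw [ofCyclic_g_apply]
  conv_rhs => rw [← hπ x]
  exact sum_congr rfl (fun i _ => by rw [pow_apply_of_fixed σ hx])

include hπ in
/-- Induced modules have trivial `Ĥ⁻¹`: if `∑ i < n, σ ^ i ∘ π ∘ σ ^ (n - i) = 1` then every
element of norm `0` is of the form `σ y - y`. -/
theorem ker_g_le_range_f_of_trace_one : (ofCyclic σ n hσ).g.ker ≤ (ofCyclic σ n hσ).f.range := by
  intro x hx
  rw [AddMonoidHom.mem_ker, ofCyclic_g_apply] at hx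
  have hπ' : ∑ i ∈ range n, σ ^ i * π * σ ^ (n - i) = 1 := by
    ext y
    rw [end_sum_apply]
    exact hπ y
  have key := trace_one_key σ π (fun j => σ ^ (n - j)) n
  rw [hπ', hσ, one_mul] at key
  -- `U x = 0`
  have hU : (∑ j ∈ range n, σ ^ (n - j) : AddMonoid.End A) x = 0 := by
    rw [end_sum_apply]
    have h1 : ∑ j ∈ range n, (σ ^ (n - j)) x = ∑ j ∈ range n, (σ ^ (n - 1 - j + 1)) x := by
      refine sum_congr rfl (fun j hj => ?_)
      rw [mem_range] at hj
      rw [show n - 1 - j + 1 = n - j by omega]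
    rw [h1, Finset.sum_range_reflect (fun j => (σ ^ (j + 1)) x) n]
    have h2 : ∑ j ∈ range n, (σ ^ (j + 1)) x = σ (∑ j ∈ range n, (σ ^ j) x) := by
      rw [map_sum]
      refine sum_congr rfl (fun j _ => ?_)
      rw [pow_succ']; rfl
    rw [h2, hx, map_zero]
  set S : AddMonoid.End A := ∑ i ∈ range n, σ ^ i * π * ∑ j ∈ range (i + 1), σ ^ (n - j) with hS
  have h3 := DFunLike.congr_fun key x
  refine ⟨-(S x), ?_⟩
  rw [ofCyclic_f_apply]
  have h4 : ((σ - 1) * S) x = σ (S x) - S x := rfl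
  have h5 : (π * ∑ j ∈ range n, σ ^ (n - j) - 1 : AddMonoid.End A) x =
      π ((∑ j ∈ range n, σ ^ (n - j) : AddMonoid.End A) x) - x := rfl
  rw [h4, h5, hU, map_zero, zero_sub] at h3
  rw [map_neg, neg_sub_neg, ← neg_sub, h3, neg_neg]

include hπ in
theorem h0_eq_one_of_trace_one : (ofCyclic σ n hσ).h0 = 1 :=
  AddSubgroup.relIndex_eq_one.2 (ker_f_le_range_g_of_trace_one σ n hσ π hπ)

include hπ in
theorem h1_eq_one_of_trace_one : (ofCyclic σ n hσ).h1 = 1 :=
  AddSubgroup.relIndex_eq_one.2 (ker_g_le_range_f_of_trace_one σ n hσ π hπ)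

include hπ in
theorem defined_of_trace_one : (ofCyclic σ n hσ).Defined := by
  rw [Defined, h0_eq_one_of_trace_one σ n hσ π hπ, h1_eq_one_of_trace_one σ n hσ π hπ]
  exact ⟨one_ne_zero, one_ne_zero⟩

include hπ in
/-- The Herbrand quotient of an induced module is `1`. -/
theorem q_of_trace_one : (ofCyclic σ n hσ).q = 1 := by
  rw [q, h0_eq_one_of_trace_one σ n hσ π hπ, h1_eq_one_of_trace_one σ n hσ π hπ, Nat.cast_one,
    div_one]

end TraceOne

end Pair

end Fermat.Agent.CFT.Coh.Herbrand
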