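import Mathlib
import Fermat.Agent.Lib.CFT.Coh.LowTate
import Fermat.Agent.Lib.CFT.Coh.HerbrandCyclic

/-!
# P4 / Layer A1 : cyclic groups, `H²ⁱ ≃ Ĥ⁰`, `H²ⁱ⁺¹ ≃ Ĥ⁻¹`, link with the Herbrand quotient

For a finite cyclic group `G` generated by `g` and `A : Rep k G`:

* `tateH0EquivEven : TateH0 A ≃ₗ[k] groupCohomology A i` for even `i ≠ 0`,
* `tateHm1EquivOdd : TateHm1 A ≃ₗ[k] groupCohomology A i` for odd `i`,
* `card_TateH0_eq_h0`, `card_TateHm1_eq_h1` : the orders of `Ĥ⁰`, `Ĥ⁻¹` are the numbers
  `h0`, `h1` of the Herbrand pair `Pair.ofCyclic (A.ρ g) |G|`.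
-/

set_option autoImplicit false

universe u

namespace Fermat.Agent.CFT.Coh

open CategoryTheory Representation Rep.FiniteCyclicGroup

variable {k G : Type u} [CommRing k] [CommGroup G] [Fintype G] (A : Rep.{u} k G) (g : G)
  (hg : ∀ x, x ∈ Subgroup.zpowers g)

omit [Fintype G] in
include hg in
theorem mem_ker_applyAsHom_sub_iff (x : A.V) :
    x ∈ LinearMap.ker (A.applyAsHom g - 𝟙 A).hom.toLinearMap ↔ x ∈ A.ρ.invariants := by
  rw [Representation.mem_invariants_iff_of_forall_mem_zpowers A.ρ g hg]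
  simp [Rep.sub_hom, sub_eq_zero]

/-- The invariants as the kernel of `ρ(g) - 1`. -/
noncomputable def invariantsEquivKer :
    A.ρ.invariants ≃ₗ[k] LinearMap.ker (A.applyAsHom g - 𝟙 A).hom.toLinearMap :=
  LinearEquiv.ofEq _ _ (by
    ext x
    exact (mem_ker_applyAsHom_sub_iff A g hg x).symm)

omit [Fintype G] in
@[simp] theorem invariantsEquivKer_coe (x : A.ρ.invariants) :
    ((invariantsEquivKer A g hg x : LinearMap.ker (A.applyAsHom g - 𝟙 A).hom.toLinearMap) : A.V) =
      x := rfl

/-- The quotient map `A^G → Hⁱ(G, A)` for even `i ≠ 0`. -/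
noncomputable def invariantsToEven (i : ℕ) [NeZero i] (hi : Even i) :
    A.ρ.invariants →ₗ[k] groupCohomology A i :=
  (groupCohomologyπEven A g hg i hi).hom.comp (invariantsEquivKer A g hg).toLinearMap

theorem invariantsToEven_surjective (i : ℕ) [NeZero i] (hi : Even i) :
    Function.Surjective (invariantsToEven A g hg i hi) := by
  have h1 : Function.Surjective (groupCohomologyπEven A g hg i hi).hom := by
    have e0 : Epi (normHomCompSub A g).moduleCatCyclesIso.inv := IsIso.epi_of_iso _
    have e1 : Epi (normHomCompSub A g).homologyπ := inferInstance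
    have e2 : Epi ((normHomCompSub A g).homologyπ ≫ (groupCohomologyIsoEven A g hg i hi).inv) :=
      epi_comp _ _
    have : Epi (groupCohomologyπEven A g hg i hi) := @epi_comp _ _ _ _ _ _ e0 _ e2
    exact (ModuleCat.epi_iff_surjective _).1 this
  exact h1.comp (invariantsEquivKer A g hg).surjective

theorem invariantsToEven_eq_zero_iff (i : ℕ) [NeZero i] (hi : Even i) (x : A.ρ.invariants) :
    invariantsToEven A g hg i hi x = 0 ↔ x ∈ LinearMap.range (normBar A) := by
  rw [invariantsToEven, LinearMap.comp_apply]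
  erw [groupCohomologyπEven_eq_zero_iff A g hg i hi]
  rw [range_normBar]
  constructor
  · rintro ⟨y, hy⟩
    exact ⟨y, Subtype.ext hy⟩
  · rintro ⟨y, hy⟩
    exact ⟨y, congrArg Subtype.val hy⟩

/-- `Ĥ⁰(G, A) ≃ Hⁱ(G, A)` for a finite cyclic group and even `i ≠ 0`. -/
noncomputable def tateH0EquivEven (i : ℕ) [NeZero i] (hi : Even i) :
    TateH0 A ≃ₗ[k] groupCohomology A i :=
  LinearEquiv.ofBijective
    (Submodule.liftQ _ (invariantsToEven A g hg i hi) (fun x hx => by
      rw [LinearMap.mem_ker]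
      exact (invariantsToEven_eq_zero_iff A g hg i hi x).2 hx))
    ⟨by
      rw [injective_iff_map_eq_zero]
      intro z hz
      obtain ⟨x, rfl⟩ := Submodule.Quotient.mk_surjective _ z
      rw [Submodule.Quotient.mk_eq_zero]
      exact (invariantsToEven_eq_zero_iff A g hg i hi x).1 hz, by
      intro y
      obtain ⟨x, rfl⟩ := invariantsToEven_surjective A g hg i hi y
      exact ⟨Submodule.Quotient.mk x, rfl⟩⟩

/-! ### Odd degrees -/

/-- `ker N → Ĥ⁻¹`. -/
noncomputable def kerNormToTateHm1 : LinearMap.ker A.ρ.norm →ₗ[k] TateHm1 A :=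
  ((Coinvariants.mk A.ρ).comp (LinearMap.ker A.ρ.norm).subtype).codRestrict _ (fun x => by
    rw [LinearMap.mem_ker]
    apply Subtype.ext
    exact x.2)

@[simp] theorem kerNormToTateHm1_apply (x : LinearMap.ker A.ρ.norm) :
    kerNormToTateHm1 A x = TateHm1.mk A x.1 (LinearMap.mem_ker.1 x.2) := rfl

theorem kerNormToTateHm1_surjective : Function.Surjective (kerNormToTateHm1 A) := by
  intro z
  obtain ⟨x, hx, rfl⟩ := TateHm1.mk_surjective A z
  exact ⟨⟨x, hx⟩, rfl⟩

include hg in
theorem ker_kerNormToTateHm1 :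
    LinearMap.ker (kerNormToTateHm1 A) =
      (LinearMap.range (A.applyAsHom g - 𝟙 A).hom.toLinearMap).comap
        (LinearMap.ker A.ρ.norm).subtype := by
  ext x
  rw [LinearMap.mem_ker, kerNormToTateHm1_apply, TateHm1.mk_eq_zero_iff,
    Representation.FiniteCyclicGroup.coinvariantsKer_eq_range A.ρ g hg, Submodule.mem_comap]
  rfl

/-- The quotient map `ker N → Hⁱ(G, A)` for odd `i`. -/
noncomputable def kerNormToOdd (i : ℕ) (hi : Odd i) :
    LinearMap.ker A.ρ.norm →ₗ[k] groupCohomology A i :=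
  (groupCohomologyπOdd A g hg i hi).hom

theorem kerNormToOdd_surjective (i : ℕ) (hi : Odd i) :
    Function.Surjective (kerNormToOdd A g hg i hi) := by
  have e0 : Epi (subCompNormHom A g).moduleCatCyclesIso.inv := IsIso.epi_of_iso _
  have e1 : Epi (subCompNormHom A g).homologyπ := inferInstance
  have e2 : Epi ((subCompNormHom A g).homologyπ ≫ (groupCohomologyIsoOdd A g hg i hi).inv) :=
    epi_comp _ _
  have : Epi (groupCohomologyπOdd A g hg i hi) := @epi_comp _ _ _ _ _ _ e0 _ e2
  exact (ModuleCat.epi_iff_surjective _).1 this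

theorem ker_kerNormToOdd (i : ℕ) (hi : Odd i) :
    LinearMap.ker (kerNormToOdd A g hg i hi) =
      (LinearMap.range (A.applyAsHom g - 𝟙 A).hom.toLinearMap).comap
        (LinearMap.ker A.ρ.norm).subtype := by
  ext x
  rw [LinearMap.mem_ker, Submodule.mem_comap]
  exact groupCohomologyπOdd_eq_zero_iff A g hg i hi x

/-- `Ĥ⁻¹(G, A) ≃ Hⁱ(G, A)` for a finite cyclic group and odd `i`. -/
noncomputable def tateHm1EquivOdd (i : ℕ) (hi : Odd i) : TateHm1 A ≃ₗ[k] groupCohomology A i :=
  ((LinearMap.quotKerEquivOfSurjective _ (kerNormToTateHm1_surjective A)).symm.trans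
    (Submodule.quotEquivOfEq _ _
      ((ker_kerNormToTateHm1 A g hg).trans (ker_kerNormToOdd A g hg i hi).symm))).trans
    (LinearMap.quotKerEquivOfSurjective _ (kerNormToOdd_surjective A g hg i hi))

theorem tateHm1EquivOdd_mk (i : ℕ) (hi : Odd i) (x : A.V) (hx : A.ρ.norm x = 0) :
    tateHm1EquivOdd A g hg i hi (TateHm1.mk A x hx) = groupCohomologyπOdd A g hg i hi ⟨x, hx⟩ := by
  have h1 : (LinearMap.quotKerEquivOfSurjective _ (kerNormToTateHm1_surjective A)).symm
      (TateHm1.mk A x hx) = Submodule.Quotient.mk ⟨x, hx⟩ := by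
    rw [LinearEquiv.symm_apply_eq]
    rfl
  rw [tateHm1EquivOdd, LinearEquiv.trans_apply, LinearEquiv.trans_apply, h1]
  rfl

theorem tateH0EquivEven_mk (i : ℕ) [NeZero i] (hi : Even i) (x : A.ρ.invariants) :
    tateH0EquivEven A g hg i hi (TateH0.mk A x) =
      groupCohomologyπEven A g hg i hi (invariantsEquivKer A g hg x) := rfl

/-! ### Link with the Herbrand pair -/

section HerbrandLink

open Herbrand Finset

include hg in
/-- Sums over a finite cyclic group are sums over the powers of a generator. -/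
theorem sum_eq_sum_range_pow {M : Type*} [AddCommMonoid M] (F : G → M) :
    ∑ x : G, F x = ∑ i ∈ range (Fintype.card G), F (g ^ i) := by
  have hord : orderOf g = Fintype.card G := by
    rw [← Nat.card_eq_fintype_card]
    exact orderOf_eq_card_of_forall_mem_zpowers hg
  have hinj : Function.Injective (fun i : Fin (Fintype.card G) => g ^ (i : ℕ)) := by
    intro i j hij
    apply Fin.ext
    exact pow_injOn_Iio_orderOf (by rw [Set.mem_Iio, hord]; exact i.2)
      (by rw [Set.mem_Iio, hord]; exact j.2) hij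
  have hbij : Function.Bijective (fun i : Fin (Fintype.card G) => g ^ (i : ℕ)) :=
    (Fintype.bijective_iff_injective_and_card _).2 ⟨hinj, by simp⟩
  rw [Finset.sum_range]
  exact (Fintype.sum_bijective _ hbij _ _ (fun _ => rfl)).symm

/-- The action of `g` as an additive endomorphism. -/
noncomputable def repEnd : AddMonoid.End A.V := (A.ρ g).toAddMonoidHom

omit [Fintype G] in
theorem repEnd_pow_apply (i : ℕ) (x : A.V) : (repEnd A g ^ i) x = A.ρ (g ^ i) x := by
  induction i generalizing x with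
  | zero => simp
  | succ i ih =>
    rw [pow_succ, pow_succ]
    change (repEnd A g ^ i) (A.ρ g x) = _
    rw [ih, map_mul]
    rfl

theorem repEnd_pow_card : repEnd A g ^ Fintype.card G = 1 := by
  ext x
  rw [repEnd_pow_apply, pow_card_eq_one, map_one]
  rfl

/-- The Herbrand pair of a representation of a finite cyclic group. -/
noncomputable def cyclicPair : Pair A.V :=
  Pair.ofCyclic (repEnd A g) (Fintype.card G) (repEnd_pow_card A g)

theorem cyclicPair_f_apply (x : A.V) : (cyclicPair A g).f x = A.ρ g x - x := rfl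

include hg in
theorem cyclicPair_g_apply (x : A.V) : (cyclicPair A g).g x = A.ρ.norm x := by
  rw [cyclicPair, Pair.ofCyclic_g_apply, Representation.norm, LinearMap.sum_apply,
    sum_eq_sum_range_pow g hg]
  exact sum_congr rfl (fun i _ => repEnd_pow_apply A g i x)

include hg in
theorem mem_ker_cyclicPair_f (x : A.V) : x ∈ (cyclicPair A g).f.ker ↔ x ∈ A.ρ.invariants := by
  rw [AddMonoidHom.mem_ker, cyclicPair_f_apply, sub_eq_zero,
    Representation.mem_invariants_iff_of_forall_mem_zpowers A.ρ g hg]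

include hg in
/-- `|Ĥ⁰(G, A)| = h0`. -/
theorem card_TateH0_eq_h0 : Nat.card (TateH0 A) = (cyclicPair A g).h0 := by
  have h1 : Nat.card (TateH0 A) = (LinearMap.range (normBar A)).toAddSubgroup.index :=
    (AddSubgroup.index_eq_card _).symm
  rw [h1, Pair.h0]
  -- transport along the inclusion `A^G → A`
  have h2 := AddSubgroup.relIndex_map_map_of_injective
    (LinearMap.range (normBar A)).toAddSubgroup ⊤
    (f := A.ρ.invariants.subtype.toAddMonoidHom) Subtype.val_injective
  rw [AddSubgroup.relIndex_top_right] at h2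
  rw [← h2]
  congr 1
  · ext x
    constructor
    · rintro ⟨_, ⟨y, rfl⟩, rfl⟩
      obtain ⟨y, rfl⟩ := Coinvariants.mk_surjective _ y
      exact ⟨y, cyclicPair_g_apply A g hg y⟩
    · rintro ⟨y, rfl⟩
      exact ⟨normBar A (Coinvariants.mk _ y), ⟨_, rfl⟩, (cyclicPair_g_apply A g hg y).symm⟩
  · ext x
    constructor
    · rintro ⟨y, -, rfl⟩
      exact (mem_ker_cyclicPair_f A g hg _).2 y.2
    · intro hx
      exact ⟨⟨x, (mem_ker_cyclicPair_f A g hg x).1 hx⟩, trivial, rfl⟩

include hg in
/-- `|Ĥ⁻¹(G, A)| = h1`. -/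
theorem card_TateHm1_eq_h1 : Nat.card (TateHm1 A) = (cyclicPair A g).h1 := by
  have e := LinearMap.quotKerEquivOfSurjective _ (kerNormToTateHm1_surjective A)
  have h1 : Nat.card (TateHm1 A) = (LinearMap.ker (kerNormToTateHm1 A)).toAddSubgroup.index := by
    rw [← Nat.card_congr e.toEquiv]
    exact (AddSubgroup.index_eq_card _).symm
  rw [h1, Pair.h1]
  have h2 := AddSubgroup.relIndex_map_map_of_injective
    (LinearMap.ker (kerNormToTateHm1 A)).toAddSubgroup ⊤
    (f := (LinearMap.ker A.ρ.norm).subtype.toAddMonoidHom) Subtype.val_injective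
  rw [AddSubgroup.relIndex_top_right] at h2
  rw [← h2]
  congr 1
  · ext x
    constructor
    · rintro ⟨y, hy, rfl⟩
      have hy' : y ∈ LinearMap.ker (kerNormToTateHm1 A) := hy
      rw [ker_kerNormToTateHm1 A g hg, Submodule.mem_comap] at hy'
      obtain ⟨z, hz⟩ := hy'
      exact ⟨z, hz⟩
    · rintro ⟨z, rfl⟩
      have hz : (cyclicPair A g).f z ∈ LinearMap.ker A.ρ.norm := by
        rw [LinearMap.mem_ker, ← cyclicPair_g_apply A g hg]
        exact (cyclicPair A g).gf z
      refine ⟨⟨_, hz⟩, ?_, rfl⟩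
      change (⟨_, hz⟩ : LinearMap.ker A.ρ.norm) ∈ LinearMap.ker (kerNormToTateHm1 A)
      rw [ker_kerNormToTateHm1 A g hg, Submodule.mem_comap]
      exact ⟨z, rfl⟩
  · ext x
    constructor
    · rintro ⟨y, -, rfl⟩
      rw [AddMonoidHom.mem_ker, cyclicPair_g_apply A g hg]
      exact y.2
    · intro hx
      rw [AddMonoidHom.mem_ker, cyclicPair_g_apply A g hg] at hx
      exact ⟨⟨x, hx⟩, trivial, rfl⟩

include hg in
/-- For a finite cyclic group, `|H²(G, A)| = h0`. -/
theorem card_H2_eq_h0 : Nat.card (groupCohomology A 2) = (cyclicPair A g).h0 := by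
  rw [← card_TateH0_eq_h0 A g hg]
  exact (Nat.card_congr (tateH0EquivEven A g hg 2 (by decide)).toEquiv).symm

include hg in
/-- For a finite cyclic group, `|H¹(G, A)| = h1`. -/
theorem card_H1_eq_h1 : Nat.card (groupCohomology A 1) = (cyclicPair A g).h1 := by
  rw [← card_TateHm1_eq_h1 A g hg]
  exact (Nat.card_congr (tateHm1EquivOdd A g hg 1 (by decide)).toEquiv).symm

end HerbrandLink

end Fermat.Agent.CFT.Coh
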