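/-
P4 / Layer A, task A6: inflation-restriction in degree 2 (Mathlib `groupCohomology` language).

If `H¹(S, A) = 0` for a normal subgroup `S ≤ G` then
`0 ⟶ H²(G ⧸ S, A^S) ⟶ H²(G, A) ⟶ H²(S, A)` is exact.

The proof is a direct 2-cocycle computation in the style of Mathlib's `H1InfRes_exact`
(no dimension shifting).
-/
import Mathlib

set_option autoImplicit false
set_option linter.unusedSectionVars false

namespace Fermat.Agent.CFT.Coh

open CategoryTheory groupCohomology Rep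

/-! ### Elementary cocycle computations -/

section Elementary

variable {k G : Type} [CommRing k] [Group G] (A : Rep k G) (S : Subgroup G) [S.Normal]

/-- the coboundary of a 1-cochain, as a plain function -/
def dOne (c : G → A) : G × G → A := fun p => A.ρ p.1 (c p.2) - c (p.1 * p.2) + c p.1

theorem dOne_apply (c : G → A) (g h : G) : dOne A c (g, h) = A.ρ g (c h) - c (g * h) + c g := rfl

theorem dOne_mem_coboundaries₂ (c : G → A) : dOne A c ∈ coboundaries₂ A := ⟨c, rfl⟩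

theorem dOne_mem_cocycles₂ (c : G → A) : dOne A c ∈ cocycles₂ A :=
  coboundaries₂_le_cocycles₂ A (dOne_mem_coboundaries₂ A c)

theorem dOne_add (c c' : G → A) : dOne A (c + c') = dOne A c + dOne A c' := by
  funext p
  simp only [dOne, Pi.add_apply, map_add]
  abel

theorem dOne_neg (c : G → A) : dOne A (-c) = -dOne A c := by
  funext p
  simp only [dOne, Pi.neg_apply, map_neg]
  abel

/-- `H¹(S, A) = 0`, in elementary form -/
def H1Vanishes : Prop :=
  ∀ z : S → A, (∀ s t : S, z (s * t) = A.ρ s (z t) + z s) → ∃ x : A, ∀ s : S, z s = A.ρ s x - x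

variable {A S}

/-- the chosen coset representative of `g` -/
noncomputable def rep (S : Subgroup G) (g : G) : G := (QuotientGroup.mk g : G ⧸ S).out

theorem rep_mul_left {t : G} (ht : t ∈ S) (g : G) : rep S (t * g) = rep S g := by
  unfold rep
  congr 1
  rw [QuotientGroup.eq]
  have : (t * g)⁻¹ * g = g⁻¹ * t⁻¹ * g := by group
  rw [this]
  exact Subgroup.Normal.conj_mem' ‹_› _ (S.inv_mem ht) _

theorem mul_rep_inv_mem (g : G) : g * (rep S g)⁻¹ ∈ S := by
  obtain ⟨h, hh⟩ := QuotientGroup.mk_out_eq_mul S g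
  unfold rep
  rw [hh]
  have : g * (g * (h : G))⁻¹ = g * (h : G)⁻¹ * g⁻¹ := by group
  rw [this]
  exact Subgroup.Normal.conj_mem ‹_› _ (S.inv_mem h.2) _

theorem rep_mem_iff (g : G) : rep S g ∈ S ↔ g ∈ S := by
  have h := mul_rep_inv_mem (S := S) g
  constructor
  · intro hr
    have : g = g * (rep S g)⁻¹ * rep S g := by group
    rw [this]
    exact S.mul_mem h hr
  · intro hg
    have : rep S g = (g * (rep S g)⁻¹)⁻¹ * g := by group
    rw [this]
    exact S.mul_mem (S.inv_mem h) hg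

/-- Step A: make the cocycle vanish on `S × S`. -/
theorem exists_vanish_SS (a : G × G → A) (b : S → A)
    (hb : ∀ s t : S, a (s, t) = A.ρ s (b t) - b (s * t) + b s) :
    ∃ c : G → A, ∀ s t : G, s ∈ S → t ∈ S → (a + dOne A c) (s, t) = 0 := by
  classical
  refine ⟨fun g => if hg : g ∈ S then -b ⟨g, hg⟩ else 0, fun s t hs ht => ?_⟩
  have hst : s * t ∈ S := S.mul_mem hs ht
  simp only [Pi.add_apply, dOne_apply, dif_pos hs, dif_pos ht, dif_pos hst]
  have := hb ⟨s, hs⟩ ⟨t, ht⟩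
  simp only [MulMemClass.mk_mul_mk] at this
  rw [this, map_neg]
  abel

/-- Step B: make the cocycle vanish on `S × G`. -/
theorem exists_vanish_SG (a : G × G → A) (ha : a ∈ cocycles₂ A)
    (h0 : ∀ s t : G, s ∈ S → t ∈ S → a (s, t) = 0) :
    ∃ c : G → A, ∀ t g : G, t ∈ S → (a + dOne A c) (t, g) = 0 := by
  rw [mem_cocycles₂_iff] at ha
  refine ⟨fun g => a (g * (rep S g)⁻¹, rep S g), fun t g ht => ?_⟩
  simp only [Pi.add_apply, dOne_apply]
  have hσ := mul_rep_inv_mem (S := S) g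
  have h1 : a (t * (rep S t)⁻¹, rep S t) = 0 :=
    h0 _ _ (mul_rep_inv_mem t) ((rep_mem_iff t).2 ht)
  have h2 := ha t (g * (rep S g)⁻¹) (rep S g)
  have h3 : a (t, g * (rep S g)⁻¹) = 0 := h0 _ _ ht hσ
  have h4 : g * (rep S g)⁻¹ * rep S g = g := by group
  rw [h3, h4, add_zero] at h2
  rw [rep_mul_left ht, h1, mul_assoc, h2]
  abel

/-- if `a` vanishes on `S × G` then `a (t g, h) = t • a (g, h)` for `t ∈ S` -/
theorem map_mul_left_of_vanish_SG (a : G × G → A) (ha : a ∈ cocycles₂ A)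
    (h0 : ∀ t g : G, t ∈ S → a (t, g) = 0) (t g h : G) (ht : t ∈ S) :
    a (t * g, h) = A.ρ t (a (g, h)) := by
  rw [mem_cocycles₂_iff] at ha
  have := ha t g h
  rwa [h0 t g ht, h0 t (g * h) ht, add_zero, add_zero] at this

/-- Step C: using `H¹(S, A) = 0`, make the cocycle vanish on `S × G` and `G × S`. -/
theorem exists_vanish_GS (hS : H1Vanishes A S) (a : G × G → A) (ha : a ∈ cocycles₂ A)
    (h0 : ∀ t g : G, t ∈ S → a (t, g) = 0) :
    ∃ c : G → A, (∀ t g : G, t ∈ S → (a + dOne A c) (t, g) = 0) ∧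
      (∀ g t : G, t ∈ S → (a + dOne A c) (g, t) = 0) := by
  classical
  have hi := map_mul_left_of_vanish_SG a ha h0
  have ha' := (mem_cocycles₂_iff a).1 ha
  -- for each `g`, the cocycle `z_g`
  have hx : ∀ g : G, ∃ x : A, ∀ s : S, a (g, s) = A.ρ g (A.ρ s x - x) := by
    intro g
    obtain ⟨x, hx⟩ := hS (fun s => A.ρ g⁻¹ (a (g, s))) (by
      intro s t
      have h1 := ha' g s t
      rw [h0 s t s.2, map_zero, zero_add] at h1
      have h2 : a (g * s, t) = A.ρ (g * s * g⁻¹) (a (g, t)) := by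
        have := hi (g * s * g⁻¹) g t (Subgroup.Normal.conj_mem ‹_› _ s.2 _)
        rwa [show g * (s : G) * g⁻¹ * g = g * s by group] at this
      have h3 : a (g, ((s * t : S) : G)) = a (g, (s : G) * t) := rfl
      rw [h3, ← h1, h2, map_add, ← Module.End.mul_apply, ← map_mul, ← Module.End.mul_apply,
        ← map_mul]
      congr 3
      group)
    refine ⟨x, fun s => ?_⟩
    have := hx s
    rw [← this, ← Module.End.mul_apply, ← map_mul, mul_inv_cancel, map_one, Module.End.one_apply]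
  choose x hx using hx
  set X : G → A := fun g => if g ∈ S then 0 else x (rep S g) with hX
  have hXS : ∀ t : G, t ∈ S → X t = 0 := fun t ht => by simp only [hX, if_pos ht]
  have hXmul : ∀ t g : G, t ∈ S → X (t * g) = X g := by
    intro t g ht
    simp only [hX]
    have : t * g ∈ S ↔ g ∈ S :=
      ⟨fun h => by
        have : g = t⁻¹ * (t * g) := by group
        rw [this]; exact S.mul_mem (S.inv_mem ht) h, fun h => S.mul_mem ht h⟩
    by_cases hg : g ∈ S
    · rw [if_pos hg, if_pos (this.2 hg)]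
    · rw [if_neg hg, if_neg (fun h => hg (this.1 h)), rep_mul_left ht]
  have hXa : ∀ (g : G) (s : G), s ∈ S → a (g, s) = A.ρ g (A.ρ s (X g) - X g) := by
    intro g s hs
    by_cases hg : g ∈ S
    · rw [h0 g s hg, hXS g hg, map_zero, sub_zero, map_zero]
    · simp only [hX, if_neg hg]
      have h1 : g = g * (rep S g)⁻¹ * rep S g := by group
      have h2 := hi (g * (rep S g)⁻¹) (rep S g) s (mul_rep_inv_mem g)
      rw [← h1] at h2
      rw [h2, hx (rep S g) ⟨s, hs⟩, ← Module.End.mul_apply, ← map_mul, ← h1]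
  refine ⟨fun g => A.ρ g (X g), fun t g ht => ?_, fun g t ht => ?_⟩
  · simp only [Pi.add_apply, dOne_apply]
    rw [h0 t g ht, hXmul t g ht, hXS t ht, map_zero, map_mul, Module.End.mul_apply]
    abel
  · simp only [Pi.add_apply, dOne_apply]
    have h1 : g * t = g * t * g⁻¹ * g := by group
    have h2 : X (g * t) = X g := by
      rw [h1]
      exact hXmul _ _ (Subgroup.Normal.conj_mem ‹_› _ ht _)
    rw [hXa g t ht, hXS t ht, h2, map_zero, map_zero, map_sub, map_mul, Module.End.mul_apply]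
    abel

/-- Step D: a cocycle vanishing on `S × G` and `G × S` is inflated from `G ⧸ S`. -/
theorem exists_descent (a : G × G → A) (ha : a ∈ cocycles₂ A)
    (h0 : ∀ t g : G, t ∈ S → a (t, g) = 0) (h0' : ∀ g t : G, t ∈ S → a (g, t) = 0) :
    ∃ ā : cocycles₂ (A.quotientToInvariants S), ∀ g h : G,
      (ā ((g : G ⧸ S), (h : G ⧸ S))).1 = a (g, h) := by
  have hi := map_mul_left_of_vanish_SG a ha h0
  have ha' := (mem_cocycles₂_iff a).1 ha
  have h3 : ∀ g h s : G, s ∈ S → a (g, h * s) = a (g, h) := by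
    intro g h s hs
    have := ha' g h s
    rw [h0' (g * h) s hs, h0' h s hs, map_zero, zero_add, zero_add] at this
    exact this.symm
  have h4 : ∀ g s h : G, s ∈ S → a (g * s, h) = a (g, s * h) := by
    intro g s h hs
    have := ha' g s h
    rwa [h0' g s hs, h0 s h hs, map_zero, zero_add, add_zero] at this
  have h5 : ∀ g s h : G, s ∈ S → a (g, s * h) = a (g, h) := by
    intro g s h hs
    have : s * h = h * (h⁻¹ * s * h) := by group
    rw [this]
    exact h3 _ _ _ (Subgroup.Normal.conj_mem' ‹_› _ hs _)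
  have h6 : ∀ g s h : G, s ∈ S → a (g * s, h) = a (g, h) := fun g s h hs => by
    rw [h4 g s h hs, h5 g s h hs]
  have h7 : ∀ t g h : G, t ∈ S → a (t * g, h) = a (g, h) := by
    intro t g h ht
    have : t * g = g * (g⁻¹ * t * g) := by group
    rw [this]
    exact h6 _ _ _ (Subgroup.Normal.conj_mem' ‹_› _ ht _)
  have h8 : ∀ t g h : G, t ∈ S → A.ρ t (a (g, h)) = a (g, h) := fun t g h ht => by
    rw [← hi t g h ht, h7 t g h ht]
  set ā : (G ⧸ S) × (G ⧸ S) → A.quotientToInvariants S :=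
    fun p => ⟨a (p.1.out, p.2.out), fun s => h8 s _ _ s.2⟩ with hā
  have hval : ∀ g h : G, (ā ((g : G ⧸ S), (h : G ⧸ S))).1 = a (g, h) := by
    intro g h
    obtain ⟨s₁, hs₁⟩ := QuotientGroup.mk_out_eq_mul S g
    obtain ⟨s₂, hs₂⟩ := QuotientGroup.mk_out_eq_mul S h
    simp only [hā]
    rw [hs₁, hs₂, h6 _ _ _ s₁.2, h3 _ _ _ s₂.2]
  have hcoc : ā ∈ cocycles₂ (A.quotientToInvariants S) := by
    rw [mem_cocycles₂_iff]
    intro q₁ q₂ q₃
    induction q₁ using QuotientGroup.induction_on with | H g₁ =>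
    induction q₂ using QuotientGroup.induction_on with | H g₂ =>
    induction q₃ using QuotientGroup.induction_on with | H g₃ =>
    apply Subtype.ext
    rw [← QuotientGroup.mk_mul, ← QuotientGroup.mk_mul]
    have e1 : ((ā ((g₁ * g₂ : G), (g₃ : G ⧸ S)) + ā ((g₁ : G ⧸ S), (g₂ : G ⧸ S)) :
        A.quotientToInvariants S)).1 = a (g₁ * g₂, g₃) + a (g₁, g₂) := by
      rw [← hval, ← hval]; rfl
    have e2 : (((A.quotientToInvariants S).ρ (g₁ : G ⧸ S) (ā ((g₂ : G ⧸ S), (g₃ : G ⧸ S))) +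
        ā ((g₁ : G ⧸ S), ((g₂ * g₃ : G) : G ⧸ S)) : A.quotientToInvariants S)).1 =
          A.ρ g₁ (a (g₂, g₃)) + a (g₁, g₂ * g₃) := by
      rw [← hval, ← hval]; rfl
    rw [e1, e2]
    exact ha' g₁ g₂ g₃
  exact ⟨⟨ā, hcoc⟩, hval⟩

/-- Exactness at `H²(G, A)` in cocycle form: if `H¹(S, A) = 0` and the restriction of the 2-cocycle
`a` to `S` is a coboundary, then `a` is cohomologous to a cocycle inflated from `G ⧸ S`. -/
theorem exists_inflation_of_res_eq_coboundary (hS : H1Vanishes A S) (a : cocycles₂ A) (b : S → A)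
    (hb : ∀ s t : S, a ((s : G), (t : G)) = A.ρ s (b t) - b (s * t) + b s) :
    ∃ (c : G → A) (ā : cocycles₂ (A.quotientToInvariants S)), ∀ g h : G,
      (ā ((g : G ⧸ S), (h : G ⧸ S))).1 = a (g, h) + dOne A c (g, h) := by
  obtain ⟨c₀, h₀⟩ := exists_vanish_SS (S := S) (a : G × G → A) b hb
  have ha₁ : (a : G × G → A) + dOne A c₀ ∈ cocycles₂ A :=
    (cocycles₂ A).add_mem a.2 (dOne_mem_cocycles₂ A c₀)
  obtain ⟨c₁, h₁⟩ := exists_vanish_SG (S := S) _ ha₁ h₀
  have ha₂ : (a : G × G → A) + dOne A c₀ + dOne A c₁ ∈ cocycles₂ A :=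
    (cocycles₂ A).add_mem ha₁ (dOne_mem_cocycles₂ A c₁)
  obtain ⟨c₂, h₂, h₂'⟩ := exists_vanish_GS hS _ ha₂ h₁
  have ha₃ : (a : G × G → A) + dOne A c₀ + dOne A c₁ + dOne A c₂ ∈ cocycles₂ A :=
    (cocycles₂ A).add_mem ha₂ (dOne_mem_cocycles₂ A c₂)
  obtain ⟨ā, hā⟩ := exists_descent _ ha₃ h₂ h₂'
  refine ⟨c₀ + c₁ + c₂, ā, fun g h => ?_⟩
  rw [hā g h, dOne_add, dOne_add]
  simp only [Pi.add_apply]
  abel

/-- Injectivity of inflation in cocycle form: if `H¹(S, A) = 0` and the inflation of the 2-cocycle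
`ā` of `G ⧸ S` is the coboundary of `b`, then `ā` is a coboundary. -/
theorem exists_descent_cochain (hS : H1Vanishes A S) (ā : cocycles₂ (A.quotientToInvariants S))
    (b : G → A)
    (hb : ∀ g h : G, (ā ((g : G ⧸ S), (h : G ⧸ S))).1 = A.ρ g (b h) - b (g * h) + b g) :
    ∃ β : G ⧸ S → A.quotientToInvariants S, ∀ q₁ q₂ : G ⧸ S,
      ā (q₁, q₂) = (A.quotientToInvariants S).ρ q₁ (β q₂) - β (q₁ * q₂) + β q₁ := by
  set e : A := (ā (1, 1)).1 with he
  have heS : ∀ s : G, s ∈ S → A.ρ s e = e := fun s hs => (ā (1, 1)).2 ⟨s, hs⟩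
  have hmk1 : ∀ s : G, s ∈ S → ((s : G) : G ⧸ S) = 1 := fun s hs =>
    (QuotientGroup.eq_one_iff s).2 hs
  -- values of `ā` on the axes
  have hfst : ∀ g : G, (ā ((1 : G ⧸ S), (g : G ⧸ S))).1 = e := fun g => by
    rw [cocycles₂_map_one_fst]
  have hsnd : ∀ g : G, (ā ((g : G ⧸ S), (1 : G ⧸ S))).1 = A.ρ g e := fun g => by
    rw [cocycles₂_map_one_snd]; rfl
  -- `b - e` is a cocycle on `S`
  obtain ⟨x, hx⟩ := hS (fun s => b s - e) (by
    intro s t
    have h1 := hb s t
    rw [hmk1 s s.2, hmk1 t t.2, ← he] at h1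
    have h2 : b ((s * t : S) : G) = A.ρ s (b t) + b s - e := by
      rw [h1]; simp only [Subgroup.coe_mul]; abel
    rw [h2, map_sub, heS s s.2]
    abel)
  set β₀ : G → A := fun g => b g - (A.ρ g x - x) with hβ₀
  have hdβ : ∀ g h : G, A.ρ g (β₀ h) - β₀ (g * h) + β₀ g = A.ρ g (b h) - b (g * h) + b g := by
    intro g h
    simp only [hβ₀, map_sub, map_mul, Module.End.mul_apply]
    abel
  have hβS : ∀ s : G, s ∈ S → β₀ s = e := by
    intro s hs
    have := hx ⟨s, hs⟩
    simp only [hβ₀]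
    rw [← this]
    abel
  have hβr : ∀ g s : G, s ∈ S → β₀ (g * s) = β₀ g := by
    intro g s hs
    have h1 := hb g s
    rw [hmk1 s hs, hsnd, ← hdβ, hβS s hs] at h1
    have : β₀ g - β₀ (g * s) = 0 := by
      have h2 : A.ρ g e - β₀ (g * s) + β₀ g - A.ρ g e = β₀ g - β₀ (g * s) := by abel
      rw [← h2, ← h1, sub_self]
    exact (sub_eq_zero.1 this).symm
  have hβl : ∀ s g : G, s ∈ S → β₀ (s * g) = A.ρ s (β₀ g) := by
    intro s g hs
    have h1 := hb s g
    rw [hmk1 s hs, hfst, ← hdβ, hβS s hs] at h1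
    have : A.ρ s (β₀ g) - β₀ (s * g) = 0 := by
      have h2 : A.ρ s (β₀ g) - β₀ (s * g) + e - e = A.ρ s (β₀ g) - β₀ (s * g) := by abel
      rw [← h2, ← h1, sub_self]
    exact (sub_eq_zero.1 this).symm
  have hβinv : ∀ s g : G, s ∈ S → A.ρ s (β₀ g) = β₀ g := by
    intro s g hs
    rw [← hβl s g hs]
    have : s * g = g * (g⁻¹ * s * g) := by group
    rw [this]
    exact hβr _ _ (Subgroup.Normal.conj_mem' ‹_› _ hs _)
  set β : G ⧸ S → A.quotientToInvariants S :=
    fun q => ⟨β₀ q.out, fun s => hβinv s _ s.2⟩ with hβ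
  have hβval : ∀ g : G, (β (g : G ⧸ S)).1 = β₀ g := by
    intro g
    obtain ⟨s₁, hs₁⟩ := QuotientGroup.mk_out_eq_mul S g
    simp only [hβ]
    rw [hs₁, hβr _ _ s₁.2]
  refine ⟨β, fun q₁ q₂ => ?_⟩
  induction q₁ using QuotientGroup.induction_on with | H g₁ =>
  induction q₂ using QuotientGroup.induction_on with | H g₂ =>
  apply Subtype.ext
  rw [← QuotientGroup.mk_mul]
  have e2 : (((A.quotientToInvariants S).ρ (g₁ : G ⧸ S) (β (g₂ : G ⧸ S)) -
      β ((g₁ * g₂ : G) : G ⧸ S) + β (g₁ : G ⧸ S) : A.quotientToInvariants S)).1 =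
        A.ρ g₁ (β₀ g₂) - β₀ (g₁ * g₂) + β₀ g₁ := by
    rw [← hβval, ← hβval, ← hβval]; rfl
  rw [e2, hb, hdβ]

end Elementary

/-! ### The statements in Mathlib's language -/

section InfRes

variable {k G : Type} [CommRing k] [Group G]

/-- `map 1 φ 2 = 0`: the degree 2 analogue of Mathlib's `map₁_one`. -/
theorem map₂_one {H : Type} [Group H] {A : Rep k H} {B : Rep k G} (φ : res 1 A ⟶ B) :
    map (1 : G →* H) φ 2 = 0 := by
  rw [← cancel_epi (H2π A), H2π_comp_map, Limits.comp_zero]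
  ext x
  rw [ModuleCat.hom_comp, LinearMap.comp_apply, ModuleCat.hom_zero, LinearMap.zero_apply,
    H2π_eq_zero_iff]
  refine ⟨fun _ => φ.hom (x (1, 1)), ?_⟩
  funext p
  have h1 : ∀ g : G, B.ρ g (φ.hom (x (1, 1))) = φ.hom (x (1, 1)) := fun g => by
    rw [← hom_comm_apply φ g]
    congr 1
    change A.ρ ((1 : G →* H) g) (x (1, 1)) = x (1, 1)
    rw [MonoidHom.one_apply, map_one, Module.End.one_apply]
  simp only [d₁₂_hom_apply, h1, sub_add_cancel]
  rfl

variable (A : Rep k G) (S : Subgroup G) [S.Normal]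

/-- The short complex `H²(G ⧸ S, A^S) ⟶ H²(G, A) ⟶ H²(S, A)`. -/
@[simps X₁ X₂ X₃ f g]
noncomputable def H2InfRes : ShortComplex (ModuleCat k) where
  X₁ := groupCohomology (A.quotientToInvariants S) 2
  X₂ := groupCohomology A 2
  X₃ := groupCohomology (res S.subtype A) 2
  f := map (QuotientGroup.mk' S) (ofHom <| A.ρ.quotientToInvariants_lift S) 2
  g := map S.subtype (𝟙 _) 2
  zero := by rw [← map_comp, Category.comp_id, groupCohomology.congr
    (QuotientGroup.mk'_comp_subtype S) (fun f φ => map f φ 2), map₂_one]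

/-- `H¹(S, A) = 0` in elementary form. -/
theorem h1Vanishes_of_isZero (h : Limits.IsZero (groupCohomology (res S.subtype A) 1)) :
    H1Vanishes A S := by
  intro z hz
  have hsub : Subsingleton (groupCohomology (res S.subtype A) 1) :=
    ModuleCat.isZero_iff_subsingleton.1 h
  have hz' : z ∈ cocycles₁ (res S.subtype A) := (mem_cocycles₁_iff (A := res S.subtype A) z).2 hz
  have h0 : H1π (res S.subtype A) ⟨z, hz'⟩ = 0 := Subsingleton.elim _ _
  obtain ⟨x, hx⟩ := (H1π_eq_zero_iff _).1 h0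
  exact ⟨x, fun s => (congr_fun hx s).symm⟩

/-- If `H¹(S, A) = 0`, inflation `H²(G ⧸ S, A^S) ⟶ H²(G, A)` is injective (element form). -/
theorem inf₂_eq_zero (h : Limits.IsZero (groupCohomology (res S.subtype A) 1))
    (x : groupCohomology (A.quotientToInvariants S) 2)
    (hx : map (QuotientGroup.mk' S) (ofHom <| A.ρ.quotientToInvariants_lift S) 2 x = 0) :
    x = 0 := by
  have hS := h1Vanishes_of_isZero A S h
  induction x using H2_induction_on with | h ā =>
  rw [H2π_comp_map_apply (QuotientGroup.mk' S), H2π_eq_zero_iff] at hx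
  obtain ⟨b, hb⟩ := hx
  obtain ⟨β, hβ⟩ := exists_descent_cochain hS ā b (fun g h => (congr_fun hb (g, h)).symm)
  rw [H2π_eq_zero_iff]
  refine ⟨β, ?_⟩
  funext p
  obtain ⟨q₁, q₂⟩ := p
  exact (hβ q₁ q₂).symm

/-- If `H¹(S, A) = 0`, a class in `H²(G, A)` with trivial restriction to `S` is inflated from
`G ⧸ S` (element form). -/
theorem exists_inf₂_eq (h : Limits.IsZero (groupCohomology (res S.subtype A) 1))
    (x : groupCohomology A 2) (hx : map S.subtype (𝟙 (res S.subtype A)) 2 x = 0) :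
    ∃ y : groupCohomology (A.quotientToInvariants S) 2,
      map (QuotientGroup.mk' S) (ofHom <| A.ρ.quotientToInvariants_lift S) 2 y = x := by
  have hS := h1Vanishes_of_isZero A S h
  induction x using H2_induction_on with | h a =>
  rw [H2π_comp_map_apply S.subtype, H2π_eq_zero_iff] at hx
  obtain ⟨b, hb⟩ := hx
  obtain ⟨c, ā, hā⟩ := exists_inflation_of_res_eq_coboundary hS a b
    (fun s t => (congr_fun hb (s, t)).symm)
  refine ⟨H2π _ ā, ?_⟩
  rw [H2π_comp_map_apply (QuotientGroup.mk' S), H2π_eq_iff]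
  refine ⟨c, ?_⟩
  funext p
  obtain ⟨g, h⟩ := p
  have := hā g h
  simp only [Pi.sub_apply]
  rw [show (mapCocycles₂ (QuotientGroup.mk' S) (ofHom <| A.ρ.quotientToInvariants_lift S) ā)
    (g, h) = (ā ((g : G ⧸ S), (h : G ⧸ S))).1 from rfl, this]
  simp only [dOne_apply, d₁₂_hom_apply]
  abel

/-- If `H¹(S, A) = 0`, inflation `H²(G ⧸ S, A^S) ⟶ H²(G, A)` is injective. -/
theorem H2InfRes_mono (h : Limits.IsZero (groupCohomology (res S.subtype A) 1)) :
    Mono (H2InfRes A S).f := by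
  rw [ModuleCat.mono_iff_injective, injective_iff_map_eq_zero]
  exact fun x hx => inf₂_eq_zero A S h x hx

/-- If `H¹(S, A) = 0`, `0 ⟶ H²(G ⧸ S, A^S) ⟶ H²(G, A) ⟶ H²(S, A)` is exact. -/
theorem H2InfRes_exact (h : Limits.IsZero (groupCohomology (res S.subtype A) 1)) :
    (H2InfRes A S).Exact := by
  rw [ShortComplex.moduleCat_exact_iff_ker_sub_range]
  intro x hx
  exact exists_inf₂_eq A S h x (LinearMap.mem_ker.1 hx)

end InfRes

end Fermat.Agent.CFT.Coh
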