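/-
P4 / Layer A, task A3-NT-LOW: Nakayama–Tate in low degrees for finite `p`-groups.

* `isZero_H2_of_pGroup` : if `Ĥ⁰(S, N) = 0` and `H¹(S, N) = 0` for all subgroups `S ≤ G` of a
  finite `p`-group `G`, then `H²(S, N) = 0` for all `S ≤ G`.
* `isZero_H3_of_pGroup` : if `H¹(S, M) = H²(S, M) = 0` for all subgroups `S ≤ G` of a finite
  `p`-group `G`, then `H³(S, M) = 0` for all `S ≤ G`.
-/
import Fermat.Agent.Lib.CFT.Coh.LowTate
import Fermat.Agent.Lib.CFT.Coh.CyclicLink
import Fermat.Agent.Lib.CFT.Coh.InfRes2
import Fermat.Agent.Lib.CFT.Coh.TraceOne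

set_option autoImplicit false
set_option linter.unusedSectionVars false
set_option linter.style.haveILetI false

namespace Fermat.Agent.CFT.Coh

open CategoryTheory groupCohomology Rep Limits

section Elementary

variable {k G : Type} [CommRing k] [Group G] [Fintype G]

/-- `Ĥ⁰(G, A) = 0` iff every invariant element is a norm. -/
theorem subsingleton_tateH0_iff (A : Rep.{0} k G) :
    Subsingleton (TateH0 A) ↔ ∀ x ∈ A.ρ.invariants, ∃ y : A.V, A.ρ.norm y = x := by
  constructor
  · intro h x hx
    have : TateH0.mk A ⟨x, hx⟩ = 0 := Subsingleton.elim _ _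
    exact (TateH0.mk_eq_zero_iff A ⟨x, hx⟩).1 this
  · intro h
    refine ⟨fun a b => ?_⟩
    obtain ⟨x, rfl⟩ := TateH0.mk_surjective A a
    obtain ⟨y, rfl⟩ := TateH0.mk_surjective A b
    have key : ∀ z : A.ρ.invariants, TateH0.mk A z = 0 := fun z =>
      (TateH0.mk_eq_zero_iff A z).2 (h z.1 z.2)
    rw [key x, key y]

theorem norm_apply_eq_sum (A : Rep.{0} k G) (y : A.V) : A.ρ.norm y = ∑ g : G, A.ρ g y := by
  simp [Representation.norm]

end Elementary

section NormQuot

variable {k G : Type} [CommRing k] [Group G] [Fintype G]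

/-- summing over `G` = summing over cosets and then over the subgroup -/
theorem sum_eq_sum_quotient_sum (S : Subgroup G) [Fintype S] [Fintype (G ⧸ S)]
    {M : Type*} [AddCommMonoid M] (F : G → M) :
    ∑ g : G, F g = ∑ q : G ⧸ S, ∑ s : S, F (q.out * (s : G)) := by
  rw [← Fintype.sum_bijective _ (bijective_out_mul_inv S) (fun p => F (p.2.out * (p.1 : G)⁻¹)) F
    (fun p => rfl), Fintype.sum_prod_type_right]
  refine Finset.sum_congr rfl (fun q _ => ?_)
  exact Fintype.sum_equiv (Equiv.inv S) _ _ (fun s => rfl)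

variable (A : Rep.{0} k G) (S : Subgroup G) [S.Normal] [Fintype S] [Fintype (G ⧸ S)]

/-- `N_G = N_{G/S} ∘ N_S`, hence `Ĥ⁰(G/S, A^S)` is a quotient of `Ĥ⁰(G, A)`. -/
theorem subsingleton_tateH0_quotientToInvariants (h : Subsingleton (TateH0 A)) :
    Subsingleton (TateH0 (A.quotientToInvariants S)) := by
  rw [subsingleton_tateH0_iff] at h ⊢
  intro x hx
  have hx1 : (x : A.V) ∈ A.ρ.invariants := by
    intro g
    have := hx (g : G ⧸ S)
    exact congrArg Subtype.val this
  obtain ⟨y, hy⟩ := h x.1 hx1
  have hz : (∑ s : S, A.ρ (s : G) y) ∈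
      Representation.invariants (MonoidHom.comp A.ρ S.subtype) := by
    intro t
    change A.ρ (t : G) (∑ s : S, A.ρ (s : G) y) = ∑ s : S, A.ρ (s : G) y
    rw [map_sum]
    refine Fintype.sum_equiv (Equiv.mulLeft t) _ _ (fun s => ?_)
    change A.ρ (t : G) (A.ρ (s : G) y) = A.ρ ((t * s : S) : G) y
    rw [Subgroup.coe_mul, map_mul]
    rfl
  refine ⟨⟨_, hz⟩, ?_⟩
  apply Subtype.ext
  rw [norm_apply_eq_sum]
  rw [← hy, norm_apply_eq_sum, sum_eq_sum_quotient_sum S]
  rw [AddSubmonoidClass.coe_finsetSum]
  refine Finset.sum_congr rfl (fun q _ => ?_)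
  have h1 : (A.quotientToInvariants S).ρ q ⟨_, hz⟩ =
      (A.quotientToInvariants S).ρ ((q.out : G) : G ⧸ S) ⟨_, hz⟩ := by
    rw [QuotientGroup.out_eq']
  rw [h1]
  change A.ρ q.out (∑ s : S, A.ρ (s : G) y) = _
  rw [map_sum]
  refine Finset.sum_congr rfl (fun s _ => ?_)
  rw [map_mul]
  rfl

end NormQuot

section Cyclic

variable {k Q : Type} [CommRing k] [Group Q] [Fintype Q] [IsCyclic Q]

/-- for a finite cyclic group `H² = Ĥ⁰` -/
theorem isZero_H2_of_isCyclic (A : Rep.{0} k Q) (h : Subsingleton (TateH0 A)) :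
    IsZero (groupCohomology A 2) := by
  letI : CommGroup Q := IsCyclic.commGroup
  obtain ⟨g, hg⟩ := IsCyclic.exists_generator (α := Q)
  have e := tateH0EquivEven A g hg 2 (by decide)
  rw [ModuleCat.isZero_iff_subsingleton]
  exact e.symm.toEquiv.subsingleton

end Cyclic

section PGroup

/-- a nontrivial finite `p`-group has a normal subgroup of index `p` -/
theorem exists_normal_index_eq_prime {G : Type} [Group G] [Finite G] (p : ℕ) [Fact p.Prime]
    (hG : IsPGroup p G) (hnt : Nontrivial G) :
    ∃ H : Subgroup G, H.Normal ∧ H.index = p := by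
  have hp : p.Prime := Fact.out
  obtain ⟨m, hm⟩ := (IsPGroup.iff_card (p := p) (G := G)).1 hG
  have hm0 : m ≠ 0 := by
    rintro rfl
    rw [pow_zero] at hm
    have : 1 < Nat.card G := Finite.one_lt_card
    omega
  obtain ⟨m', rfl⟩ := Nat.exists_eq_succ_of_ne_zero hm0
  obtain ⟨H, hH⟩ := Sylow.exists_subgroup_card_pow_prime (G := G) p (n := m')
    (by rw [hm]; exact pow_dvd_pow p (Nat.le_succ m'))
  have hidx : H.index = p := by
    have h1 := H.card_mul_index
    rw [hH, hm, pow_succ] at h1
    exact Nat.eq_of_mul_eq_mul_left (pow_pos hp.pos m') h1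
  refine ⟨H, ?_, hidx⟩
  apply Subgroup.normal_of_index_eq_minFac_card
  rw [hidx, hm, Nat.pow_minFac (Nat.succ_ne_zero m'), hp.minFac_eq]

end PGroup

section Core

variable {k : Type} [CommRing k]

/-- hypothesis of the low Nakayama–Tate theorem, quantified over all injective homomorphisms
into `G` (this form is stable under passing to subgroups of subgroups) -/
def NTHyp {G : Type} [Group G] (N : Rep.{0} k G) : Prop :=
  ∀ (K : Type) [Group K] [Fintype K] (f : K →* G), Function.Injective f →
    Subsingleton (TateH0 (res f N)) ∧ IsZero (groupCohomology (res f N) 1)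

theorem NTHyp.res {G K : Type} [Group G] [Group K] {N : Rep.{0} k G} (h : NTHyp N) (f : K →* G)
    (hf : Function.Injective f) : NTHyp (res f N) := by
  intro L _ _ g hg
  exact h L (f.comp g) (hf.comp hg)

theorem isZero_H2_of_pGroup_core (p : ℕ) [Fact p.Prime] (n : ℕ) :
    ∀ (G : Type) [Group G] [Fintype G], Fintype.card G = n → IsPGroup p G →
      ∀ N : Rep.{0} k G, NTHyp N → IsZero (groupCohomology N 2) := by
  induction n using Nat.strong_induction_on with
  | _ n ih =>
  intro G _ _ hcard hG N hN
  by_cases htriv : Subsingleton G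
  · exact isZero_groupCohomology_succ_of_subsingleton N 1
  · rw [not_subsingleton_iff_nontrivial] at htriv
    obtain ⟨H, hHn, hHp⟩ := exists_normal_index_eq_prime p hG htriv
    classical
    letI : Fintype H := Fintype.ofFinite _
    letI : Fintype (G ⧸ H) := Fintype.ofFinite _
    have hp : p.Prime := Fact.out
    have hH1 : IsZero (groupCohomology (Rep.res H.subtype N) 1) :=
      (hN H H.subtype H.subtype_injective).2
    have hlt : Fintype.card H < n := by
      have h1 := H.card_mul_index
      rw [hHp, Nat.card_eq_fintype_card, Nat.card_eq_fintype_card, hcard] at h1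
      have : 0 < Fintype.card H := Fintype.card_pos
      nlinarith [hp.one_lt]
    have hH2 : IsZero (groupCohomology (Rep.res H.subtype N) 2) :=
      ih (Fintype.card H) hlt H rfl (hG.to_subgroup H) _ (hN.res H.subtype H.subtype_injective)
    have hQ : IsCyclic (G ⧸ H) := isCyclic_of_prime_card (p := p) (by
      rw [← Subgroup.index_eq_card, hHp])
    have h0 : Subsingleton (TateH0 N) := (hN G (MonoidHom.id G) Function.injective_id).1
    have hQ2 : IsZero (groupCohomology (N.quotientToInvariants H) 2) :=
      isZero_H2_of_isCyclic _ (subsingleton_tateH0_quotientToInvariants N H h0)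
    rw [ModuleCat.isZero_iff_subsingleton]
    suffices h : ∀ x : groupCohomology N 2, x = 0 from ⟨fun a b => by rw [h a, h b]⟩
    intro x
    obtain ⟨y, rfl⟩ := exists_inf₂_eq N H hH1 x
      ((ModuleCat.isZero_iff_subsingleton.1 hH2).elim _ _)
    have hy : y = 0 := (ModuleCat.isZero_iff_subsingleton.1 hQ2).elim _ _
    rw [hy, map_zero]

end Core

section Transport

variable {k : Type} [CommRing k] {G : Type} [Group G]

/-- cohomology of `res f N` for an injective `f` is the cohomology of the restriction to the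
subgroup `f.range` -/
theorem isZero_groupCohomology_res_of_injective {K : Type} [Group K] (N : Rep.{0} k G)
    (f : K →* G) (hf : Function.Injective f) (n : ℕ)
    (h : IsZero (groupCohomology (Rep.res f.range.subtype N) n)) :
    IsZero (groupCohomology (Rep.res f N) n) :=
  h.of_iso (mapIso (A := Rep.res f.range.subtype N) (B := Rep.res f N)
    (MonoidHom.ofInjective hf) (LinearEquiv.refl k N.V) (fun _ => rfl) n)

theorem subsingleton_tateH0_res_of_injective {K : Type} [Group K] [Fintype K] (N : Rep.{0} k G)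
    (f : K →* G) (hf : Function.Injective f) [Fintype f.range]
    (h : Subsingleton (TateH0 (Rep.res f.range.subtype N))) :
    Subsingleton (TateH0 (Rep.res f N)) := by
  rw [subsingleton_tateH0_iff] at h ⊢
  intro x hx
  have hx' : x ∈ (Rep.res f.range.subtype N).ρ.invariants := by
    rintro ⟨s, k, rfl⟩
    exact hx k
  obtain ⟨y, hy⟩ := h x hx'
  refine ⟨y, ?_⟩
  rw [← hy, norm_apply_eq_sum, norm_apply_eq_sum]
  exact Fintype.sum_equiv (MonoidHom.ofInjective hf).toEquiv _ _ (fun g => rfl)

variable [Finite G]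

theorem ntHyp_of_subgroups (N : Rep.{0} k G)
    (h0 : ∀ (S : Subgroup G) [Fintype S], Subsingleton (TateH0 (Rep.res S.subtype N)))
    (h1 : ∀ S : Subgroup G, IsZero (groupCohomology (Rep.res S.subtype N) 1)) : NTHyp N := by
  intro K _ _ f hf
  classical
  letI : Fintype f.range := Fintype.ofFinite _
  exact ⟨subsingleton_tateH0_res_of_injective N f hf (h0 f.range),
    isZero_groupCohomology_res_of_injective N f hf 1 (h1 f.range)⟩

/-- **Nakayama–Tate, low degrees**: for a finite `p`-group `G`, if `Ĥ⁰(S, N) = H¹(S, N) = 0` for all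
subgroups `S ≤ G` then `H²(S, N) = 0` for all subgroups `S ≤ G`. -/
theorem isZero_H2_of_pGroup (p : ℕ) [Fact p.Prime] (hG : IsPGroup p G) (N : Rep.{0} k G)
    (h0 : ∀ (S : Subgroup G) [Fintype S], Subsingleton (TateH0 (Rep.res S.subtype N)))
    (h1 : ∀ S : Subgroup G, IsZero (groupCohomology (Rep.res S.subtype N) 1)) (S : Subgroup G) :
    IsZero (groupCohomology (Rep.res S.subtype N) 2) := by
  classical
  letI : Fintype S := Fintype.ofFinite _
  exact isZero_H2_of_pGroup_core p _ S rfl (hG.to_subgroup S) _
    ((ntHyp_of_subgroups N h0 h1).res S.subtype S.subtype_injective)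

end Transport

section DimShift

variable {k : Type} [CommRing k] {G : Type} [Group G] [Finite G]

/-- **Nakayama–Tate, degree 3**: for a finite `p`-group `G`, if `H¹(S, M) = H²(S, M) = 0` for all
subgroups `S ≤ G` then `H³(S, M) = 0` for all subgroups `S ≤ G`. -/
theorem isZero_H3_of_pGroup (p : ℕ) [Fact p.Prime] (hG : IsPGroup p G) (M : Rep.{0} k G)
    (h1 : ∀ S : Subgroup G, IsZero (groupCohomology (Rep.res S.subtype M) 1))
    (h2 : ∀ S : Subgroup G, IsZero (groupCohomology (Rep.res S.subtype M) 2)) (S : Subgroup G) :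
    IsZero (groupCohomology (Rep.res S.subtype M) 3) := by
  classical
  letI : Fintype G := Fintype.ofFinite _
  have hX := upSC_shortExact M
  have hXT : ∀ T : Subgroup G, ((upSC M).map (resFunctor T.subtype)).ShortExact :=
    fun T => (shortExact_res T.subtype).2 hX
  have hA : ∀ (T : Subgroup G) [Fintype T],
      Subsingleton (TateH0 (Rep.res T.subtype (upSC M).X₃)) := by
    intro T _
    have hex := TateH0.map_tateδ₀_exact (hXT T)
    have h2' : Subsingleton (TateH0 ((upSC M).map (resFunctor T.subtype)).X₂) :=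
      ((traceOne_coindBot M).res T).subsingleton_tateH0
    have h1' : Subsingleton (groupCohomology ((upSC M).map (resFunctor T.subtype)).X₁ 1) :=
      ModuleCat.isZero_iff_subsingleton.1 (h1 T)
    suffices h : ∀ z : TateH0 ((upSC M).map (resFunctor T.subtype)).X₃, z = 0 from
      ⟨fun a b => by rw [h a, h b]⟩
    intro z
    obtain ⟨w, rfl⟩ := (hex z).1 (Subsingleton.elim _ _)
    rw [Subsingleton.elim w 0, map_zero]
  have hB : ∀ T : Subgroup G, IsZero (groupCohomology (Rep.res T.subtype (upSC M).X₃) 1) := by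
    intro T
    have hinj := δ_injective_of_isZero (hXT T) 1 (isZero_groupCohomology_res_coindBot M T 0)
    have h2' : Subsingleton (groupCohomology ((upSC M).map (resFunctor T.subtype)).X₁ 2) :=
      ModuleCat.isZero_iff_subsingleton.1 (h2 T)
    rw [ModuleCat.isZero_iff_subsingleton]
    exact ⟨fun a b => hinj (Subsingleton.elim _ _)⟩
  have hC := isZero_H2_of_pGroup p hG (upSC M).X₃ hA hB S
  have hsurj := δ_surjective_of_isZero (hXT S) 2 (isZero_groupCohomology_res_coindBot M S 2)
  have hC' : Subsingleton (groupCohomology ((upSC M).map (resFunctor S.subtype)).X₃ 2) :=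
    ModuleCat.isZero_iff_subsingleton.1 hC
  rw [ModuleCat.isZero_iff_subsingleton]
  refine ⟨fun a b => ?_⟩
  obtain ⟨a', rfl⟩ := hsurj a
  obtain ⟨b', rfl⟩ := hsurj b
  rw [Subsingleton.elim a' b']

/-- **Nakayama–Tate, all positive degrees**: for a finite `p`-group `G`, if
`H¹(S, M) = H²(S, M) = 0` for all subgroups `S ≤ G` then `Hⁿ⁺¹(S, M) = 0` for all `n` and all
subgroups `S ≤ G`. -/
theorem isZero_groupCohomology_succ_of_pGroup (p : ℕ) [Fact p.Prime] (hG : IsPGroup p G) (n : ℕ) :
    ∀ (M : Rep.{0} k G),
      (∀ S : Subgroup G, IsZero (groupCohomology (Rep.res S.subtype M) 1)) →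
      (∀ S : Subgroup G, IsZero (groupCohomology (Rep.res S.subtype M) 2)) →
      ∀ S : Subgroup G, IsZero (groupCohomology (Rep.res S.subtype M) (n + 1)) := by
  classical
  letI : Fintype G := Fintype.ofFinite _
  induction n with
  | zero => exact fun M h1 _ => h1
  | succ n ih =>
    intro M h1 h2 S
    rcases n with _ | n
    · exact h2 S
    · have h3 := isZero_H3_of_pGroup p hG M h1 h2
      have hX := upSC_shortExact M
      have hXT : ∀ T : Subgroup G, ((upSC M).map (resFunctor T.subtype)).ShortExact :=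
        fun T => (shortExact_res T.subtype).2 hX
      have hB1 : ∀ T : Subgroup G,
          IsZero (groupCohomology (Rep.res T.subtype (upSC M).X₃) 1) := by
        intro T
        have hinj := δ_injective_of_isZero (hXT T) 1 (isZero_groupCohomology_res_coindBot M T 0)
        have h2' : Subsingleton (groupCohomology ((upSC M).map (resFunctor T.subtype)).X₁ 2) :=
          ModuleCat.isZero_iff_subsingleton.1 (h2 T)
        rw [ModuleCat.isZero_iff_subsingleton]
        exact ⟨fun a b => hinj (Subsingleton.elim _ _)⟩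
      have hB2 : ∀ T : Subgroup G,
          IsZero (groupCohomology (Rep.res T.subtype (upSC M).X₃) 2) := by
        intro T
        have hinj := δ_injective_of_isZero (hXT T) 2 (isZero_groupCohomology_res_coindBot M T 1)
        have h3' : Subsingleton (groupCohomology ((upSC M).map (resFunctor T.subtype)).X₁ 3) :=
          ModuleCat.isZero_iff_subsingleton.1 (h3 T)
        rw [ModuleCat.isZero_iff_subsingleton]
        exact ⟨fun a b => hinj (Subsingleton.elim _ _)⟩
      have hC := ih (upSC M).X₃ hB1 hB2 S
      have hsurj := δ_surjective_of_isZero (hXT S) (n + 1 + 1)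
        (isZero_groupCohomology_res_coindBot M S (n + 1 + 1))
      have hC' : Subsingleton
          (groupCohomology ((upSC M).map (resFunctor S.subtype)).X₃ (n + 1 + 1)) :=
        ModuleCat.isZero_iff_subsingleton.1 hC
      rw [ModuleCat.isZero_iff_subsingleton]
      refine ⟨fun a b => ?_⟩
      obtain ⟨a', rfl⟩ := hsurj a
      obtain ⟨b', rfl⟩ := hsurj b
      rw [Subsingleton.elim a' b']

/-- the same for `G` itself -/
theorem isZero_groupCohomology_succ_of_pGroup_top (p : ℕ) [Fact p.Prime] (hG : IsPGroup p G)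
    (M : Rep.{0} k G)
    (h1 : ∀ S : Subgroup G, IsZero (groupCohomology (Rep.res S.subtype M) 1))
    (h2 : ∀ S : Subgroup G, IsZero (groupCohomology (Rep.res S.subtype M) 2)) (n : ℕ) :
    IsZero (groupCohomology M (n + 1)) :=
  isZero_groupCohomology_res_of_injective M (MonoidHom.id G) Function.injective_id (n + 1)
    (isZero_groupCohomology_succ_of_pGroup p hG n M h1 h2 _)

end DimShift

end Fermat.Agent.CFT.Coh

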