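/-
P4 / Layer A: the augmentation ideal `I_G` as a representation, the exact sequence
`0 ⟶ I_G ⟶ k[G] ⟶ k ⟶ 0` and the cohomology of `I_G` on subgroups
(`H¹(H, I_G)` is a quotient of `k / |H|`, `H²(H, I_G) = H¹(H, k) = 0` for `k = ℤ`).
The regular representation is modelled on `G →₀ k`.
-/
import Fermat.Agent.Lib.CFT.Coh.LowTate
import Fermat.Agent.Lib.CFT.Coh.TraceOne

set_option autoImplicit false
set_option linter.unusedSectionVars false
set_option linter.style.haveILetI false

namespace Fermat.Agent.CFT.Coh

open CategoryTheory groupCohomology Rep Limits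

section ShortExactCriterion

variable {k G : Type} [CommRing k] [Group G]

/-- a short complex of representations which is exact on underlying functions is short exact -/
theorem shortExact_of_functions {X : ShortComplex (Rep.{0} k G)}
    (hf : Function.Injective X.f.hom) (hg : Function.Surjective X.g.hom)
    (hex : ∀ y : X.X₂.V, X.g.hom y = 0 → ∃ x : X.X₁.V, X.f.hom x = y) : X.ShortExact := by
  have hmono : Mono X.f := (Rep.mono_iff_injective X.f).2 hf
  have hepi : Epi X.g := (Rep.epi_iff_surjective X.g).2 hg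
  refine ShortComplex.ShortExact.mk' ?_ hmono hepi
  rw [← ShortComplex.exact_map_iff_of_faithful X (forget₂ (Rep k G) (ModuleCat k))]
  rw [ShortComplex.moduleCat_exact_iff]
  intro y hy
  exact hex y hy

end ShortExactCriterion

section Regular

variable (k G : Type) [CommRing k] [Group G]

/-- the left regular representation on `G →₀ k` -/
noncomputable def regRepn : Representation k G (G →₀ k) where
  toFun g := Finsupp.lmapDomain k k (fun x => g * x)
  map_one' := by
    ext x
    simp
  map_mul' g h := by
    ext x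
    simp [mul_assoc]

@[simp] theorem regRepn_single (g x : G) (r : k) :
    regRepn k G g (Finsupp.single x r) = Finsupp.single (g * x) r := by
  simp [regRepn]

/-- the left regular representation `k[G]` -/
noncomputable def regRep : Rep.{0} k G := Rep.of (regRepn k G)

/-- the augmentation `k[G] → k` -/
noncomputable def augLin : (G →₀ k) →ₗ[k] k := Finsupp.linearCombination k (fun _ => (1 : k))

@[simp] theorem augLin_single (x : G) (r : k) : augLin k G (Finsupp.single x r) = r := by
  simp [augLin]

theorem augLin_regRepn (g : G) (y : G →₀ k) : augLin k G (regRepn k G g y) = augLin k G y := by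
  induction y using Finsupp.induction_linear with
  | zero => simp
  | add a b ha hb => rw [map_add, map_add, map_add, ha, hb]
  | single x r => simp

/-- the action of `G` on the augmentation ideal -/
noncomputable def augRepn : Representation k G (LinearMap.ker (augLin k G)) :=
  (regRepn k G).subrepresentation (LinearMap.ker (augLin k G)) (fun g y hy => by
    rw [Submodule.mem_comap, LinearMap.mem_ker, augLin_regRepn]
    exact hy)

@[simp] theorem augRepn_coe (g : G) (y : LinearMap.ker (augLin k G)) :
    ((augRepn k G g y : LinearMap.ker (augLin k G)) : G →₀ k) = regRepn k G g y := rfl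

/-- the augmentation ideal `I_G` as a representation -/
noncomputable def augRep : Rep.{0} k G := Rep.of (X := LinearMap.ker (augLin k G)) (augRepn k G)

/-- the inclusion `I_G ⟶ k[G]` -/
noncomputable def augIncl : augRep k G ⟶ regRep k G :=
  Rep.ofHom ⟨(LinearMap.ker (augLin k G)).subtype, fun _ => rfl⟩

/-- the augmentation `k[G] ⟶ k` -/
noncomputable def augHom : regRep k G ⟶ Rep.trivial k G k :=
  Rep.ofHom ⟨augLin k G, fun g => by
    ext y
    exact augLin_regRepn k G g _⟩

theorem augIncl_apply (y : LinearMap.ker (augLin k G)) :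
    (augIncl k G).hom y = (y : G →₀ k) := rfl

theorem augHom_apply (y : G →₀ k) : (augHom k G).hom y = augLin k G y := rfl

/-- the short complex `0 ⟶ I_G ⟶ k[G] ⟶ k ⟶ 0` -/
noncomputable def augSC : ShortComplex (Rep.{0} k G) :=
  ShortComplex.mk (augIncl k G) (augHom k G) (by
    ext y
    exact y.2)

theorem augSC_shortExact : (augSC k G).ShortExact := by
  refine shortExact_of_functions ?_ ?_ ?_
  · intro a b h
    exact Subtype.ext h
  · intro r
    exact ⟨Finsupp.single 1 r, augLin_single k G 1 r⟩
  · intro y hy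
    exact ⟨⟨y, hy⟩, rfl⟩

theorem traceOne_regRep [Fintype G] : TraceOne (regRep k G) := by
  classical
  refine ⟨(Finsupp.lsingle (1 : G)) ∘ₗ (Finsupp.lapply (1 : G)), fun m => ?_⟩
  change ∑ g : G, regRepn k G g (Finsupp.single 1 ((regRepn k G g⁻¹ m) 1)) = m
  induction m using Finsupp.induction_linear with
  | zero => simp
  | add a b ha hb =>
    simp only [map_add, Finsupp.add_apply, Finsupp.single_add, Finset.sum_add_distrib, ha, hb]
  | single x r =>
    rw [Finset.sum_eq_single x]
    · simp
    · intro g _ hg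
      have hne : g⁻¹ * x ≠ 1 := by
        intro h
        apply hg
        rw [inv_mul_eq_one] at h
        exact h
      rw [regRepn_single k G g⁻¹ x r, Finsupp.single_apply, if_neg hne, Finsupp.single_zero,
        map_zero]
    · simp

end Regular

section Cohomology

variable (k G : Type) [CommRing k] [Group G] [Finite G] (H : Subgroup G)

/-- `0 ⟶ I_G ⟶ k[G] ⟶ k ⟶ 0` restricted to a subgroup -/
theorem augSC_res_shortExact : ((augSC k G).map (resFunctor H.subtype)).ShortExact :=
  (shortExact_res H.subtype).2 (augSC_shortExact k G)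

instance isTrivial_res_trivial : (Rep.res H.subtype (Rep.trivial k G k)).IsTrivial where
  out _ := rfl

/-- `H¹(H, k) = Hom(H, k) = 0` for a finite group `H` and torsion-free `k` -/
theorem isZero_H1_res_trivial (hk : ∀ n : ℕ, 0 < n → ∀ x : k, n • x = 0 → x = 0) :
    IsZero (groupCohomology (Rep.res H.subtype (Rep.trivial k G k)) 1) := by
  have hsub : Subsingleton (Additive H →+ k) := by
    refine ⟨fun f g => ?_⟩
    have key : ∀ f : Additive H →+ k, f = 0 := by
      intro f
      refine DFunLike.ext _ _ (fun x => ?_)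
      apply hk (Nat.card H) Nat.card_pos
      rw [← map_nsmul]
      have : Nat.card H • x = 0 := by
        change Additive.ofMul ((Additive.toMul x) ^ Nat.card H) = 0
        rw [pow_card_eq_one']
        rfl
      rw [this, map_zero]
    rw [key f, key g]
  rw [ModuleCat.isZero_iff_subsingleton]
  exact (H1IsoOfIsTrivial (Rep.res H.subtype (Rep.trivial k G k))).toLinearEquiv.toEquiv.subsingleton

/-- `H²(H, I_G) = 0` for torsion-free `k` -/
theorem isZero_H2_res_augRep (hk : ∀ n : ℕ, 0 < n → ∀ x : k, n • x = 0 → x = 0) :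
    IsZero (groupCohomology (Rep.res H.subtype (augRep k G)) 2) := by
  classical
  letI : Fintype G := Fintype.ofFinite _
  have hY := augSC_res_shortExact k G H
  have hsurj := δ_surjective_of_isZero hY 1 ((traceOne_regRep k G).isZero_groupCohomology_res H 1)
  have h1 : Subsingleton (groupCohomology ((augSC k G).map (resFunctor H.subtype)).X₃ 1) :=
    ModuleCat.isZero_iff_subsingleton.1 (isZero_H1_res_trivial k G H hk)
  rw [ModuleCat.isZero_iff_subsingleton]
  refine ⟨fun a b => ?_⟩
  obtain ⟨a', rfl⟩ := hsurj a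
  obtain ⟨b', rfl⟩ := hsurj b
  rw [Subsingleton.elim a' b']

/-- `Ĥ⁰(H, k) = k / |H|` is covered by `0, 1, …, |H| - 1` (for `k = ℤ`) -/
theorem exists_natCast_eq_tateH0_res_trivial [Fintype H]
    (hk : ∀ n : ℕ, 0 < n → ∀ x : k, ∃ m : ℕ, m < n ∧ ∃ y : k, x = (m : k) + n • y)
    (z : TateH0 (Rep.res H.subtype (Rep.trivial k G k))) :
    ∃ m : ℕ, m < Nat.card H ∧
      z = TateH0.mk (Rep.res H.subtype (Rep.trivial k G k)) ⟨(m : k), fun _ => rfl⟩ := by
  obtain ⟨⟨x, hx⟩, rfl⟩ := TateH0.mk_surjective _ z
  obtain ⟨m, hm, y, hy⟩ := hk (Nat.card H) Nat.card_pos x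
  refine ⟨m, hm, ?_⟩
  rw [TateH0.mk_eq_mk_iff]
  refine ⟨y, ?_⟩
  change (Rep.res H.subtype (Rep.trivial k G k)).ρ.norm y = x - (m : k)
  rw [hy, add_sub_cancel_left]
  simp only [Representation.norm, LinearMap.coe_sum, Finset.sum_apply]
  have : ∀ h : H, (Rep.res H.subtype (Rep.trivial k G k)).ρ h y = y := fun _ => rfl
  rw [Finset.sum_congr rfl (fun h _ => this h), Finset.sum_const, Finset.card_univ,
    Nat.card_eq_fintype_card]

/-- `|H¹(H, I_G)| ≤ |H|` (for `k = ℤ`) -/
theorem card_H1_res_augRep_le
    (hk : ∀ n : ℕ, 0 < n → ∀ x : k, ∃ m : ℕ, m < n ∧ ∃ y : k, x = (m : k) + n • y) :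
    Finite (groupCohomology (Rep.res H.subtype (augRep k G)) 1) ∧
      Nat.card (groupCohomology (Rep.res H.subtype (augRep k G)) 1) ≤ Nat.card H := by
  classical
  letI : Fintype G := Fintype.ofFinite _
  letI : Fintype H := Fintype.ofFinite _
  have hY := augSC_res_shortExact k G H
  have hex := tateδ₀_map_exact hY
  have h2 : Subsingleton (groupCohomology ((augSC k G).map (resFunctor H.subtype)).X₂ 1) :=
    ModuleCat.isZero_iff_subsingleton.1 ((traceOne_regRep k G).isZero_groupCohomology_res H 0)
  -- the map `Fin |H| → H¹(H, I_G)`, `m ↦ δ [m]`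
  let F : Fin (Nat.card H) → groupCohomology (Rep.res H.subtype (augRep k G)) 1 := fun m =>
    tateδ₀ hY (TateH0.mk (Rep.res H.subtype (Rep.trivial k G k)) ⟨((m : ℕ) : k), fun _ => rfl⟩)
  have hF : Function.Surjective F := by
    intro c
    obtain ⟨z, rfl⟩ := (hex c).1 (Subsingleton.elim _ _)
    obtain ⟨m, hm, rfl⟩ := exists_natCast_eq_tateH0_res_trivial k G H hk z
    exact ⟨⟨m, hm⟩, rfl⟩
  have hfin : Finite (groupCohomology (Rep.res H.subtype (augRep k G)) 1) :=
    Finite.of_surjective F hF
  refine ⟨hfin, ?_⟩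
  have := Nat.card_le_card_of_surjective F hF
  rwa [Nat.card_fin] at this

theorem int_torsionFree_hyp : ∀ n : ℕ, 0 < n → ∀ x : ℤ, n • x = 0 → x = 0 := by
  intro n hn x hx
  rw [nsmul_eq_mul] at hx
  rcases mul_eq_zero.1 hx with h | h
  · omega
  · exact h

theorem int_euclid_hyp : ∀ n : ℕ, 0 < n → ∀ x : ℤ, ∃ m : ℕ, m < n ∧ ∃ y : ℤ,
    x = (m : ℤ) + n • y := by
  intro n hn x
  refine ⟨(x % n).toNat, ?_, x / n, ?_⟩
  · have h1 : 0 ≤ x % n := Int.emod_nonneg _ (by omega)
    have h2 : x % n < n := Int.emod_lt_of_pos _ (by omega)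
    omega
  · have h1 : 0 ≤ x % n := Int.emod_nonneg _ (by omega)
    rw [Int.toNat_of_nonneg h1, nsmul_eq_mul]
    exact (Int.emod_add_mul_ediv x n).symm

end Cohomology

end Fermat.Agent.CFT.Coh
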