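/-
P4 / Layer A, task A4-SPLIT: the splitting module `C(φ)` of a 2-cocycle `φ`.

`C(φ) = C × I_G` with the twisted action `g (c, y) = (g c + Φ_g y, g y)`, `Φ_g τ = φ(g, τ)`.
There is a short exact sequence `0 ⟶ C ⟶ C(φ) ⟶ I_G ⟶ 0` and `φ` becomes a coboundary in `C(φ)`.
-/
import Fermat.Agent.Lib.CFT.Coh.AugRep

set_option autoImplicit false
set_option linter.unusedSectionVars false

namespace Fermat.Agent.CFT.Coh

open CategoryTheory groupCohomology Rep Limits

section Split

variable {k G : Type} [CommRing k] [Group G] (C : Rep.{0} k G) (φ : cocycles₂ C)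

/-- `Φ_g : k[G] → C`, `τ ↦ φ(g, τ)` -/
noncomputable def splitΦ (g : G) : (G →₀ k) →ₗ[k] C.V :=
  Finsupp.linearCombination k (fun τ => φ (g, τ))

@[simp] theorem splitΦ_single (g τ : G) (r : k) :
    splitΦ C φ g (Finsupp.single τ r) = r • φ (g, τ) := by
  simp [splitΦ]

/-- the cocycle identity for `Φ` -/
theorem splitΦ_mul (g h : G) (y : G →₀ k) :
    splitΦ C φ (g * h) y + augLin k G y • φ (g, h) =
      C.ρ g (splitΦ C φ h y) + splitΦ C φ g (regRepn k G h y) := by
  induction y using Finsupp.induction_linear with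
  | zero => simp
  | add a b ha hb =>
    simp only [map_add, add_smul]
    rw [add_add_add_comm, ha, hb, add_add_add_comm]
  | single τ r =>
    simp only [splitΦ_single, augLin_single, regRepn_single, map_smul]
    rw [← smul_add, ← smul_add, (mem_cocycles₂_iff φ).1 φ.2 g h τ]

theorem splitΦ_one (y : G →₀ k) : splitΦ C φ 1 y = augLin k G y • φ (1, 1) := by
  induction y using Finsupp.induction_linear with
  | zero => simp
  | add a b ha hb => simp only [map_add, add_smul, ha, hb]
  | single τ r => simp [cocycles₂_map_one_fst]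

/-- the action of `g` on `C × I_G` -/
noncomputable def splitLin (g : G) :
    (C.V × LinearMap.ker (augLin k G)) →ₗ[k] (C.V × LinearMap.ker (augLin k G)) :=
  LinearMap.prod
    ((C.ρ g).comp (LinearMap.fst k C.V (LinearMap.ker (augLin k G))) +
      (splitΦ C φ g).comp ((LinearMap.ker (augLin k G)).subtype.comp
        (LinearMap.snd k C.V (LinearMap.ker (augLin k G)))))
    ((augRepn k G g).comp (LinearMap.snd k C.V (LinearMap.ker (augLin k G))))

theorem splitLin_apply (g : G) (c : C.V) (y : LinearMap.ker (augLin k G)) :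
    splitLin C φ g (c, y) = (C.ρ g c + splitΦ C φ g (y : G →₀ k), augRepn k G g y) := rfl

/-- the representation on the splitting module -/
noncomputable def splitRepn : Representation k G (C.V × LinearMap.ker (augLin k G)) where
  toFun := splitLin C φ
  map_one' := by
    refine LinearMap.ext (fun x => ?_)
    obtain ⟨c, y⟩ := x
    rw [splitLin_apply, splitΦ_one, (LinearMap.mem_ker.1 y.2), zero_smul, add_zero, map_one,
      map_one]
    rfl
  map_mul' g h := by
    refine LinearMap.ext (fun x => ?_)
    obtain ⟨c, y⟩ := x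
    rw [Module.End.mul_apply, splitLin_apply, splitLin_apply, splitLin_apply]
    refine Prod.ext ?_ ?_
    · have h1 := splitΦ_mul C φ g h (y : G →₀ k)
      rw [(LinearMap.mem_ker.1 y.2), zero_smul, add_zero] at h1
      simp only [map_add, map_mul, Module.End.mul_apply]
      rw [h1, augRepn_coe, add_assoc]
    · simp only [map_mul, Module.End.mul_apply]

/-- the splitting module `C(φ)` -/
noncomputable def splitRep : Rep.{0} k G :=
  Rep.of (X := C.V × LinearMap.ker (augLin k G)) (splitRepn C φ)

theorem splitRep_ρ_apply (g : G) (c : C.V) (y : LinearMap.ker (augLin k G)) :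
    (splitRep C φ).ρ g (c, y) = (C.ρ g c + splitΦ C φ g (y : G →₀ k), augRepn k G g y) := rfl

/-- the inclusion `C ⟶ C(φ)` -/
noncomputable def splitIncl : C ⟶ splitRep C φ :=
  Rep.ofHom ⟨LinearMap.inl k C.V (LinearMap.ker (augLin k G)), fun g => by
    refine LinearMap.ext (fun c => ?_)
    change ((C.ρ g c, 0) : C.V × LinearMap.ker (augLin k G)) = (splitRep C φ).ρ g (c, 0)
    rw [splitRep_ρ_apply]
    simp⟩

/-- the projection `C(φ) ⟶ I_G` -/
noncomputable def splitProj : splitRep C φ ⟶ augRep k G :=
  Rep.ofHom ⟨LinearMap.snd k C.V (LinearMap.ker (augLin k G)), fun g => by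
    refine LinearMap.ext (fun x => ?_)
    obtain ⟨c, y⟩ := x
    rfl⟩

theorem splitIncl_apply (c : C.V) : (splitIncl C φ).hom c = (c, 0) := rfl

theorem splitProj_apply (x : C.V × LinearMap.ker (augLin k G)) :
    (splitProj C φ).hom x = x.2 := rfl

/-- the short complex `0 ⟶ C ⟶ C(φ) ⟶ I_G ⟶ 0` -/
noncomputable def splitSC : ShortComplex (Rep.{0} k G) :=
  ShortComplex.mk (splitIncl C φ) (splitProj C φ) (by
    ext c
    rfl)

theorem splitSC_shortExact : (splitSC C φ).ShortExact := by
  refine shortExact_of_functions ?_ ?_ ?_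
  · intro a b h
    exact congrArg Prod.fst h
  · intro y
    exact ⟨(0, y), rfl⟩
  · rintro ⟨c, y⟩ hy
    refine ⟨c, ?_⟩
    change ((c, 0) : C.V × LinearMap.ker (augLin k G)) = (c, y)
    have : y = 0 := hy
    rw [this]

/-- the 1-cochain `τ ↦ (φ(1,1), τ - 1)` with coboundary `φ` -/
noncomputable def splitCochain (τ : G) : (splitRep C φ).V :=
  ((φ (1, 1) : C.V), ⟨Finsupp.single τ 1 - Finsupp.single 1 1, by
    rw [LinearMap.mem_ker, map_sub, augLin_single, augLin_single, sub_self]⟩)

theorem d₁₂_splitCochain (σ τ : G) :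
    (d₁₂ (splitRep C φ)).hom (splitCochain C φ) (σ, τ) = (splitIncl C φ).hom (φ (σ, τ)) := by
  rw [d₁₂_hom_apply, splitIncl_apply]
  change (splitRep C φ).ρ σ (splitCochain C φ τ) - splitCochain C φ (σ * τ) + splitCochain C φ σ
    = _
  unfold splitCochain
  rw [splitRep_ρ_apply]
  refine Prod.ext ?_ ?_
  · change C.ρ σ (φ (1, 1)) + splitΦ C φ σ (Finsupp.single τ 1 - Finsupp.single 1 1) - φ (1, 1) +
      φ (1, 1) = φ (σ, τ)
    rw [map_sub, splitΦ_single, splitΦ_single, one_smul, one_smul, cocycles₂_map_one_snd φ σ]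
    abel
  · apply Subtype.ext
    change regRepn k G σ (Finsupp.single τ 1 - Finsupp.single 1 1) -
      (Finsupp.single (σ * τ) 1 - Finsupp.single 1 1) + (Finsupp.single σ 1 - Finsupp.single 1 1)
      = 0
    rw [map_sub, regRepn_single, regRepn_single, mul_one]
    abel

/-- **the class of `φ` dies in the splitting module** -/
theorem map_splitIncl_H2π :
    (map (MonoidHom.id G) (splitIncl C φ) 2).hom (H2π C φ) = 0 := by
  have h := congrArg (fun f => f.hom φ) (H2π_comp_map (MonoidHom.id G) (splitIncl C φ))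
  change (map (MonoidHom.id G) (splitIncl C φ) 2).hom (H2π C φ) =
    H2π (splitRep C φ) (mapCocycles₂ (MonoidHom.id G) (splitIncl C φ) φ) at h
  rw [h, H2π_eq_zero_iff]
  refine ⟨splitCochain C φ, ?_⟩
  funext p
  obtain ⟨σ, τ⟩ := p
  exact d₁₂_splitCochain C φ σ τ

/-- the class of `φ` restricted to any subgroup dies in the splitting module -/
theorem map_resMap_splitIncl_res (H : Subgroup G) :
    (map (MonoidHom.id H) ((resFunctor H.subtype).map (splitIncl C φ)) 2).hom
      ((map H.subtype (𝟙 (Rep.res H.subtype C)) 2).hom (H2π C φ)) = 0 := by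
  have hsq := map_comp_map_square H.subtype (splitIncl C φ)
    ((resFunctor H.subtype).map (splitIncl C φ)) (𝟙 (Rep.res H.subtype C))
    (𝟙 (Rep.res H.subtype (splitRep C φ))) (by rw [Category.comp_id, Category.id_comp]) 2
  have h := congrArg (fun f => f.hom (H2π C φ)) hsq
  simp only [ModuleCat.hom_comp, LinearMap.comp_apply] at h
  rw [← h, map_splitIncl_H2π, map_zero]

end Split

end Fermat.Agent.CFT.Coh
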