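/-
P4 / Layer A, task A4-H3: Tate's theorem in degree 3.

For a finite `p`-group `G`, `C : Rep k G` (`k = ℤ`) and a class `u ∈ H²(G, C)` such that for all
subgroups `H ≤ G`: `H¹(H, C) = 0` and `H²(H, C)` is cyclic of order `|H|` generated by `res u`,
one has `H³(G, C) = 0`  (`= H¹(G, ℤ)`, via the splitting module and Nakayama–Tate).
-/
import Fermat.Agent.Lib.CFT.Coh.SplittingModule
import Fermat.Agent.Lib.CFT.Coh.NakayamaTateLow
import Fermat.Agent.Lib.CFT.Coh.Cores

set_option autoImplicit false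
set_option linter.unusedSectionVars false
set_option linter.style.haveILetI false

namespace Fermat.Agent.CFT.Coh

open CategoryTheory groupCohomology Rep Limits

section Main

variable {k G : Type} [CommRing k] [Group G] [Finite G] (C : Rep.{0} k G)

/-- the cohomology of the splitting module on a subgroup `H`: if `H¹(H, C) = 0`, `H²(H, C)` is
generated by the restriction of the class of `φ` and has at least `|H|` elements, then
`H¹(H, C(φ)) = H²(H, C(φ)) = 0`. -/
theorem isZero_H1_H2_res_splitRep (φ : cocycles₂ C)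
    (hk1 : ∀ n : ℕ, 0 < n → ∀ x : k, n • x = 0 → x = 0)
    (hk2 : ∀ n : ℕ, 0 < n → ∀ x : k, ∃ m : ℕ, m < n ∧ ∃ y : k, x = (m : k) + n • y)
    (H : Subgroup G)
    (h1 : IsZero (groupCohomology (Rep.res H.subtype C) 1))
    (hgen : ∀ x : groupCohomology (Rep.res H.subtype C) 2, ∃ m : ℤ,
      x = m • (map H.subtype (𝟙 (Rep.res H.subtype C)) 2).hom (H2π C φ))
    (hcard : Nat.card H ≤ Nat.card (groupCohomology (Rep.res H.subtype C) 2)) :
    IsZero (groupCohomology (Rep.res H.subtype (splitRep C φ)) 1) ∧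
      IsZero (groupCohomology (Rep.res H.subtype (splitRep C φ)) 2) := by
  have hX : ((splitSC C φ).map (resFunctor H.subtype)).ShortExact :=
    (shortExact_res H.subtype).2 (splitSC_shortExact C φ)
  -- Step A: `H²(H, C) → H²(H, C(φ))` is zero
  have hA : ∀ x : groupCohomology (Rep.res H.subtype C) 2,
      map (MonoidHom.id H) ((resFunctor H.subtype).map (splitIncl C φ)) 2 x = 0 := by
    intro x
    obtain ⟨m, rfl⟩ := hgen x
    rw [map_zsmul]
    have h0 : map (MonoidHom.id H) ((resFunctor H.subtype).map (splitIncl C φ)) 2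
        ((map H.subtype (𝟙 (Rep.res H.subtype C)) 2).hom (H2π C φ)) = 0 :=
      map_resMap_splitIncl_res C φ H
    rw [h0, smul_zero]
  have h23 : Subsingleton (groupCohomology ((splitSC C φ).map (resFunctor H.subtype)).X₃ 2) :=
    ModuleCat.isZero_iff_subsingleton.1 (isZero_H2_res_augRep k G H hk1)
  have h11 : Subsingleton (groupCohomology ((splitSC C φ).map (resFunctor H.subtype)).X₁ 1) :=
    ModuleCat.isZero_iff_subsingleton.1 h1
  -- Step B: `H²(H, C(φ)) = 0`
  have hB : ∀ z : groupCohomology ((splitSC C φ).map (resFunctor H.subtype)).X₂ 2, z = 0 := by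
    intro z
    obtain ⟨x, rfl⟩ := exists_map_f_eq_of_map_g_eq_zero hX 2 z (Subsingleton.elim _ _)
    exact hA x
  -- Step C: `δ : H¹(H, I_G) → H²(H, C)` is bijective
  have hsurj : Function.Surjective (δ hX 1 2 rfl) :=
    fun x => exists_δ_eq_of_map_f_eq_zero hX 1 x (hA x)
  obtain ⟨hfin, hle⟩ := card_H1_res_augRep_le k G H hk2
  haveI : Finite (groupCohomology ((splitSC C φ).map (resFunctor H.subtype)).X₃ 1) := hfin
  have hbij := hsurj.bijective_of_nat_card_le (hle.trans hcard)
  -- Step D: `H¹(H, C(φ)) = 0`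
  have hD : ∀ z : groupCohomology ((splitSC C φ).map (resFunctor H.subtype)).X₂ 1, z = 0 := by
    intro z
    have h1' : map (MonoidHom.id H) ((splitSC C φ).map (resFunctor H.subtype)).g 1 z = 0 :=
      hbij.1 (by rw [δ_map_g_apply, map_zero])
    obtain ⟨x, rfl⟩ := exists_map_f_eq_of_map_g_eq_zero hX 1 z h1'
    rw [Subsingleton.elim x 0, map_zero]
  constructor
  · rw [ModuleCat.isZero_iff_subsingleton]
    exact ⟨fun a b => by rw [hD a, hD b]⟩
  · rw [ModuleCat.isZero_iff_subsingleton]
    exact ⟨fun a b => by rw [hB a, hB b]⟩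

/-- **Tate's theorem in degree 3** (cocycle form, general `k` with the two `ℤ`-like
hypotheses). -/
theorem tate_H3_eq_zero_of_cocycle (p : ℕ) [Fact p.Prime] (hG : IsPGroup p G) (φ : cocycles₂ C)
    (hk1 : ∀ n : ℕ, 0 < n → ∀ x : k, n • x = 0 → x = 0)
    (hk2 : ∀ n : ℕ, 0 < n → ∀ x : k, ∃ m : ℕ, m < n ∧ ∃ y : k, x = (m : k) + n • y)
    (h1 : ∀ H : Subgroup G, IsZero (groupCohomology (Rep.res H.subtype C) 1))
    (hgen : ∀ (H : Subgroup G) (x : groupCohomology (Rep.res H.subtype C) 2), ∃ m : ℤ,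
      x = m • (map H.subtype (𝟙 (Rep.res H.subtype C)) 2).hom (H2π C φ))
    (hcard : ∀ H : Subgroup G, Nat.card H ≤ Nat.card (groupCohomology (Rep.res H.subtype C) 2)) :
    IsZero (groupCohomology C 3) := by
  have hsplit := fun H : Subgroup G =>
    isZero_H1_H2_res_splitRep C φ hk1 hk2 H (h1 H) (hgen H) (hcard H)
  have h3 : IsZero (groupCohomology (splitRep C φ) 3) :=
    isZero_groupCohomology_succ_of_pGroup_top p hG (splitRep C φ) (fun H => (hsplit H).1)
      (fun H => (hsplit H).2) 2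
  have h2 : IsZero (groupCohomology (augRep k G) 2) :=
    isZero_groupCohomology_res_of_injective (augRep k G) (MonoidHom.id G) Function.injective_id 2
      (isZero_H2_res_augRep k G _ hk1)
  have hX := splitSC_shortExact C φ
  have h3' : Subsingleton (groupCohomology (splitSC C φ).X₂ 3) :=
    ModuleCat.isZero_iff_subsingleton.1 h3
  have h2' : Subsingleton (groupCohomology (splitSC C φ).X₃ 2) :=
    ModuleCat.isZero_iff_subsingleton.1 h2
  rw [ModuleCat.isZero_iff_subsingleton]
  suffices h : ∀ x : groupCohomology (splitSC C φ).X₁ 3, x = 0 from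
    ⟨fun a b => by rw [h a, h b]⟩
  intro x
  obtain ⟨y, rfl⟩ := exists_δ_eq_of_map_f_eq_zero hX 2 x (Subsingleton.elim _ _)
  rw [Subsingleton.elim y 0, map_zero]

/-- **Tate's theorem in degree 3** (general `k` with the two `ℤ`-like hypotheses): `G` a finite
`p`-group, `u ∈ H²(G, C)`; if for all `H ≤ G`: `H¹(H, C) = 0`, `H²(H, C)` is generated by
`res u` and has at least `|H|` elements, then `H³(G, C) = 0`. -/
theorem tate_H3_eq_zero_of_gen (p : ℕ) [Fact p.Prime] (hG : IsPGroup p G)
    (u : groupCohomology C 2)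
    (hk1 : ∀ n : ℕ, 0 < n → ∀ x : k, n • x = 0 → x = 0)
    (hk2 : ∀ n : ℕ, 0 < n → ∀ x : k, ∃ m : ℕ, m < n ∧ ∃ y : k, x = (m : k) + n • y)
    (h1 : ∀ H : Subgroup G, IsZero (groupCohomology (Rep.res H.subtype C) 1))
    (hgen : ∀ (H : Subgroup G) (x : groupCohomology (Rep.res H.subtype C) 2), ∃ m : ℤ,
      x = m • (map H.subtype (𝟙 (Rep.res H.subtype C)) 2).hom u)
    (hcard : ∀ H : Subgroup G, Nat.card H ≤ Nat.card (groupCohomology (Rep.res H.subtype C) 2)) :
    IsZero (groupCohomology C 3) := by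
  induction u using H2_induction_on with | h φ =>
  exact tate_H3_eq_zero_of_cocycle C p hG φ hk1 hk2 h1 hgen hcard

/-- an element of order `n` in a finite group with at most `n` elements generates it -/
theorem exists_zsmul_eq_of_addOrderOf_eq {M : Type*} [AddCommGroup M] [Finite M] (x : M) (n : ℕ)
    (hcard : Nat.card M ≤ n) (hord : addOrderOf x = n) :
    n ≤ Nat.card M ∧ ∀ y : M, ∃ m : ℤ, y = m • x := by
  have h1 : Nat.card (AddSubgroup.zmultiples x) = n := by rw [Nat.card_zmultiples, hord]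
  have h2 : Nat.card (AddSubgroup.zmultiples x) ≤ Nat.card M :=
    Nat.card_le_card_of_injective _ Subtype.val_injective
  have h3 : Nat.card (AddSubgroup.zmultiples x) = Nat.card M := by omega
  have h4 : AddSubgroup.zmultiples x = ⊤ := AddSubgroup.eq_top_of_card_eq _ h3
  refine ⟨by omega, fun y => ?_⟩
  have hy : y ∈ AddSubgroup.zmultiples x := by rw [h4]; trivial
  obtain ⟨m, hm⟩ := AddSubgroup.mem_zmultiples_iff.1 hy
  exact ⟨m, hm.symm⟩

/-- **Tate's theorem in degree 3**, order form: `G` a finite `p`-group, `u ∈ H²(G, C)`; if for all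
`H ≤ G`: `H¹(H, C) = 0`, `H²(H, C)` is finite with at most `|H|` elements and `res u` has order
`|H|`, then `H³(G, C) = 0`. -/
theorem tate_H3_eq_zero_of_order (p : ℕ) [Fact p.Prime] (hG : IsPGroup p G)
    (u : groupCohomology C 2)
    (hk1 : ∀ n : ℕ, 0 < n → ∀ x : k, n • x = 0 → x = 0)
    (hk2 : ∀ n : ℕ, 0 < n → ∀ x : k, ∃ m : ℕ, m < n ∧ ∃ y : k, x = (m : k) + n • y)
    (h1 : ∀ H : Subgroup G, IsZero (groupCohomology (Rep.res H.subtype C) 1))
    (h2fin : ∀ H : Subgroup G, Finite (groupCohomology (Rep.res H.subtype C) 2))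
    (h2card : ∀ H : Subgroup G,
      Nat.card (groupCohomology (Rep.res H.subtype C) 2) ≤ Nat.card H)
    (hord : ∀ H : Subgroup G,
      addOrderOf ((map H.subtype (𝟙 (Rep.res H.subtype C)) 2).hom u) = Nat.card H) :
    IsZero (groupCohomology C 3) := by
  have key := fun H : Subgroup G =>
    haveI := h2fin H
    exists_zsmul_eq_of_addOrderOf_eq ((map H.subtype (𝟙 (Rep.res H.subtype C)) 2).hom u)
      (Nat.card H) (h2card H) (hord H)
  exact tate_H3_eq_zero_of_gen C p hG u hk1 hk2 h1 (fun H => (key H).2) (fun H => (key H).1)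

end Main

section Int

variable {G : Type} [Group G] [Finite G]

/-- **Tate's theorem in degree 3 over `ℤ`**, order form. -/
theorem tate_H3_eq_zero (p : ℕ) [Fact p.Prime] (hG : IsPGroup p G) (C : Rep.{0} ℤ G)
    (u : groupCohomology C 2)
    (h1 : ∀ H : Subgroup G, IsZero (groupCohomology (Rep.res H.subtype C) 1))
    (h2fin : ∀ H : Subgroup G, Finite (groupCohomology (Rep.res H.subtype C) 2))
    (h2card : ∀ H : Subgroup G,
      Nat.card (groupCohomology (Rep.res H.subtype C) 2) ≤ Nat.card H)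
    (hord : ∀ H : Subgroup G,
      addOrderOf ((map H.subtype (𝟙 (Rep.res H.subtype C)) 2).hom u) = Nat.card H) :
    IsZero (groupCohomology C 3) :=
  tate_H3_eq_zero_of_order C p hG u int_torsionFree_hyp int_euclid_hyp h1 h2fin h2card hord

/-- **Tate's theorem in degree 3 over `ℤ`**, generator form (`IsFundamentalClass`-style
hypotheses). -/
theorem tate_H3_eq_zero' (p : ℕ) [Fact p.Prime] (hG : IsPGroup p G) (C : Rep.{0} ℤ G)
    (u : groupCohomology C 2)
    (h1 : ∀ H : Subgroup G, IsZero (groupCohomology (Rep.res H.subtype C) 1))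
    (h2card : ∀ H : Subgroup G,
      Nat.card (groupCohomology (Rep.res H.subtype C) 2) = Nat.card H)
    (h2gen : ∀ (H : Subgroup G) (x : groupCohomology (Rep.res H.subtype C) 2), ∃ m : ℤ,
      x = m • (map H.subtype (𝟙 (Rep.res H.subtype C)) 2).hom u) :
    IsZero (groupCohomology C 3) :=
  tate_H3_eq_zero_of_gen C p hG u int_torsionFree_hyp int_euclid_hyp h1 h2gen
    (fun H => (h2card H).ge)

end Int

end Fermat.Agent.CFT.Coh
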