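/-
P4 / Layer A, task A4-H3 (top form): Tate's theorem in degree 3 with hypotheses on the `p`-group
`G` only (no hypotheses on subgroups), via the splitting module and the strong form of
Nakayama–Tate (`nakayamaTate_up_top`).

For a finite `p`-group `G`, `C : Rep ℤ G` and `u ∈ H²(G, C)`: if `H¹(G, C) = 0`, `H²(G, C)` is
generated by `u` and has at least `|G|` elements, then `H³(G, C) = 0`.
-/
import Fermat.Agent.Lib.CFT.Coh.TateH3
import Fermat.Agent.Lib.CFT.Coh.ExtRep

set_option autoImplicit false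
set_option linter.unusedSectionVars false
set_option linter.style.haveILetI false

namespace Fermat.Agent.CFT.Coh

open CategoryTheory groupCohomology Rep Limits

section Top

variable {k G : Type} [CommRing k] [Group G] [Finite G] (C : Rep.{0} k G)

/-- `H²(G, I_G) = 0` for torsion free `k` -/
theorem isZero_H2_augRep (hk1 : ∀ n : ℕ, 0 < n → ∀ x : k, n • x = 0 → x = 0) :
    IsZero (groupCohomology (augRep k G) 2) :=
  (isZero_H2_res_augRep k G ⊤ hk1).of_iso (resTopIso (augRep k G) 2).symm

/-- `|H¹(G, I_G)| ≤ |G|` (for `k = ℤ`) -/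
theorem card_H1_augRep_le
    (hk2 : ∀ n : ℕ, 0 < n → ∀ x : k, ∃ m : ℕ, m < n ∧ ∃ y : k, x = (m : k) + n • y) :
    Finite (groupCohomology (augRep k G) 1) ∧
      Nat.card (groupCohomology (augRep k G) 1) ≤ Nat.card G := by
  obtain ⟨hfin, hle⟩ := card_H1_res_augRep_le k G ⊤ hk2
  have e := (resTopIso (augRep k G) 1).toLinearEquiv.toEquiv
  refine ⟨Finite.of_equiv _ e, ?_⟩
  rw [← Nat.card_congr e]
  exact hle.trans (by rw [Subgroup.card_top])

/-- **Tate's theorem in degree 3**, cocycle form, hypotheses on `G` only. -/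
theorem tate_H3_eq_zero_top_of_cocycle (p : ℕ) [Fact p.Prime] (hG : IsPGroup p G)
    (φ : cocycles₂ C) (hk : AddHomsLinear k)
    (hk1 : ∀ n : ℕ, 0 < n → ∀ x : k, n • x = 0 → x = 0)
    (hk2 : ∀ n : ℕ, 0 < n → ∀ x : k, ∃ m : ℕ, m < n ∧ ∃ y : k, x = (m : k) + n • y)
    (h1 : IsZero (groupCohomology C 1))
    (hgen : ∀ x : groupCohomology C 2, ∃ m : ℤ, x = m • H2π C φ)
    (hcard : Nat.card G ≤ Nat.card (groupCohomology C 2)) :
    IsZero (groupCohomology C 3) := by
  classical
  letI : Fintype G := Fintype.ofFinite G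
  have hX := splitSC_shortExact C φ
  have hI2 : IsZero (groupCohomology (splitSC C φ).X₃ 2) := isZero_H2_augRep hk1
  obtain ⟨hfin, hle⟩ := card_H1_augRep_le (k := k) (G := G) hk2
  haveI : Finite (groupCohomology (splitSC C φ).X₃ 1) := hfin
  have h12 := isZero_H1_H2_of_splitting hX (H2π C φ) (map_splitIncl_H2π C φ) hgen h1 hI2
    (hle.trans hcard)
  have hkp : ∀ c : k, (p : k) * c = 0 → c = 0 := by
    intro c hc
    apply hk1 p (Fact.out : p.Prime).pos c
    rw [nsmul_eq_mul, hc]
  have h3 : IsZero (groupCohomology (splitSC C φ).X₂ 3) :=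
    nakayamaTate_up_top hk hkp hG _ h12.1 h12.2 2
  exact isZero_H3_of_splitting hX hI2 h3

/-- **Tate's theorem in degree 3**, generator form, hypotheses on `G` only. -/
theorem tate_H3_eq_zero_top_of_gen (p : ℕ) [Fact p.Prime] (hG : IsPGroup p G)
    (u : groupCohomology C 2) (hk : AddHomsLinear k)
    (hk1 : ∀ n : ℕ, 0 < n → ∀ x : k, n • x = 0 → x = 0)
    (hk2 : ∀ n : ℕ, 0 < n → ∀ x : k, ∃ m : ℕ, m < n ∧ ∃ y : k, x = (m : k) + n • y)
    (h1 : IsZero (groupCohomology C 1))
    (hgen : ∀ x : groupCohomology C 2, ∃ m : ℤ, x = m • u)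
    (hcard : Nat.card G ≤ Nat.card (groupCohomology C 2)) :
    IsZero (groupCohomology C 3) := by
  induction u using H2_induction_on with | h φ =>
  exact tate_H3_eq_zero_top_of_cocycle C p hG φ hk hk1 hk2 h1 hgen hcard

end Top

section Int

variable {G : Type} [Group G] [Finite G]

/-- **Tate's theorem in degree 3 over `ℤ`**, hypotheses on the `p`-group `G` only: if
`H¹(G, C) = 0` and `H²(G, C)` is generated by `u` and has at least `|G|` elements, then
`H³(G, C) = 0`. -/
theorem tate_H3_eq_zero_top (p : ℕ) [Fact p.Prime] (hG : IsPGroup p G) (C : Rep.{0} ℤ G)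
    (u : groupCohomology C 2) (h1 : IsZero (groupCohomology C 1))
    (hgen : ∀ x : groupCohomology C 2, ∃ m : ℤ, x = m • u)
    (hcard : Nat.card G ≤ Nat.card (groupCohomology C 2)) :
    IsZero (groupCohomology C 3) :=
  tate_H3_eq_zero_top_of_gen C p hG u addHomsLinear_int int_torsionFree_hyp int_euclid_hyp h1
    hgen hcard

/-- **Tate's theorem in degree 3 over `ℤ`**, order form, hypotheses on the `p`-group `G` only: if
`H¹(G, C) = 0`, `H²(G, C)` is finite with at most `|G|` elements and `u` has order `|G|`, then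
`H³(G, C) = 0`. -/
theorem tate_H3_eq_zero_top_of_order (p : ℕ) [Fact p.Prime] (hG : IsPGroup p G)
    (C : Rep.{0} ℤ G) (u : groupCohomology C 2) (h1 : IsZero (groupCohomology C 1))
    [Finite (groupCohomology C 2)]
    (h2card : Nat.card (groupCohomology C 2) ≤ Nat.card G)
    (hord : addOrderOf u = Nat.card G) :
    IsZero (groupCohomology C 3) := by
  obtain ⟨hle, hgen⟩ := exists_zsmul_eq_of_addOrderOf_eq u (Nat.card G) h2card hord
  exact tate_H3_eq_zero_top p hG C u h1 hgen hle

end Int

end Fermat.Agent.CFT.Coh
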