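/-
P4 / D-INV0 (cohomology part 2): fundamental `p`-classes for one finite group.

`G` finite, `A : Rep k G`, `u ∈ H²(G, A)` of order `|G|_p`, and for all `p`-subgroups `P`:
`|H²(P, A)| ≤ |P|`.  Then for every subgroup `U`: the restriction `resClass A u U` has order
`|U|_p` and generates the `p`-primary part of `H²(U, A)`; the invariant map
`invOf … U : H²(U, A) →+ ℚ/ℤ` sends it to the `p`-component of `1/|U|` and kills the prime-to-`p`
torsion.
-/
import Fermat.Agent.Lib.CFT.Coh.TateH3Top
import Fermat.Agent.Lib.CFT.Coh.PPart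
import Fermat.Agent.Lib.CFT.Coh.RelRes

set_option autoImplicit false
set_option linter.unusedSectionVars false
set_option linter.style.haveILetI false

namespace Fermat.Agent.CFT.Coh

open CategoryTheory groupCohomology Rep Limits

section Fundamental

variable {k G : Type} [CommRing k] [Group G] [Finite G] (A : Rep.{0} k G) (p : ℕ)
  [hp : Fact p.Prime] (u : groupCohomology A 2)

/-- the restriction of a class `u ∈ H²(G, A)` to a subgroup -/
noncomputable def resClass (U : Subgroup G) : groupCohomology (res U.subtype A) 2 :=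
  map U.subtype (𝟙 (res U.subtype A)) 2 u

theorem resLE_resClass {V U : Subgroup G} (h : V ≤ U) :
    resLE A h 2 (resClass A u U) = resClass A u V := by
  have := congr($(res_comp_resLE A h 2) u)
  exact this

/-- corestriction of the restricted class -/
theorem exists_cores_resClass (U : Subgroup G) :
    ∃ c : groupCohomology (res U.subtype A) 2 →+ groupCohomology A 2,
      c (resClass A u U) = U.index • u := by
  refine ⟨(coresOfFiniteIndex A U 2).hom.toAddMonoidHom, ?_⟩
  have := congr($(res_comp_coresOfFiniteIndex A U 2) u)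
  rw [← Nat.cast_smul_eq_nsmul k]
  refine this.trans ?_
  simp

variable (hu : addOrderOf u = p ^ (Nat.card G).factorization p)

include hu in
/-- the restriction of a fundamental `p`-class to `U` has order `|U|_p` -/
theorem addOrderOf_resClass (U : Subgroup G) :
    addOrderOf (resClass A u U) = p ^ (Nat.card U).factorization p := by
  set a := (Nat.card U).factorization p with ha
  set b := (Nat.card G).factorization p with hb
  set r := resClass A u U with hr
  have hU0 : Nat.card U ≠ 0 := Nat.card_pos.ne'
  have hG0 : Nat.card G ≠ 0 := Nat.card_pos.ne'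
  -- `p ^ a • r = 0`
  have h1 : p ^ a • r = 0 := by
    apply eq_zero_of_coprime_nsmul _ (Nat.card U / p ^ a) (p ^ b)
      (((Nat.coprime_ordCompl hp.out hU0).pow_left b).symm)
    · rw [← mul_smul, mul_comm, Nat.ordProj_mul_ordCompl_eq_self]
      exact card_nsmul_cohomology_eq_zero A U 1 r
    · rw [smul_comm]
      have : p ^ b • r = 0 := by
        rw [hr, resClass, ← map_nsmul, ← hu, addOrderOf_nsmul_eq_zero, map_zero]
      rw [this, smul_zero]
  -- `n • r = 0 → p ^ a ∣ n`
  have h2 : ∀ n : ℕ, n • r = 0 → p ^ a ∣ n := by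
    intro n hn
    rcases Nat.eq_zero_or_pos n with rfl | hn0
    · exact dvd_zero _
    obtain ⟨c, hc⟩ := exists_cores_resClass A u U
    have h3 : (n * U.index) • u = 0 := by
      rw [mul_smul, ← hc, ← map_nsmul, hn, map_zero]
    have h4 : p ^ b ∣ n * U.index := by
      rw [← hu]
      exact addOrderOf_dvd_of_nsmul_eq_zero h3
    have hidx : U.index ≠ 0 := Subgroup.index_ne_zero_of_finite
    have h5 : b ≤ (n * U.index).factorization p :=
      (hp.out.pow_dvd_iff_le_factorization (Nat.mul_ne_zero hn0.ne' hidx)).1 h4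
    rw [Nat.factorization_mul hn0.ne' hidx, Finsupp.add_apply] at h5
    have h6 : b = U.index.factorization p + a := by
      rw [hb, ← U.index_mul_card, Nat.factorization_mul hidx hU0, Finsupp.add_apply]
    rw [hp.out.pow_dvd_iff_le_factorization hn0.ne']
    omega
  apply Nat.dvd_antisymm
  · exact addOrderOf_dvd_of_nsmul_eq_zero h1
  · exact h2 _ (addOrderOf_nsmul_eq_zero r)

omit [Finite G] in
/-- a `p`-subgroup of maximal order inside `U` -/
theorem exists_sylow_le [Finite G] (U : Subgroup G) :
    ∃ P : Subgroup G, P ≤ U ∧ Nat.card P = p ^ (Nat.card U).factorization p := by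
  obtain ⟨K, hK⟩ := Sylow.exists_subgroup_card_pow_prime (G := U) p
    (Nat.ordProj_dvd (Nat.card U) p)
  refine ⟨K.map U.subtype, Subgroup.map_subtype_le K, ?_⟩
  rw [Subgroup.card_subtype, hK]

variable (h2P : ∀ P : Subgroup G, IsPGroup p P →
  Finite (groupCohomology (res P.subtype A) 2) ∧
    Nat.card (groupCohomology (res P.subtype A) 2) ≤ Nat.card P)

include hu h2P in
/-- for a `p`-subgroup `P`, `H²(P, A)` is generated by the restriction of the fundamental class -/
theorem exists_zsmul_resClass_of_pGroup (P : Subgroup G) (hP : IsPGroup p P)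
    (x : groupCohomology (res P.subtype A) 2) : ∃ m : ℤ, x = m • resClass A u P := by
  obtain ⟨hfin, hcard⟩ := h2P P hP
  obtain ⟨n, hn⟩ := IsPGroup.iff_card.1 hP
  have hord := addOrderOf_resClass A p u hu P
  rw [hn, hp.out.factorization_pow, Finsupp.single_eq_same, ← hn] at hord
  exact (exists_zsmul_eq_of_addOrderOf_eq (resClass A u P) (Nat.card P) hcard hord).2 x

include hu h2P in
/-- the `p`-primary part of `H²(U, A)` is generated by the restriction of the fundamental class -/
theorem exists_zsmul_resClass (U : Subgroup G) (x : groupCohomology (res U.subtype A) 2)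
    (hx : p ^ (Nat.card U).factorization p • x = 0) : ∃ m : ℤ, x = m • resClass A u U := by
  obtain ⟨P, hPU, hPcard⟩ := exists_sylow_le p U
  have hP : IsPGroup p P := IsPGroup.of_card hPcard
  obtain ⟨m, hm⟩ := exists_zsmul_resClass_of_pGroup A p u hu h2P P hP (resLE A hPU 2 x)
  refine ⟨m, ?_⟩
  rw [← sub_eq_zero]
  have hU0 : Nat.card U ≠ 0 := Nat.card_pos.ne'
  have hidx : P.relIndex U = Nat.card U / p ^ (Nat.card U).factorization p := by
    have h1 := relIndex_mul_card_eq hPU
    rw [hPcard] at h1
    exact (Nat.div_eq_of_eq_mul_left (pow_pos hp.out.pos _) h1.symm).symm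
  apply eq_zero_of_coprime_nsmul _ (P.relIndex U) (p ^ (Nat.card U).factorization p)
  · rw [hidx]
    exact ((Nat.coprime_ordCompl hp.out hU0).pow_left _).symm
  · apply relIndex_nsmul_eq_zero_of_resLE_eq_zero A hPU 2
    rw [map_sub, map_zsmul, resLE_resClass, hm, sub_self]
  · rw [smul_sub, hx, smul_comm, ← addOrderOf_resClass A p u hu U, addOrderOf_nsmul_eq_zero,
      smul_zero, sub_zero]

end Fundamental

section Inv

variable {k G : Type} [CommRing k] [Group G] [Finite G] (A : Rep.{0} k G) (p : ℕ)
  [hp : Fact p.Prime] (u : groupCohomology A 2)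
  (hu : addOrderOf u = p ^ (Nat.card G).factorization p)
  (h2P : ∀ P : Subgroup G, IsPGroup p P →
    Finite (groupCohomology (res P.subtype A) 2) ∧
      Nat.card (groupCohomology (res P.subtype A) 2) ≤ Nat.card P)

include hu in
theorem zsmul_pPart_eq_zero_of_zsmul_resClass (U : Subgroup G) (m : ℤ)
    (hm : m • resClass A u U = 0) : m • pPart p (Nat.card U) = 0 := by
  have h1 := (addOrderOf_dvd_iff_zsmul_eq_zero).2 hm
  rw [addOrderOf_resClass A p u hu U] at h1
  obtain ⟨c, rfl⟩ := h1
  rw [mul_comm, mul_smul, natCast_zsmul, pow_factorization_nsmul_pPart, smul_zero]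

include hu h2P in
theorem exists_invOf (U : Subgroup G) :
    ∃ f : groupCohomology (res U.subtype A) 2 →+ AddCircle (1 : ℚ),
      f (resClass A u U) = pPart p (Nat.card U) ∧
        ∀ (x : groupCohomology (res U.subtype A) 2) (m' : ℕ), m'.Coprime p → m' • x = 0 →
          f x = 0 := by
  refine exists_hom_of_pCyclic p (N := Nat.card U) Nat.card_pos.ne'
    (fun x => card_nsmul_cohomology_eq_zero A U 1 x)
    (fun x hx => exists_zsmul_resClass A p u hu h2P U x hx) ?_ (pPart p (Nat.card U))
    (fun m hm => zsmul_pPart_eq_zero_of_zsmul_resClass A p u hu U m hm)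
  rw [← addOrderOf_resClass A p u hu U]
  exact addOrderOf_nsmul_eq_zero _

/-- the invariant map on `H²(U, A)` attached to a fundamental `p`-class -/
noncomputable def invOf (U : Subgroup G) :
    groupCohomology (res U.subtype A) 2 →+ AddCircle (1 : ℚ) :=
  Classical.choose (exists_invOf A p u hu h2P U)

theorem invOf_resClass (U : Subgroup G) :
    invOf A p u hu h2P U (resClass A u U) = pPart p (Nat.card U) :=
  (Classical.choose_spec (exists_invOf A p u hu h2P U)).1

theorem invOf_eq_zero_of_coprime (U : Subgroup G) (x : groupCohomology (res U.subtype A) 2)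
    (m' : ℕ) (hm' : m'.Coprime p) (hx : m' • x = 0) : invOf A p u hu h2P U x = 0 :=
  (Classical.choose_spec (exists_invOf A p u hu h2P U)).2 x m' hm' hx

include hu h2P in
/-- two homomorphisms on `H²(U, A)` agree if they agree on the fundamental class and on the
prime-to-`p` torsion -/
theorem hom_ext_H2 {B : Type*} [AddCommGroup B] (U : Subgroup G)
    (f g : groupCohomology (res U.subtype A) 2 →+ B)
    (hr : f (resClass A u U) = g (resClass A u U))
    (hp' : ∀ (x : groupCohomology (res U.subtype A) 2) (m' : ℕ), m'.Coprime p → m' • x = 0 →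
      f x = g x) : f = g :=
  hom_ext_of_pCyclic p (N := Nat.card U) Nat.card_pos.ne' (fun x => card_nsmul_cohomology_eq_zero A U 1 x)
    (fun x hx => exists_zsmul_resClass A p u hu h2P U x hx) f g hr hp'

/-- `inv` is injective on `p`-torsion -/
theorem invOf_injective (U : Subgroup G) (x : groupCohomology (res U.subtype A) 2)
    (hpx : p • x = 0) (hx : invOf A p u hu h2P U x = 0) : x = 0 := by
  set a := (Nat.card U).factorization p with ha
  have hU0 : Nat.card U ≠ 0 := Nat.card_pos.ne'
  have hpa : p ^ a • x = 0 := by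
    rcases Nat.eq_zero_or_pos a with h0 | h0
    · -- `p ∤ |U|`
      have hcop : Nat.Coprime (Nat.card U) p := by
        have := Nat.coprime_ordCompl hp.out hU0
        rw [← ha, h0, pow_zero, Nat.div_one] at this
        exact this.symm
      rw [eq_zero_of_coprime_nsmul x _ _ hcop (card_nsmul_cohomology_eq_zero A U 1 x) hpx, smul_zero]
    · obtain ⟨a', ha'⟩ := Nat.exists_eq_succ_of_ne_zero h0.ne'
      rw [ha', pow_succ, mul_smul, hpx, smul_zero]
  obtain ⟨m, rfl⟩ := exists_zsmul_resClass A p u hu h2P U x hpa
  rw [map_zsmul, invOf_resClass] at hx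
  obtain ⟨c, rfl⟩ := dvd_of_zsmul_pPart_eq_zero p hU0 m hx
  rw [mul_comm, mul_smul, natCast_zsmul, ← ha, ← addOrderOf_resClass A p u hu U,
    addOrderOf_nsmul_eq_zero, smul_zero]

/-- the `p`-primary part of `H²(U, A)` contains a class of invariant `1 / |U|_p` -/
theorem invOf_surjective (U : Subgroup G) :
    ∃ x : groupCohomology (res U.subtype A) 2, p ^ (Nat.card U).factorization p • x = 0 ∧
      invOf A p u hu h2P U x =
        ((1 / (p ^ (Nat.card U).factorization p : ℕ) : ℚ) : AddCircle (1 : ℚ)) := by
  refine ⟨(Nat.card U / p ^ (Nat.card U).factorization p) • resClass A u U, ?_, ?_⟩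
  · rw [smul_comm, ← addOrderOf_resClass A p u hu U, addOrderOf_nsmul_eq_zero, smul_zero]
  · rw [map_nsmul, invOf_resClass, ordCompl_nsmul_pPart p Nat.card_pos.ne']

/-- compatibility with restriction -/
theorem invOf_resLE {V U : Subgroup G} (h : V ≤ U) (x : groupCohomology (res U.subtype A) 2) :
    invOf A p u hu h2P V (resLE A h 2 x) = V.relIndex U • invOf A p u hu h2P U x := by
  have key : (invOf A p u hu h2P V).comp (resLE A h 2).hom.toAddMonoidHom =
      V.relIndex U • invOf A p u hu h2P U := by
    apply hom_ext_H2 A p u hu h2P U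
    · change invOf A p u hu h2P V (resLE A h 2 (resClass A u U)) =
        V.relIndex U • invOf A p u hu h2P U (resClass A u U)
      rw [resLE_resClass, invOf_resClass, invOf_resClass, ← relIndex_mul_card_eq h]
      exact (nsmul_pPart_mul p (Subgroup.index_ne_zero_of_finite (H := V.subgroupOf U)) Nat.card_pos.ne').symm
    · intro y m' hm' hy
      change invOf A p u hu h2P V (resLE A h 2 y) = V.relIndex U • invOf A p u hu h2P U y
      rw [invOf_eq_zero_of_coprime A p u hu h2P U y m' hm' hy, smul_zero]
      apply invOf_eq_zero_of_coprime A p u hu h2P V _ m' hm'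
      rw [← map_nsmul, hy, map_zero]
  exact DFunLike.congr_fun key x

end Inv

section Sylow

variable {k G : Type} [CommRing k] [Group G] [Finite G] (A : Rep.{0} k G) (p : ℕ)
  [hp : Fact p.Prime]

/-- restriction to a `p`-subgroup of maximal order of `U` is injective on `p`-power torsion -/
theorem eq_zero_of_resLE_sylow (n : ℕ) {P U : Subgroup G} (hPU : P ≤ U)
    (hP : Nat.card P = p ^ (Nat.card U).factorization p)
    (x : groupCohomology (res U.subtype A) n) (hres : resLE A hPU n x = 0) (j : ℕ)
    (hx : p ^ j • x = 0) : x = 0 := by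
  have hU0 : Nat.card U ≠ 0 := Nat.card_pos.ne'
  have hidx : P.relIndex U = Nat.card U / p ^ (Nat.card U).factorization p := by
    have h1 := relIndex_mul_card_eq hPU
    rw [hP] at h1
    exact (Nat.div_eq_of_eq_mul_left (pow_pos hp.out.pos _) h1.symm).symm
  apply eq_zero_of_coprime_nsmul _ (P.relIndex U) (p ^ j)
  · rw [hidx]
    exact ((Nat.coprime_ordCompl hp.out hU0).pow_left _).symm
  · exact relIndex_nsmul_eq_zero_of_resLE_eq_zero A hPU n x hres
  · exact hx

/-- Hilbert 90 for `p`-subgroups gives: `H¹(U, A)` has no `p`-torsion -/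
theorem eq_zero_of_h1P
    (h1P : ∀ P : Subgroup G, IsPGroup p P → Subsingleton (groupCohomology (res P.subtype A) 1))
    (U : Subgroup G) (x : groupCohomology (res U.subtype A) 1) (hx : p • x = 0) : x = 0 := by
  obtain ⟨P, hPU, hPcard⟩ := exists_sylow_le p U
  have := h1P P (IsPGroup.of_card hPcard)
  exact eq_zero_of_resLE_sylow A p 1 hPU hPcard x (Subsingleton.elim _ _) 1 (by rwa [pow_one])

variable (u : groupCohomology A 2)
  (hu : addOrderOf u = p ^ (Nat.card G).factorization p)
  (h2P : ∀ P : Subgroup G, IsPGroup p P →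
    Finite (groupCohomology (res P.subtype A) 2) ∧
      Nat.card (groupCohomology (res P.subtype A) 2) ≤ Nat.card P)

include hu h2P in
/-- Tate's theorem: `H³(U, A)` has no `p`-torsion -/
theorem eq_zero_of_tate_H3 (hk : AddHomsLinear k)
    (hk1 : ∀ n : ℕ, 0 < n → ∀ x : k, n • x = 0 → x = 0)
    (hk2 : ∀ n : ℕ, 0 < n → ∀ x : k, ∃ m : ℕ, m < n ∧ ∃ y : k, x = (m : k) + n • y)
    (h1P : ∀ P : Subgroup G, IsPGroup p P → Subsingleton (groupCohomology (res P.subtype A) 1))
    (U : Subgroup G) (x : groupCohomology (res U.subtype A) 3) (hx : p • x = 0) : x = 0 := by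
  obtain ⟨P, hPU, hPcard⟩ := exists_sylow_le p U
  have hP : IsPGroup p P := IsPGroup.of_card hPcard
  have h1 : IsZero (groupCohomology (res P.subtype A) 1) :=
    ModuleCat.isZero_iff_subsingleton.2 (h1P P hP)
  obtain ⟨hfin, hcard⟩ := h2P P hP
  obtain ⟨n, hn⟩ := IsPGroup.iff_card.1 hP
  have hord := addOrderOf_resClass A p u hu P
  rw [hn, hp.out.factorization_pow, Finsupp.single_eq_same, ← hn] at hord
  have hge := (exists_zsmul_eq_of_addOrderOf_eq (resClass A u P) (Nat.card P) hcard hord).1
  have h3 : IsZero (groupCohomology (res P.subtype A) 3) :=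
    tate_H3_eq_zero_top_of_gen (res P.subtype A) p hP (resClass A u P) hk hk1 hk2 h1
      (exists_zsmul_resClass_of_pGroup A p u hu h2P P hP) hge
  have := ModuleCat.isZero_iff_subsingleton.1 h3
  exact eq_zero_of_resLE_sylow A p 3 hPU hPcard x (Subsingleton.elim _ _) 1 (by rwa [pow_one])

end Sylow

section Infl

variable {k G G' : Type} [CommRing k] [Group G] [Group G'] [Finite G] [Finite G']
  (π : G' →* G) (hπ : Function.Surjective π) (A : Rep.{0} k G) (A' : Rep.{0} k G')
  (φ : res π A ⟶ A')

include hπ in
theorem card_comap_eq (U : Subgroup G) :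
    Nat.card (U.comap π) = Nat.card π.ker * Nat.card U := by
  have h1 : (U.comap π).index = U.index := Subgroup.index_comap_of_surjective U hπ
  have h2 := (U.comap π).index_mul_card
  have h3 := U.index_mul_card
  have h4 : Nat.card G' = Nat.card π.ker * Nat.card G := by
    rw [← π.ker.index_mul_card, mul_comm, Subgroup.index_ker, MonoidHom.range_eq_top.2 hπ,
      Subgroup.card_top]
  have hU : U.index ≠ 0 := Subgroup.index_ne_zero_of_finite
  have : U.index * Nat.card (U.comap π) = U.index * (Nat.card π.ker * Nat.card U) := by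
    rw [← h1, h2, h4, ← h3, h1]; ring
  exact Nat.eq_of_mul_eq_mul_left (Nat.pos_of_ne_zero hU) this

/-- inflation `Hⁿ(U, A) ⟶ Hⁿ(π⁻¹ U, A')` -/
noncomputable def inflSub (U : Subgroup G) (n : ℕ) :
    groupCohomology (res U.subtype A) n ⟶ groupCohomology (res (U.comap π).subtype A') n :=
  map (π.subgroupComap U) ((resFunctor (U.comap π).subtype).map φ) n

/-- inflation commutes with restriction -/
theorem res_comp_inflSub (U : Subgroup G) (n : ℕ) :
    map U.subtype (𝟙 (res U.subtype A)) n ≫ inflSub π A A' φ U n =
      map π φ n ≫ map (U.comap π).subtype (𝟙 (res (U.comap π).subtype A')) n := by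
  unfold inflSub
  rw [← map_comp, ← map_comp]
  exact map_congr rfl rfl n

variable (p : ℕ) [hp : Fact p.Prime] (u : groupCohomology A 2) (u' : groupCohomology A' 2)
  (hu : addOrderOf u = p ^ (Nat.card G).factorization p)
  (hu' : addOrderOf u' = p ^ (Nat.card G').factorization p)
  (h2P : ∀ P : Subgroup G, IsPGroup p P →
    Finite (groupCohomology (res P.subtype A) 2) ∧
      Nat.card (groupCohomology (res P.subtype A) 2) ≤ Nat.card P)
  (h2P' : ∀ P : Subgroup G', IsPGroup p P →
    Finite (groupCohomology (res P.subtype A') 2) ∧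
      Nat.card (groupCohomology (res P.subtype A') 2) ≤ Nat.card P)
  (hinfl : map π φ 2 u = Nat.card π.ker • u')

include hinfl in
theorem inflSub_resClass (U : Subgroup G) :
    inflSub π A A' φ U 2 (resClass A u U) = Nat.card π.ker • resClass A' u' (U.comap π) := by
  have h := congr($(res_comp_inflSub π A A' φ U 2) u)
  rw [ConcreteCategory.comp_apply, ConcreteCategory.comp_apply, hinfl, map_nsmul] at h
  exact h

include hπ hinfl in
/-- compatibility of the invariant maps with inflation -/
theorem invOf_inflSub (U : Subgroup G) (x : groupCohomology (res U.subtype A) 2) :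
    invOf A' p u' hu' h2P' (U.comap π) (inflSub π A A' φ U 2 x) = invOf A p u hu h2P U x := by
  have key : (invOf A' p u' hu' h2P' (U.comap π)).comp (inflSub π A A' φ U 2).hom.toAddMonoidHom =
      invOf A p u hu h2P U := by
    apply hom_ext_H2 A p u hu h2P U
    · change invOf A' p u' hu' h2P' (U.comap π) (inflSub π A A' φ U 2 (resClass A u U)) =
        invOf A p u hu h2P U (resClass A u U)
      rw [inflSub_resClass π A A' φ u u' hinfl, map_nsmul, invOf_resClass, invOf_resClass,
        card_comap_eq π hπ U]
      exact nsmul_pPart_mul p Nat.card_pos.ne' Nat.card_pos.ne'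
    · intro y m' hm' hy
      change invOf A' p u' hu' h2P' (U.comap π) (inflSub π A A' φ U 2 y) =
        invOf A p u hu h2P U y
      rw [invOf_eq_zero_of_coprime A p u hu h2P U y m' hm' hy]
      apply invOf_eq_zero_of_coprime A' p u' hu' h2P' _ _ m' hm'
      rw [← map_nsmul, hy, map_zero]
  exact DFunLike.congr_fun key x

end Infl

end Fermat.Agent.CFT.Coh
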