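/-
P4 / Layer C5-INFL: inflation-restriction in degree 2 up to a multiplier.

If `r • H¹(S, A) = 0` for a normal subgroup `S ≤ G` then
* a class `x ∈ H²(G, A)` with trivial restriction to `S` satisfies `r • x = infl y`;
* a class `y ∈ H²(G ⧸ S, A^S)` with `infl y = 0` satisfies `r • y = 0`.
(For `r = 1` this is `InfRes2.lean`; the proofs are the same 2-cocycle computations.)

Consequently, if `H¹(P, A) = 0` for a Sylow `p`-subgroup `P` of `S`, the sequence
`0 ⟶ H²(G ⧸ S, A^S) ⟶ H²(G, A) ⟶ H²(S, A)` is exact on `p`-primary parts.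
-/
import Fermat.Agent.Lib.CFT.Coh.InfRes2
import Fermat.Agent.Lib.CFT.Coh.Cores

set_option autoImplicit false
set_option linter.unusedSectionVars false

namespace Fermat.Agent.CFT.Coh

open CategoryTheory groupCohomology Rep

section Elementary

variable {k G : Type} [CommRing k] [Group G] (A : Rep k G) (S : Subgroup G) [S.Normal]

/-- `r • H¹(S, A) = 0`, in elementary form -/
def H1VanishesMul (r : ℕ) : Prop :=
  ∀ z : S → A, (∀ s t : S, z (s * t) = A.ρ s (z t) + z s) →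
    ∃ x : A, ∀ s : S, r • z s = A.ρ s x - x

variable {A S}

theorem dOne_nsmul (r : ℕ) (c : G → A) : dOne A (r • c) = r • dOne A c := by
  funext p
  simp only [dOne, Pi.smul_apply, map_nsmul, smul_add, smul_sub]

/-- Step C with the coboundary data given explicitly. -/
theorem exists_vanish_GS_of (a : G × G → A) (ha : a ∈ cocycles₂ A)
    (h0 : ∀ t g : G, t ∈ S → a (t, g) = 0)
    (hx : ∀ g : G, ∃ x : A, ∀ s : S, a (g, s) = A.ρ g (A.ρ s x - x)) :
    ∃ c : G → A, (∀ t g : G, t ∈ S → (a + dOne A c) (t, g) = 0) ∧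
      (∀ g t : G, t ∈ S → (a + dOne A c) (g, t) = 0) := by
  classical
  have hi := map_mul_left_of_vanish_SG a ha h0
  choose x hx using hx
  set X : G → A := fun g => if g ∈ S then 0 else x (rep S g) with hX
  have hXS : ∀ t : G, t ∈ S → X t = 0 := fun t ht => by simp only [hX, if_pos ht]
  have hXmul : ∀ t g : G, t ∈ S → X (t * g) = X g := by
    intro t g ht
    simp only [hX]
    have : t * g ∈ S ↔ g ∈ S :=
      ⟨fun h => by
        have : g = t⁻¹ * (t * g) := by group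
        rw [this]; exact S.mul_mem (S.inv_mem ht) h, fun h => S.mul_mem ht h⟩
    by_cases hg : g ∈ S
    · rw [if_pos hg, if_pos (this.2 hg)]
    · rw [if_neg hg, if_neg (fun h => hg (this.1 h)), rep_mul_left ht]
  have hXa : ∀ (g : G) (s : G), s ∈ S → a (g, s) = A.ρ g (A.ρ s (X g) - X g) := by
    intro g s hs
    by_cases hg : g ∈ S
    · rw [h0 g s hg, hXS g hg, map_zero, sub_zero, map_zero]
    · simp only [hX, if_neg hg]
      have h1 : g = g * (rep S g)⁻¹ * rep S g := by group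
      have h2 := hi (g * (rep S g)⁻¹) (rep S g) s (mul_rep_inv_mem g)
      rw [← h1] at h2
      rw [h2, hx (rep S g) ⟨s, hs⟩, ← Module.End.mul_apply, ← map_mul, ← h1]
  refine ⟨fun g => A.ρ g (X g), fun t g ht => ?_, fun g t ht => ?_⟩
  · simp only [Pi.add_apply, dOne_apply]
    rw [h0 t g ht, hXmul t g ht, hXS t ht, map_zero, map_mul, Module.End.mul_apply]
    abel
  · simp only [Pi.add_apply, dOne_apply]
    have h1 : g * t = g * t * g⁻¹ * g := by group
    have h2 : X (g * t) = X g := by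
      rw [h1]
      exact hXmul _ _ (Subgroup.Normal.conj_mem ‹_› _ ht _)
    rw [hXa g t ht, hXS t ht, h2, map_zero, map_zero, map_sub, map_mul, Module.End.mul_apply]
    abel

/-- for a cocycle vanishing on `S × G`, `s ↦ g⁻¹ • a (g, s)` is a 1-cocycle on `S` -/
theorem isCocycle_of_vanish_SG (a : G × G → A) (ha : a ∈ cocycles₂ A)
    (h0 : ∀ t g : G, t ∈ S → a (t, g) = 0) (g : G) (s t : S) :
    A.ρ g⁻¹ (a (g, ((s * t : S) : G))) =
      A.ρ s (A.ρ g⁻¹ (a (g, (t : G)))) + A.ρ g⁻¹ (a (g, (s : G))) := by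
  have hi := map_mul_left_of_vanish_SG a ha h0
  have ha' := (mem_cocycles₂_iff a).1 ha
  have h1 := ha' g s t
  rw [h0 s t s.2, map_zero, zero_add] at h1
  have h2 : a (g * s, t) = A.ρ (g * s * g⁻¹) (a (g, t)) := by
    have := hi (g * s * g⁻¹) g t (Subgroup.Normal.conj_mem ‹_› _ s.2 _)
    rwa [show g * (s : G) * g⁻¹ * g = g * s by group] at this
  have h3 : a (g, ((s * t : S) : G)) = a (g, (s : G) * t) := rfl
  rw [h3, ← h1, h2, map_add, ← Module.End.mul_apply, ← map_mul, ← Module.End.mul_apply,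
    ← map_mul]
  congr 3
  group

/-- Step C up to the multiplier `r`. -/
theorem exists_vanish_GS_mul (r : ℕ) (hS : H1VanishesMul A S r) (a : G × G → A)
    (ha : a ∈ cocycles₂ A) (h0 : ∀ t g : G, t ∈ S → a (t, g) = 0) :
    ∃ c : G → A, (∀ t g : G, t ∈ S → (r • a + dOne A c) (t, g) = 0) ∧
      (∀ g t : G, t ∈ S → (r • a + dOne A c) (g, t) = 0) := by
  have har : r • a ∈ cocycles₂ A := (cocycles₂ A).toAddSubmonoid.nsmul_mem ha r
  have h0r : ∀ t g : G, t ∈ S → (r • a) (t, g) = 0 := fun t g ht => by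
    rw [Pi.smul_apply, h0 t g ht, smul_zero]
  refine exists_vanish_GS_of (r • a) har h0r fun g => ?_
  obtain ⟨x, hx⟩ := hS (fun s => A.ρ g⁻¹ (a (g, s))) (isCocycle_of_vanish_SG a ha h0 g)
  refine ⟨x, fun s => ?_⟩
  rw [← hx s, map_nsmul, ← Module.End.mul_apply, ← map_mul, mul_inv_cancel, map_one,
    Module.End.one_apply, Pi.smul_apply]

/-- Exactness at `H²(G, A)` in cocycle form, up to the multiplier `r`. -/
theorem exists_inflation_of_res_eq_coboundary_mul (r : ℕ) (hS : H1VanishesMul A S r)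
    (a : cocycles₂ A) (b : S → A)
    (hb : ∀ s t : S, a ((s : G), (t : G)) = A.ρ s (b t) - b (s * t) + b s) :
    ∃ (c : G → A) (ā : cocycles₂ (A.quotientToInvariants S)), ∀ g h : G,
      (ā ((g : G ⧸ S), (h : G ⧸ S))).1 = r • a (g, h) + dOne A c (g, h) := by
  obtain ⟨c₀, h₀⟩ := exists_vanish_SS (S := S) (a : G × G → A) b hb
  have ha₁ : (a : G × G → A) + dOne A c₀ ∈ cocycles₂ A :=
    (cocycles₂ A).add_mem a.2 (dOne_mem_cocycles₂ A c₀)
  obtain ⟨c₁, h₁⟩ := exists_vanish_SG (S := S) _ ha₁ h₀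
  have ha₂ : (a : G × G → A) + dOne A c₀ + dOne A c₁ ∈ cocycles₂ A :=
    (cocycles₂ A).add_mem ha₁ (dOne_mem_cocycles₂ A c₁)
  obtain ⟨c₂, h₂, h₂'⟩ := exists_vanish_GS_mul r hS _ ha₂ h₁
  have ha₃ : r • ((a : G × G → A) + dOne A c₀ + dOne A c₁) + dOne A c₂ ∈ cocycles₂ A :=
    (cocycles₂ A).add_mem ((cocycles₂ A).toAddSubmonoid.nsmul_mem ha₂ r)
      (dOne_mem_cocycles₂ A c₂)
  obtain ⟨ā, hā⟩ := exists_descent _ ha₃ h₂ h₂'
  refine ⟨r • c₀ + r • c₁ + c₂, ā, fun g h => ?_⟩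
  rw [hā g h, dOne_add, dOne_add, dOne_nsmul, dOne_nsmul]
  simp only [Pi.add_apply, Pi.smul_apply, smul_add]
  abel

/-- Injectivity of inflation in cocycle form, with the coboundary data on `S` given explicitly. -/
theorem exists_descent_cochain_of (ā : cocycles₂ (A.quotientToInvariants S)) (b : G → A)
    (hb : ∀ g h : G, (ā ((g : G ⧸ S), (h : G ⧸ S))).1 = A.ρ g (b h) - b (g * h) + b g)
    (hx : ∃ x : A, ∀ s : S, b s - (ā (1, 1)).1 = A.ρ s x - x) :
    ∃ β : G ⧸ S → A.quotientToInvariants S, ∀ q₁ q₂ : G ⧸ S,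
      ā (q₁, q₂) = (A.quotientToInvariants S).ρ q₁ (β q₂) - β (q₁ * q₂) + β q₁ := by
  set e : A := (ā (1, 1)).1 with he
  have hmk1 : ∀ s : G, s ∈ S → ((s : G) : G ⧸ S) = 1 := fun s hs =>
    (QuotientGroup.eq_one_iff s).2 hs
  have hfst : ∀ g : G, (ā ((1 : G ⧸ S), (g : G ⧸ S))).1 = e := fun g => by
    rw [cocycles₂_map_one_fst]
  have hsnd : ∀ g : G, (ā ((g : G ⧸ S), (1 : G ⧸ S))).1 = A.ρ g e := fun g => by
    rw [cocycles₂_map_one_snd]; rfl
  obtain ⟨x, hx⟩ := hx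
  set β₀ : G → A := fun g => b g - (A.ρ g x - x) with hβ₀
  have hdβ : ∀ g h : G, A.ρ g (β₀ h) - β₀ (g * h) + β₀ g = A.ρ g (b h) - b (g * h) + b g := by
    intro g h
    simp only [hβ₀, map_sub, map_mul, Module.End.mul_apply]
    abel
  have hβS : ∀ s : G, s ∈ S → β₀ s = e := by
    intro s hs
    have := hx ⟨s, hs⟩
    simp only [hβ₀]
    rw [← this]
    abel
  have hβr : ∀ g s : G, s ∈ S → β₀ (g * s) = β₀ g := by
    intro g s hs
    have h1 := hb g s
    rw [hmk1 s hs, hsnd, ← hdβ, hβS s hs] at h1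
    have : β₀ g - β₀ (g * s) = 0 := by
      have h2 : A.ρ g e - β₀ (g * s) + β₀ g - A.ρ g e = β₀ g - β₀ (g * s) := by abel
      rw [← h2, ← h1, sub_self]
    exact (sub_eq_zero.1 this).symm
  have hβl : ∀ s g : G, s ∈ S → β₀ (s * g) = A.ρ s (β₀ g) := by
    intro s g hs
    have h1 := hb s g
    rw [hmk1 s hs, hfst, ← hdβ, hβS s hs] at h1
    have : A.ρ s (β₀ g) - β₀ (s * g) = 0 := by
      have h2 : A.ρ s (β₀ g) - β₀ (s * g) + e - e = A.ρ s (β₀ g) - β₀ (s * g) := by abel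
      rw [← h2, ← h1, sub_self]
    exact (sub_eq_zero.1 this).symm
  have hβinv : ∀ s g : G, s ∈ S → A.ρ s (β₀ g) = β₀ g := by
    intro s g hs
    rw [← hβl s g hs]
    have : s * g = g * (g⁻¹ * s * g) := by group
    rw [this]
    exact hβr _ _ (Subgroup.Normal.conj_mem' ‹_› _ hs _)
  set β : G ⧸ S → A.quotientToInvariants S :=
    fun q => ⟨β₀ q.out, fun s => hβinv s _ s.2⟩ with hβ
  have hβval : ∀ g : G, (β (g : G ⧸ S)).1 = β₀ g := by
    intro g
    obtain ⟨s₁, hs₁⟩ := QuotientGroup.mk_out_eq_mul S g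
    simp only [hβ]
    rw [hs₁, hβr _ _ s₁.2]
  refine ⟨β, fun q₁ q₂ => ?_⟩
  induction q₁ using QuotientGroup.induction_on with | H g₁ =>
  induction q₂ using QuotientGroup.induction_on with | H g₂ =>
  apply Subtype.ext
  rw [← QuotientGroup.mk_mul]
  have e2 : (((A.quotientToInvariants S).ρ (g₁ : G ⧸ S) (β (g₂ : G ⧸ S)) -
      β ((g₁ * g₂ : G) : G ⧸ S) + β (g₁ : G ⧸ S) : A.quotientToInvariants S)).1 =
        A.ρ g₁ (β₀ g₂) - β₀ (g₁ * g₂) + β₀ g₁ := by
    rw [← hβval, ← hβval, ← hβval]; rfl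
  rw [e2, hb, hdβ]

/-- Injectivity of inflation in cocycle form, up to the multiplier `r`. -/
theorem exists_descent_cochain_mul (r : ℕ) (hS : H1VanishesMul A S r)
    (ā : cocycles₂ (A.quotientToInvariants S)) (b : G → A)
    (hb : ∀ g h : G, (ā ((g : G ⧸ S), (h : G ⧸ S))).1 = A.ρ g (b h) - b (g * h) + b g) :
    ∃ β : G ⧸ S → A.quotientToInvariants S, ∀ q₁ q₂ : G ⧸ S,
      r • ā (q₁, q₂) = (A.quotientToInvariants S).ρ q₁ (β q₂) - β (q₁ * q₂) + β q₁ := by
  set e : A := (ā (1, 1)).1 with he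
  have heS : ∀ s : G, s ∈ S → A.ρ s e = e := fun s hs => (ā (1, 1)).2 ⟨s, hs⟩
  have hmk1 : ∀ s : G, s ∈ S → ((s : G) : G ⧸ S) = 1 := fun s hs =>
    (QuotientGroup.eq_one_iff s).2 hs
  obtain ⟨x, hx⟩ := hS (fun s => b s - e) (by
    intro s t
    have h1 := hb s t
    rw [hmk1 s s.2, hmk1 t t.2, ← he] at h1
    have h2 : b ((s * t : S) : G) = A.ρ s (b t) + b s - e := by
      rw [h1]; simp only [Subgroup.coe_mul]; abel
    rw [h2, map_sub, heS s s.2]
    abel)
  have hār : r • (ā : (G ⧸ S) × (G ⧸ S) → A.quotientToInvariants S) ∈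
      cocycles₂ (A.quotientToInvariants S) :=
    (cocycles₂ (A.quotientToInvariants S)).toAddSubmonoid.nsmul_mem ā.2 r
  obtain ⟨β, hβ⟩ := exists_descent_cochain_of (S := S) ⟨_, hār⟩ (r • b)
    (fun g h => by
      change ((r • ā ((g : G ⧸ S), (h : G ⧸ S)) : A.quotientToInvariants S)).1 = _
      have : ((r • ā ((g : G ⧸ S), (h : G ⧸ S)) : A.quotientToInvariants S)).1 =
          r • (ā ((g : G ⧸ S), (h : G ⧸ S))).1 := rfl
      rw [this, hb g h]
      simp only [Pi.smul_apply, map_nsmul, smul_add, smul_sub])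
    ⟨x, fun s => by
      change (r • b) (s : G) - ((r • ā (1, 1) : A.quotientToInvariants S)).1 = _
      have : ((r • ā (1, 1) : A.quotientToInvariants S)).1 = r • e := rfl
      rw [this, Pi.smul_apply, ← smul_sub]
      exact hx s⟩
  exact ⟨β, fun q₁ q₂ => hβ q₁ q₂⟩

end Elementary

/-! ### The statements in Mathlib's language -/

section InfRes

variable {k G : Type} [CommRing k] [Group G] (A : Rep k G) (S : Subgroup G) [S.Normal]

/-- `r • H¹(S, A) = 0` in elementary form. -/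
theorem h1VanishesMul_of_nsmul_eq_zero (r : ℕ)
    (h : ∀ x : groupCohomology (res S.subtype A) 1, r • x = 0) : H1VanishesMul A S r := by
  intro z hz
  have hz' : z ∈ cocycles₁ (res S.subtype A) := (mem_cocycles₁_iff (A := res S.subtype A) z).2 hz
  have hrz : r • z ∈ cocycles₁ (res S.subtype A) :=
    (cocycles₁ (res S.subtype A)).toAddSubmonoid.nsmul_mem hz' r
  have h0 : H1π (res S.subtype A) ⟨r • z, hrz⟩ = 0 := by
    have h1 : (⟨r • z, hrz⟩ : cocycles₁ (res S.subtype A)) = r • ⟨z, hz'⟩ := rfl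
    rw [h1, map_nsmul]
    exact h _
  obtain ⟨x, hx⟩ := (H1π_eq_zero_iff _).1 h0
  exact ⟨x, fun s => (congr_fun hx s).symm⟩

/-- If `r • H¹(S, A) = 0`, the kernel of the inflation `H²(G ⧸ S, A^S) ⟶ H²(G, A)` is killed by
`r`. -/
theorem nsmul_eq_zero_of_inf₂_eq_zero (r : ℕ)
    (h : ∀ x : groupCohomology (res S.subtype A) 1, r • x = 0)
    (x : groupCohomology (A.quotientToInvariants S) 2)
    (hx : map (QuotientGroup.mk' S) (ofHom <| A.ρ.quotientToInvariants_lift S) 2 x = 0) :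
    r • x = 0 := by
  have hS := h1VanishesMul_of_nsmul_eq_zero A S r h
  induction x using H2_induction_on with | h ā =>
  rw [H2π_comp_map_apply (QuotientGroup.mk' S), H2π_eq_zero_iff] at hx
  obtain ⟨b, hb⟩ := hx
  obtain ⟨β, hβ⟩ := exists_descent_cochain_mul r hS ā b (fun g h => (congr_fun hb (g, h)).symm)
  rw [← map_nsmul, H2π_eq_zero_iff]
  refine ⟨β, ?_⟩
  funext p
  obtain ⟨q₁, q₂⟩ := p
  exact (hβ q₁ q₂).symm

/-- If `r • H¹(S, A) = 0` and `x ∈ H²(G, A)` has trivial restriction to `S`, then `r • x` is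
inflated from `G ⧸ S`. -/
theorem exists_inf₂_eq_nsmul (r : ℕ)
    (h : ∀ x : groupCohomology (res S.subtype A) 1, r • x = 0)
    (x : groupCohomology A 2) (hx : map S.subtype (𝟙 (res S.subtype A)) 2 x = 0) :
    ∃ y : groupCohomology (A.quotientToInvariants S) 2,
      map (QuotientGroup.mk' S) (ofHom <| A.ρ.quotientToInvariants_lift S) 2 y = r • x := by
  have hS := h1VanishesMul_of_nsmul_eq_zero A S r h
  induction x using H2_induction_on with | h a =>
  rw [H2π_comp_map_apply S.subtype, H2π_eq_zero_iff] at hx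
  obtain ⟨b, hb⟩ := hx
  obtain ⟨c, ā, hā⟩ := exists_inflation_of_res_eq_coboundary_mul r hS a b
    (fun s t => (congr_fun hb (s, t)).symm)
  refine ⟨H2π _ ā, ?_⟩
  rw [H2π_comp_map_apply (QuotientGroup.mk' S), ← map_nsmul, H2π_eq_iff]
  refine ⟨c, ?_⟩
  funext p
  obtain ⟨g, h⟩ := p
  have := hā g h
  simp only [Pi.sub_apply]
  rw [show (mapCocycles₂ (QuotientGroup.mk' S) (ofHom <| A.ρ.quotientToInvariants_lift S) ā)
    (g, h) = (ā ((g : G ⧸ S), (h : G ⧸ S))).1 from rfl, this]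
  simp only [dOne_apply, d₁₂_hom_apply]
  have hra : (r • a) (g, h) = r • a (g, h) := rfl
  rw [hra]
  abel

end InfRes

end Fermat.Agent.CFT.Coh
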