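/-
P4 / Layer C5-INFL: inflation-restriction in degree 2 for a surjection `π : G' → G` and a
morphism `φ : A → B` (over `π`) satisfying Galois descent (`A ≃ B^{ker π}`), up to a multiplier
killing `H¹(ker π, B)`; the `p`-primary consequences.
-/
import Fermat.Agent.Lib.CFT.Coh.InfRes2Mul
import Fermat.Agent.Lib.CFT.Coh.FundamentalClass

set_option autoImplicit false
set_option linter.unusedSectionVars false

namespace Fermat.Agent.CFT.Coh

open CategoryTheory groupCohomology Rep

noncomputable section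

section Descent

variable {k G G' : Type} [CommRing k] [Group G] [Group G'] (π : G' →* G)
  (hπ : Function.Surjective π) {A : Rep.{0} k G} {B : Rep.{0} k G'} (φ : res π A ⟶ B)

/-- the group isomorphism `G' ⧸ ker π ≃ G` -/
abbrev kerEquiv : G' ⧸ π.ker ≃* G := QuotientGroup.quotientKerEquivOfSurjective π hπ

theorem kerEquiv_mk (g : G') : kerEquiv π hπ (g : G' ⧸ π.ker) = π g := rfl

theorem kerEquiv_symm_apply (g : G') : (kerEquiv π hπ).symm (π g) = (g : G' ⧸ π.ker) := by
  rw [MulEquiv.symm_apply_eq]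
  rfl

theorem map_mem_invariants (a : A) :
    φ.hom a ∈ Representation.invariants (B.ρ.comp π.ker.subtype) := by
  intro n
  change B.ρ (n : G') (φ.hom a) = φ.hom a
  rw [← hom_comm_apply φ]
  change φ.hom (A.ρ (π n) a) = φ.hom a
  rw [MonoidHom.mem_ker.1 n.2, map_one]
  rfl

/-- `A → B^{ker π}` as a linear map -/
def descLin : A.V →ₗ[k] (B.quotientToInvariants π.ker).V :=
  φ.hom.toLinearMap.codRestrict _ (map_mem_invariants π φ)

theorem descLin_apply (a : A) : ((descLin π φ a : (B.quotientToInvariants π.ker).V) : B.V) =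
    φ.hom a := rfl

/-- `A → B^{ker π}` over the isomorphism `G' ⧸ ker π ≃ G` -/
def descHom : res (kerEquiv π hπ).toMonoidHom A ⟶ B.quotientToInvariants π.ker :=
  Rep.ofHom ⟨descLin π φ, fun q => by
    refine LinearMap.ext fun a => ?_
    induction q using QuotientGroup.induction_on with | H g =>
    apply Subtype.ext
    change φ.hom (A.ρ (π g) a) = B.ρ g (φ.hom a)
    exact hom_comm_apply φ g a⟩

theorem descHom_apply (a : A) :
    (((descHom π hπ φ).hom a : (B.quotientToInvariants π.ker).V) : B.V) = φ.hom a := rfl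

variable (hinj : Function.Injective φ.hom)
  (hsurj : ∀ y : B, (∀ g ∈ π.ker, B.ρ g y = y) → ∃ x : A, φ.hom x = y)

include hinj hsurj in
theorem descLin_bijective : Function.Bijective (descLin π φ) := by
  constructor
  · intro x y hxy
    exact hinj (congrArg Subtype.val hxy)
  · rintro ⟨y, hy⟩
    obtain ⟨x, hx⟩ := hsurj y (fun g hg => hy ⟨g, hg⟩)
    exact ⟨x, Subtype.ext hx⟩

/-- the linear equivalence `A ≃ B^{ker π}` -/
def descEquiv : A.V ≃ₗ[k] (B.quotientToInvariants π.ker).V :=
  LinearEquiv.ofBijective (descLin π φ) (descLin_bijective π φ hinj hsurj)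

theorem descEquiv_apply (a : A) : descEquiv π φ hinj hsurj a = descLin π φ a := rfl

theorem map_descEquiv_symm (b : (B.quotientToInvariants π.ker).V) :
    φ.hom ((descEquiv π φ hinj hsurj).symm b) = (b : B.V) := by
  have := (descEquiv π φ hinj hsurj).apply_symm_apply b
  exact congrArg Subtype.val this

/-- `B^{ker π} → A` over the isomorphism `G ≃ G' ⧸ ker π` -/
def ascHom : res (kerEquiv π hπ).symm.toMonoidHom (B.quotientToInvariants π.ker) ⟶ A :=
  Rep.ofHom ⟨(descEquiv π φ hinj hsurj).symm.toLinearMap, fun g => by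
    refine LinearMap.ext fun b => ?_
    obtain ⟨g', rfl⟩ := hπ g
    apply hinj
    change φ.hom ((descEquiv π φ hinj hsurj).symm
        ((B.quotientToInvariants π.ker).ρ ((kerEquiv π hπ).symm (π g')) b)) =
      φ.hom (A.ρ (π g') ((descEquiv π φ hinj hsurj).symm b))
    rw [map_descEquiv_symm, kerEquiv_symm_apply]
    have h1 : φ.hom (A.ρ (π g') ((descEquiv π φ hinj hsurj).symm b)) =
        B.ρ g' (φ.hom ((descEquiv π φ hinj hsurj).symm b)) :=
      hom_comm_apply φ g' _
    rw [h1, map_descEquiv_symm]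
    rfl⟩

theorem ascHom_apply (b : (B.quotientToInvariants π.ker).V) :
    (ascHom π hπ φ hinj hsurj).hom b = (descEquiv π φ hinj hsurj).symm b := rfl

/-- `map π φ = infl ∘ map e (desc)` -/
theorem map_eq_desc_comp_inf (n : ℕ) :
    map π φ n = map (kerEquiv π hπ).toMonoidHom (descHom π hπ φ) n ≫
      map (QuotientGroup.mk' π.ker) (ofHom <| B.ρ.quotientToInvariants_lift π.ker) n := by
  rw [← map_comp]
  exact map_congr rfl rfl n

/-- `infl = map π φ ∘ map e⁻¹ (asc)` -/
theorem inf_eq_asc_comp_map (n : ℕ) :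
    map (QuotientGroup.mk' π.ker) (ofHom <| B.ρ.quotientToInvariants_lift π.ker) n =
      map (kerEquiv π hπ).symm.toMonoidHom (ascHom π hπ φ hinj hsurj) n ≫ map π φ n := by
  rw [← map_comp]
  refine map_congr ?_ ?_ n
  · ext g
    exact (kerEquiv_symm_apply π hπ g).symm
  · refine LinearMap.ext fun b => ?_
    exact (map_descEquiv_symm π φ hinj hsurj b).symm

/-- `map e⁻¹ (asc) ∘ map e (desc) = id` -/
theorem desc_comp_asc (n : ℕ) :
    map (kerEquiv π hπ).toMonoidHom (descHom π hπ φ) n ≫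
      map (kerEquiv π hπ).symm.toMonoidHom (ascHom π hπ φ hinj hsurj) n = 𝟙 _ := by
  rw [← map_comp, ← map_id]
  refine map_congr ?_ ?_ n
  · ext g
    exact (kerEquiv π hπ).apply_symm_apply g
  · refine LinearMap.ext fun a => ?_
    exact (descEquiv π φ hinj hsurj).symm_apply_apply a

include hπ hinj hsurj in
/-- **injectivity of inflation up to a multiplier** -/
theorem nsmul_eq_zero_of_map_eq_zero (r : ℕ)
    (h : ∀ x : groupCohomology (res π.ker.subtype B) 1, r • x = 0)
    (y : groupCohomology A 2) (hy : (map π φ 2).hom y = 0) : r • y = 0 := by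
  set z := (map (kerEquiv π hπ).toMonoidHom (descHom π hπ φ) 2).hom y with hz
  have h1 : (map (QuotientGroup.mk' π.ker) (ofHom <| B.ρ.quotientToInvariants_lift π.ker) 2).hom z
      = 0 := by
    rw [← hy, map_eq_desc_comp_inf π hπ φ 2]
    rfl
  have h2 : r • z = 0 := nsmul_eq_zero_of_inf₂_eq_zero B π.ker r h z h1
  have h3 : y = (map (kerEquiv π hπ).symm.toMonoidHom (ascHom π hπ φ hinj hsurj) 2).hom z := by
    have := congrArg (fun f => f.hom y) (desc_comp_asc π hπ φ hinj hsurj 2)
    exact this.symm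
  rw [h3, ← map_nsmul, h2, map_zero]

include hπ hinj hsurj in
/-- **exactness in the middle up to a multiplier** -/
theorem exists_map_eq_nsmul (r : ℕ)
    (h : ∀ x : groupCohomology (res π.ker.subtype B) 1, r • x = 0)
    (x : groupCohomology B 2)
    (hx : (map π.ker.subtype (𝟙 (res π.ker.subtype B)) 2).hom x = 0) :
    ∃ y : groupCohomology A 2, (map π φ 2).hom y = r • x := by
  obtain ⟨z, hz⟩ := exists_inf₂_eq_nsmul B π.ker r h x hx
  refine ⟨(map (kerEquiv π hπ).symm.toMonoidHom (ascHom π hπ φ hinj hsurj) 2).hom z, ?_⟩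
  rw [← hz, inf_eq_asc_comp_map π hπ φ hinj hsurj 2]
  rfl

end Descent

/-! ### `p`-primary parts -/

section PPrimary

variable {k G G' : Type} [CommRing k] [Group G] [Group G'] [Finite G'] (π : G' →* G)
  (hπ : Function.Surjective π) {A : Rep.{0} k G} {B : Rep.{0} k G'} (φ : res π A ⟶ B)
  (hinj : Function.Injective φ.hom)
  (hsurj : ∀ y : B, (∀ g ∈ π.ker, B.ρ g y = y) → ∃ x : A, φ.hom x = y)
  (p : ℕ) [hp : Fact p.Prime]
  (h1P : ∀ P : Subgroup G', P ≤ π.ker → IsPGroup p P →
    Subsingleton (groupCohomology (res P.subtype B) 1))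

include h1P in
/-- `H¹(U, B)` is killed by the prime-to-`p` part of `|U|` -/
theorem exists_coprime_nsmul_H1_eq_zero (U : Subgroup G') (hU : U ≤ π.ker) :
    ∃ r : ℕ, Nat.Coprime r p ∧ ∀ x : groupCohomology (res U.subtype B) 1, r • x = 0 := by
  obtain ⟨P, hPU, hPcard⟩ := exists_sylow_le p U
  have hP : IsPGroup p P := IsPGroup.of_card hPcard
  have hsub := h1P P (hPU.trans hU) hP
  have hU0 : Nat.card U ≠ 0 := Nat.card_pos.ne'
  refine ⟨P.relIndex U, ?_, fun x => ?_⟩
  · have hidx : P.relIndex U = Nat.card U / p ^ (Nat.card U).factorization p := by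
      have h1 := relIndex_mul_card_eq hPU
      rw [hPcard] at h1
      exact (Nat.div_eq_of_eq_mul_left (pow_pos hp.out.pos _) h1.symm).symm
    rw [hidx]
    exact (Nat.coprime_ordCompl hp.out hU0).symm
  · exact relIndex_nsmul_eq_zero_of_resLE_eq_zero B hPU 1 x (Subsingleton.elim _ _)

include hπ hinj hsurj h1P in
/-- **inflation is injective on `p`-power torsion** -/
theorem eq_zero_of_map_eq_zero_of_pow (y : groupCohomology A 2) (j : ℕ) (hj : p ^ j • y = 0)
    (hy : (map π φ 2).hom y = 0) : y = 0 := by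
  obtain ⟨r, hr, h⟩ := exists_coprime_nsmul_H1_eq_zero π p h1P π.ker le_rfl
  exact eq_zero_of_coprime_nsmul y r (p ^ j) (hr.pow_right j)
    (nsmul_eq_zero_of_map_eq_zero π hπ φ hinj hsurj r h y hy) hj

include hπ hinj hsurj h1P in
/-- **exactness in the middle on `p`-power torsion** -/
theorem exists_map_eq_of_pow (x : groupCohomology B 2) (j : ℕ) (hj : p ^ j • x = 0)
    (hx : (map π.ker.subtype (𝟙 (res π.ker.subtype B)) 2).hom x = 0) :
    ∃ y : groupCohomology A 2, p ^ j • y = 0 ∧ (map π φ 2).hom y = x := by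
  obtain ⟨r, hr, h⟩ := exists_coprime_nsmul_H1_eq_zero π p h1P π.ker le_rfl
  obtain ⟨y₀, hy₀⟩ := exists_map_eq_nsmul π hπ φ hinj hsurj r h x hx
  obtain ⟨u, v, huv⟩ := Nat.isCoprime_iff_coprime.2 (hr.pow_right j)
  -- `(u r) • x = x`
  have hux : ∀ z : groupCohomology B 2, p ^ j • z = 0 → (u * (r : ℤ)) • z = z := by
    intro z hz
    calc (u * (r : ℤ)) • z = (u * (r : ℤ)) • z + v • ((p ^ j : ℕ) : ℤ) • z := by
          rw [natCast_zsmul, hz, smul_zero, add_zero]
      _ = (u * (r : ℤ) + v * ((p ^ j : ℕ) : ℤ)) • z := by rw [add_smul, mul_smul v]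
      _ = z := by rw [huv, one_smul]
  set y₁ := u • y₀ with hy₁
  have h1 : (map π φ 2).hom y₁ = x := by
    rw [hy₁, map_zsmul, hy₀, ← natCast_zsmul, ← mul_smul]
    exact hux x hj
  refine ⟨(u * (r : ℤ)) • y₁, ?_, ?_⟩
  · have h2 : (map π φ 2).hom (p ^ j • y₁) = 0 := by rw [map_nsmul, h1, hj]
    have h3 := nsmul_eq_zero_of_map_eq_zero π hπ φ hinj hsurj r h _ h2
    rw [smul_comm, mul_smul, natCast_zsmul, h3, smul_zero]
  · rw [map_zsmul, h1]
    exact hux x hj

end PPrimary

end

end Fermat.Agent.CFT.Coh
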