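/-
P4 / Layer A/D: relative norms (traces) `N_{K/S} : A^S → A^K` of a representation of a finite group
`K` for a subgroup `S` (sum over representatives of `K ⧸ S`), transitivity, and the bookkeeping of
norm index bounds by finite sets of representatives (`NormBound`).
-/
import Fermat.Agent.Lib.CFT.Coh.LowTate

set_option autoImplicit false
set_option linter.unusedSectionVars false
set_option linter.style.haveILetI false

namespace Fermat.Agent.CFT.Coh

open CategoryTheory

section RelNorm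

variable {k K : Type} [CommRing k] [Group K]

/-- the invariants of a subgroup `S ≤ K` in a representation of `K` -/
noncomputable abbrev fixS (D : Rep.{0} k K) (S : Subgroup K) : Submodule k D.V :=
  Representation.invariants (k := k) (G := S) (V := D.V) (D.ρ.comp S.subtype)

theorem mem_fixS_iff (D : Rep.{0} k K) (S : Subgroup K) (m : D.V) :
    m ∈ fixS D S ↔ ∀ s ∈ S, D.ρ s m = m :=
  ⟨fun h s hs => h ⟨s, hs⟩, fun h s => h s.1 s.2⟩

theorem fixS_mono (D : Rep.{0} k K) {S S' : Subgroup K} (h : S ≤ S') : fixS D S' ≤ fixS D S :=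
  fun m hm => (mem_fixS_iff D S m).2 fun s hs => (mem_fixS_iff D S' m).1 hm s (h hs)

/-- the relative norm `N_{K/S}`, as a function on the whole module -/
noncomputable def nmAbs (D : Rep.{0} k K) (S : Subgroup K) (d : D.V) : D.V :=
  ∑ᶠ q : K ⧸ S, D.ρ (q.out) d

variable [Finite K]

theorem nmAbs_eq_sum (D : Rep.{0} k K) (S : Subgroup K) [Fintype (K ⧸ S)] (d : D.V) :
    nmAbs D S d = ∑ q : K ⧸ S, D.ρ (q.out) d :=
  finsum_eq_sum_of_fintype _

theorem nmAbs_add (D : Rep.{0} k K) (S : Subgroup K) (d d' : D.V) :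
    nmAbs D S (d + d') = nmAbs D S d + nmAbs D S d' := by
  classical
  haveI : Fintype (K ⧸ S) := Fintype.ofFinite _
  simp only [nmAbs_eq_sum, map_add, Finset.sum_add_distrib]

theorem nmAbs_zero (D : Rep.{0} k K) (S : Subgroup K) : nmAbs D S 0 = 0 := by
  classical
  haveI : Fintype (K ⧸ S) := Fintype.ofFinite _
  simp only [nmAbs_eq_sum, map_zero, Finset.sum_const_zero]

theorem nmAbs_zsmul (D : Rep.{0} k K) (S : Subgroup K) (a : ℤ) (d : D.V) :
    nmAbs D S (a • d) = a • nmAbs D S d := by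
  classical
  haveI : Fintype (K ⧸ S) := Fintype.ofFinite _
  simp only [nmAbs_eq_sum, map_zsmul, Finset.smul_sum]

/-- on `S`-invariants, `ρ (q.out) d` only depends on the coset -/
theorem rho_out_mk (D : Rep.{0} k K) (S : Subgroup K) (d : D.V) (hd : d ∈ fixS D S) (x : K) :
    D.ρ ((QuotientGroup.mk x : K ⧸ S).out) d = D.ρ x d := by
  obtain ⟨s, hs⟩ := QuotientGroup.mk_out_eq_mul S x
  rw [hs, map_mul, Module.End.mul_apply, (mem_fixS_iff D S d).1 hd s.1 s.2]

/-- the norm of an `S`-invariant element is `K`-invariant -/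
theorem nmAbs_mem (D : Rep.{0} k K) (S : Subgroup K) (d : D.V) (hd : d ∈ fixS D S) :
    nmAbs D S d ∈ fixS D ⊤ := by
  classical
  haveI : Fintype (K ⧸ S) := Fintype.ofFinite _
  rw [mem_fixS_iff]
  intro g _
  rw [nmAbs_eq_sum, map_sum]
  have h1 : ∀ q : K ⧸ S, D.ρ g (D.ρ q.out d) = D.ρ ((g • q : K ⧸ S).out) d := by
    intro q
    have h2 : (g • q : K ⧸ S) = QuotientGroup.mk (g * q.out) := by
      conv_lhs => rw [← QuotientGroup.out_eq' q]
      rfl
    rw [h2, rho_out_mk D S d hd, map_mul, Module.End.mul_apply]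
  rw [Finset.sum_congr rfl (fun q _ => h1 q)]
  exact Fintype.sum_equiv (MulAction.toPerm g) _ _ (fun q => rfl)

/-- the norm of a `K`-invariant element is its multiple by the index -/
theorem nmAbs_of_mem_top (D : Rep.{0} k K) (S : Subgroup K) (c : D.V) (hc : c ∈ fixS D ⊤) :
    nmAbs D S c = S.index • c := by
  classical
  haveI : Fintype (K ⧸ S) := Fintype.ofFinite _
  rw [nmAbs_eq_sum]
  have h1 : ∀ q : K ⧸ S, D.ρ q.out c = c := fun q => (mem_fixS_iff D ⊤ c).1 hc _ trivial
  rw [Finset.sum_congr rfl (fun q _ => h1 q), Finset.sum_const, Finset.card_univ,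
    Subgroup.index_eq_card, Nat.card_eq_fintype_card]

/-- invariants of `S₁ ≤ S'` in the restriction to `S'` -/
theorem mem_fixS_res_iff (D : Rep.{0} k K) (S' : Subgroup K) (S₁ : Subgroup S') (m : D.V) :
    m ∈ fixS (Rep.res S'.subtype D) S₁ ↔ ∀ s : S', s ∈ S₁ → D.ρ s.1 m = m :=
  mem_fixS_iff (Rep.res S'.subtype D) S₁ m

/-- **transitivity of the norm** -/
theorem nmAbs_trans (D : Rep.{0} k K) {S S' : Subgroup K} (h : S ≤ S') (d : D.V)
    (hd : d ∈ fixS D S) :
    nmAbs D S d = nmAbs D S' (nmAbs (Rep.res S'.subtype D) (S.subgroupOf S') d) := by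
  classical
  haveI : Fintype (K ⧸ S) := Fintype.ofFinite _
  haveI : Fintype (K ⧸ S') := Fintype.ofFinite _
  haveI : Fintype (S' ⧸ S.subgroupOf S') := Fintype.ofFinite _
  have hd' : d ∈ fixS (Rep.res S'.subtype D) (S.subgroupOf S') := by
    rw [mem_fixS_res_iff]
    intro s hs
    exact (mem_fixS_iff D S d).1 hd s.1 (Subgroup.mem_subgroupOf.1 hs)
  rw [nmAbs_eq_sum, nmAbs_eq_sum, nmAbs_eq_sum]
  simp only [map_sum]
  rw [← Fintype.sum_prod_type' (f := fun (r : K ⧸ S') (t : S' ⧸ S.subgroupOf S') =>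
    D.ρ r.out ((Rep.res S'.subtype D).ρ t.out d))]
  refine Fintype.sum_equiv (Subgroup.quotientEquivProdOfLE h) _ _ (fun q => ?_)
  obtain ⟨⟨r, t⟩, rfl⟩ := (Subgroup.quotientEquivProdOfLE h).symm.surjective q
  rw [Equiv.apply_symm_apply]
  have h2 : (Subgroup.quotientEquivProdOfLE h).symm (r, t) =
      (QuotientGroup.mk (r.out * (t.out : S').1) : K ⧸ S) := by
    conv_lhs => rw [← QuotientGroup.out_eq' t]
    rfl
  rw [h2, rho_out_mk D S d hd, map_mul, Module.End.mul_apply]
  rfl

end RelNorm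

end Fermat.Agent.CFT.Coh
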