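/-
P4 / Layer C5-CYC: the classes `chiClass A χ γ a = a_* (χ^* β_γ) ∈ H²(G, A)` attached to a character
`χ : G → Z = ⟨γ⟩` (finite cyclic) and an invariant element `a ∈ A^G`: explicit cocycle, naturality
(C1), change of the cyclic group (C2), vanishing on a subgroup when `a` is a norm (C3), and the
order for a surjective character onto a cyclic `p`-group (C4).  Everything is stated for a general
commutative ring `k` (use `k = ℤ`, the trivial module `Rep.trivial k Z k`).
-/
import Fermat.Agent.Lib.CFT.Coh.CyclicExplicit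
import Fermat.Agent.Lib.CFT.Coh.InfResDescent
import Fermat.Agent.Lib.CFT.Coh.RelNorm

set_option autoImplicit false
set_option linter.unusedSectionVars false
set_option linter.style.haveILetI false

namespace Fermat.Agent.CFT.Coh

open CategoryTheory groupCohomology Rep Limits Finset

section Defs

variable {k G Z : Type} [CommRing k] [Group G] [Group Z] [Finite Z] (A : Rep.{0} k G)
  (χ : G →* Z) (γ : Z) (hγ : ∀ z, z ∈ Subgroup.zpowers γ)

/-- the morphism `k ⟶ A`, `r ↦ r • a`, attached to an invariant element `a` -/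
noncomputable def invHom (a : A.ρ.invariants) : Rep.res χ (Rep.trivial k Z k) ⟶ A :=
  Rep.ofHom ⟨LinearMap.toSpanSingleton k A.V a.1, fun g => by
    ext
    change (1 : k) • a.1 = A.ρ g ((1 : k) • a.1)
    rw [one_smul, a.2 g]⟩

theorem invHom_apply (a : A.ρ.invariants) (r : k) : (invHom A χ a).hom r = r • a.1 := rfl

/-- the unit invariant of the trivial module -/
def oneInv : (Rep.trivial k Z k).ρ.invariants := ⟨(1 : k), fun _ => rfl⟩

/-- the class `a_* (χ^* β_γ) ∈ H²(G, A)` attached to a character `χ : G → Z = ⟨γ⟩` and an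
invariant element `a` -/
noncomputable def chiClass (a : A.ρ.invariants) : groupCohomology A 2 :=
  (map χ (invHom A χ a) 2).hom (cycClass (Rep.trivial k Z k) γ hγ oneInv)

/-- the explicit cocycle of `chiClass` -/
noncomputable def chiCocycle (a : A.ρ.invariants) : cocycles₂ A :=
  mapCocycles₂ χ (invHom A χ a) (cycCocycle (Rep.trivial k Z k) γ hγ oneInv)

theorem chiCocycle_apply (a : A.ρ.invariants) (x y : G) :
    chiCocycle A χ γ hγ a (x, y) =
      if orderOf γ ≤ cycLog γ hγ (χ x) + cycLog γ hγ (χ y) then a.1 else 0 := by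
  change (invHom A χ a).hom (cycCocycleFun (Rep.trivial k Z k) γ hγ (1 : k) (χ x, χ y)) = _
  rw [cycCocycleFun_apply]
  split_ifs
  · rw [invHom_apply, one_smul]
  · rw [map_zero]

theorem chiClass_eq (a : A.ρ.invariants) :
    chiClass A χ γ hγ a = H2π A (chiCocycle A χ γ hγ a) := by
  have h := congrArg (fun φ => φ.hom (cycCocycle (Rep.trivial k Z k) γ hγ oneInv))
    (H2π_comp_map χ (invHom A χ a))
  exact h

/-- an invariant element from an elementwise proof of invariance (convenient at `k = ℤ`, where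
elaborating `A.ρ.invariants` for a variable `A` can pick a wrong module instance) -/
def invOfFixed (a : A.V) (ha : ∀ g, A.ρ g a = a) : A.ρ.invariants := ⟨a, ha⟩

@[simp] theorem invOfFixed_val (a : A.V) (ha : ∀ g, A.ρ g a = a) : (invOfFixed A a ha).1 = a := rfl

theorem chiCocycle_add (a b : A.ρ.invariants) :
    chiCocycle A χ γ hγ (a + b) = chiCocycle A χ γ hγ a + chiCocycle A χ γ hγ b := by
  apply Subtype.ext
  funext p
  obtain ⟨x, y⟩ := p
  change chiCocycle A χ γ hγ (a + b) (x, y) =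
    chiCocycle A χ γ hγ a (x, y) + chiCocycle A χ γ hγ b (x, y)
  rw [chiCocycle_apply, chiCocycle_apply, chiCocycle_apply]
  split_ifs
  · rfl
  · rw [add_zero]

theorem chiCocycle_smul (r : k) (a : A.ρ.invariants) :
    chiCocycle A χ γ hγ (r • a) = r • chiCocycle A χ γ hγ a := by
  apply Subtype.ext
  funext p
  obtain ⟨x, y⟩ := p
  change chiCocycle A χ γ hγ (r • a) (x, y) = r • chiCocycle A χ γ hγ a (x, y)
  rw [chiCocycle_apply, chiCocycle_apply]
  split_ifs
  · rfl
  · rw [smul_zero]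

theorem chiClass_add (a b : A.ρ.invariants) :
    chiClass A χ γ hγ (a + b) = chiClass A χ γ hγ a + chiClass A χ γ hγ b := by
  rw [chiClass_eq, chiClass_eq, chiClass_eq, chiCocycle_add, map_add]

theorem chiClass_smul (r : k) (a : A.ρ.invariants) :
    chiClass A χ γ hγ (r • a) = r • chiClass A χ γ hγ a := by
  rw [chiClass_eq, chiClass_eq, chiCocycle_smul, map_smul]

/-- `chiClass` as a linear map in the invariant element -/
noncomputable def chiClassLin : A.ρ.invariants →ₗ[k] groupCohomology A 2 where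
  toFun := chiClass A χ γ hγ
  map_add' := chiClass_add A χ γ hγ
  map_smul' := chiClass_smul A χ γ hγ

@[simp] theorem chiClassLin_apply (a : A.ρ.invariants) :
    chiClassLin A χ γ hγ a = chiClass A χ γ hγ a := rfl

end Defs

section Naturality

variable {k G G' Z : Type} [CommRing k] [Group G] [Group G'] [Group Z] [Finite Z]
  (A : Rep.{0} k G) (χ : G →* Z) (γ : Z) (hγ : ∀ z, z ∈ Subgroup.zpowers γ)

/-- **(C1) naturality** of `chiClass` in the group and the module -/
theorem map_chiClass (π : G' →* G) {B : Rep.{0} k G'} (φ : Rep.res π A ⟶ B)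
    (a : A.ρ.invariants) (b : B.ρ.invariants) (h : φ.hom a.1 = b.1) :
    (map π φ 2).hom (chiClass A χ γ hγ a) = chiClass B (χ.comp π) γ hγ b := by
  unfold chiClass
  have h1 := map_comp (A := Rep.trivial k Z k) (B := A) (C := B) χ π (invHom A χ a) φ 2
  have h2 : map (χ.comp π) ((resFunctor π).map (invHom A χ a) ≫ φ) 2 =
      map (χ.comp π) (invHom B (χ.comp π) b) 2 := by
    refine map_congr rfl ?_ 2
    refine LinearMap.ext fun r => ?_
    change φ.hom (r • a.1) = r • b.1
    rw [map_smul, h]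
  rw [h1] at h2
  exact congrArg (fun f => f.hom (cycClass (Rep.trivial k Z k) γ hγ oneInv)) h2

end Naturality

section ChangeZ

variable {k G Z Z' : Type} [CommRing k] [Group G] [Group Z] [Finite Z] [Group Z'] [Finite Z']
  (A : Rep.{0} k G) (γ : Z) (hγ : ∀ z, z ∈ Subgroup.zpowers γ)
  (γ' : Z') (hγ' : ∀ z, z ∈ Subgroup.zpowers γ') (ρ : Z' →* Z) (hρ : ρ γ' = γ)

include hρ in
theorem cycLog_map_gen (z : Z') : cycLog γ hγ (ρ z) = cycLog γ' hγ' z % orderOf γ := by
  conv_lhs => rw [← pow_cycLog γ' hγ' z, map_pow, hρ]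
  exact cycLog_pow γ hγ _

include hρ in
/-- **(C2) change of the cyclic group** -/
theorem chiClass_comp (χ' : G →* Z') (a : A.ρ.invariants) :
    chiClass A (ρ.comp χ') γ hγ a =
      (Nat.card Z' / Nat.card Z) • chiClass A χ' γ' hγ' a := by
  have hn : 0 < orderOf γ := orderOf_pos γ
  have hdvd : orderOf γ ∣ orderOf γ' := by
    rw [← hρ]
    exact orderOf_map_dvd ρ γ'
  rw [← orderOf_eq_card_of_gen γ hγ, ← orderOf_eq_card_of_gen γ' hγ', chiClass_eq, chiClass_eq,
    ← map_nsmul, H2π_eq_iff]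
  refine ⟨fun x => -((cycLog γ' hγ' (χ' x) / orderOf γ) • a.1), ?_⟩
  funext p
  obtain ⟨x, y⟩ := p
  have hx := cycLog_lt γ' hγ' (χ' x)
  have hy := cycLog_lt γ' hγ' (χ' y)
  have hcarry := carry_identity (orderOf γ') (orderOf γ) _ _ hn hdvd hx hy
  have hL : chiCocycle A (ρ.comp χ') γ hγ a (x, y) =
      (if orderOf γ ≤ cycLog γ' hγ' (χ' x) % orderOf γ + cycLog γ' hγ' (χ' y) % orderOf γ
        then 1 else 0 : ℕ) • a.1 := by
    rw [chiCocycle_apply, MonoidHom.comp_apply, MonoidHom.comp_apply,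
      cycLog_map_gen γ hγ γ' hγ' ρ hρ, cycLog_map_gen γ hγ γ' hγ' ρ hρ]
    split_ifs
    · rw [one_smul]
    · rw [zero_smul]
  have hR : ((orderOf γ' / orderOf γ) • chiCocycle A χ' γ' hγ' a : cocycles₂ A) (x, y) =
      ((orderOf γ' / orderOf γ) *
        (if orderOf γ' ≤ cycLog γ' hγ' (χ' x) + cycLog γ' hγ' (χ' y) then 1 else 0 : ℕ)) • a.1 := by
    change (orderOf γ' / orderOf γ) • chiCocycle A χ' γ' hγ' a (x, y) = _
    rw [chiCocycle_apply]
    split_ifs
    · rw [mul_one]
    · rw [mul_zero, zero_smul, smul_zero]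
  have hρa : ∀ (z : G) (r : ℕ), A.ρ z (r • a.1) = r • a.1 := fun z r => by
    rw [map_nsmul, a.2 z]
  rw [Pi.sub_apply, hL, hR, d₁₂_hom_apply]
  simp only [map_neg, hρa, map_mul, cycLog_mul]
  have e := congrArg (fun r : ℕ => r • a.1) hcarry
  simp only [add_smul] at e
  rw [eq_sub_iff_add_eq]
  have e' : ∀ X Y Z W U : A.V, X + Y + Z = W + U → -Z - -W + -Y + U = X := by
    intro X Y Z W U h
    have : X = W + U - Z - Y := by rw [← h]; abel
    rw [this]; abel
  exact e' _ _ _ _ _ e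

end ChangeZ

section InjChar

variable {Q Z : Type} [Group Q] [Group Z] [Finite Z] (γ : Z) (hγ : ∀ z, z ∈ Subgroup.zpowers γ)
  (ι : Q →* Z) (hι : Function.Injective ι)

include hγ hι in
/-- a group embedded in a finite cyclic group `⟨γ⟩` is generated by a preimage of `γ ^ f`,
`f ∣ orderOf γ` -/
theorem exists_gen_map_eq_pow :
    ∃ (q₀ : Q) (f : ℕ), f ∣ orderOf γ ∧ ι q₀ = γ ^ f ∧ ∀ x, x ∈ Subgroup.zpowers q₀ := by
  classical
  have hex : ∃ m : ℕ, 0 < m ∧ γ ^ m ∈ ι.range :=
    ⟨orderOf γ, orderOf_pos γ, by rw [pow_orderOf_eq_one]; exact one_mem _⟩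
  set f := Nat.find hex with hf
  obtain ⟨hf0, q₀, hq₀⟩ := Nat.find_spec hex
  have hdvd : ∀ i : ℕ, γ ^ i ∈ ι.range → f ∣ i := by
    intro i hi
    have h1 : γ ^ (i % f) ∈ ι.range := by
      have h2 : γ ^ i = (γ ^ f) ^ (i / f) * γ ^ (i % f) := by
        rw [← pow_mul, ← pow_add, Nat.div_add_mod]
      have h3 : γ ^ (i % f) = ((γ ^ f) ^ (i / f))⁻¹ * γ ^ i := by
        rw [h2, inv_mul_cancel_left]
      rw [h3]
      have h4 : γ ^ f ∈ ι.range := ⟨q₀, hq₀⟩
      exact mul_mem (inv_mem (pow_mem h4 _)) hi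
    by_contra hnd
    have hpos : 0 < i % f := Nat.pos_of_ne_zero fun h0 => hnd (Nat.dvd_of_mod_eq_zero h0)
    exact Nat.find_min hex (Nat.mod_lt i hf0) ⟨hpos, h1⟩
  refine ⟨q₀, f, hdvd _ (by rw [pow_orderOf_eq_one]; exact one_mem _), hq₀, fun x => ?_⟩
  obtain ⟨t, ht⟩ := hdvd (cycLog γ hγ (ι x)) (by rw [pow_cycLog]; exact ⟨x, rfl⟩)
  refine Subgroup.mem_zpowers_iff.2 ⟨(t : ℤ), ?_⟩
  apply hι
  rw [zpow_natCast, map_pow, hq₀, ← pow_mul, ← ht, pow_cycLog]

variable [Finite Q] (q₀ : Q) (hq₀ : ∀ x, x ∈ Subgroup.zpowers q₀) (f : ℕ)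
  (hf : f ∣ orderOf γ) (hq : ι q₀ = γ ^ f)

include hι hf hq in
theorem orderOf_gen_of_map_eq_pow : orderOf q₀ = orderOf γ / f := by
  have hn : 0 < orderOf γ := orderOf_pos γ
  have hf0 : f ≠ 0 := by
    rintro rfl
    rw [zero_dvd_iff] at hf
    omega
  rw [← orderOf_injective ι hι q₀, hq, orderOf_pow_of_dvd hf0 hf]

include hι hf hq in
theorem cycLog_map_of_injective (x : Q) : cycLog γ hγ (ι x) = f * cycLog q₀ hq₀ x := by
  have hn : 0 < orderOf γ := orderOf_pos γ
  have hf0 : f ≠ 0 := by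
    rintro rfl
    rw [zero_dvd_iff] at hf
    omega
  have hj := cycLog_lt q₀ hq₀ x
  rw [orderOf_gen_of_map_eq_pow γ ι hι q₀ f hf hq] at hj
  have hlt : f * cycLog q₀ hq₀ x < orderOf γ := by
    calc f * cycLog q₀ hq₀ x < f * (orderOf γ / f) :=
          Nat.mul_lt_mul_of_pos_left hj (Nat.pos_of_ne_zero hf0)
      _ = orderOf γ := Nat.mul_div_cancel' hf
  have hs : ι x = γ ^ (f * cycLog q₀ hq₀ x) := by
    conv_lhs => rw [← pow_cycLog q₀ hq₀ x, map_pow, hq, ← pow_mul]
  rw [hs]
  exact cycLog_eq_of_lt γ hγ hlt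

end InjChar

section InjClass

variable {k Q Z : Type} [CommRing k] [Group Q] [Finite Q] [Group Z] [Finite Z] (A : Rep.{0} k Q)
  (γ : Z) (hγ : ∀ z, z ∈ Subgroup.zpowers γ) (ι : Q →* Z) (hι : Function.Injective ι)
  (q₀ : Q) (hq₀ : ∀ x, x ∈ Subgroup.zpowers q₀) (f : ℕ) (hf : f ∣ orderOf γ) (hq : ι q₀ = γ ^ f)

include hι hf hq in
/-- for an injective character, `chiClass` is the explicit cyclic class of the source group -/
theorem chiClass_eq_cycClass_of_injective (a : A.ρ.invariants) :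
    chiClass A ι γ hγ a = cycClass A q₀ hq₀ a := by
  have hn : 0 < orderOf γ := orderOf_pos γ
  have hf0 : f ≠ 0 := by
    rintro rfl
    rw [zero_dvd_iff] at hf
    omega
  rw [chiClass_eq, cycClass_apply]
  congr 1
  apply Subtype.ext
  funext p
  obtain ⟨x, y⟩ := p
  change chiCocycle A ι γ hγ a (x, y) = cycCocycleFun A q₀ hq₀ a.1 (x, y)
  rw [chiCocycle_apply, cycCocycleFun_apply, cycLog_map_of_injective γ hγ ι hι q₀ hq₀ f hf hq,
    cycLog_map_of_injective γ hγ ι hι q₀ hq₀ f hf hq,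
    orderOf_gen_of_map_eq_pow γ ι hι q₀ f hf hq, ← Nat.mul_add]
  have hiff : orderOf γ ≤ f * (cycLog q₀ hq₀ x + cycLog q₀ hq₀ y) ↔
      orderOf γ / f ≤ cycLog q₀ hq₀ x + cycLog q₀ hq₀ y := by
    conv_lhs => rw [← Nat.mul_div_cancel' hf]
    exact Nat.mul_le_mul_left_iff (Nat.pos_of_ne_zero hf0)
  simp only [hiff]

end InjClass

section Descent

variable {k G Z : Type} [CommRing k] [Group G] [Group Z] [Finite Z] (A : Rep.{0} k G)
  (χ : G →* Z) (γ : Z) (hγ : ∀ z, z ∈ Subgroup.zpowers γ)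

/-- `chiClass` is inflated from the quotient by the kernel of the character -/
theorem chiClass_eq_map_kerLift (a : A.ρ.invariants) :
    chiClass A χ γ hγ a =
      (map (QuotientGroup.mk' χ.ker) (ofHom <| A.ρ.quotientToInvariants_lift χ.ker) 2).hom
        (chiClass (A.quotientToInvariants χ.ker) (QuotientGroup.kerLift χ) γ hγ
          (invariantsToQuotient A χ.ker a)) := by
  have h := map_chiClass (A.quotientToInvariants χ.ker) (QuotientGroup.kerLift χ) γ hγ
    (QuotientGroup.mk' χ.ker) (ofHom <| A.ρ.quotientToInvariants_lift χ.ker)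
    (invariantsToQuotient A χ.ker a) a rfl
  rw [h]
  rfl

theorem finite_quotient_ker : Finite (G ⧸ χ.ker) :=
  Finite.of_injective _ (QuotientGroup.kerLift_injective χ)

/-- the norm of the quotient `G ⧸ ker χ` on `A^{ker χ}` is the sum over representatives -/
theorem norm_quotientToInvariants_ker [Fintype (G ⧸ χ.ker)]
    (y : (A.quotientToInvariants χ.ker).V) :
    (((A.quotientToInvariants χ.ker).ρ.norm y : (A.quotientToInvariants χ.ker).V) : A.V) =
      ∑ᶠ q : G ⧸ χ.ker, A.ρ q.out (y : A.V) := by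
  rw [norm_apply_eq_sum', finsum_eq_sum_of_fintype, AddSubmonoidClass.coe_finsetSum]
  refine Finset.sum_congr rfl (fun q _ => ?_)
  conv_lhs => rw [← QuotientGroup.out_eq' q]
  rfl

/-- **vanishing**: if `a` is the norm from `A^{ker χ}` of some `b`, then `chiClass = 0` -/
theorem chiClass_eq_zero_of_norm (a : A.ρ.invariants) (b : A.V)
    (hb : ∀ n ∈ χ.ker, A.ρ n b = b) (hab : ∑ᶠ q : G ⧸ χ.ker, A.ρ q.out b = a.1) :
    chiClass A χ γ hγ a = 0 := by
  obtain ⟨q₀, f, hf, hq, hq₀⟩ :=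
    exists_gen_map_eq_pow γ hγ (QuotientGroup.kerLift χ) (QuotientGroup.kerLift_injective χ)
  haveI : Finite (G ⧸ χ.ker) := finite_quotient_ker χ
  letI : Fintype (G ⧸ χ.ker) := Fintype.ofFinite _
  rw [chiClass_eq_map_kerLift,
    chiClass_eq_cycClass_of_injective (Q := G ⧸ χ.ker) (A.quotientToInvariants χ.ker) γ hγ
      (QuotientGroup.kerLift χ) (QuotientGroup.kerLift_injective χ) q₀ hq₀ f hf hq]
  have h1 : invariantsToQuotient A χ.ker a =
      normToInvariants (A.quotientToInvariants χ.ker) ⟨b, fun n => hb n.1 n.2⟩ := by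
    apply Subtype.ext
    apply Subtype.ext
    change a.1 = (((A.quotientToInvariants χ.ker).ρ.norm ⟨b, fun n => hb n.1 n.2⟩ :
      (A.quotientToInvariants χ.ker).V) : A.V)
    rw [norm_quotientToInvariants_ker, hab]
  rw [h1, cycClass_normToInvariants, map_zero]

/-- **(C3) vanishing on a subgroup**: if `a` is the norm from `A^{N ∩ ker χ}` to `A^N` of some `b`,
then the restriction of `chiClass` to `N` vanishes -/
theorem map_subtype_chiClass_eq_zero (N : Subgroup G) (a : A.ρ.invariants) (b : A.V)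
    (hb : ∀ n ∈ N, χ n = 1 → A.ρ n b = b)
    (hab : ∑ᶠ q : N ⧸ (χ.ker.subgroupOf N), A.ρ ((q.out : N) : G) b = a.1) :
    (map N.subtype (𝟙 (Rep.res N.subtype A)) 2).hom (chiClass A χ γ hγ a) = 0 := by
  rw [map_chiClass A χ γ hγ N.subtype (𝟙 (Rep.res N.subtype A)) a
    (⟨a.1, fun n => a.2 n⟩ : (Rep.res N.subtype A).ρ.invariants) rfl]
  refine chiClass_eq_zero_of_norm (Rep.res N.subtype A) (χ.comp N.subtype) γ hγ _ b ?_ ?_
  · intro n hn
    exact hb n.1 n.2 (MonoidHom.mem_ker.1 hn)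
  · exact hab

end Descent

section Order

variable {k G Z : Type} [CommRing k] [Group G] [Finite G] [Group Z] [Finite Z] (A : Rep.{0} k G)
  (χ : G →* Z) (γ : Z) (hγ : ∀ z, z ∈ Subgroup.zpowers γ)

/-- the explicit cyclic class is killed by the group order -/
theorem card_nsmul_cycClass (g : G) (hg : ∀ x, x ∈ Subgroup.zpowers g) (a : A.ρ.invariants) :
    Nat.card G • cycClass A g hg a = 0 := by
  letI : Fintype G := Fintype.ofFinite G
  rw [← map_nsmul]
  have h1 : Nat.card G • a = normToInvariants A a.1 := by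
    apply Subtype.ext
    change Nat.card G • a.1 = A.ρ.norm a.1
    rw [norm_apply_eq_sum', Finset.sum_congr rfl (fun x _ => a.2 x), Finset.sum_const,
      Finset.card_univ, Nat.card_eq_fintype_card]
  rw [h1, cycClass_normToInvariants]

/-- **(C4) the order of `chiClass`** for a surjective character onto a cyclic `p`-group, when
`p ^ (e - 1) • a` is not a norm from `A^{ker χ}` -/
theorem addOrderOf_chiClass (p : ℕ) [Fact p.Prime] (hχ : Function.Surjective χ) (e : ℕ)
    (he : 0 < e) (hZ : Nat.card Z = p ^ e)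
    (h1P : ∀ P : Subgroup G, P ≤ χ.ker → IsPGroup p P →
      Subsingleton (groupCohomology (Rep.res P.subtype A) 1))
    (a : A.ρ.invariants)
    (hnorm : ∀ b : A.V, (∀ n ∈ χ.ker, A.ρ n b = b) →
      ∑ᶠ q : G ⧸ χ.ker, A.ρ q.out b ≠ p ^ (e - 1) • a.1) :
    addOrderOf (chiClass A χ γ hγ a) = p ^ e := by
  letI : Fintype (G ⧸ χ.ker) := Fintype.ofFinite _
  obtain ⟨q₀, f, hf, hq, hq₀⟩ :=
    exists_gen_map_eq_pow γ hγ (QuotientGroup.kerLift χ) (QuotientGroup.kerLift_injective χ)
  have hcard : Nat.card (G ⧸ χ.ker) = p ^ e := by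
    rw [← hZ]
    exact Nat.card_congr (QuotientGroup.quotientKerEquivOfSurjective χ hχ).toEquiv
  have hK := chiClass_eq_map_kerLift A χ γ hγ a
  rw [chiClass_eq_cycClass_of_injective (Q := G ⧸ χ.ker) (A.quotientToInvariants χ.ker) γ hγ
      (QuotientGroup.kerLift χ) (QuotientGroup.kerLift_injective χ) q₀ hq₀ f hf hq] at hK
  set u := cycClass (A.quotientToInvariants χ.ker) q₀ hq₀ (invariantsToQuotient A χ.ker a) with hu
  have hpe : p ^ e • u = 0 := by
    rw [← hcard]
    exact card_nsmul_cycClass (A.quotientToInvariants χ.ker) q₀ hq₀ _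
  obtain ⟨e', rfl⟩ := Nat.exists_eq_succ_of_ne_zero he.ne'
  rw [Nat.succ_sub_one] at hnorm
  change addOrderOf (chiClass A χ γ hγ a) = p ^ (e' + 1)
  change p ^ (e' + 1) • u = 0 at hpe
  refine addOrderOf_eq_prime_pow ?_ ?_
  · intro h0
    rw [hK, ← map_nsmul] at h0
    have hpu : p ^ (e' + 1) • (p ^ e' • u) = 0 := by rw [smul_comm, hpe, smul_zero]
    have hsurj : ∀ y : A, (∀ g ∈ (QuotientGroup.mk' χ.ker).ker, A.ρ g y = y) →
        ∃ x : A.quotientToInvariants χ.ker,
          (ofHom <| A.ρ.quotientToInvariants_lift χ.ker).hom x = y := by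
      intro y hy
      refine ⟨(⟨y, fun n => hy n.1 (by rw [QuotientGroup.ker_mk']; exact n.2)⟩ :
        (A.quotientToInvariants χ.ker).V), rfl⟩
    have hz := eq_zero_of_map_eq_zero_of_pow (QuotientGroup.mk' χ.ker)
      (QuotientGroup.mk'_surjective χ.ker) (ofHom <| A.ρ.quotientToInvariants_lift χ.ker)
      Subtype.val_injective hsurj
      p (fun P hP hPp => h1P P (hP.trans (QuotientGroup.ker_mk' χ.ker).le) hPp)
      (p ^ e' • u) (e' + 1) hpu h0
    rw [hu, ← map_nsmul, cycClass_eq_zero_iff] at hz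
    obtain ⟨y, hy⟩ := hz
    refine hnorm y.1 (fun n hn => y.2 ⟨n, hn⟩) ?_
    rw [← norm_quotientToInvariants_ker A χ y, hy]
    rfl
  · rw [hK, ← map_nsmul, hpe, map_zero]

end Order

end Fermat.Agent.CFT.Coh
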