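/-
P4 / Layer C5-a: towers of cyclic layers.

`X` a commutative group with an endomorphism `τ` and a `τ`-stable subgroup `H₀` (think: `X = C_S(L)`,
`H₀ = C_S(L)^V`).  For `m ≥ 1` let `Fix_m = H₀ ∩ Fix(τ^m)`; `τ` acts on it with `τ^m = 1`.
`LayerH1 H₀ τ m` : `H¹ = 0` for this action (norm-one elements are of the form `τ z / z`);
`layerH0 H₀ τ m = [Fix_1 : N_m Fix_m]`.

* `LayerH1.mul`   : `H¹ = 0` for `(τ, m₁)` and `(τ^m₁, m₂)` gives `H¹ = 0` for `(τ, m₁ m₂)`;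
* `layerH0_mul`   : `h⁰(τ, m₁ m₂) = h⁰(τ, m₁) · h⁰(τ^m₁, m₂)` if `H¹(τ, m₁) = 0` and `τ` acts trivially on
                    `Fix_{m₁} / N Fix_{m₁ m₂}`;
* `layer_pow`     : if all layers `(τ^(p^i), p)` have `h⁰ = p` and `H¹ = 0`, then `(τ^(p^i), p^j)` has
                    `h⁰ = p^j` and `H¹ = 0`.
-/
import Fermat.Agent.Lib.CFT.Local.HerbrandLocal

set_option autoImplicit false
set_option linter.style.haveILetI false

namespace Fermat.Agent.CFT.Coh.Herbrand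

open Finset

variable {X : Type*} [CommGroup X]

/-! ### Elementary identities -/

lemma end_pow_succ_apply (τ : Monoid.End X) (k : ℕ) (x : X) : (τ ^ (k + 1)) x = τ ((τ ^ k) x) := by
  rw [pow_succ']; rfl

lemma end_pow_succ_apply' (τ : Monoid.End X) (k : ℕ) (x : X) : (τ ^ (k + 1)) x = (τ ^ k) (τ x) := by
  rw [pow_succ]; rfl

lemma end_pow_add_apply (τ : Monoid.End X) (a b : ℕ) (x : X) :
    (τ ^ (a + b)) x = (τ ^ a) ((τ ^ b) x) := by
  rw [pow_add]; rfl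

lemma end_pow_mul_apply (τ : Monoid.End X) (a b : ℕ) (x : X) :
    ((τ ^ a) ^ b) x = (τ ^ (a * b)) x := by
  rw [pow_mul]

/-- `τ (N_m x) / N_m x = τ^m x / x` -/
lemma cycDiv_cycNorm (τ : Monoid.End X) (m : ℕ) (x : X) :
    τ (cycNorm τ m x) / cycNorm τ m x = (τ ^ m) x / x := by
  induction m with
  | zero => simp
  | succ m ih =>
    rw [cycNorm_apply, Finset.prod_range_succ, ← cycNorm_apply, map_mul, mul_div_mul_comm, ih,
      ← end_pow_succ_apply, mul_comm, div_mul_div_cancel]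

/-- `N_m (τ x / x) = τ^m x / x` -/
lemma cycNorm_cycDiv (τ : Monoid.End X) (m : ℕ) (x : X) :
    cycNorm τ m (τ x / x) = (τ ^ m) x / x := by
  rw [map_div, ← cycDiv_cycNorm]
  congr 1
  rw [cycNorm_apply, cycNorm_apply, map_prod]
  exact Finset.prod_congr rfl fun i _ => by rw [← end_pow_succ_apply, end_pow_succ_apply']

/-- `N_{m₁ m₂} = N_{m₂}(τ^m₁) ∘ N_{m₁}(τ)` -/
lemma cycNorm_mul (τ : Monoid.End X) (m₁ m₂ : ℕ) (x : X) :
    cycNorm τ (m₁ * m₂) x = cycNorm (τ ^ m₁) m₂ (cycNorm τ m₁ x) := by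
  induction m₂ with
  | zero => simp
  | succ m₂ ih =>
    rw [Nat.mul_succ, cycNorm_apply, Finset.prod_range_add, ← cycNorm_apply, ih,
      cycNorm_apply (τ ^ m₁) (m₂ + 1), Finset.prod_range_succ, ← cycNorm_apply]
    congr 1
    rw [cycNorm_apply, map_prod]
    refine Finset.prod_congr rfl fun i _ => ?_
    rw [end_pow_mul_apply, ← end_pow_add_apply]

lemma pow_comm_apply (τ : Monoid.End X) (a b : ℕ) (x : X) :
    (τ ^ a) ((τ ^ b) x) = (τ ^ b) ((τ ^ a) x) := by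
  rw [← end_pow_add_apply, ← end_pow_add_apply, add_comm]

lemma cycNorm_comm (τ : Monoid.End X) (a m : ℕ) (x : X) :
    cycNorm τ m ((τ ^ a) x) = (τ ^ a) (cycNorm τ m x) := by
  rw [cycNorm_apply, cycNorm_apply, map_prod]
  exact Finset.prod_congr rfl fun i _ => pow_comm_apply τ i a x

lemma cycNorm_cycNorm_comm (τ : Monoid.End X) (a m₁ m₂ : ℕ) (x : X) :
    cycNorm (τ ^ a) m₂ (cycNorm τ m₁ x) = cycNorm τ m₁ (cycNorm (τ ^ a) m₂ x) := by
  simp only [cycNorm_apply, map_prod]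
  rw [Finset.prod_comm]
  refine Finset.prod_congr rfl fun j _ => Finset.prod_congr rfl fun i _ => ?_
  rw [end_pow_mul_apply, end_pow_mul_apply, pow_comm_apply]

/-! ### Fixed points -/

/-- the fixed points of `τ` -/
def fixSub (τ : Monoid.End X) : Subgroup X := (cycDiv τ).ker

lemma mem_fixSub {τ : Monoid.End X} {x : X} : x ∈ fixSub τ ↔ τ x = x := by
  rw [fixSub, MonoidHom.mem_ker, cycDiv_apply, div_eq_one]

lemma fixSub_le_pow (τ : Monoid.End X) (m : ℕ) : fixSub τ ≤ fixSub (τ ^ m) := by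
  intro x hx
  rw [mem_fixSub] at hx ⊢
  induction m with
  | zero => rfl
  | succ m ih => rw [end_pow_succ_apply, ih, hx]

lemma fixSub_pow_le_mul (τ : Monoid.End X) (a b : ℕ) : fixSub (τ ^ a) ≤ fixSub (τ ^ (a * b)) := by
  rw [pow_mul]
  exact fixSub_le_pow _ b

lemma map_mem_fixSub {τ : Monoid.End X} (ρ : Monoid.End X) (hc : ∀ x, ρ (τ x) = τ (ρ x)) {x : X}
    (hx : x ∈ fixSub τ) : ρ x ∈ fixSub τ := by
  rw [mem_fixSub] at hx ⊢
  rw [← hc, hx]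

/-- the norm of a `τ^m`-fixed element is `τ`-fixed -/
lemma cycNorm_mem_fixSub (τ : Monoid.End X) (m : ℕ) {x : X} (hx : x ∈ fixSub (τ ^ m)) :
    cycNorm τ m x ∈ fixSub τ := by
  rw [mem_fixSub] at hx ⊢
  have h := cycDiv_cycNorm τ m x
  rw [hx, div_self'] at h
  exact div_eq_one.1 h

lemma cycNorm_mem_fixSub_pow (τ : Monoid.End X) (a m : ℕ) {x : X} (hx : x ∈ fixSub (τ ^ a)) :
    cycNorm τ m x ∈ fixSub (τ ^ a) := by
  rw [mem_fixSub] at hx ⊢
  rw [← cycNorm_comm, hx]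

/-! ### Stable subgroups -/

/-- `H₀` is stable under `τ` -/
def Stable (H₀ : Subgroup X) (τ : Monoid.End X) : Prop := ∀ x ∈ H₀, τ x ∈ H₀

lemma Stable.pow {H₀ : Subgroup X} {τ : Monoid.End X} (h : Stable H₀ τ) (k : ℕ) :
    Stable H₀ (τ ^ k) := by
  induction k with
  | zero => intro x hx; exact hx
  | succ k ih => intro x hx; rw [end_pow_succ_apply]; exact h _ (ih x hx)

lemma Stable.cycNorm_mem {H₀ : Subgroup X} {τ : Monoid.End X} (h : Stable H₀ τ) (m : ℕ) {x : X}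
    (hx : x ∈ H₀) : cycNorm τ m x ∈ H₀ := by
  rw [cycNorm_apply]
  exact Subgroup.prod_mem _ fun i _ => h.pow i x hx

/-! ### The `H¹`-condition -/

/-- `H¹ = 0` for `τ` acting on `H₀ ∩ Fix(τ^m)` -/
def LayerH1 (H₀ : Subgroup X) (τ : Monoid.End X) (m : ℕ) : Prop :=
  ∀ y ∈ H₀ ⊓ fixSub (τ ^ m), cycNorm τ m y = 1 → ∃ z ∈ H₀ ⊓ fixSub (τ ^ m), y = τ z / z

theorem LayerH1.mul {H₀ : Subgroup X} {τ : Monoid.End X} (hst : Stable H₀ τ) {m₁ m₂ : ℕ}
    (h1 : LayerH1 H₀ τ m₁) (h2 : LayerH1 H₀ (τ ^ m₁) m₂) : LayerH1 H₀ τ (m₁ * m₂) := by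
  intro x hx hN
  obtain ⟨hx0, hx⟩ := Subgroup.mem_inf.1 hx
  -- `x' = N_{m₁} x` has `τ^m₁`-norm one
  have hx' : cycNorm τ m₁ x ∈ H₀ ⊓ fixSub ((τ ^ m₁) ^ m₂) := by
    rw [← pow_mul]
    exact Subgroup.mem_inf.2 ⟨hst.cycNorm_mem m₁ hx0, cycNorm_mem_fixSub_pow τ _ _ hx⟩
  have hN' : cycNorm (τ ^ m₁) m₂ (cycNorm τ m₁ x) = 1 := by rw [← cycNorm_mul, hN]
  obtain ⟨w, hw, hxw⟩ := h2 _ hx' hN'
  rw [← pow_mul] at hw
  obtain ⟨hw0, hw⟩ := Subgroup.mem_inf.1 hw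
  -- `x'' = x w / τ w`
  set x'' := x * (w / τ w) with hx''
  have hfix : τ w ∈ fixSub (τ ^ (m₁ * m₂)) :=
    map_mem_fixSub τ (fun y => by rw [← end_pow_succ_apply, ← end_pow_succ_apply']) hw
  have hx''0 : x'' ∈ H₀ := mul_mem hx0 (div_mem hw0 (hst w hw0))
  have hN'' : cycNorm τ m₁ x'' = 1 := by
    rw [hx'', map_mul, hxw, ← inv_div (τ w) w, map_inv, cycNorm_cycDiv, inv_div,
      div_mul_div_cancel, div_self']
  have hx''fix : x'' ∈ fixSub (τ ^ m₁) := by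
    rw [mem_fixSub]
    have h := cycDiv_cycNorm τ m₁ x''
    rw [hN'', map_one, div_self'] at h
    exact (div_eq_one.1 h.symm)
  obtain ⟨z, hz, hxz⟩ := h1 _ (Subgroup.mem_inf.2 ⟨hx''0, hx''fix⟩) hN''
  obtain ⟨hz0, hz⟩ := Subgroup.mem_inf.1 hz
  refine ⟨z * w, Subgroup.mem_inf.2 ⟨mul_mem hz0 hw0,
    mul_mem (fixSub_pow_le_mul τ m₁ m₂ hz) hw⟩, ?_⟩
  have : x = x'' * (τ w / w) := by
    rw [hx'', mul_assoc, div_mul_div_cancel, div_self', mul_one]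
  rw [this, hxz, map_mul, mul_div_mul_comm]

/-! ### The norm index -/

/-- `h⁰ = [H₀ ∩ Fix(τ) : N_m (H₀ ∩ Fix(τ^m))]` -/
noncomputable def layerH0 (H₀ : Subgroup X) (τ : Monoid.End X) (m : ℕ) : ℕ :=
  ((H₀ ⊓ fixSub (τ ^ m)).map (cycNorm τ m)).relIndex (H₀ ⊓ fixSub τ)

lemma map_cycNorm_le {H₀ : Subgroup X} {τ : Monoid.End X} (hst : Stable H₀ τ) (m : ℕ) :
    (H₀ ⊓ fixSub (τ ^ m)).map (cycNorm τ m) ≤ H₀ ⊓ fixSub τ := by
  rintro _ ⟨x, hx, rfl⟩
  obtain ⟨hx0, hx⟩ := Subgroup.mem_inf.1 hx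
  exact Subgroup.mem_inf.2 ⟨hst.cycNorm_mem m hx0, cycNorm_mem_fixSub τ m hx⟩

/-- multiplicativity of the norm index in a tower -/
theorem layerH0_mul {H₀ : Subgroup X} {τ : Monoid.End X} (hst : Stable H₀ τ) {m₁ m₂ : ℕ}
    (h1 : LayerH1 H₀ τ m₁)
    (htriv : ∀ z ∈ H₀ ⊓ fixSub (τ ^ m₁),
      τ z / z ∈ (H₀ ⊓ fixSub ((τ ^ m₁) ^ m₂)).map (cycNorm (τ ^ m₁) m₂)) :
    layerH0 H₀ τ (m₁ * m₂) = layerH0 H₀ τ m₁ * layerH0 H₀ (τ ^ m₁) m₂ := by
  unfold layerH0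
  set A := (H₀ ⊓ fixSub (τ ^ (m₁ * m₂))).map (cycNorm τ (m₁ * m₂)) with hA
  set B := (H₀ ⊓ fixSub (τ ^ m₁)).map (cycNorm τ m₁) with hB
  set C := (H₀ ⊓ fixSub ((τ ^ m₁) ^ m₂)).map (cycNorm (τ ^ m₁) m₂) with hC
  have hst₁ : Stable H₀ (τ ^ m₁) := hst.pow m₁
  have hAB : A ≤ B := by
    rintro _ ⟨x, hx, rfl⟩
    obtain ⟨hx0, hx⟩ := Subgroup.mem_inf.1 hx
    rw [cycNorm_mul, cycNorm_cycNorm_comm]
    rw [pow_mul] at hx
    exact ⟨_, Subgroup.mem_inf.2 ⟨hst₁.cycNorm_mem m₂ hx0, cycNorm_mem_fixSub (τ ^ m₁) m₂ hx⟩, rfl⟩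
  have hBF : B ≤ H₀ ⊓ fixSub τ := map_cycNorm_le hst m₁
  rw [← Subgroup.relIndex_mul_relIndex A B (H₀ ⊓ fixSub τ) hAB hBF, mul_comm]
  congr 1
  -- `[B : A] = [Fix_{m₁} : C]` via the surjection `N_{m₁} : Fix_{m₁} → B`
  have hCF : C ≤ H₀ ⊓ fixSub (τ ^ m₁) := map_cycNorm_le hst₁ m₂
  have hcomap : A.comap (cycNorm τ m₁) ⊓ (H₀ ⊓ fixSub (τ ^ m₁)) = C := by
    apply le_antisymm
    · intro y hy
      rw [Subgroup.mem_inf, Subgroup.mem_comap] at hy
      obtain ⟨⟨x, hx, hxy⟩, hy⟩ := hy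
      obtain ⟨hx0, hx⟩ := Subgroup.mem_inf.1 hx
      rw [cycNorm_mul, cycNorm_cycNorm_comm] at hxy
      rw [pow_mul] at hx
      set c := cycNorm (τ ^ m₁) m₂ x with hc
      have hcC : c ∈ C := ⟨x, Subgroup.mem_inf.2 ⟨hx0, hx⟩, rfl⟩
      have hyc : y / c ∈ H₀ ⊓ fixSub (τ ^ m₁) := div_mem hy (hCF hcC)
      have hN : cycNorm τ m₁ (y / c) = 1 := by rw [map_div, hxy, div_self']
      obtain ⟨z, hz, hyz⟩ := h1 _ hyc hN
      have : y = c * (τ z / z) := by rw [← hyz, mul_div_cancel]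
      rw [this]
      exact mul_mem hcC (htriv z hz)
    · rintro _ ⟨x, hx, rfl⟩
      obtain ⟨hx0, hx⟩ := Subgroup.mem_inf.1 hx
      rw [Subgroup.mem_inf, Subgroup.mem_comap]
      refine ⟨⟨x, Subgroup.mem_inf.2 ⟨hx0, by rw [pow_mul]; exact hx⟩, ?_⟩,
        Subgroup.mem_inf.2 ⟨hst₁.cycNorm_mem m₂ hx0, cycNorm_mem_fixSub (τ ^ m₁) m₂ hx⟩⟩
      rw [cycNorm_mul, cycNorm_cycNorm_comm]
  -- transport along the restriction of `N_{m₁}` to `Fix_{m₁}`
  let f : ↥(H₀ ⊓ fixSub (τ ^ m₁)) →* X := (cycNorm τ m₁).comp (H₀ ⊓ fixSub (τ ^ m₁)).subtype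
  have hfr : f.range = B := by
    ext y
    constructor
    · rintro ⟨x, rfl⟩
      exact ⟨x.1, x.2, rfl⟩
    · rintro ⟨x, hx, rfl⟩
      exact ⟨⟨x, hx⟩, rfl⟩
  have h3 : A.relIndex B = (A.comap f).index := by
    rw [← hfr, Subgroup.relIndex, Subgroup.index_comap]
    rfl
  have h4 : A.comap f = C.subgroupOf (H₀ ⊓ fixSub (τ ^ m₁)) := by
    ext y
    rw [Subgroup.mem_comap, Subgroup.mem_subgroupOf, ← hcomap, Subgroup.mem_inf]
    constructor
    · intro h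
      exact ⟨h, y.2⟩
    · intro h
      exact h.1
  rw [h3, h4]
  rfl

/-! ### Groups of prime order -/

/-- an endomorphism of `p`-power order of a group of prime order `p` is the identity -/
lemma end_eq_id_of_prime_card {Q : Type*} [Group Q] {p : ℕ} [hp : Fact p.Prime]
    (hQ : Nat.card Q = p) (φ : Q →* Q) (j : ℕ) (hφ : ∀ x, φ^[p ^ j] x = x) : ∀ x, φ x = x := by
  haveI : IsCyclic Q := isCyclic_of_prime_card hQ
  obtain ⟨m, hm⟩ := MonoidHom.map_cyclic φ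
  have iter : ∀ (n : ℕ) (x : Q), φ^[n] x = x ^ (m ^ n) := by
    intro n
    induction n with
    | zero => intro x; simp
    | succ n ih =>
      intro x
      rw [Function.iterate_succ_apply', ih, hm, ← zpow_mul, pow_succ]
  have hpow : ∀ x : Q, x ^ (p : ℤ) = 1 := by
    intro x
    rw [zpow_natCast, ← hQ]
    exact pow_card_eq_one'
  intro x
  have h1 : x ^ (m ^ p ^ j) = x := by rw [← iter, hφ]
  -- `m ^ (p^j) ≡ m mod p`
  have h2 : ((m ^ p ^ j : ℤ) : ZMod p) = (m : ZMod p) := by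
    push_cast
    exact ZMod.pow_card_pow _
  have h3 : (p : ℤ) ∣ m ^ p ^ j - m := by
    rw [← ZMod.intCast_zmod_eq_zero_iff_dvd, Int.cast_sub, h2, sub_self]
  obtain ⟨c, hc⟩ := h3
  have h4 : x ^ (m ^ p ^ j) = x ^ m := by
    have : m ^ p ^ j = m + p * c := by linarith
    rw [this, zpow_add, zpow_mul, hpow, one_zpow, mul_one]
  rw [hm, ← h4, h1]

/-! ### The induction -/

section Tower

variable {p : ℕ} [hp : Fact p.Prime]

lemma comm_pow_apply (τ ρ : Monoid.End X) (hcomm : ∀ x, τ (ρ x) = ρ (τ x)) (n : ℕ) (y : X) :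
    τ ((ρ ^ n) y) = (ρ ^ n) (τ y) := by
  induction n generalizing y with
  | zero => rfl
  | succ n ih => rw [end_pow_succ_apply, hcomm, ih, ← end_pow_succ_apply]

/-- `τ` acts trivially on `Fix_ρ / N_p Fix_{ρ^p}` when this quotient has order `p` and
`ρ = τ^(p^j)` -/
lemma div_mem_of_layerH0_eq {H₀ : Subgroup X} (τ : Monoid.End X) (hst : Stable H₀ τ) (j : ℕ)
    (h0 : layerH0 H₀ (τ ^ p ^ j) p = p) :
    ∀ z ∈ H₀ ⊓ fixSub (τ ^ p ^ j), τ z / z ∈
      (H₀ ⊓ fixSub ((τ ^ p ^ j) ^ p)).map (cycNorm (τ ^ p ^ j) p) := by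
  set ρ := τ ^ p ^ j with hρ
  set F := H₀ ⊓ fixSub ρ with hF
  set C := (H₀ ⊓ fixSub (ρ ^ p)).map (cycNorm ρ p) with hC
  have hcomm : ∀ x, τ (ρ x) = ρ (τ x) := fun x => by
    rw [hρ, ← end_pow_succ_apply, ← end_pow_succ_apply']
  have hτF : ∀ x ∈ F, τ x ∈ F := fun x hx =>
    Subgroup.mem_inf.2 ⟨hst x (Subgroup.mem_inf.1 hx).1,
      map_mem_fixSub τ (fun y => hcomm y) (Subgroup.mem_inf.1 hx).2⟩
  have hτC : ∀ x ∈ C, τ x ∈ C := by
    rintro _ ⟨x, hx, rfl⟩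
    obtain ⟨hx0, hx⟩ := Subgroup.mem_inf.1 hx
    refine ⟨τ x, Subgroup.mem_inf.2 ⟨hst x hx0,
      map_mem_fixSub τ (fun y => comm_pow_apply τ ρ hcomm p y) hx⟩, ?_⟩
    rw [cycNorm_apply, cycNorm_apply, map_prod]
    exact Finset.prod_congr rfl fun i _ => (comm_pow_apply τ ρ hcomm i x).symm
  -- the induced endomorphism of the quotient
  let N := C.subgroupOf F
  let τF : Monoid.End F := subEnd τ F hτF
  have hN : N ≤ N.comap τF := by
    intro x hx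
    change (τF x : X) ∈ C
    exact hτC _ hx
  let φ : F ⧸ N →* F ⧸ N := QuotientGroup.map N N τF hN
  have hcard : Nat.card (F ⧸ N) = p := h0
  have hiter : ∀ (n : ℕ) (x : F), φ^[n] (x : F ⧸ N) = (((τF ^ n) x : F) : F ⧸ N) := by
    intro n
    induction n with
    | zero => intro x; rw [Function.iterate_zero, id, pow_zero]; rfl
    | succ n ih =>
      intro x
      rw [Function.iterate_succ_apply', ih, end_pow_succ_apply]
      rfl
  have hφ : ∀ y, φ^[p ^ j] y = y := by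
    intro y
    obtain ⟨x, rfl⟩ := QuotientGroup.mk_surjective y
    rw [hiter]
    congr 1
    apply Subtype.ext
    rw [coe_subEnd_pow]
    exact mem_fixSub.1 (Subgroup.mem_inf.1 x.2).2
  have hid := end_eq_id_of_prime_card hcard φ j hφ
  intro z hz
  have h1 : φ ((⟨z, hz⟩ : F) : F ⧸ N) = ((⟨z, hz⟩ : F) : F ⧸ N) := hid _
  have h2 : ((τF ⟨z, hz⟩ : F) : F ⧸ N) = ((⟨z, hz⟩ : F) : F ⧸ N) := h1
  rw [eq_comm, QuotientGroup.eq, Subgroup.mem_subgroupOf] at h2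
  have h3 : ((⟨z, hz⟩⁻¹ * τF ⟨z, hz⟩ : F) : X) = τ z / z := by
    change z⁻¹ * τ z = τ z / z
    rw [div_eq_mul_inv, mul_comm]
  rw [← h3]
  exact h2

/-- **towers of cyclic layers**: if all the layers `(τ^(p^i), p)` have `h⁰ = p` and `H¹ = 0`, then
`(τ^(p^i), p^j)` has `h⁰ = p^j` and `H¹ = 0`. -/
theorem layer_pow {H₀ : Subgroup X} (τ : Monoid.End X) (hst : Stable H₀ τ)
    (h1 : ∀ i : ℕ, LayerH1 H₀ (τ ^ p ^ i) p) (h0 : ∀ i : ℕ, layerH0 H₀ (τ ^ p ^ i) p = p) (j : ℕ) :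
    ∀ i : ℕ, LayerH1 H₀ (τ ^ p ^ i) (p ^ j) ∧ layerH0 H₀ (τ ^ p ^ i) (p ^ j) = p ^ j := by
  induction j with
  | zero =>
    intro i
    constructor
    · intro y _ hy
      refine ⟨1, one_mem _, ?_⟩
      rw [pow_zero, cycNorm_apply, Finset.prod_range_one, pow_zero] at hy
      rw [map_one, div_self']
      exact hy
    · rw [pow_zero, layerH0]
      have : (H₀ ⊓ fixSub ((τ ^ p ^ i) ^ 1)).map (cycNorm (τ ^ p ^ i) 1) =
          H₀ ⊓ fixSub (τ ^ p ^ i) := by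
        rw [pow_one]
        ext y
        constructor
        · rintro ⟨x, hx, rfl⟩
          rw [cycNorm_apply, Finset.prod_range_one, pow_zero]
          exact hx
        · intro hy
          refine ⟨y, hy, ?_⟩
          rw [cycNorm_apply, Finset.prod_range_one, pow_zero]
          rfl
      rw [this, Subgroup.relIndex_self]
  | succ j ih =>
    intro i
    have hpow : (τ ^ p ^ i) ^ p = τ ^ p ^ (i + 1) := by rw [← pow_mul, ← pow_succ]
    have hpow' : (τ ^ p ^ i) ^ p ^ j = τ ^ p ^ (i + j) := by rw [← pow_mul, ← pow_add]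
    have hsti : Stable H₀ (τ ^ p ^ i) := hst.pow _
    constructor
    · -- `H¹`: bottom layer of degree `p`
      have hA := LayerH1.mul hsti (h1 i) (by rw [hpow]; exact (ih (i + 1)).1)
      rwa [← pow_succ'] at hA
    · -- `h⁰`: top layer of degree `p`
      have hB := layerH0_mul hsti (m₁ := p ^ j) (m₂ := p) (ih i).1
        (div_mem_of_layerH0_eq (τ ^ p ^ i) hsti j (by rw [hpow']; exact h0 (i + j)))
      rw [← pow_succ] at hB
      rw [hB, (ih i).2, hpow', h0 (i + j), pow_succ]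

/-- **towers of cyclic layers**, bounded version: only the layers `(τ^(p^i), p)` with `i < J` are
needed for the layers `(τ^(p^i), p^j)` with `i + j ≤ J`. -/
theorem layer_pow_le {H₀ : Subgroup X} (τ : Monoid.End X) (hst : Stable H₀ τ) (J : ℕ)
    (h1 : ∀ i : ℕ, i < J → LayerH1 H₀ (τ ^ p ^ i) p)
    (h0 : ∀ i : ℕ, i < J → layerH0 H₀ (τ ^ p ^ i) p = p) (j : ℕ) :
    ∀ i : ℕ, i + j ≤ J →
      LayerH1 H₀ (τ ^ p ^ i) (p ^ j) ∧ layerH0 H₀ (τ ^ p ^ i) (p ^ j) = p ^ j := by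
  induction j with
  | zero =>
    intro i _
    constructor
    · intro y _ hy
      refine ⟨1, one_mem _, ?_⟩
      rw [pow_zero, cycNorm_apply, Finset.prod_range_one, pow_zero] at hy
      rw [map_one, div_self']
      exact hy
    · rw [pow_zero, layerH0]
      have : (H₀ ⊓ fixSub ((τ ^ p ^ i) ^ 1)).map (cycNorm (τ ^ p ^ i) 1) =
          H₀ ⊓ fixSub (τ ^ p ^ i) := by
        rw [pow_one]
        ext y
        constructor
        · rintro ⟨x, hx, rfl⟩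
          rw [cycNorm_apply, Finset.prod_range_one, pow_zero]
          exact hx
        · intro hy
          refine ⟨y, hy, ?_⟩
          rw [cycNorm_apply, Finset.prod_range_one, pow_zero]
          rfl
      rw [this, Subgroup.relIndex_self]
  | succ j ih =>
    intro i hij
    have hpow : (τ ^ p ^ i) ^ p = τ ^ p ^ (i + 1) := by rw [← pow_mul, ← pow_succ]
    have hpow' : (τ ^ p ^ i) ^ p ^ j = τ ^ p ^ (i + j) := by rw [← pow_mul, ← pow_add]
    have hsti : Stable H₀ (τ ^ p ^ i) := hst.pow _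
    constructor
    · have hA := LayerH1.mul hsti (h1 i (by omega))
        (by rw [hpow]; exact (ih (i + 1) (by omega)).1)
      rwa [← pow_succ'] at hA
    · have hB := layerH0_mul hsti (m₁ := p ^ j) (m₂ := p) (ih i (by omega)).1
        (div_mem_of_layerH0_eq (τ ^ p ^ i) hsti j (by rw [hpow']; exact h0 (i + j) (by omega)))
      rw [← pow_succ] at hB
      rw [hB, (ih i (by omega)).2, hpow', h0 (i + j) (by omega), pow_succ]

end Tower

end Fermat.Agent.CFT.Coh.Herbrand
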