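/-
P4 / Layer A, task A-DEVISSAGE: dévissage for finite `p`-groups.

If all cyclic layers of degree `p` inside a finite `p`-group `G` satisfy `H¹ = 0` and `|H²| ≤ p`
(Hilbert 90 and the second inequality for cyclic extensions of degree `p`), then
`H¹(K, C) = 0` and `|H²(K, C)| ≤ |K|` for all subgroups `K ≤ G`
(induction with inflation–restriction in degrees 1 and 2).
-/
import Fermat.Agent.Lib.CFT.Coh.InfRes2
import Fermat.Agent.Lib.CFT.Coh.NakayamaTateLow

set_option autoImplicit false
set_option linter.unusedSectionVars false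
set_option linter.style.haveILetI false

namespace Fermat.Agent.CFT.Coh

open CategoryTheory groupCohomology Rep Limits

section Counting

/-- in an exact sequence `M₁ → M₂ → M₃` with `M₁`, `M₃` finite, `M₂` is finite and
`|M₂| ≤ |M₁| |M₃|` -/
theorem finite_and_card_le_of_exact {M₁ M₂ M₃ : Type*} [AddCommGroup M₁] [AddCommGroup M₂]
    [AddCommGroup M₃] (f : M₁ →+ M₂) (g : M₂ →+ M₃) (hex : ∀ y, g y = 0 → ∃ x, f x = y)
    [Finite M₁] [Finite M₃] : Finite M₂ ∧ Nat.card M₂ ≤ Nat.card M₁ * Nat.card M₃ := by
  have hker : ∀ y : g.ker, ∃ x : M₁, f x = y := fun y => hex y y.2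
  choose s hs using hker
  have hsinj : Function.Injective s := by
    intro a b hab
    apply Subtype.ext
    rw [← hs a, ← hs b, hab]
  haveI : Finite g.ker := Finite.of_injective s hsinj
  have hk : Nat.card g.ker ≤ Nat.card M₁ := Nat.card_le_card_of_injective s hsinj
  haveI : Finite g.range := Finite.of_injective _ Subtype.val_injective
  have hr : Nat.card g.range ≤ Nat.card M₃ :=
    Nat.card_le_card_of_injective _ Subtype.val_injective
  have hq : Nat.card (M₂ ⧸ g.ker) = Nat.card g.range :=
    Nat.card_congr (QuotientAddGroup.quotientKerEquivRange g).toEquiv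
  have hlag := AddSubgroup.card_eq_card_quotient_mul_card_addSubgroup g.ker
  rw [hq] at hlag
  have hpos : 0 < Nat.card g.range * Nat.card g.ker :=
    Nat.mul_pos Nat.card_pos Nat.card_pos
  refine ⟨Nat.finite_of_card_ne_zero (by omega), ?_⟩
  rw [hlag, mul_comm]
  exact Nat.mul_le_mul hk hr

/-- the same for linear maps -/
theorem finite_and_card_le_of_exact_linear {k : Type*} [Ring k] {M₁ M₂ M₃ : Type*}
    [AddCommGroup M₁] [AddCommGroup M₂] [AddCommGroup M₃] [Module k M₁] [Module k M₂]
    [Module k M₃] (f : M₁ →ₗ[k] M₂) (g : M₂ →ₗ[k] M₃) (hex : ∀ y, g y = 0 → ∃ x, f x = y)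
    [Finite M₁] [Finite M₃] : Finite M₂ ∧ Nat.card M₂ ≤ Nat.card M₁ * Nat.card M₃ :=
  finite_and_card_le_of_exact f.toAddMonoidHom g.toAddMonoidHom hex

end Counting

section Devissage

variable {k : Type} [CommRing k]

/-- the hypothesis on the cyclic layers of degree `p`: for every injective `f : K →* G` and every
normal subgroup `V ≤ K` of index `p`, the `K ⧸ V`-module `(res f C)^V` has `H¹ = 0` and
`|H²| ≤ p`. -/
def LayerHyp (p : ℕ) {G : Type} [Group G] (C : Rep.{0} k G) : Prop :=
  ∀ (K : Type) [Group K] [Finite K] (f : K →* G), Function.Injective f →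
    ∀ D : Rep.{0} k K, D = Rep.res f C →
    ∀ (V : Subgroup K) [V.Normal], V.index = p →
      IsZero (groupCohomology (D.quotientToInvariants V) 1) ∧
      Finite (groupCohomology (D.quotientToInvariants V) 2) ∧
      Nat.card (groupCohomology (D.quotientToInvariants V) 2) ≤ p

/-- the layer hypothesis in its plain form (without the auxiliary variable `D`, which is only
there to make instantiation at `f = id` cheap for the kernel) -/
theorem layerHyp_iff (p : ℕ) {G : Type} [Group G] (C : Rep.{0} k G) :
    LayerHyp p C ↔ ∀ (K : Type) [Group K] [Finite K] (f : K →* G), Function.Injective f →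
      ∀ (V : Subgroup K) [V.Normal], V.index = p →
        IsZero (groupCohomology ((Rep.res f C).quotientToInvariants V) 1) ∧
        Finite (groupCohomology ((Rep.res f C).quotientToInvariants V) 2) ∧
        Nat.card (groupCohomology ((Rep.res f C).quotientToInvariants V) 2) ≤ p := by
  constructor
  · intro h K _ _ f hf V _ hV
    exact h K f hf _ rfl V hV
  · intro h K _ _ f hf D hD V _ hV
    subst hD
    exact h K f hf V hV

theorem LayerHyp.res {p : ℕ} {G K : Type} [Group G] [Group K] {C : Rep.{0} k G}
    (h : LayerHyp p C) (f : K →* G) (hf : Function.Injective f) : LayerHyp p (Rep.res f C) := by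
  intro L _ _ g hg D hD V _ hV
  exact h L (f.comp g) (hf.comp hg) D hD V hV

theorem devissage_core (p : ℕ) [Fact p.Prime] (n : ℕ) :
    ∀ (K : Type) [Group K] [Finite K], Nat.card K = n → IsPGroup p K →
      ∀ C : Rep.{0} k K, LayerHyp p C →
        IsZero (groupCohomology C 1) ∧ Finite (groupCohomology C 2) ∧
          Nat.card (groupCohomology C 2) ≤ Nat.card K := by
  induction n using Nat.strong_induction_on with
  | _ n ih =>
  intro K _ _ hcard hK C hC
  by_cases htriv : Subsingleton K
  · have h1 := isZero_groupCohomology_succ_of_subsingleton C 0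
    have h2 := isZero_groupCohomology_succ_of_subsingleton C 1
    have h2' : Subsingleton (groupCohomology C 2) := ModuleCat.isZero_iff_subsingleton.1 h2
    refine ⟨h1, inferInstance, ?_⟩
    rw [Nat.card_unique]
    exact Nat.card_pos
  · rw [not_subsingleton_iff_nontrivial] at htriv
    obtain ⟨V, hVn, hVp⟩ := exists_normal_index_eq_prime p hK htriv
    have hp : p.Prime := Fact.out
    have hmul := V.card_mul_index
    rw [hVp, hcard] at hmul
    have hlt : Nat.card V < n := by
      have : 0 < Nat.card V := Nat.card_pos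
      nlinarith [hp.one_lt]
    obtain ⟨hV1, hV2fin, hV2card⟩ :=
      ih (Nat.card V) hlt V rfl (hK.to_subgroup V) _ (hC.res V.subtype V.subtype_injective)
    obtain ⟨hQ1, hQ2fin, hQ2card⟩ := hC K (MonoidHom.id K) Function.injective_id C rfl V hVp
    have hQ1' : Subsingleton (groupCohomology (C.quotientToInvariants V) 1) :=
      ModuleCat.isZero_iff_subsingleton.1 hQ1
    have hV1' : Subsingleton (groupCohomology (Rep.res V.subtype C) 1) :=
      ModuleCat.isZero_iff_subsingleton.1 hV1
    -- `H¹(K, C) = 0`
    have hK1 : IsZero (groupCohomology C 1) := by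
      rw [ModuleCat.isZero_iff_subsingleton]
      suffices h : ∀ x : groupCohomology C 1, x = 0 from ⟨fun a b => by rw [h a, h b]⟩
      intro x
      haveI : Subsingleton (H1InfRes C V).X₃ := hV1'
      haveI : Subsingleton (H1InfRes C V).X₁ := hQ1'
      have hex := (ShortComplex.moduleCat_exact_iff _).1 (H1InfRes_exact C V) x
        (Subsingleton.elim _ _)
      obtain ⟨y, rfl⟩ := hex
      rw [Subsingleton.elim y 0]
      exact map_zero _
    refine ⟨hK1, ?_⟩
    -- `H²(K, C)`
    haveI : Finite (groupCohomology (C.quotientToInvariants V) 2) := hQ2fin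
    haveI : Finite (groupCohomology (Rep.res V.subtype C) 2) := hV2fin
    have hex : ∀ y : groupCohomology C 2,
        (map V.subtype (𝟙 (Rep.res V.subtype C)) 2).hom y = 0 →
        ∃ x : groupCohomology (C.quotientToInvariants V) 2,
          (map (QuotientGroup.mk' V) (ofHom <| C.ρ.quotientToInvariants_lift V) 2).hom x = y :=
      fun y hy => exists_inf₂_eq C V hV1 y hy
    have hcount := finite_and_card_le_of_exact_linear _ _ hex
    refine ⟨hcount.1, hcount.2.trans ?_⟩
    calc Nat.card (groupCohomology (C.quotientToInvariants V) 2) *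
          Nat.card (groupCohomology (Rep.res V.subtype C) 2)
        ≤ p * Nat.card V := Nat.mul_le_mul hQ2card hV2card
      _ = n := by rw [mul_comm]; exact hmul
      _ = Nat.card K := hcard.symm

/-- **Dévissage**: if all cyclic layers of degree `p` inside the finite `p`-group `G` have `H¹ = 0`
and `|H²| ≤ p`, then `H¹(K, C) = 0` and `|H²(K, C)| ≤ |K|` for every injective `f : K →* G`. -/
theorem devissage_of_injective (p : ℕ) [Fact p.Prime] {G : Type} [Group G] [Finite G]
    (hG : IsPGroup p G) (C : Rep.{0} k G) (hC : LayerHyp p C)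
    {K : Type} [Group K] [Finite K] (f : K →* G) (hf : Function.Injective f) :
    IsZero (groupCohomology (Rep.res f C) 1) ∧ Finite (groupCohomology (Rep.res f C) 2) ∧
      Nat.card (groupCohomology (Rep.res f C) 2) ≤ Nat.card K :=
  devissage_core p _ K rfl (hG.of_injective f hf) _ (hC.res f hf)

/-- **Dévissage**, subgroup form. -/
theorem devissage (p : ℕ) [Fact p.Prime] {G : Type} [Group G] [Finite G]
    (hG : IsPGroup p G) (C : Rep.{0} k G) (hC : LayerHyp p C) (K : Subgroup G) :
    IsZero (groupCohomology (Rep.res K.subtype C) 1) ∧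
      Finite (groupCohomology (Rep.res K.subtype C) 2) ∧
      Nat.card (groupCohomology (Rep.res K.subtype C) 2) ≤ Nat.card K :=
  devissage_of_injective p hG C hC K.subtype K.subtype_injective

end Devissage

end Fermat.Agent.CFT.Coh
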