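/-
P4 / Layer A (for C6): the counting step of the existence theorem, abstractly: if `n • C^G ⊆ N_G C`
and `C^G / n C^G` is covered by at most `[C^G : N_G C]` classes then `N_G C = n • C^G`.
-/
import Fermat.Agent.Lib.CFT.Coh.NakayamaTateLow

set_option autoImplicit false
set_option linter.unusedSectionVars false
set_option linter.style.haveILetI false

namespace Fermat.Agent.CFT.Coh

open CategoryTheory Representation

section NormEq

variable {k G : Type} [CommRing k] [Group G] [Fintype G] (C : Rep.{0} k G)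

/-- **the norm group is `n • C^G`** as soon as `n • C^G ⊆ N_G C` and `[C^G : n • C^G] ≤ [C^G : N_G C]`
(covering form) -/
theorem norm_eq_nsmul_of_card_le (n : ℕ) [Finite (TateH0 C)] (F : Finset C.V)
    (hF : F.card ≤ Nat.card (TateH0 C))
    (hcover : ∀ c : C.V, (∀ g : G, C.ρ g c = c) →
      ∃ f ∈ F, ∃ e : C.V, (∀ g : G, C.ρ g e = e) ∧ c = f + n • e)
    (hP : ∀ c : C.V, (∀ g : G, C.ρ g c = c) → ∃ y : C.V, ∑ g : G, C.ρ g y = n • c) (d : C.V) :
    ∃ e : C.V, (∀ g : G, C.ρ g e = e) ∧ ∑ g : G, C.ρ g d = n • e := by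
  classical
  let P' : AddSubgroup C.ρ.invariants := (nsmulAddMonoidHom (α := C.ρ.invariants) n).range
  let R' : AddSubgroup C.ρ.invariants := (LinearMap.range (normBar C)).toAddSubgroup
  have hPR : P' ≤ R' := by
    rintro _ ⟨c, rfl⟩
    obtain ⟨y, hy⟩ := hP c.1 c.2
    refine ⟨Coinvariants.mk _ y, Subtype.ext ?_⟩
    rw [normBar_mk, normToInvariants_coe, norm_apply_eq_sum, hy]
    rfl
  have hRidx : R'.index = Nat.card (TateH0 C) := rfl
  -- an injection `C^G / n C^G → F`
  have hex : ∀ q : C.ρ.invariants ⧸ P', ∃ f ∈ F, ∃ e : C.V, (∀ g : G, C.ρ g e = e) ∧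
      (q.out : C.V) = f + n • e := fun q => hcover q.out.1 q.out.2
  let pick : (C.ρ.invariants ⧸ P') → F := fun q => ⟨(hex q).choose, (hex q).choose_spec.1⟩
  have hpick : Function.Injective pick := by
    intro q q' hqq
    obtain ⟨e, he, hqe⟩ := (hex q).choose_spec.2
    obtain ⟨e', he', hqe'⟩ := (hex q').choose_spec.2
    have hff : (hex q).choose = (hex q').choose := congrArg Subtype.val hqq
    rw [← QuotientAddGroup.out_eq' q, ← QuotientAddGroup.out_eq' q']
    apply (QuotientAddGroup.eq).2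
    refine ⟨⟨e' - e, fun g => by rw [map_sub, he g, he' g]⟩, Subtype.ext ?_⟩
    change n • (e' - e) = -(q.out : C.V) + (q'.out : C.V)
    rw [hqe, hqe', hff, smul_sub]
    abel
  haveI : Finite (C.ρ.invariants ⧸ P') := Finite.of_injective pick hpick
  have hPidx : P'.index ≤ F.card := by
    rw [AddSubgroup.index_eq_card]
    calc Nat.card (C.ρ.invariants ⧸ P') ≤ Nat.card F := Nat.card_le_card_of_injective pick hpick
      _ = F.card := by rw [Nat.card_eq_fintype_card, Fintype.card_coe]
  have h1 := AddSubgroup.relIndex_mul_index hPR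
  have hP0 : P'.index ≠ 0 := AddSubgroup.index_ne_zero_of_finite
  have hrel : P'.relIndex R' = 1 := by
    have h2 : P'.relIndex R' * R'.index ≤ R'.index := by
      rw [h1, hRidx]
      exact hPidx.trans hF
    have h3 : P'.relIndex R' ≠ 0 := fun h0 => hP0 (by rw [← h1, h0, zero_mul])
    have h4 : R'.index ≠ 0 := fun h0 => hP0 (by rw [← h1, h0, mul_zero])
    have h5 : P'.relIndex R' ≤ 1 := by
      by_contra hlt
      rw [not_le] at hlt
      have : 2 * R'.index ≤ P'.relIndex R' * R'.index := Nat.mul_le_mul_right _ hlt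
      omega
    omega
  have hRP : R' ≤ P' := AddSubgroup.relIndex_eq_one.1 hrel
  have hd : normToInvariants C d ∈ R' := ⟨Coinvariants.mk _ d, rfl⟩
  obtain ⟨e, he⟩ := hRP hd
  refine ⟨e.1, e.2, ?_⟩
  have := congrArg Subtype.val he
  rw [normToInvariants_coe, norm_apply_eq_sum] at this
  exact this.symm

end NormEq

end Fermat.Agent.CFT.Coh
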