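/-
P4 / Layer A (for C6): **Tate's theorem in degree 0** for finite `p`-groups.

For a finite `p`-group `G`, `C : Rep ℤ G` with `H¹(G, C) = 0` and `H²(G, C)` generated by a class `u`
and of order at least `|G|`: the connecting map of the splitting module sequence
`0 → C → C(φ) → I_G → 0` is a bijection `Ĥ⁻¹(G, I_G) ≃ Ĥ⁰(G, C)` (`tateδ_splitSC_bijective`), and
`Ĥ⁻¹(G, I_G) = (I_G)_G` is a quotient of `G` (`augClass`), isomorphic to `G` for commutative `G`.

Consequences for commutative `G`: `|Ĥ⁰(G, C)| = |G|` (`card_tateH0_eq_of_comm`), and `Ĥ⁰(G, C)` is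
killed by `n` as soon as `G` is (`nsmul_tateH0_eq_zero`).
-/
import Fermat.Agent.Lib.CFT.Coh.TateH3Top

set_option autoImplicit false
set_option linter.unusedSectionVars false
set_option linter.style.haveILetI false

namespace Fermat.Agent.CFT.Coh

open CategoryTheory groupCohomology Rep Limits Representation

/-! ## `Ĥ⁰` and `Ĥ⁻¹` of the restriction to `⊤` -/

section ResTop

variable {k G : Type} [CommRing k] [Group G] [Fintype G]

theorem norm_res_top (M : Rep.{0} k G) [Fintype (⊤ : Subgroup G)] (y : M.V) :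
    (res (⊤ : Subgroup G).subtype M).ρ.norm y = M.ρ.norm y := by
  rw [norm_apply_eq_sum, norm_apply_eq_sum]
  exact Fintype.sum_equiv Subgroup.topEquiv.toEquiv _ _ (fun g => rfl)

theorem subsingleton_tateH0_of_res_top (M : Rep.{0} k G) [Fintype (⊤ : Subgroup G)]
    (h : Subsingleton (TateH0 (res (⊤ : Subgroup G).subtype M))) : Subsingleton (TateH0 M) := by
  rw [subsingleton_tateH0_iff] at h ⊢
  intro x hx
  obtain ⟨y, hy⟩ := h x (fun g => hx g.1)
  exact ⟨y, (norm_res_top M y).symm.trans hy⟩

theorem subsingleton_tateHm1_of_res_top (M : Rep.{0} k G) [Fintype (⊤ : Subgroup G)]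
    (h : Subsingleton (TateHm1 (res (⊤ : Subgroup G).subtype M))) : Subsingleton (TateHm1 M) := by
  have key : ∀ z : TateHm1 M, z = 0 := by
    intro z
    obtain ⟨x, hx, rfl⟩ := TateHm1.mk_surjective M z
    rw [TateHm1.mk_eq_zero_iff]
    have hx' : (res (⊤ : Subgroup G).subtype M).ρ.norm x = 0 := (norm_res_top M x).trans hx
    have h0 : TateHm1.mk (res (⊤ : Subgroup G).subtype M) x hx' = 0 := Subsingleton.elim _ _
    rw [TateHm1.mk_eq_zero_iff] at h0
    have hle : Coinvariants.ker (res (⊤ : Subgroup G).subtype M).ρ ≤ Coinvariants.ker M.ρ := by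
      apply Submodule.span_le.2
      rintro _ ⟨⟨g, y⟩, rfl⟩
      exact Coinvariants.sub_mem_ker (ρ := M.ρ) (g : G) y
    exact hle h0
  exact ⟨fun a b => by rw [key a, key b]⟩

end ResTop

/-! ## The connecting map of the splitting module in Tate degrees `-1`, `0` -/

section Splitting

variable {k G : Type} [CommRing k] [Group G] [Fintype G] (C : Rep.{0} k G)

/-- **Tate's theorem in degree `0`** (cocycle form): `δ : Ĥ⁻¹(G, I_G) → Ĥ⁰(G, C)` is bijective. -/
theorem tateδ_splitSC_bijective (p : ℕ) [Fact p.Prime] (hG : IsPGroup p G) (φ : cocycles₂ C)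
    (hk : AddHomsLinear k)
    (hk1 : ∀ n : ℕ, 0 < n → ∀ x : k, n • x = 0 → x = 0)
    (hk2 : ∀ n : ℕ, 0 < n → ∀ x : k, ∃ m : ℕ, m < n ∧ ∃ y : k, x = (m : k) + n • y)
    (h1 : IsZero (groupCohomology C 1))
    (hgen : ∀ x : groupCohomology C 2, ∃ m : ℤ, x = m • H2π C φ)
    (hcard : Nat.card G ≤ Nat.card (groupCohomology C 2)) :
    Function.Bijective (tateδ (splitSC_shortExact C φ)) := by
  classical
  have hX := splitSC_shortExact C φ
  have hI2 : IsZero (groupCohomology (splitSC C φ).X₃ 2) := isZero_H2_augRep hk1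
  obtain ⟨hfin, hle⟩ := card_H1_augRep_le (k := k) (G := G) hk2
  haveI : Finite (groupCohomology (splitSC C φ).X₃ 1) := hfin
  have h12 := isZero_H1_H2_of_splitting hX (H2π C φ) (map_splitIncl_H2π C φ) hgen h1 hI2
    (hle.trans hcard)
  have hkp : ∀ c : k, (p : k) * c = 0 → c = 0 := by
    intro c hc
    apply hk1 p (Fact.out : p.Prime).pos c
    rw [nsmul_eq_mul, hc]
  have h0 : Subsingleton (TateH0 (splitSC C φ).X₂) :=
    subsingleton_tateH0_of_res_top _ (nakayamaTate_tateH0 hk hkp hG _ h12.1 h12.2 ⊤)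
  have hm1 : Subsingleton (TateHm1 (splitSC C φ).X₂) :=
    subsingleton_tateHm1_of_res_top _ (nakayamaTate_tateHm1 hk hkp hG _ h12.1 h12.2 ⊤)
  constructor
  · rw [injective_iff_map_eq_zero]
    intro z hz
    obtain ⟨y, rfl⟩ := (TateHm1.map_tateδ_exact hX z).1 hz
    rw [Subsingleton.elim y 0, map_zero]
  · intro x
    exact (tateδ_TateH0.map_exact hX x).1 (Subsingleton.elim _ _)

end Splitting

/-! ## `Ĥ⁻¹(G, I_G)` -/

section Aug

variable (G : Type) [Group G] [Fintype G]

/-- `∑ g, g • y = ε(y) • ∑ g, [g]` in `ℤ[G]` -/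
theorem sum_regRepn (y : G →₀ ℤ) :
    ∑ g : G, regRepn ℤ G g y = augLin ℤ G y • ∑ g : G, Finsupp.single g (1 : ℤ) := by
  induction y using Finsupp.induction_linear with
  | zero => simp
  | add a b ha hb =>
    simp only [map_add, Finset.sum_add_distrib, ha, hb, add_smul]
  | single x r =>
    simp only [regRepn_single, augLin_single]
    rw [Finset.smul_sum]
    simp only [Finsupp.smul_single, smul_eq_mul, mul_one]
    exact Fintype.sum_equiv (Equiv.mulRight x) _ _ (fun g => rfl)

theorem augLin_eq_sum (f : G →₀ ℤ) : augLin ℤ G f = ∑ g : G, f g := by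
  classical
  induction f using Finsupp.induction_linear with
  | zero => simp
  | add a b ha hb => simp only [map_add, Finsupp.add_apply, Finset.sum_add_distrib, ha, hb]
  | single x r =>
    rw [augLin_single, Finset.sum_eq_single x]
    · simp
    · intro g _ hg
      rw [Finsupp.single_apply, if_neg (Ne.symm hg)]
    · intro h
      exact absurd (Finset.mem_univ x) h

/-- the norm vanishes on the augmentation ideal -/
theorem norm_augRep (y : LinearMap.ker (augLin ℤ G)) :
    (augRep ℤ G).ρ.norm (show (augRep ℤ G).V from y) = 0 := by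
  refine (norm_apply_eq_sum (augRep ℤ G) _).trans ?_
  apply Subtype.ext
  have h1 : ((∑ g : G, augRepn ℤ G g y : LinearMap.ker (augLin ℤ G)) : G →₀ ℤ) =
      ∑ g : G, regRepn ℤ G g (y : G →₀ ℤ) := by
    rw [Submodule.coe_sum]
    rfl
  refine h1.trans ?_
  rw [sum_regRepn]
  have h2 : augLin ℤ G (y : G →₀ ℤ) = 0 := y.2
  rw [h2, zero_smul]
  rfl

/-- the class map `I_G → Ĥ⁻¹(G, I_G)` (the norm vanishes on `I_G`) -/
noncomputable def mkAug : LinearMap.ker (augLin ℤ G) →ₗ[ℤ] TateHm1 (augRep ℤ G) :=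
  (Coinvariants.mk (augRep ℤ G).ρ).codRestrict _ (fun y => by
    rw [LinearMap.mem_ker]
    exact (normBar_mk (augRep ℤ G) _).trans (Subtype.ext (norm_augRep G y)))

theorem mkAug_eq (y : LinearMap.ker (augLin ℤ G)) :
    mkAug G y = TateHm1.mk (augRep ℤ G) y (norm_augRep G y) := rfl

theorem mkAug_surjective : Function.Surjective (mkAug G) := by
  intro z
  obtain ⟨y, hy, rfl⟩ := TateHm1.mk_surjective _ z
  exact ⟨y, rfl⟩

theorem mkAug_eq_zero_iff (y : LinearMap.ker (augLin ℤ G)) :
    mkAug G y = 0 ↔ (show (augRep ℤ G).V from y) ∈ Coinvariants.ker (augRep ℤ G).ρ :=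
  TateHm1.mk_eq_zero_iff (augRep ℤ G) _ (norm_augRep G y)

/-- `[g] - [1]` as an element of the augmentation ideal -/
noncomputable def augElt (g : G) : LinearMap.ker (augLin ℤ G) :=
  ⟨Finsupp.single g 1 - Finsupp.single 1 1, by
    rw [LinearMap.mem_ker, map_sub, augLin_single, augLin_single, sub_self]⟩

theorem augElt_one : augElt G 1 = 0 := by
  apply Subtype.ext
  change Finsupp.single (1 : G) (1 : ℤ) - Finsupp.single 1 1 = 0
  rw [sub_self]

theorem augRepn_augElt (g h : G) :
    augRepn ℤ G g (augElt G h) = augElt G (g * h) - augElt G g := by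
  apply Subtype.ext
  change regRepn ℤ G g (Finsupp.single h 1 - Finsupp.single 1 1) =
    (Finsupp.single (g * h) 1 - Finsupp.single 1 1) - (Finsupp.single g 1 - Finsupp.single 1 1)
  rw [map_sub, regRepn_single, regRepn_single, mul_one]
  abel

theorem mkAug_augElt_mul (g h : G) :
    mkAug G (augElt G (g * h)) = mkAug G (augElt G g) + mkAug G (augElt G h) := by
  rw [← map_add, ← sub_eq_zero, ← map_sub, mkAug_eq_zero_iff]
  have h2 : augElt G (g * h) - (augElt G g + augElt G h) =
      augRepn ℤ G g (augElt G h) - augElt G h := by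
    rw [augRepn_augElt]
    abel
  rw [h2]
  exact Coinvariants.sub_mem_ker (ρ := (augRep ℤ G).ρ) g (augElt G h)

/-- the class of `[g] - [1]` in `Ĥ⁻¹(G, I_G)`; a homomorphism `G → Ĥ⁻¹(G, I_G)` -/
noncomputable def augClass : Additive G →+ TateHm1 (augRep ℤ G) where
  toFun g := mkAug G (augElt G g.toMul)
  map_zero' := by
    change mkAug G (augElt G 1) = 0
    rw [augElt_one, map_zero]
  map_add' g h := mkAug_augElt_mul G g.toMul h.toMul

theorem augClass_apply (g : Additive G) : augClass G g = mkAug G (augElt G g.toMul) := rfl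

/-- every element of the augmentation ideal is a combination of the `[g] - [1]` -/
theorem eq_sum_augElt (y : LinearMap.ker (augLin ℤ G)) :
    y = ∑ g : G, ((y : G →₀ ℤ) g) • augElt G g := by
  apply Subtype.ext
  rw [Submodule.coe_sum]
  simp only [Submodule.coe_smul]
  change (y : G →₀ ℤ) = ∑ g : G, ((y : G →₀ ℤ) g) • (Finsupp.single g 1 - Finsupp.single 1 1)
  simp only [smul_sub, Finset.sum_sub_distrib, Finsupp.smul_single, smul_eq_mul, mul_one]
  have h1 : ∑ g : G, Finsupp.single g ((y : G →₀ ℤ) g) = (y : G →₀ ℤ) := by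
    conv_rhs => rw [← Finsupp.sum_single (y : G →₀ ℤ)]
    rw [Finsupp.sum_fintype _ _ (fun g => Finsupp.single_zero g)]
  have h2 : ∑ g : G, Finsupp.single (1 : G) ((y : G →₀ ℤ) g) = 0 := by
    rw [← Finsupp.single_finsetSum]
    have h3 : augLin ℤ G (y : G →₀ ℤ) = 0 := y.2
    have h4 : augLin ℤ G (y : G →₀ ℤ) = ∑ g : G, (y : G →₀ ℤ) g := augLin_eq_sum G _
    rw [← h4, h3, Finsupp.single_zero]
  rw [h1, h2, sub_zero]

/-- `G → Ĥ⁻¹(G, I_G)` is onto -/
theorem augClass_surjective : Function.Surjective (augClass G) := by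
  intro z
  obtain ⟨y, rfl⟩ := mkAug_surjective G z
  rw [← AddMonoidHom.mem_range, eq_sum_augElt G y, map_sum]
  refine AddSubgroup.sum_mem _ (fun g _ => ?_)
  rw [map_zsmul]
  exact AddSubgroup.zsmul_mem _ (AddMonoidHom.mem_range.2 ⟨Additive.ofMul g, rfl⟩) _

/-- `Ĥ⁻¹(G, I_G)` is killed by every exponent of `G` -/
theorem nsmul_tateHm1_augRep_eq_zero {n : ℕ} (hn : ∀ g : G, g ^ n = 1)
    (z : TateHm1 (augRep ℤ G)) : n • z = 0 := by
  obtain ⟨g, rfl⟩ := augClass_surjective G z
  rw [← map_nsmul]
  have : n • g = 0 := by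
    change Additive.ofMul (g.toMul ^ n) = 0
    rw [hn]
    rfl
  rw [this, map_zero]

end Aug

/-! ## Commutative groups: `Ĥ⁻¹(G, I_G) ≃ G` -/

section Comm

variable (G : Type) [CommGroup G] [Fintype G]

/-- the homomorphism `ℤ[G] → G`, `[g] ↦ g` -/
noncomputable def toAddG : (G →₀ ℤ) →+ Additive G :=
  Finsupp.liftAddHom (fun g : G => zmultiplesHom (Additive G) (Additive.ofMul g))

theorem toAddG_single (g : G) (n : ℤ) :
    toAddG G (Finsupp.single g n) = n • Additive.ofMul g := by
  simp [toAddG]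

theorem toAddG_regRepn (g : G) (y : G →₀ ℤ) :
    toAddG G (regRepn ℤ G g y) = toAddG G y + augLin ℤ G y • Additive.ofMul g := by
  induction y using Finsupp.induction_linear with
  | zero => simp
  | add a b ha hb =>
    rw [map_add, map_add, map_add, map_add, ha, hb, add_smul]
    abel
  | single x r =>
    rw [regRepn_single, toAddG_single, toAddG_single, augLin_single, ofMul_mul, smul_add,
      add_comm]

/-- `I_G → G`, as a linear map -/
noncomputable def augToG : LinearMap.ker (augLin ℤ G) →ₗ[ℤ] Additive G :=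
  ((toAddG G).comp (LinearMap.ker (augLin ℤ G)).subtype.toAddMonoidHom).toIntLinearMap

theorem augToG_apply (y : LinearMap.ker (augLin ℤ G)) : augToG G y = toAddG G (y : G →₀ ℤ) := rfl

theorem augToG_augElt (g : G) : augToG G (augElt G g) = Additive.ofMul g := by
  rw [augToG_apply]
  change toAddG G (Finsupp.single g 1 - Finsupp.single 1 1) = _
  rw [map_sub, toAddG_single, toAddG_single, one_smul, one_smul, ofMul_one, sub_zero]

theorem coinvariantsKer_le_ker_augToG :
    Coinvariants.ker (augRep ℤ G).ρ ≤ LinearMap.ker (augToG G) := by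
  apply Submodule.span_le.2
  rintro _ ⟨⟨g, y⟩, rfl⟩
  have hy : ∀ y : LinearMap.ker (augLin ℤ G), augToG G (augRepn ℤ G g y - y) = 0 := by
    intro y
    rw [map_sub, augToG_apply, augToG_apply, augRepn_coe, toAddG_regRepn]
    have h : augLin ℤ G (y : G →₀ ℤ) = 0 := y.2
    rw [h, zero_smul, add_zero, sub_self]
  exact hy y

/-- `G → Ĥ⁻¹(G, I_G)` is injective for commutative `G` -/
theorem augClass_injective : Function.Injective (augClass G) := by
  rw [injective_iff_map_eq_zero]
  intro g hg
  rw [augClass_apply, mkAug_eq_zero_iff] at hg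
  have h1 := coinvariantsKer_le_ker_augToG G hg
  have h2 : augToG G (augElt G g.toMul) = 0 := h1
  rw [augToG_augElt] at h2
  exact h2

theorem augClass_bijective : Function.Bijective (augClass G) :=
  ⟨augClass_injective G, augClass_surjective G⟩

end Comm

/-! ## Tate's theorem in degree `0` -/

section Main

variable {G : Type} [Group G] [Fintype G] (p : ℕ) [Fact p.Prime]

/-- **Tate's theorem in degree `0`, exponent**: if `gⁿ = 1` for all `g ∈ G` then `n` kills
`Ĥ⁰(G, C) = C^G / N C`. -/
theorem nsmul_tateH0_eq_zero (hG : IsPGroup p G) (C : Rep.{0} ℤ G) (u : groupCohomology C 2)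
    (h1 : IsZero (groupCohomology C 1))
    (hgen : ∀ x : groupCohomology C 2, ∃ m : ℤ, x = m • u)
    (hcard : Nat.card G ≤ Nat.card (groupCohomology C 2)) {n : ℕ} (hn : ∀ g : G, g ^ n = 1)
    (z : TateH0 C) : n • z = 0 := by
  induction u using H2_induction_on with | h φ =>
  obtain ⟨w, rfl⟩ := (tateδ_splitSC_bijective C p hG φ addHomsLinear_int int_torsionFree_hyp
    int_euclid_hyp h1 hgen hcard).2 z
  have h := nsmul_tateHm1_augRep_eq_zero G hn w
  have h2 : tateδ (splitSC_shortExact C φ) (n • w) = n • tateδ (splitSC_shortExact C φ) w :=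
    map_nsmul _ _ _
  have h3 : tateδ (splitSC_shortExact C φ) (n • w) = 0 :=
    (congrArg (tateδ (splitSC_shortExact C φ)) h).trans (map_zero _)
  exact h2.symm.trans h3

/-- **Tate's theorem in degree `0`, order**: for a commutative `p`-group `G`,
`|C^G / N C| = |G|`. -/
theorem card_tateH0_eq_of_comm {G : Type} [CommGroup G] [Fintype G] (hG : IsPGroup p G)
    (C : Rep.{0} ℤ G) (u : groupCohomology C 2) (h1 : IsZero (groupCohomology C 1))
    (hgen : ∀ x : groupCohomology C 2, ∃ m : ℤ, x = m • u)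
    (hcard : Nat.card G ≤ Nat.card (groupCohomology C 2)) :
    Nat.card (TateH0 C) = Nat.card G := by
  induction u using H2_induction_on with | h φ =>
  have hb := tateδ_splitSC_bijective C p hG φ addHomsLinear_int int_torsionFree_hyp
    int_euclid_hyp h1 hgen hcard
  have hb2 : Function.Bijective
      (fun g : Additive G => tateδ (splitSC_shortExact C φ) (augClass G g)) :=
    hb.comp (augClass_bijective G)
  exact (Nat.card_congr (Equiv.ofBijective _ hb2)).symm

/-- order form of `nsmul_tateH0_eq_zero` -/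
theorem nsmul_tateH0_eq_zero_of_order (hG : IsPGroup p G) (C : Rep.{0} ℤ G)
    (u : groupCohomology C 2) (h1 : IsZero (groupCohomology C 1))
    [Finite (groupCohomology C 2)] (h2card : Nat.card (groupCohomology C 2) ≤ Nat.card G)
    (hord : addOrderOf u = Nat.card G) {n : ℕ} (hn : ∀ g : G, g ^ n = 1) (z : TateH0 C) :
    n • z = 0 := by
  obtain ⟨hle, hgen⟩ := exists_zsmul_eq_of_addOrderOf_eq u (Nat.card G) h2card hord
  exact nsmul_tateH0_eq_zero p hG C u h1 hgen hle hn z

/-- order form of `card_tateH0_eq_of_comm` -/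
theorem card_tateH0_eq_of_comm_of_order {G : Type} [CommGroup G] [Fintype G] (hG : IsPGroup p G)
    (C : Rep.{0} ℤ G) (u : groupCohomology C 2) (h1 : IsZero (groupCohomology C 1))
    [Finite (groupCohomology C 2)] (h2card : Nat.card (groupCohomology C 2) ≤ Nat.card G)
    (hord : addOrderOf u = Nat.card G) : Nat.card (TateH0 C) = Nat.card G := by
  obtain ⟨hle, hgen⟩ := exists_zsmul_eq_of_addOrderOf_eq u (Nat.card G) h2card hord
  exact card_tateH0_eq_of_comm p hG C u h1 hgen hle

end Main

end Fermat.Agent.CFT.Coh
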