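/-
P4 / D-INV0 (algebra part): the `p`-primary component of `1/N ∈ ℚ/ℤ`, and homomorphisms out of an
abelian group killed by `N` whose `p`-primary part is cyclic.

* `pPart p N : AddCircle (1 : ℚ)` with `p ^ v_p(N) • pPart p N = 0`,
  `(N / p ^ v_p(N)) • pPart p N = 1 / p ^ v_p(N)`, `d • pPart p (d * N) = pPart p N`,
  `k • pPart p N = 0 → p ^ v_p(N) ∣ k`.
* `exists_hom_of_pCyclic`, `hom_ext_of_pCyclic`.
-/
import Mathlib

set_option autoImplicit false
set_option linter.unusedSectionVars false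

namespace Fermat.Agent.CFT.Coh

/-- an element of an abelian group killed by two coprime natural numbers is zero -/
theorem eq_zero_of_coprime_nsmul {M : Type*} [AddCommGroup M] (x : M) (a b : ℕ)
    (hab : Nat.Coprime a b) (ha : a • x = 0) (hb : b • x = 0) : x = 0 := by
  obtain ⟨u, v, huv⟩ := Nat.isCoprime_iff_coprime.2 hab
  calc x = (1 : ℤ) • x := (one_smul ℤ x).symm
    _ = (u * (a : ℤ) + v * (b : ℤ)) • x := by rw [huv]
    _ = u • ((a : ℤ) • x) + v • ((b : ℤ) • x) := by rw [add_smul, mul_smul, mul_smul]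
    _ = 0 := by rw [natCast_zsmul, natCast_zsmul, ha, hb, smul_zero, smul_zero, add_zero]

section PPart

variable (p : ℕ) [hp : Fact p.Prime]

/-- the `p`-primary component of `1/N ∈ ℚ/ℤ` -/
noncomputable def pPart (N : ℕ) : AddCircle (1 : ℚ) :=
  ((Nat.gcdA (N / p ^ N.factorization p) (p ^ N.factorization p) : ℚ) /
    ((p ^ N.factorization p : ℕ) : ℚ) : ℚ)

theorem pow_factorization_nsmul_pPart (N : ℕ) : p ^ N.factorization p • pPart p N = 0 := by
  unfold pPart
  rw [← AddCircle.coe_nsmul, AddCircle.coe_eq_zero_iff]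
  refine ⟨Nat.gcdA (N / p ^ N.factorization p) (p ^ N.factorization p), ?_⟩
  have hp0 : ((p ^ N.factorization p : ℕ) : ℚ) ≠ 0 := by
    exact_mod_cast (pow_pos hp.out.pos _).ne'
  rw [nsmul_eq_mul, zsmul_eq_mul, mul_one, mul_div_cancel₀ _ hp0]

theorem coprime_ordCompl_pow {N : ℕ} (hN : N ≠ 0) :
    Nat.Coprime (N / p ^ N.factorization p) (p ^ N.factorization p) :=
  ((Nat.coprime_ordCompl hp.out hN).pow_left _).symm

theorem ordCompl_nsmul_pPart {N : ℕ} (hN : N ≠ 0) :
    (N / p ^ N.factorization p) • pPart p N =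
      ((1 / ((p ^ N.factorization p : ℕ) : ℚ) : ℚ) : AddCircle (1 : ℚ)) := by
  unfold pPart
  set b := N.factorization p with hb
  set m := N / p ^ b with hm
  have hcop : Nat.Coprime m (p ^ b) := coprime_ordCompl_pow p hN
  have hbez := Nat.gcd_eq_gcd_ab m (p ^ b)
  rw [hcop.gcd_eq_one] at hbez
  have hp0 : ((p ^ b : ℕ) : ℚ) ≠ 0 := by
    exact_mod_cast (pow_pos hp.out.pos _).ne'
  rw [← AddCircle.coe_nsmul, ← sub_eq_zero, ← AddCircle.coe_sub, AddCircle.coe_eq_zero_iff]
  refine ⟨-Nat.gcdB m (p ^ b), ?_⟩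
  have hq : (1 : ℚ) = (m : ℚ) * (Nat.gcdA m (p ^ b) : ℚ) + ((p ^ b : ℕ) : ℚ) * (Nat.gcdB m (p ^ b) : ℚ) := by
    exact_mod_cast congrArg (Int.cast : ℤ → ℚ) hbez
  rw [nsmul_eq_mul, zsmul_eq_mul, mul_one]
  field_simp
  push_cast at hq ⊢
  linarith

/-- `d • (1/(dN))_p = (1/N)_p` -/
theorem nsmul_pPart_mul {d N : ℕ} (hd : d ≠ 0) (hN : N ≠ 0) :
    d • pPart p (d * N) = pPart p N := by
  rw [← sub_eq_zero]
  set b := N.factorization p with hb
  set v := d.factorization p with hv
  have hb' : (d * N).factorization p = v + b := by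
    rw [Nat.factorization_mul hd hN, Finsupp.add_apply]
  have hdN : d * N ≠ 0 := Nat.mul_ne_zero hd hN
  have hm' : d * N / p ^ (v + b) = d / p ^ v * (N / p ^ b) := by
    have := Nat.ordCompl_mul d N p
    rw [hb'] at this
    exact this
  have hdd : p ^ v * (d / p ^ v) = d := Nat.ordProj_mul_ordCompl_eq_self d p
  have hK2 := pow_factorization_nsmul_pPart p (d * N)
  have hK1 := ordCompl_nsmul_pPart p hdN
  rw [hb'] at hK2 hK1
  rw [hm'] at hK1
  apply eq_zero_of_coprime_nsmul _ (p ^ b) (N / p ^ b) (coprime_ordCompl_pow p hN).symm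
  · rw [smul_sub, pow_factorization_nsmul_pPart p N, sub_zero, ← mul_smul]
    have : p ^ b * d = d / p ^ v * p ^ (v + b) := by
      calc p ^ b * d = p ^ b * (p ^ v * (d / p ^ v)) := by rw [hdd]
        _ = d / p ^ v * p ^ (v + b) := by rw [pow_add]; ring
    rw [this, mul_smul, hK2, smul_zero]
  · rw [smul_sub, ordCompl_nsmul_pPart p hN, ← mul_smul]
    have : N / p ^ b * d = p ^ v * (d / p ^ v * (N / p ^ b)) := by
      calc N / p ^ b * d = N / p ^ b * (p ^ v * (d / p ^ v)) := by rw [hdd]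
        _ = p ^ v * (d / p ^ v * (N / p ^ b)) := by ring
    rw [this, mul_smul, hK1, ← AddCircle.coe_nsmul, ← AddCircle.coe_sub]
    have hp0 : (p : ℚ) ≠ 0 := by exact_mod_cast hp.out.ne_zero
    have : p ^ v • (1 / ((p ^ (v + b) : ℕ) : ℚ)) - 1 / ((p ^ b : ℕ) : ℚ) = 0 := by
      rw [nsmul_eq_mul]
      push_cast
      rw [pow_add]
      field_simp
      ring
    rw [this]
    rfl

/-- the order of `(1/N)_p` is `p ^ v_p(N)` -/
theorem dvd_of_zsmul_pPart_eq_zero {N : ℕ} (hN : N ≠ 0) (k : ℤ) (hk : k • pPart p N = 0) :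
    ((p ^ N.factorization p : ℕ) : ℤ) ∣ k := by
  have h1 : k • ((1 / ((p ^ N.factorization p : ℕ) : ℚ) : ℚ) : AddCircle (1 : ℚ)) = 0 := by
    rw [← ordCompl_nsmul_pPart p hN, smul_comm, hk, smul_zero]
  rw [← AddCircle.coe_zsmul, AddCircle.coe_eq_zero_iff] at h1
  obtain ⟨n, hn⟩ := h1
  have hp0 : ((p ^ N.factorization p : ℕ) : ℚ) ≠ 0 := by
    exact_mod_cast (pow_pos hp.out.pos _).ne'
  refine ⟨n, ?_⟩
  have : (k : ℚ) = ((p ^ N.factorization p : ℕ) : ℚ) * n := by
    rw [zsmul_eq_mul, zsmul_eq_mul, mul_one] at hn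
    field_simp at hn
    linarith
  exact_mod_cast this

end PPart

section CyclicHom

variable {M B : Type*} [AddCommGroup M] [AddCommGroup B] (p : ℕ) [hp : Fact p.Prime]
  {N : ℕ} (hN : N ≠ 0) {r : M} (hkill : ∀ x : M, N • x = 0)
  (hgen : ∀ x : M, p ^ N.factorization p • x = 0 → ∃ k : ℤ, x = k • r)

include hN hkill hgen in
/-- two homomorphisms out of a group whose `p`-part is generated by `r` agree if they agree on `r`
and on the prime-to-`p` torsion -/
theorem hom_ext_of_pCyclic (f g : M →+ B) (hr : f r = g r)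
    (hp' : ∀ (x : M) (m' : ℕ), m'.Coprime p → m' • x = 0 → f x = g x) : f = g := by
  set a := N.factorization p with ha
  set m := N / p ^ a with hm
  have hNam : p ^ a * m = N := Nat.ordProj_mul_ordCompl_eq_self N p
  have hcop : Nat.Coprime (p ^ a) m := (Nat.coprime_ordCompl hp.out hN).pow_left _
  obtain ⟨u, v, huv⟩ := Nat.isCoprime_iff_coprime.2 hcop
  ext x
  have hx : x = u • (p ^ a • x) + v • (m • x) := by
    calc x = (1 : ℤ) • x := (one_smul ℤ x).symm
      _ = (u * ((p ^ a : ℕ) : ℤ) + v * (m : ℤ)) • x := by rw [huv]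
      _ = u • (p ^ a • x) + v • (m • x) := by
        rw [add_smul, mul_smul, mul_smul, natCast_zsmul, natCast_zsmul]
  have h1 : f (p ^ a • x) = g (p ^ a • x) := by
    apply hp' _ m (Nat.Coprime.symm ((Nat.coprime_ordCompl hp.out hN)))
    rw [← mul_smul, mul_comm, hNam, hkill]
  have h2 : f (m • x) = g (m • x) := by
    obtain ⟨k, hk⟩ := hgen (m • x) (by rw [← mul_smul, hNam, hkill])
    rw [hk, map_zsmul, map_zsmul, hr]
  rw [hx, map_add, map_add, map_zsmul, map_zsmul, map_zsmul, map_zsmul, h1, h2]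

include hN hkill hgen in
/-- existence of the homomorphism sending the generator `r` of the `p`-part to `τ` and killing
the prime-to-`p` torsion -/
theorem exists_hom_of_pCyclic (htors : p ^ N.factorization p • r = 0) (τ : B)
    (hrτ : ∀ k : ℤ, k • r = 0 → k • τ = 0) :
    ∃ f : M →+ B, f r = τ ∧ ∀ (x : M) (m' : ℕ), m'.Coprime p → m' • x = 0 → f x = 0 := by
  set a := N.factorization p with ha
  set m := N / p ^ a with hm
  have hNam : p ^ a * m = N := Nat.ordProj_mul_ordCompl_eq_self N p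
  have hcop : Nat.Coprime (p ^ a) m := (Nat.coprime_ordCompl hp.out hN).pow_left _
  obtain ⟨u, v, huv⟩ := Nat.isCoprime_iff_coprime.2 hcop
  -- the idempotent `e = v m`
  have he : ∀ x : M, ∃ k : ℤ, (v * (m : ℤ)) • x = k • r := by
    intro x
    apply hgen
    rw [← natCast_zsmul, ← mul_smul]
    have : ((p ^ a : ℕ) : ℤ) * (v * (m : ℤ)) = v * ((N : ℕ) : ℤ) := by
      rw [← hNam]; push_cast; ring
    rw [this, mul_smul, natCast_zsmul, hkill, smul_zero]
  choose kf hkf using he
  have key : ∀ (x : M) (k : ℤ), (v * (m : ℤ)) • x = k • r → kf x • τ = k • τ := by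
    intro x k hk
    have : (kf x - k) • r = 0 := by rw [sub_smul, ← hkf x, hk, sub_self]
    have := hrτ _ this
    rwa [sub_smul, sub_eq_zero] at this
  let f : M →+ B := AddMonoidHom.mk' (fun x => kf x • τ) (fun x y => by
    change kf (x + y) • τ = kf x • τ + kf y • τ
    rw [← add_smul]
    apply key
    rw [smul_add, hkf x, hkf y, add_smul])
  refine ⟨f, ?_, ?_⟩
  · change kf r • τ = τ
    rw [key r 1, one_smul]
    have : v * (m : ℤ) = 1 - u * ((p ^ a : ℕ) : ℤ) := by linarith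
    rw [this, sub_smul, one_smul, mul_smul, natCast_zsmul, htors, smul_zero, sub_zero]
  · intro x m' hm' hx
    change kf x • τ = 0
    rw [key x 0, zero_smul]
    rw [zero_smul]
    apply eq_zero_of_coprime_nsmul _ (p ^ a) m' (Nat.Coprime.pow_left _ hm'.symm)
    · rw [← natCast_zsmul, ← mul_smul]
      have : ((p ^ a : ℕ) : ℤ) * (v * (m : ℤ)) = v * ((N : ℕ) : ℤ) := by
        rw [← hNam]; push_cast; ring
      rw [this, mul_smul, natCast_zsmul, hkill, smul_zero]
    · rw [smul_comm, hx, smul_zero]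

end CyclicHom


end Fermat.Agent.CFT.Coh
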