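/-
P4 / Layer A/D: dévissage for finite `p`-torsion representations of a finite `p`-group: every such
representation is built from the trivial representation `F_p` by successive extensions.

To avoid the `Module ℤ` instance diamond of `Rep ℤ G` everything is stated for a commutative ring
`k` and a `k`-module `F` playing the role of `F_p` (`IsLineModel k p F`); `k = ℤ`, `F = ZMod p` is
`isLineModel_int_zmod`.
-/
import Fermat.Agent.Lib.CFT.Coh.PGroupModule
import Fermat.Agent.Lib.CFT.Coh.AugRep

set_option autoImplicit false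
set_option linter.unusedSectionVars false

namespace Fermat.Agent.CFT.Coh

open CategoryTheory

/-- `F` is a model of the line spanned by a non zero vector killed by `p` in any `k`-module
(for `k = ℤ`: `F = ZMod p`). -/
def IsLineModel (k : Type) [CommRing k] (p : ℕ) (F : Type) [AddCommGroup F] [Module k F] : Prop :=
  ∀ (M : Type) [AddCommGroup M] [Module k M] (v : M), p • v = 0 → v ≠ 0 →
    ∃ f : F →ₗ[k] M, Function.Injective f ∧ LinearMap.range f = Submodule.span k {v}

theorem eq_zero_of_zsmul_eq_zero_of_not_dvd {M : Type*} [AddCommGroup M] {p : ℕ} [Fact p.Prime]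
    (v : M) (hpv : p • v = 0) (m : ℤ) (hm : m • v = 0) (hnd : ¬ (p : ℤ) ∣ m) : v = 0 := by
  have hcop : IsCoprime m (p : ℤ) := by
    rw [isCoprime_comm]
    exact (Nat.prime_iff_prime_int.1 Fact.out).coprime_iff_not_dvd.2 hnd
  obtain ⟨a, b, hab⟩ := hcop
  calc v = (1 : ℤ) • v := (one_smul _ _).symm
    _ = (a * m + b * p) • v := by rw [hab]
    _ = 0 := by rw [add_smul, mul_smul, mul_smul, hm, natCast_zsmul, hpv, smul_zero, smul_zero,
        add_zero]

/-- the additive map `F_p → M`, `1 ↦ v`, for a vector killed by `p` -/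
noncomputable def lineAddHom {M : Type*} [AddCommGroup M] {p : ℕ} (v : M) (hpv : p • v = 0) :
    ZMod p →+ M :=
  ZMod.lift p ⟨zmultiplesHom M v, by
    change (p : ℤ) • v = 0
    rw [natCast_zsmul]
    exact hpv⟩

theorem lineAddHom_intCast {M : Type*} [AddCommGroup M] {p : ℕ} (v : M) (hpv : p • v = 0)
    (c : ℤ) : lineAddHom v hpv (c : ZMod p) = c • v := by
  unfold lineAddHom
  rw [ZMod.lift_coe]
  rfl

theorem lineAddHom_injective {M : Type*} [AddCommGroup M] {p : ℕ} [Fact p.Prime] (v : M)
    (hpv : p • v = 0) (hv0 : v ≠ 0) : Function.Injective (lineAddHom v hpv) := by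
  unfold lineAddHom
  rw [ZMod.lift_injective]
  intro m hm
  change m • v = 0 at hm
  rw [ZMod.intCast_zmod_eq_zero_iff_dvd]
  by_contra hnd
  exact hv0 (eq_zero_of_zsmul_eq_zero_of_not_dvd v hpv m hm hnd)

theorem isLineModel_int_zmod (p : ℕ) [Fact p.Prime] : IsLineModel ℤ p (ZMod p) := by
  intro M _ instM v hpv hv0
  have hg : ∀ c : ℤ, lineAddHom v hpv (c : ZMod p) = instM.smul c v := fun c =>
    (lineAddHom_intCast v hpv c).trans (int_smul_eq_zsmul instM c v).symm
  let f : ZMod p →ₗ[ℤ] M :=
    { toFun := lineAddHom v hpv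
      map_add' := map_add _
      map_smul' := fun c x =>
        (map_zsmul (lineAddHom v hpv) c x).trans (int_smul_eq_zsmul instM c _).symm }
  refine ⟨f, lineAddHom_injective v hpv hv0, ?_⟩
  ext x
  rw [LinearMap.mem_range, Submodule.mem_span_singleton]
  constructor
  · rintro ⟨c, rfl⟩
    obtain ⟨c, rfl⟩ := ZMod.intCast_surjective c
    exact ⟨c, (hg c).symm⟩
  · rintro ⟨c, rfl⟩
    exact ⟨(c : ZMod p), hg c⟩

section

variable {k G : Type} [CommRing k] [Group G] {p : ℕ} [Fact p.Prime]

/-- the line spanned by a vector of a representation -/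
def lineSub (M : Rep.{0} k G) (v : M) : Submodule k M := Submodule.span k {v}

theorem lineSub_le_comap (M : Rep.{0} k G) (v : M) (hv : ∀ g, M.ρ g v = v) (g : G) :
    lineSub M v ≤ (lineSub M v).comap (M.ρ g) := by
  intro x hx
  obtain ⟨c, rfl⟩ := Submodule.mem_span_singleton.1 hx
  rw [Submodule.mem_comap, map_smul, hv g]
  exact Submodule.mem_span_singleton.2 ⟨c, rfl⟩

/-- the quotient of a representation by the line spanned by a fixed vector -/
noncomputable def lineQuot (M : Rep.{0} k G) (v : M) (hv : ∀ g, M.ρ g v = v) : Rep.{0} k G :=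
  Rep.of (X := M ⧸ lineSub M v) (M.ρ.quotient (lineSub M v) (lineSub_le_comap M v hv))

/-- the projection onto the quotient by a fixed line -/
noncomputable def lineProj (M : Rep.{0} k G) (v : M) (hv : ∀ g, M.ρ g v = v) :
    M ⟶ lineQuot M v hv :=
  Rep.ofHom ⟨(lineSub M v).mkQ, fun _ => rfl⟩

theorem exists_line_shortExact {F : Type} [AddCommGroup F] [Module k F] (hF : IsLineModel k p F)
    (M : Rep.{0} k G) (v : M) (hv : ∀ g, M.ρ g v = v) (hpv : p • v = 0) (hv0 : v ≠ 0) :
    ∃ (f : Rep.trivial k G F ⟶ M) (w : f ≫ lineProj M v hv = 0),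
      (ShortComplex.mk f (lineProj M v hv) w).ShortExact := by
  obtain ⟨f₀, hinj, hrange⟩ := hF M v hpv hv0
  have hmem : ∀ c : F, f₀ c ∈ lineSub M v := by
    intro c
    change f₀ c ∈ Submodule.span k {v}
    rw [← hrange]
    exact ⟨c, rfl⟩
  have hfix : ∀ (g : G) (c : F), M.ρ g (f₀ c) = f₀ c := by
    intro g c
    obtain ⟨a, ha⟩ := Submodule.mem_span_singleton.1 (hmem c)
    rw [← ha, map_smul, hv g]
  let f : Rep.trivial k G F ⟶ M := Rep.ofHom ⟨f₀, fun g => by
    ext c
    exact (hfix g c).symm⟩
  have w : f ≫ lineProj M v hv = 0 := by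
    ext c
    change (lineSub M v).mkQ (f₀ c) = 0
    rw [Submodule.mkQ_apply, Submodule.Quotient.mk_eq_zero]
    exact hmem c
  refine ⟨f, w, shortExact_of_functions hinj (Submodule.mkQ_surjective _) ?_⟩
  intro y hy
  change (lineSub M v).mkQ y = 0 at hy
  rw [Submodule.mkQ_apply, Submodule.Quotient.mk_eq_zero] at hy
  change y ∈ Submodule.span k {v} at hy
  rw [← hrange] at hy
  exact hy

theorem card_lineQuot_lt (M : Rep.{0} k G) [Finite M] (v : M) (hv : ∀ g, M.ρ g v = v)
    (hv0 : v ≠ 0) : Nat.card (lineQuot M v hv) < Nat.card M := by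
  have h1 := (lineSub M v).toAddSubgroup.card_eq_card_quotient_mul_card_addSubgroup
  have h2 : 1 < Nat.card (lineSub M v).toAddSubgroup := by
    rw [Finite.one_lt_card_iff_nontrivial]
    refine ⟨⟨⟨v, Submodule.mem_span_singleton_self v⟩, 0, fun h => hv0 (congrArg Subtype.val h)⟩⟩
  have h3 : 0 < Nat.card (M ⧸ (lineSub M v).toAddSubgroup) := Nat.card_pos
  change Nat.card (M ⧸ (lineSub M v).toAddSubgroup) < Nat.card M
  rw [h1]
  nlinarith

/-- **dévissage**: a property of representations of a finite `p`-group which holds for the zero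
representation and is inherited by extensions of `M''` by the trivial representation `F_p` holds for
all finite `p`-torsion representations -/
theorem rep_induction_pGroup [Finite G] (hG : IsPGroup p G) {F : Type} [AddCommGroup F]
    [Module k F] (hF : IsLineModel k p F) (Q : Rep.{0} k G → Prop)
    (h0 : ∀ M : Rep.{0} k G, Subsingleton M → Q M)
    (hext : ∀ (M M'' : Rep.{0} k G) (f : Rep.trivial k G F ⟶ M) (g : M ⟶ M'') (w : f ≫ g = 0),
      (ShortComplex.mk f g w).ShortExact → Q M'' → Q M)
    (M : Rep.{0} k G) (hfin : Finite M) (hM : ∀ m : M, p • m = 0) : Q M := by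
  induction hn : Nat.card M using Nat.strong_induction_on generalizing M with
  | _ n ih =>
    by_cases hs : Subsingleton M
    · exact h0 M hs
    · have : Nontrivial M := not_subsingleton_iff_nontrivial.1 hs
      obtain ⟨v, hv0, hv⟩ := exists_fixed_ne_zero hG M.ρ hM
      obtain ⟨f, w, hex⟩ := exists_line_shortExact hF M v hv (hM v) hv0
      refine hext M (lineQuot M v hv) f (lineProj M v hv) w hex ?_
      have hfin'' : Finite (lineQuot M v hv) :=
        Finite.of_surjective (lineSub M v).mkQ (Submodule.mkQ_surjective _)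
      have htors : ∀ m : M ⧸ lineSub M v, p • m = 0 := by
        intro m
        obtain ⟨m, rfl⟩ := Submodule.mkQ_surjective (lineSub M v) m
        rw [← map_nsmul, hM, map_zero]
      refine ih (Nat.card (lineQuot M v hv)) ?_ (lineQuot M v hv) hfin'' ?_ rfl
      · rw [← hn]
        exact card_lineQuot_lt M v hv hv0
      · exact htors

end

end Fermat.Agent.CFT.Coh
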