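/-
P4 / Layer C5-LOC-INJ, abstract part: complements on the classes `chiClass A χ γ a ∈ H²(G, A)`
(`Coh/ChiClass.lean`) and an abstract injectivity criterion on the `p`-torsion of `H²`.

* `card_range_nsmul_chiClass` : `|χ(G)| • chiClass A χ γ a = 0`;
* `chiClass_eq_zero_iff` : for `|Z| = p^e` and `H¹(P, A) = 0` for the `p`-subgroups `P ≤ ker χ`,
  `chiClass A χ γ a = 0` iff `a` is a norm from `A^{ker χ}`;
* `eq_zero_of_map_eq_zero_of_chiClass` : if the `p`-torsion of `H²(G, A)` is cyclic, and there is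
  `a₀ ∈ A^G` with `p^(j+1) • chiClass A χ γ a₀ = 0` while `p^j • f a₀` is not a norm from
  `B^{ker χ}`, then `f_* : H²(G, A) → H²(G, B)` is injective on the `p`-torsion.
-/
import Fermat.Agent.Lib.CFT.Coh.ChiClass

set_option autoImplicit false
set_option linter.unusedSectionVars false
set_option linter.style.haveILetI false

namespace Fermat.Agent.CFT.Coh

open CategoryTheory groupCohomology Rep Limits Finset

section Range

variable {k G Z : Type} [CommRing k] [Group G] [Group Z] [Finite Z] (A : Rep.{0} k G)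
  (χ : G →* Z) (γ : Z) (hγ : ∀ z, z ∈ Subgroup.zpowers γ)

/-- `chiClass` is killed by the order of the image of the character -/
theorem card_range_nsmul_chiClass (a : A.ρ.invariants) :
    Nat.card χ.range • chiClass A χ γ hγ a = 0 := by
  obtain ⟨q₀, f, hf, hq, hq₀⟩ :=
    exists_gen_map_eq_pow γ hγ (QuotientGroup.kerLift χ) (QuotientGroup.kerLift_injective χ)
  haveI : Finite (G ⧸ χ.ker) := finite_quotient_ker χ
  have hcard : Nat.card χ.range = Nat.card (G ⧸ χ.ker) :=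
    Nat.card_congr (QuotientGroup.quotientKerEquivRange χ).symm.toEquiv
  rw [chiClass_eq_map_kerLift,
    chiClass_eq_cycClass_of_injective (Q := G ⧸ χ.ker) (A.quotientToInvariants χ.ker) γ hγ
      (QuotientGroup.kerLift χ) (QuotientGroup.kerLift_injective χ) q₀ hq₀ f hf hq,
    ← map_nsmul, hcard, card_nsmul_cycClass, map_zero]

/-- `chiClass` is killed by the order of the cyclic group -/
theorem card_nsmul_chiClass (a : A.ρ.invariants) :
    Nat.card Z • chiClass A χ γ hγ a = 0 := by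
  obtain ⟨m, hm⟩ := Subgroup.card_subgroup_dvd_card χ.range
  rw [hm, mul_nsmul, card_range_nsmul_chiClass, smul_zero]

theorem chiClass_nsmul (m : ℕ) (a : A.ρ.invariants) :
    chiClass A χ γ hγ (m • a) = m • chiClass A χ γ hγ a := by
  have h := map_nsmul (chiClassLin A χ γ hγ).toAddMonoidHom m a
  exact h

end Range

section Vanishing

variable {k G Z : Type} [CommRing k] [Group G] [Finite G] [Group Z] [Finite Z] (A : Rep.{0} k G)
  (χ : G →* Z) (γ : Z) (hγ : ∀ z, z ∈ Subgroup.zpowers γ)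

omit [Finite G] [Finite Z] in
theorem exists_quotientToInvariants_lift_eq (y : A)
    (hy : ∀ g ∈ (QuotientGroup.mk' χ.ker).ker, A.ρ g y = y) :
    ∃ x : A.quotientToInvariants χ.ker,
      (ofHom <| A.ρ.quotientToInvariants_lift χ.ker).hom x = y := by
  refine ⟨(⟨y, fun n => hy n.1 (by rw [QuotientGroup.ker_mk']; exact n.2)⟩ :
    (A.quotientToInvariants χ.ker).V), rfl⟩

/-- the inflated cyclic class of the quotient by the kernel vanishes only if it vanishes
on the quotient -/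
theorem cycClass_eq_zero_of_map_kerLift (p : ℕ) [Fact p.Prime] (e : ℕ) (hZ : Nat.card Z = p ^ e)
    (h1P : ∀ P : Subgroup G, P ≤ χ.ker → IsPGroup p P →
      Subsingleton (groupCohomology (Rep.res P.subtype A) 1))
    (q₀ : G ⧸ χ.ker) (hq₀ : ∀ x, x ∈ Subgroup.zpowers q₀)
    (c : (A.quotientToInvariants χ.ker).ρ.invariants)
    (h0 : (map (QuotientGroup.mk' χ.ker) (ofHom <| A.ρ.quotientToInvariants_lift χ.ker) 2).hom
      (cycClass (A.quotientToInvariants χ.ker) q₀ hq₀ c) = 0) :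
    cycClass (A.quotientToInvariants χ.ker) q₀ hq₀ c = 0 := by
  have hpe : p ^ e • cycClass (A.quotientToInvariants χ.ker) q₀ hq₀ c = 0 := by
    have hdvd : Nat.card (G ⧸ χ.ker) ∣ p ^ e := by
      rw [← hZ, Nat.card_congr (QuotientGroup.quotientKerEquivRange χ).toEquiv]
      exact Subgroup.card_subgroup_dvd_card χ.range
    obtain ⟨m, hm⟩ := hdvd
    rw [hm, mul_nsmul, card_nsmul_cycClass, smul_zero]
  have hinj : Function.Injective (ofHom <| A.ρ.quotientToInvariants_lift χ.ker).hom :=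
    Subtype.val_injective
  have hz := eq_zero_of_map_eq_zero_of_pow (A := A.quotientToInvariants χ.ker) (B := A)
    (QuotientGroup.mk' χ.ker)
    (QuotientGroup.mk'_surjective χ.ker) (ofHom <| A.ρ.quotientToInvariants_lift χ.ker)
    hinj (exists_quotientToInvariants_lift_eq A χ)
    p (fun P hP hPp => h1P P (hP.trans (QuotientGroup.ker_mk' χ.ker).le) hPp)
    (cycClass (A.quotientToInvariants χ.ker) q₀ hq₀ c) e hpe h0
  exact hz

/-- **vanishing criterion**: for a character to a cyclic `p`-group, and `H¹(P, A) = 0` for the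
`p`-subgroups of `ker χ`, `chiClass A χ γ a = 0` iff `a` is a norm from `A^{ker χ}` -/
theorem chiClass_eq_zero_iff (p : ℕ) [Fact p.Prime] (e : ℕ) (hZ : Nat.card Z = p ^ e)
    (h1P : ∀ P : Subgroup G, P ≤ χ.ker → IsPGroup p P →
      Subsingleton (groupCohomology (Rep.res P.subtype A) 1))
    (a : A.ρ.invariants) :
    chiClass A χ γ hγ a = 0 ↔
      ∃ b : A.V, (∀ n ∈ χ.ker, A.ρ n b = b) ∧ ∑ᶠ q : G ⧸ χ.ker, A.ρ q.out b = a.1 := by
  constructor
  · intro h0
    letI : Fintype (G ⧸ χ.ker) := Fintype.ofFinite _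
    obtain ⟨q₀, f, hf, hq, hq₀⟩ :=
      exists_gen_map_eq_pow γ hγ (QuotientGroup.kerLift χ) (QuotientGroup.kerLift_injective χ)
    have hK := chiClass_eq_map_kerLift A χ γ hγ a
    rw [chiClass_eq_cycClass_of_injective (Q := G ⧸ χ.ker) (A.quotientToInvariants χ.ker) γ hγ
        (QuotientGroup.kerLift χ) (QuotientGroup.kerLift_injective χ) q₀ hq₀ f hf hq] at hK
    rw [hK] at h0
    have hz := cycClass_eq_zero_of_map_kerLift A χ p e hZ h1P q₀ hq₀ _ h0
    rw [cycClass_eq_zero_iff] at hz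
    obtain ⟨y, hy⟩ := hz
    refine ⟨y.1, fun n hn => y.2 ⟨n, hn⟩, ?_⟩
    rw [← norm_quotientToInvariants_ker A χ y, hy]
    rfl
  · rintro ⟨b, hb, hab⟩
    exact chiClass_eq_zero_of_norm A χ γ hγ a b hb hab

end Vanishing

section Torsion

/-- the `p`-torsion of `ℚ/ℤ` is cyclic: every `p`-torsion element is a multiple of any nonzero
`p`-torsion element -/
theorem addCircle_exists_nsmul_eq (p : ℕ) [hp : Fact p.Prime] (a b : AddCircle (1 : ℚ))
    (ha : p • a = 0) (hb : p • b = 0) (ha0 : a ≠ 0) : ∃ m : ℕ, b = m • a := by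
  obtain ⟨x, rfl⟩ := QuotientAddGroup.mk_surjective a
  obtain ⟨y, rfl⟩ := QuotientAddGroup.mk_surjective b
  have hp0 : (p : ℚ) ≠ 0 := by exact_mod_cast hp.out.ne_zero
  have key : ∀ z : ℚ, p • ((z : ℚ) : AddCircle (1 : ℚ)) = 0 → ∃ k : ℤ, z = k / p := by
    intro z hz
    have h1 : (((p : ℚ) * z : ℚ) : AddCircle (1 : ℚ)) = 0 := by
      rw [← hz, ← AddCircle.coe_nsmul, nsmul_eq_mul]
    rw [AddCircle.coe_eq_zero_iff] at h1
    obtain ⟨k, hk⟩ := h1
    refine ⟨k, ?_⟩
    rw [zsmul_eq_mul, mul_one] at hk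
    rw [hk]
    field_simp
  obtain ⟨k, rfl⟩ := key x ha
  obtain ⟨l, rfl⟩ := key y hb
  have hk : ((k : ZMod p)) ≠ 0 := by
    intro h0
    rw [ZMod.intCast_zmod_eq_zero_iff_dvd] at h0
    obtain ⟨k', rfl⟩ := h0
    apply ha0
    rw [AddCircle.coe_eq_zero_iff]
    refine ⟨k', ?_⟩
    rw [zsmul_eq_mul, mul_one]
    push_cast
    field_simp
  set m : ℕ := ((l : ZMod p) * (k : ZMod p)⁻¹).val with hm
  have hmk : ((m : ℤ) * k - l : ℤ) ≡ 0 [ZMOD p] := by
    rw [← ZMod.intCast_eq_intCast_iff]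
    push_cast
    rw [hm, ZMod.natCast_zmod_val, mul_assoc, inv_mul_cancel₀ hk, mul_one, sub_self]
  obtain ⟨t, ht⟩ := (Int.modEq_zero_iff_dvd.1 hmk)
  refine ⟨m, ?_⟩
  rw [← AddCircle.coe_nsmul, eq_comm, ← sub_eq_zero, ← AddCircle.coe_sub, AddCircle.coe_eq_zero_iff]
  refine ⟨t, ?_⟩
  rw [zsmul_eq_mul, mul_one, nsmul_eq_mul]
  have : ((m : ℚ) * k - l) = p * t := by exact_mod_cast congrArg (Int.cast : ℤ → ℚ) ht
  field_simp
  linarith

/-- if an invariant map to `ℚ/ℤ` is injective on the `p`-torsion, the `p`-torsion is cyclic -/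
theorem exists_nsmul_eq_of_inv_injective {X : Type*} [AddCommGroup X] (p : ℕ) [Fact p.Prime]
    (inv : X →+ AddCircle (1 : ℚ)) (hinj : ∀ x, p • x = 0 → inv x = 0 → x = 0) (x₁ x₂ : X)
    (h₁ : p • x₁ = 0) (h₂ : p • x₂ = 0) (hne : x₁ ≠ 0) : ∃ m : ℕ, x₂ = m • x₁ := by
  have ha : p • inv x₁ = 0 := by rw [← map_nsmul, h₁, map_zero]
  have hb : p • inv x₂ = 0 := by rw [← map_nsmul, h₂, map_zero]
  have ha0 : inv x₁ ≠ 0 := fun h => hne (hinj x₁ h₁ h)
  obtain ⟨m, hm⟩ := addCircle_exists_nsmul_eq p _ _ ha hb ha0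
  refine ⟨m, ?_⟩
  rw [← sub_eq_zero]
  apply hinj
  · rw [smul_sub, h₂, smul_comm, h₁, smul_zero, sub_zero]
  · rw [map_sub, map_nsmul, hm, sub_self]

end Torsion

section Injectivity

variable {G Z : Type} [Group G] [Finite G] [Group Z] [Finite Z] {A B : Rep.{0} ℤ G}
  (f : A ⟶ B) (χ : G →* Z) (γ : Z) (hγ : ∀ z, z ∈ Subgroup.zpowers γ)

/-- **abstract injectivity criterion on the `p`-torsion of `H²`**: if the `p`-torsion of
`H²(G, A)` is cyclic and there is an invariant `a₀` of `A` with `p^(j+1) • chiClass A χ γ a₀ = 0`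
such that `p^j • f a₀` is not a norm from `B^{ker χ}`, then `f_*` is injective on the `p`-torsion
of `H²(G, A)`. -/
theorem eq_zero_of_map_eq_zero_of_chiClass (p : ℕ) [Fact p.Prime] (e : ℕ)
    (hZ : Nat.card Z = p ^ e)
    (h1P : ∀ P : Subgroup G, P ≤ χ.ker → IsPGroup p P →
      Subsingleton (groupCohomology (Rep.res P.subtype B) 1))
    (hcyc : ∀ z₁ z₂ : groupCohomology A 2, p • z₁ = 0 → p • z₂ = 0 → z₁ ≠ 0 →
      ∃ m : ℕ, z₂ = m • z₁)
    (a₀ : A.V) (ha₀ : ∀ g, A.ρ g a₀ = a₀) (j : ℕ)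
    (hup : p ^ (j + 1) • chiClass A χ γ hγ (invOfFixed A a₀ ha₀) = 0)
    (hdown : ∀ b : B.V, (∀ n ∈ χ.ker, B.ρ n b = b) →
      ∑ᶠ q : G ⧸ χ.ker, B.ρ q.out b ≠ p ^ j • f.hom a₀)
    (z : groupCohomology A 2) (hz : p • z = 0)
    (h0 : (map (MonoidHom.id G) f 2).hom z = 0) : z = 0 := by
  have hb₀ : ∀ g, B.ρ g (f.hom a₀) = f.hom a₀ := fun g => by
    rw [← Rep.hom_comm_apply f g a₀, ha₀]
  set u := chiClass A χ γ hγ (invOfFixed A a₀ ha₀) with hu
  set v := chiClass B χ γ hγ (invOfFixed B (f.hom a₀) hb₀) with hv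
  have huv : (map (MonoidHom.id G) f 2).hom u = v :=
    map_chiClass A χ γ hγ (MonoidHom.id G) f (invOfFixed A a₀ ha₀)
      (invOfFixed B (f.hom a₀) hb₀) rfl
  -- `p^j • v ≠ 0`
  have hv0 : p ^ j • v ≠ 0 := by
    intro h
    have h2 : chiClass B χ γ hγ (p ^ j • invOfFixed B (f.hom a₀) hb₀) = 0 := by
      rw [chiClass_nsmul]
      exact h
    obtain ⟨b, hb, hab⟩ := (chiClass_eq_zero_iff B χ γ hγ p e hZ h1P _).1 h2
    exact hdown b hb hab
  -- the class `u' = p^j • u` is `p`-torsion with nonzero image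
  set u' := p ^ j • u with hu'
  have hpu' : p • u' = 0 := by
    rw [hu', ← mul_nsmul, ← pow_succ]
    exact hup
  have hfu' : (map (MonoidHom.id G) f 2).hom u' ≠ 0 := by
    rw [hu', map_nsmul, huv]
    exact hv0
  by_contra hz0
  have hu'0 : u' ≠ 0 := fun h => hfu' (by rw [h, map_zero])
  obtain ⟨m, hm⟩ := hcyc z u' hz hpu' hz0
  apply hfu'
  rw [hm, map_nsmul, h0, smul_zero]

end Injectivity

end Fermat.Agent.CFT.Coh
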