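/-
P4 / Layer A, task A-CYC-EXPL: explicit 2-cocycles for finite cyclic groups.

`G` finite, generated by `g` of order `n`, `A : Rep k G`, `a ∈ A^G`:
* `cycCocycle A g hg a (gⁱ, gʲ) = a` if `i + j ≥ n` (`0 ≤ i, j < n`) and `0` otherwise;
* `cycClass A g hg : A^G →ₗ[k] H²(G, A)`, `cycClass a = 0 ↔ a ∈ N_G A`
  (so it induces an injection `Ĥ⁰(G, A) → H²(G, A)`, bijective when `Ĥ⁰` is finite);
* restriction to the subgroup generated by `g^f` and inflation from a quotient.
-/
import Fermat.Agent.Lib.CFT.Coh.LowTate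
import Fermat.Agent.Lib.CFT.Coh.CyclicLink

set_option autoImplicit false
set_option linter.unusedSectionVars false
set_option linter.style.haveILetI false

namespace Fermat.Agent.CFT.Coh

open CategoryTheory groupCohomology Rep Limits Finset

section CycLog

variable {G : Type} [Group G] [Finite G] (g : G) (hg : ∀ x, x ∈ Subgroup.zpowers g)

/-- the discrete logarithm `0 ≤ cycLog x < orderOf g` with `g ^ cycLog x = x` -/
noncomputable def cycLog (x : G) : ℕ :=
  ((finEquivZPowers (isOfFinOrder_of_finite g)).symm ⟨x, hg x⟩ : ℕ)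

theorem cycLog_lt (x : G) : cycLog g hg x < orderOf g := Fin.is_lt _

theorem pow_cycLog (x : G) : g ^ cycLog g hg x = x :=
  pow_finEquivZPowers_symm_apply (isOfFinOrder_of_finite g) ⟨x, hg x⟩

theorem cycLog_pow (i : ℕ) : cycLog g hg (g ^ i) = i % orderOf g := by
  have h := finEquivZPowers_symm_apply (isOfFinOrder_of_finite g) i
  unfold cycLog
  have h2 : (⟨g ^ i, hg (g ^ i)⟩ : Subgroup.zpowers g) = ⟨g ^ i, ⟨i, by simp⟩⟩ := rfl
  rw [h2, h]

theorem cycLog_eq_of_lt {i : ℕ} (hi : i < orderOf g) : cycLog g hg (g ^ i) = i := by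
  rw [cycLog_pow, Nat.mod_eq_of_lt hi]

theorem cycLog_mul (x y : G) :
    cycLog g hg (x * y) = (cycLog g hg x + cycLog g hg y) % orderOf g := by
  conv_lhs => rw [← pow_cycLog g hg x, ← pow_cycLog g hg y, ← pow_add]
  exact cycLog_pow g hg _

theorem cycLog_one : cycLog g hg 1 = 0 := by
  have := cycLog_pow g hg 0
  rwa [pow_zero, Nat.zero_mod] at this

include hg in
theorem orderOf_eq_card_of_gen : orderOf g = Nat.card G :=
  orderOf_eq_card_of_forall_mem_zpowers hg

/-- addition modulo `n` of two residues -/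
theorem add_mod_cases (n i j : ℕ) (hi : i < n) (hj : j < n) :
    (i + j < n ∧ (i + j) % n = i + j) ∨ (n ≤ i + j ∧ (i + j) % n = i + j - n) := by
  rcases lt_or_ge (i + j) n with h | h
  · exact Or.inl ⟨h, Nat.mod_eq_of_lt h⟩
  · refine Or.inr ⟨h, ?_⟩
    rw [Nat.mod_eq_sub_mod h, Nat.mod_eq_of_lt (by omega)]

end CycLog

section Cocycle

theorem norm_apply_eq_sum' {k G : Type} [CommRing k] [Group G] [Fintype G] (A : Rep.{0} k G)
    (y : A.V) : A.ρ.norm y = ∑ x : G, A.ρ x y := by
  simp [Representation.norm]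

variable {k G : Type} [CommRing k] [Group G] [Finite G] (A : Rep.{0} k G) (g : G)
  (hg : ∀ x, x ∈ Subgroup.zpowers g)

/-- the explicit 2-cochain attached to `a`: `(gⁱ, gʲ) ↦ a` if `i + j ≥ n`, else `0` -/
noncomputable def cycCocycleFun (a : A.V) : G × G → A.V := fun p =>
  if orderOf g ≤ cycLog g hg p.1 + cycLog g hg p.2 then a else 0

theorem cycCocycleFun_apply (a : A.V) (x y : G) :
    cycCocycleFun A g hg a (x, y) =
      if orderOf g ≤ cycLog g hg x + cycLog g hg y then a else 0 := rfl

theorem cycCocycleFun_add (a b : A.V) :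
    cycCocycleFun A g hg (a + b) = cycCocycleFun A g hg a + cycCocycleFun A g hg b := by
  funext p
  simp only [cycCocycleFun, Pi.add_apply]
  split_ifs <;> simp

theorem cycCocycleFun_smul (r : k) (a : A.V) :
    cycCocycleFun A g hg (r • a) = r • cycCocycleFun A g hg a := by
  funext p
  simp only [cycCocycleFun, Pi.smul_apply]
  split_ifs <;> simp

theorem cycCocycleFun_mem (a : A.V) (ha : a ∈ A.ρ.invariants) :
    cycCocycleFun A g hg a ∈ cocycles₂ A := by
  rw [mem_cocycles₂_iff]
  intro x y z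
  have hx := cycLog_lt g hg x
  have hy := cycLog_lt g hg y
  have hz := cycLog_lt g hg z
  have hρ : ∀ b : A.V, (b = a ∨ b = 0) → A.ρ x b = b := by
    rintro b (rfl | rfl)
    · exact ha x
    · exact map_zero _
  simp only [cycCocycleFun_apply, cycLog_mul]
  rw [hρ _ (by split_ifs <;> simp)]
  rcases add_mod_cases (orderOf g) _ _ hx hy with ⟨h1, h2⟩ | ⟨h1, h2⟩ <;>
  rcases add_mod_cases (orderOf g) _ _ hy hz with ⟨h3, h4⟩ | ⟨h3, h4⟩ <;>
  rw [h2, h4] <;> split_ifs <;> first | rfl | (exfalso; omega) | simp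

/-- the explicit 2-cocycle attached to an invariant `a` -/
noncomputable def cycCocycle (a : A.ρ.invariants) : cocycles₂ A :=
  ⟨cycCocycleFun A g hg a.1, cycCocycleFun_mem A g hg a.1 a.2⟩

/-- the class of the explicit cocycle, linear in `a` -/
noncomputable def cycClass : A.ρ.invariants →ₗ[k] groupCohomology A 2 where
  toFun a := H2π A (cycCocycle A g hg a)
  map_add' a b := by
    rw [← map_add]
    congr 1
    exact Subtype.ext (cycCocycleFun_add A g hg a.1 b.1)
  map_smul' r a := by
    rw [RingHom.id_apply, ← map_smul]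
    congr 1
    exact Subtype.ext (cycCocycleFun_smul A g hg r a.1)

theorem cycClass_apply (a : A.ρ.invariants) :
    cycClass A g hg a = H2π A (cycCocycle A g hg a) := rfl

end Cocycle

section Norm

variable {k G : Type} [CommRing k] [Group G] [Fintype G] (A : Rep.{0} k G) (g : G)
  (hg : ∀ x, x ∈ Subgroup.zpowers g)

include hg in
/-- sums over a finite cyclic group are sums over the powers of a generator -/
theorem sum_eq_sum_range_orderOf {M : Type*} [AddCommMonoid M] (F : G → M) :
    ∑ x : G, F x = ∑ i ∈ range (orderOf g), F (g ^ i) := by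
  have hord : orderOf g = Fintype.card G := by
    rw [← Nat.card_eq_fintype_card]
    exact orderOf_eq_card_of_forall_mem_zpowers hg
  have hinj : Function.Injective (fun i : Fin (orderOf g) => g ^ (i : ℕ)) := by
    intro i j hij
    apply Fin.ext
    exact pow_injOn_Iio_orderOf (by rw [Set.mem_Iio]; exact i.2)
      (by rw [Set.mem_Iio]; exact j.2) hij
  have hbij : Function.Bijective (fun i : Fin (orderOf g) => g ^ (i : ℕ)) :=
    (Fintype.bijective_iff_injective_and_card _).2 ⟨hinj, by simp [hord]⟩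
  rw [Finset.sum_range]
  exact (Fintype.sum_bijective _ hbij _ _ (fun _ => rfl)).symm

/-- the partial norms `S(m) = ∑_{t < m} gᵗ y` -/
noncomputable def cycPartial (y : A.V) (m : ℕ) : A.V := ∑ t ∈ range m, A.ρ (g ^ t) y

theorem cycPartial_add (y : A.V) (i j : ℕ) :
    cycPartial A g y (i + j) = cycPartial A g y i + A.ρ (g ^ i) (cycPartial A g y j) := by
  unfold cycPartial
  rw [Finset.sum_range_add, map_sum]
  congr 1
  refine Finset.sum_congr rfl (fun t _ => ?_)
  rw [pow_add, map_mul]
  rfl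

include hg in
theorem norm_eq_cycPartial (y : A.V) : A.ρ.norm y = cycPartial A g y (orderOf g) := by
  rw [norm_apply_eq_sum']
  exact sum_eq_sum_range_orderOf g hg (fun x => A.ρ x y)

include hg in
theorem cycPartial_add_orderOf (y : A.V) (m : ℕ) :
    cycPartial A g y (m + orderOf g) = cycPartial A g y m + A.ρ.norm y := by
  rw [cycPartial_add, ← norm_eq_cycPartial A g hg, A.ρ.self_norm_apply]

/-- the explicit cocycle of a norm is the coboundary of `x ↦ S(cycLog x)` -/
theorem d₁₂_cycPartial (y : A.V) :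
    (d₁₂ A).hom (fun x => cycPartial A g y (cycLog g hg x)) =
      cycCocycleFun A g hg (A.ρ.norm y) := by
  funext p
  obtain ⟨x, z⟩ := p
  rw [d₁₂_hom_apply, cycCocycleFun_apply]
  have hx := cycLog_lt g hg x
  have hz := cycLog_lt g hg z
  have key : A.ρ x (cycPartial A g y (cycLog g hg z)) + cycPartial A g y (cycLog g hg x) =
      cycPartial A g y (cycLog g hg x + cycLog g hg z) := by
    rw [cycPartial_add, add_comm]
    congr 2
    rw [pow_cycLog]
  change A.ρ x (cycPartial A g y (cycLog g hg z)) - cycPartial A g y (cycLog g hg (x * z)) +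
    cycPartial A g y (cycLog g hg x) = _
  rw [sub_add_eq_add_sub, key, cycLog_mul]
  rcases add_mod_cases (orderOf g) _ _ hx hz with ⟨h1, h2⟩ | ⟨h1, h2⟩
  · rw [h2, if_neg (by omega), sub_self]
  · rw [h2, if_pos h1]
    have : cycLog g hg x + cycLog g hg z =
        (cycLog g hg x + cycLog g hg z - orderOf g) + orderOf g := by omega
    conv_lhs => rw [this, cycPartial_add_orderOf A g hg]
    rw [Nat.add_sub_cancel, add_sub_cancel_left]

/-- norms are killed by `cycClass` -/
theorem cycClass_normToInvariants (y : A.V) : cycClass A g hg (normToInvariants A y) = 0 := by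
  rw [cycClass_apply, H2π_eq_zero_iff]
  exact ⟨fun x => cycPartial A g y (cycLog g hg x), d₁₂_cycPartial A g hg y⟩

include hg in
/-- telescoping: `∑_{i < n} (d c)(gⁱ, g) = N (c g)` -/
theorem sum_d₁₂_pow_gen (c : G → A.V) :
    ∑ i ∈ range (orderOf g), (d₁₂ A).hom c (g ^ i, g) = A.ρ.norm (c g) := by
  have h1 : ∀ i, (d₁₂ A).hom c (g ^ i, g) = A.ρ (g ^ i) (c g) - c (g ^ (i + 1)) + c (g ^ i) := by
    intro i
    rw [d₁₂_hom_apply, pow_succ]
  rw [Finset.sum_congr rfl (fun i _ => h1 i), Finset.sum_add_distrib, Finset.sum_sub_distrib]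
  have h2 : ∑ i ∈ range (orderOf g), c (g ^ (i + 1)) = ∑ i ∈ range (orderOf g), c (g ^ i) := by
    have e1 := Finset.sum_range_succ (fun i => c (g ^ i)) (orderOf g)
    have e2 := Finset.sum_range_succ' (fun i => c (g ^ i)) (orderOf g)
    rw [e1] at e2
    simp only [pow_orderOf_eq_one, pow_zero] at e2
    exact (add_right_cancel e2).symm
  rw [h2, sub_add_cancel, norm_eq_cycPartial A g hg]
  rfl

/-- `cycClass a = 0` iff `a` is a norm -/
theorem cycClass_eq_zero_iff (a : A.ρ.invariants) :
    cycClass A g hg a = 0 ↔ ∃ y : A.V, A.ρ.norm y = a := by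
  constructor
  · intro h
    rw [cycClass_apply, H2π_eq_zero_iff] at h
    obtain ⟨c, hc⟩ := h
    rcases Nat.lt_or_ge 1 (orderOf g) with hn | hn
    · refine ⟨c g, ?_⟩
      rw [← sum_d₁₂_pow_gen A g hg c, hc]
      change ∑ i ∈ range (orderOf g), cycCocycleFun A g hg a.1 (g ^ i, g) = a.1
      have hlog : cycLog g hg g = 1 := by
        have := cycLog_eq_of_lt g hg hn
        rwa [pow_one] at this
      rw [Finset.sum_eq_single (orderOf g - 1)]
      · rw [cycCocycleFun_apply, cycLog_eq_of_lt g hg (by omega), hlog, if_pos (by omega)]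
      · intro i hi hne
        rw [Finset.mem_range] at hi
        rw [cycCocycleFun_apply, cycLog_eq_of_lt g hg hi, hlog, if_neg (by omega)]
      · intro h
        exact absurd (Finset.mem_range.2 (by omega)) h
    · -- trivial group
      have hpos : 0 < orderOf g := orderOf_pos g
      have h1 : orderOf g = 1 := by omega
      have hg1 : g = 1 := orderOf_eq_one_iff.1 h1
      have hsub : Subsingleton G := by
        refine ⟨fun x y => ?_⟩
        have hx := hg x
        have hy := hg y
        rw [hg1, Subgroup.zpowers_one_eq_bot, Subgroup.mem_bot] at hx hy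
        rw [hx, hy]
      refine ⟨a.1, ?_⟩
      rw [norm_apply_eq_sum', Fintype.sum_subsingleton _ (1 : G), map_one]
      rfl
  · rintro ⟨y, hy⟩
    have : a = normToInvariants A y := Subtype.ext hy.symm
    rw [this, cycClass_normToInvariants]

/-- the induced map `Ĥ⁰(G, A) → H²(G, A)` -/
noncomputable def cycTate : TateH0 A →ₗ[k] groupCohomology A 2 :=
  Submodule.liftQ _ (cycClass A g hg) (by
    rintro _ ⟨w, rfl⟩
    obtain ⟨y, rfl⟩ := Representation.Coinvariants.mk_surjective A.ρ w
    rw [LinearMap.mem_ker, normBar_mk, cycClass_normToInvariants])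

@[simp] theorem cycTate_mk (a : A.ρ.invariants) :
    cycTate A g hg (TateH0.mk A a) = cycClass A g hg a := rfl

theorem cycTate_injective : Function.Injective (cycTate A g hg) := by
  rw [← LinearMap.ker_eq_bot, LinearMap.ker_eq_bot']
  intro z hz
  obtain ⟨a, rfl⟩ := TateH0.mk_surjective A z
  rw [cycTate_mk, cycClass_eq_zero_iff] at hz
  exact (TateH0.mk_eq_zero_iff A a).2 hz

/-- if `Ĥ⁰(G, A)` is finite, `cycTate` is bijective -/
theorem cycTate_bijective_of_finite [Finite (TateH0 A)] :
    Function.Bijective (cycTate A g hg) := by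
  haveI : IsCyclic G := ⟨g, hg⟩
  letI : CommGroup G := IsCyclic.commGroup
  have e := tateH0EquivEven A g hg 2 (by decide)
  haveI : Finite (groupCohomology A 2) := Finite.of_equiv _ e.toEquiv
  exact (cycTate_injective A g hg).bijective_of_nat_card_le (Nat.card_congr e.toEquiv).ge

end Norm

section Restriction

variable {k G : Type} [CommRing k] [Group G] [Finite G] (A : Rep.{0} k G) (g : G)
  (hg : ∀ x, x ∈ Subgroup.zpowers g)

/-- discrete logarithms in the subgroup generated by `g ^ f` -/
theorem cycLog_subgroup (H : Subgroup G) (f : ℕ) (hf : f ∣ orderOf g) (hmem : g ^ f ∈ H)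
    (hH : ∀ x : H, x ∈ Subgroup.zpowers (⟨g ^ f, hmem⟩ : H)) (s : H) :
    cycLog g hg (s : G) = f * cycLog (⟨g ^ f, hmem⟩ : H) hH s := by
  have hn : 0 < orderOf g := orderOf_pos g
  have hf0 : f ≠ 0 := by
    rintro rfl
    rw [zero_dvd_iff] at hf
    omega
  have hord : orderOf (⟨g ^ f, hmem⟩ : H) = orderOf g / f := by
    rw [Subgroup.orderOf_mk, orderOf_pow_of_dvd hf0 hf]
  have hj := cycLog_lt (⟨g ^ f, hmem⟩ : H) hH s
  rw [hord] at hj
  have hlt : f * cycLog (⟨g ^ f, hmem⟩ : H) hH s < orderOf g := by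
    calc f * cycLog (⟨g ^ f, hmem⟩ : H) hH s < f * (orderOf g / f) :=
          Nat.mul_lt_mul_of_pos_left hj (Nat.pos_of_ne_zero hf0)
      _ = orderOf g := Nat.mul_div_cancel' hf
  have hs : (s : G) = g ^ (f * cycLog (⟨g ^ f, hmem⟩ : H) hH s) := by
    have := congrArg (Subtype.val) (pow_cycLog (⟨g ^ f, hmem⟩ : H) hH s)
    rw [Subgroup.coe_pow] at this
    rw [pow_mul, ← this]
  conv_lhs => rw [hs]
  exact cycLog_eq_of_lt g hg hlt

/-- **restriction** of the explicit class to the subgroup generated by `g ^ f`: the class of the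
same element `a` w.r.t. the generator `g ^ f` -/
theorem map_subtype_cycClass (H : Subgroup G) (f : ℕ) (hf : f ∣ orderOf g) (hmem : g ^ f ∈ H)
    (hH : ∀ x : H, x ∈ Subgroup.zpowers (⟨g ^ f, hmem⟩ : H)) (a : A.ρ.invariants) :
    (map H.subtype (𝟙 (Rep.res H.subtype A)) 2).hom (cycClass A g hg a) =
      cycClass (Rep.res H.subtype A) (⟨g ^ f, hmem⟩ : H) hH ⟨a.1, fun s => a.2 s⟩ := by
  have hn : 0 < orderOf g := orderOf_pos g
  have hf0 : f ≠ 0 := by
    rintro rfl
    rw [zero_dvd_iff] at hf
    omega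
  have hord : orderOf (⟨g ^ f, hmem⟩ : H) = orderOf g / f := by
    rw [Subgroup.orderOf_mk, orderOf_pow_of_dvd hf0 hf]
  rw [cycClass_apply, cycClass_apply]
  have h := congrArg (fun φ => φ.hom (cycCocycle A g hg a))
    (H2π_comp_map H.subtype (𝟙 (Rep.res H.subtype A)))
  change (map H.subtype (𝟙 (Rep.res H.subtype A)) 2).hom (H2π A (cycCocycle A g hg a)) =
    H2π (Rep.res H.subtype A) (mapCocycles₂ H.subtype (𝟙 (Rep.res H.subtype A))
      (cycCocycle A g hg a)) at h
  rw [h]
  congr 1
  apply Subtype.ext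
  funext p
  obtain ⟨s, t⟩ := p
  change cycCocycleFun A g hg a.1 ((s : G), (t : G)) =
    cycCocycleFun (Rep.res H.subtype A) (⟨g ^ f, hmem⟩ : H) hH a.1 (s, t)
  rw [cycCocycleFun_apply, cycCocycleFun_apply, cycLog_subgroup g hg H f hf hmem hH s,
    cycLog_subgroup g hg H f hf hmem hH t, hord, ← Nat.mul_add]
  have hiff : orderOf g ≤ f * (cycLog (⟨g ^ f, hmem⟩ : H) hH s +
      cycLog (⟨g ^ f, hmem⟩ : H) hH t) ↔
      orderOf g / f ≤ cycLog (⟨g ^ f, hmem⟩ : H) hH s + cycLog (⟨g ^ f, hmem⟩ : H) hH t := by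
    conv_lhs => rw [← Nat.mul_div_cancel' hf]
    exact Nat.mul_le_mul_left_iff (Nat.pos_of_ne_zero hf0)
  simp only [hiff]

end Restriction

section Inflation

/-- the carry identity behind the inflation formula -/
theorem carry_identity (n m i j : ℕ) (hm : 0 < m) (hmn : m ∣ n) (hi : i < n) (hj : j < n) :
    (if m ≤ i % m + j % m then 1 else 0) + i / m + j / m =
      ((i + j) % n) / m + (n / m) * (if n ≤ i + j then 1 else 0) := by
  have hdiv := Nat.add_div (a := i) (b := j) hm
  rcases add_mod_cases n i j hi hj with ⟨h1, h2⟩ | ⟨h1, h2⟩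
  · have hn : ¬ n ≤ i + j := by omega
    rw [h2, if_neg hn, mul_zero, add_zero, hdiv]
    ring
  · rw [h2, if_pos h1, mul_one]
    obtain ⟨t, rfl⟩ := hmn
    rw [Nat.mul_div_cancel_left t hm, Nat.sub_mul_div, hdiv]
    have : t ≤ i / m + j / m + if m ≤ i % m + j % m then 1 else 0 := by
      rw [← hdiv]
      exact (Nat.le_div_iff_mul_le hm).2 (by rw [mul_comm]; exact h1)
    omega

variable {k G : Type} [CommRing k] [Group G] [Finite G] (A : Rep.{0} k G) (g : G)
  (hg : ∀ x, x ∈ Subgroup.zpowers g) (V : Subgroup G) [V.Normal]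

include hg in
/-- the image of a generator generates the quotient -/
theorem mem_zpowers_mk_of_gen (q : G ⧸ V) : q ∈ Subgroup.zpowers ((g : G) : G ⧸ V) := by
  induction q using QuotientGroup.induction_on with | H x =>
  obtain ⟨i, rfl⟩ := Subgroup.mem_zpowers_iff.1 (hg x)
  exact Subgroup.mem_zpowers_iff.2 ⟨i, by rw [QuotientGroup.mk_zpow]⟩

theorem orderOf_mk_dvd : orderOf ((g : G) : G ⧸ V) ∣ orderOf g :=
  orderOf_dvd_of_pow_eq_one (by rw [← QuotientGroup.mk_pow, pow_orderOf_eq_one]; rfl)

/-- discrete logarithms in the quotient -/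
theorem cycLog_mk (x : G) :
    cycLog ((g : G) : G ⧸ V) (mem_zpowers_mk_of_gen g hg V) (x : G ⧸ V) =
      cycLog g hg x % orderOf ((g : G) : G ⧸ V) := by
  conv_lhs => rw [← pow_cycLog g hg x, QuotientGroup.mk_pow]
  exact cycLog_pow _ _ _

/-- a `G`-invariant element as a `G ⧸ V`-invariant element of `A^V` -/
def invariantsToQuotient (a : A.ρ.invariants) : (A.quotientToInvariants V).ρ.invariants :=
  ⟨⟨a.1, fun v => a.2 v⟩, fun q => by
    induction q using QuotientGroup.induction_on with | H x =>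
    exact Subtype.ext (a.2 x)⟩

/-- **inflation** of the explicit class from the quotient `G ⧸ V`: `infl θ_ḡ(a) = [n : m] • θ_g(a)`
where `n = orderOf g`, `m = orderOf ḡ` (so `n / m = |V|`). -/
theorem map_mk'_cycClass (a : A.ρ.invariants) :
    (map (QuotientGroup.mk' V) (ofHom <| A.ρ.quotientToInvariants_lift V) 2).hom
      (cycClass (A.quotientToInvariants V) ((g : G) : G ⧸ V) (mem_zpowers_mk_of_gen g hg V)
        (invariantsToQuotient A V a)) =
      (orderOf g / orderOf ((g : G) : G ⧸ V)) • cycClass A g hg a := by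
  have hm : 0 < orderOf ((g : G) : G ⧸ V) := orderOf_pos _
  have hmn := orderOf_mk_dvd g V
  rw [← map_nsmul (cycClass A g hg), cycClass_apply, cycClass_apply]
  have h := congrArg (fun φ => φ.hom (cycCocycle (A.quotientToInvariants V) ((g : G) : G ⧸ V)
      (mem_zpowers_mk_of_gen g hg V) (invariantsToQuotient A V a)))
    (H2π_comp_map (QuotientGroup.mk' V) (ofHom <| A.ρ.quotientToInvariants_lift V))
  change (map (QuotientGroup.mk' V) (ofHom <| A.ρ.quotientToInvariants_lift V) 2).hom
      (H2π (A.quotientToInvariants V) (cycCocycle (A.quotientToInvariants V) ((g : G) : G ⧸ V)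
        (mem_zpowers_mk_of_gen g hg V) (invariantsToQuotient A V a))) =
    H2π A (mapCocycles₂ (QuotientGroup.mk' V) (ofHom <| A.ρ.quotientToInvariants_lift V)
      (cycCocycle (A.quotientToInvariants V) ((g : G) : G ⧸ V)
        (mem_zpowers_mk_of_gen g hg V) (invariantsToQuotient A V a))) at h
  rw [h, H2π_eq_iff]
  refine ⟨fun x => -((cycLog g hg x / orderOf ((g : G) : G ⧸ V)) • a.1), ?_⟩
  funext p
  obtain ⟨x, y⟩ := p
  have hx := cycLog_lt g hg x
  have hy := cycLog_lt g hg y
  have hcarry := carry_identity (orderOf g) (orderOf ((g : G) : G ⧸ V)) _ _ hm hmn hx hy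
  -- the two cocycles at `(x, y)`
  have hL : (mapCocycles₂ (QuotientGroup.mk' V) (ofHom <| A.ρ.quotientToInvariants_lift V)
      (cycCocycle (A.quotientToInvariants V) ((g : G) : G ⧸ V)
        (mem_zpowers_mk_of_gen g hg V) (invariantsToQuotient A V a))) (x, y) =
      (if orderOf ((g : G) : G ⧸ V) ≤ cycLog g hg x % orderOf ((g : G) : G ⧸ V) +
        cycLog g hg y % orderOf ((g : G) : G ⧸ V) then 1 else 0 : ℕ) • a.1 := by
    change ((cycCocycleFun (A.quotientToInvariants V) ((g : G) : G ⧸ V)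
      (mem_zpowers_mk_of_gen g hg V) (invariantsToQuotient A V a).1
        ((x : G ⧸ V), (y : G ⧸ V)) : (A.quotientToInvariants V).V) : A.V) = _
    rw [cycCocycleFun_apply, cycLog_mk g hg V x, cycLog_mk g hg V y]
    split_ifs
    · rw [one_smul]; rfl
    · rw [zero_smul]; rfl
  have hR : (cycCocycle A g hg ((orderOf g / orderOf ((g : G) : G ⧸ V)) • a)) (x, y) =
      ((orderOf g / orderOf ((g : G) : G ⧸ V)) *
        (if orderOf g ≤ cycLog g hg x + cycLog g hg y then 1 else 0 : ℕ)) • a.1 := by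
    change cycCocycleFun A g hg ((orderOf g / orderOf ((g : G) : G ⧸ V)) • a.1) (x, y) = _
    rw [cycCocycleFun_apply]
    split_ifs
    · rw [mul_one]
    · rw [mul_zero, zero_smul]
  have hρ : ∀ (z : G) (r : ℕ), A.ρ z (r • a.1) = r • a.1 := fun z r => by
    rw [map_nsmul, a.2 z]
  rw [Pi.sub_apply, hL, hR, d₁₂_hom_apply]
  simp only [map_neg, hρ, cycLog_mul]
  have e := congrArg (fun r : ℕ => r • a.1) hcarry
  simp only [add_smul] at e
  rw [eq_sub_iff_add_eq]
  have e' : ∀ X Y Z W U : A.V, X + Y + Z = W + U → -Z - -W + -Y + U = X := by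
    intro X Y Z W U h
    have : X = W + U - Z - Y := by rw [← h]; abel
    rw [this]; abel
  exact e' _ _ _ _ _ e

include hg in
theorem orderOf_div_orderOf_mk : orderOf g / orderOf ((g : G) : G ⧸ V) = Nat.card V := by
  rw [orderOf_eq_card_of_gen g hg,
    orderOf_eq_card_of_gen ((g : G) : G ⧸ V) (mem_zpowers_mk_of_gen g hg V),
    Subgroup.card_eq_card_quotient_mul_card_subgroup V, Nat.mul_div_cancel_left _ Nat.card_pos]

/-- **inflation**, with the factor written as `|V|` -/
theorem map_mk'_cycClass' (a : A.ρ.invariants) :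
    (map (QuotientGroup.mk' V) (ofHom <| A.ρ.quotientToInvariants_lift V) 2).hom
      (cycClass (A.quotientToInvariants V) ((g : G) : G ⧸ V) (mem_zpowers_mk_of_gen g hg V)
        (invariantsToQuotient A V a)) = Nat.card V • cycClass A g hg a := by
  rw [map_mk'_cycClass, orderOf_div_orderOf_mk g hg V]

end Inflation

end Fermat.Agent.CFT.Coh
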