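import Mathlib
import Fermat.Agent.Lib.CFT.Coh.HerbrandCyclic

/-!
# P4 / Layer A5 : Herbrand quotient of a cyclic group of prime order on a f.g. abelian group

`Pair.q_of_prime_of_finrank` : if `σ ^ p = 1` on the finitely generated abelian group `A`,
`rank A^σ = a` and `rank A = a + (p - 1) b`, then `h(A) = p ^ (a - b)`.
-/

set_option autoImplicit false

namespace Fermat.Agent.CFT.Coh.Herbrand

open Polynomial Finset Module

/-! ### Two polynomial identities -/

/-- `(X - 1) ^ (p - 1) ≡ 1 + X + ⋯ + X ^ (p - 1)` modulo `p`. -/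
theorem exists_sub_one_pow_eq (p : ℕ) [hp : Fact p.Prime] :
    ∃ c : ℤ[X], (X - 1) ^ (p - 1) = (∑ i ∈ range p, X ^ i) + C (p : ℤ) * c := by
  set P : ℤ[X] := (X - 1) ^ (p - 1) - ∑ i ∈ range p, X ^ i with hP
  have hmap : P.map (Int.castRingHom (ZMod p)) = 0 := by
    have hne : (X - 1 : (ZMod p)[X]) ≠ 0 := by
      have := X_sub_C_ne_zero (1 : ZMod p)
      simpa using this
    apply mul_left_cancel₀ hne
    rw [mul_zero, hP]
    simp only [Polynomial.map_sub, Polynomial.map_pow, Polynomial.map_X, Polynomial.map_one,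
      Polynomial.map_sum]
    rw [mul_sub, ← pow_succ', mul_geom_sum,
      Nat.sub_add_cancel hp.out.one_le, sub_pow_char, one_pow, sub_self]
  have hdvd : C (p : ℤ) ∣ P := by
    rw [Polynomial.C_dvd_iff_dvd_coeff]
    intro i
    have := congrArg (fun q => Polynomial.coeff q i) hmap
    simp only [Polynomial.coeff_map, Polynomial.coeff_zero, eq_intCast] at this
    exact (ZMod.intCast_zmod_eq_zero_iff_dvd _ _).1 this
  obtain ⟨c, hc⟩ := hdvd
  exact ⟨c, by rw [← hc, hP]; ring⟩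

/-- `p ∈ ((X - 1) ^ (p - 1), 1 + X + ⋯ + X ^ (p - 1))`. -/
theorem exists_prime_eq (p : ℕ) [hp : Fact p.Prime] :
    ∃ c' e' : ℤ[X], C (p : ℤ) = (X - 1) ^ (p - 1) * c' + (∑ i ∈ range p, X ^ i) * e' := by
  obtain ⟨c, hc⟩ := exists_sub_one_pow_eq p
  have hp1 : p - 1 ≠ 0 := Nat.sub_ne_zero_of_lt hp.out.one_lt
  have hc1 : c.eval 1 = -1 := by
    have h := congrArg (Polynomial.eval 1) hc
    simp only [eval_pow, eval_sub, eval_X, eval_one, sub_self, eval_add, eval_finsetSum, one_pow,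
      sum_const, card_range, eval_mul, eval_C, zero_pow hp1] at h
    have hp0 : (p : ℤ) ≠ 0 := by exact_mod_cast hp.out.ne_zero
    have h2 : (p : ℤ) * (1 + c.eval 1) = 0 := by
      rw [mul_add, mul_one]
      simpa using h.symm
    rcases mul_eq_zero.1 h2 with h3 | h3
    · exact absurd h3 hp0
    · linarith
  obtain ⟨m, hm⟩ : (X - C 1) ∣ c - C (c.eval 1) := Polynomial.X_sub_C_dvd_sub_C_eval
  rw [hc1, C_neg, C_1, sub_neg_eq_add] at hm
  have hm' : c = -1 + (X - 1) * m := by rw [← hm]; ring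
  set Y : ℤ[X] := X - 1 with hY
  set w : ℤ[X] := ∑ j ∈ range (p - 1), (Y * m) ^ j with hw
  have hw' : (1 - Y * m) * w = 1 - Y ^ (p - 1) * m ^ (p - 1) := by
    rw [hw, ← mul_pow]
    exact mul_neg_geom_sum (Y * m) (p - 1)
  refine ⟨C (p : ℤ) * m ^ (p - 1) - w, w, ?_⟩
  linear_combination w * hc + C (p : ℤ) * w * hm' - C (p : ℤ) * hw'

/-! ### Ranks of subgroups of finitely generated abelian groups -/

section Ranks

theorem exists_torsion_exponent (M : Type*) [AddCommGroup M] [Module.Finite ℤ M] :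
    ∃ w : ℕ, w ≠ 0 ∧ ∀ x : M, (∃ n : ℕ, n ≠ 0 ∧ n • x = 0) → w • x = 0 := by
  have hfin : _root_.Finite (Submodule.torsion ℤ M) :=
    Module.finite_of_fg_torsion _ (Submodule.torsion_isTorsion)
  refine ⟨Nat.card (Submodule.torsion ℤ M), Nat.card_pos.ne', ?_⟩
  rintro x ⟨n, hn, hnx⟩
  have hx : x ∈ Submodule.torsion ℤ M := by
    rw [Submodule.mem_torsion_iff]
    exact ⟨⟨(n : ℤ), mem_nonZeroDivisors_of_ne_zero (by exact_mod_cast hn)⟩, by simpa using hnx⟩
  have := card_nsmul_eq_zero' (G := Submodule.torsion ℤ M) (x := ⟨x, hx⟩)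
  simpa using congrArg Subtype.val this

theorem finrank_range_of_ker_torsion {Y M' : Type*} [AddCommGroup Y] [AddCommGroup M']
    [Module.Finite ℤ Y] (φ : Y →ₗ[ℤ] M')
    (h : ∀ y, φ y = 0 → ∃ n : ℕ, n ≠ 0 ∧ n • y = 0) :
    finrank ℤ (LinearMap.range φ) = finrank ℤ Y := by
  have h1 := (LinearMap.quotKerEquivRange φ).finrank_eq
  have h2 := Submodule.finrank_quotient_add_finrank (LinearMap.ker φ)
  have h3 : finrank ℤ (LinearMap.ker φ) = 0 := by
    rw [finrank_eq_zero_iff_isTorsion]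
    rintro ⟨y, hy⟩
    obtain ⟨n, hn, hny⟩ := h y hy
    refine ⟨⟨(n : ℤ), mem_nonZeroDivisors_of_ne_zero (by exact_mod_cast hn)⟩, ?_⟩
    ext
    simpa using hny
  omega

/-- The rank of the image of a subgroup under a map whose kernel on it is torsion. -/
theorem finrank_map_of_ker_torsion {M M' : Type*} [AddCommGroup M] [AddCommGroup M']
    [Module.Finite ℤ M] (Y : AddSubgroup M) (ψ : M →+ M')
    (h : ∀ y ∈ Y, ψ y = 0 → ∃ n : ℕ, n ≠ 0 ∧ n • y = 0) :
    finrank ℤ (Y.map ψ) = finrank ℤ Y := by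
  let φ : ↥(AddSubgroup.toIntSubmodule Y) →ₗ[ℤ] M' :=
    ψ.toIntLinearMap ∘ₗ (AddSubgroup.toIntSubmodule Y).subtype
  have hr : LinearMap.range φ = AddSubgroup.toIntSubmodule (Y.map ψ) := by
    ext x
    constructor
    · rintro ⟨⟨y, hy⟩, rfl⟩
      exact ⟨y, hy, rfl⟩
    · rintro ⟨y, hy, rfl⟩
      exact ⟨⟨y, hy⟩, rfl⟩
  have := finrank_range_of_ker_torsion φ (fun y hy => by
    obtain ⟨n, hn, hny⟩ := h y.1 y.2 hy
    exact ⟨n, hn, Subtype.ext (by simpa using hny)⟩)
  rw [hr] at this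
  exact this

/-- Subgroups `X ≤ Y` with `n Y ≤ X` have the same rank. -/
theorem finrank_eq_of_nsmul_le {M : Type*} [AddCommGroup M] [Module.Finite ℤ M]
    {X Y : AddSubgroup M} (hXY : X ≤ Y) {n : ℕ} (hn : n ≠ 0) (h : ∀ y ∈ Y, n • y ∈ X) :
    finrank ℤ X = finrank ℤ Y := by
  apply le_antisymm
  · exact Submodule.finrank_mono (s := AddSubgroup.toIntSubmodule X)
      (t := AddSubgroup.toIntSubmodule Y) hXY
  · have h1 := finrank_map_of_ker_torsion Y (nsmulAddMonoidHom (α := M) n)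
      (fun y _ hy => ⟨n, hn, by simpa using hy⟩)
    rw [← h1]
    refine Submodule.finrank_mono (s := AddSubgroup.toIntSubmodule (Y.map (nsmulAddMonoidHom n)))
      (t := AddSubgroup.toIntSubmodule X) ?_
    rintro _ ⟨y, hy, rfl⟩
    exact h y hy

/-- Rank–nullity for endomorphisms of finitely generated abelian groups. -/
theorem finrank_ker_add_finrank_range {M : Type*} [AddCommGroup M] [Module.Finite ℤ M]
    (f : M →+ M) : finrank ℤ f.ker + finrank ℤ f.range = finrank ℤ M := by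
  have h1 := (LinearMap.quotKerEquivRange f.toIntLinearMap).finrank_eq
  have h2 := Submodule.finrank_quotient_add_finrank (LinearMap.ker f.toIntLinearMap)
  have h3 : finrank ℤ (LinearMap.ker f.toIntLinearMap) = finrank ℤ f.ker := rfl
  have h4 : finrank ℤ (LinearMap.range f.toIntLinearMap) = finrank ℤ f.range := rfl
  omega

/-- If `T` is injective on a `T`-stable subgroup `B`, then `(B : T^k B) = (B : T B)^k`. -/
theorem relIndex_map_pow {G : Type*} [AddCommGroup G] (T : AddMonoid.End G) (B : AddSubgroup G)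
    (hTB : ∀ x ∈ B, T x ∈ B) (hker : ∀ x ∈ B, T x = 0 → x = 0) (k : ℕ) :
    (B.map (T ^ k : AddMonoid.End G)).relIndex B = ((B.map T).relIndex B) ^ k := by
  have hTB' : B.map T ≤ B := by
    rintro _ ⟨x, hx, rfl⟩
    exact hTB x hx
  have hCk : ∀ k : ℕ, B.map (T ^ k : AddMonoid.End G) ≤ B := by
    intro k
    induction k with
    | zero =>
      rintro _ ⟨x, hx, rfl⟩
      exact hx
    | succ k ih =>
      rintro _ ⟨x, hx, rfl⟩
      rw [pow_succ']
      exact hTB _ (ih ⟨x, hx, rfl⟩)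
  induction k with
  | zero =>
    have : B.map (T ^ 0 : AddMonoid.End G) = B := by
      ext x
      constructor
      · rintro ⟨y, hy, rfl⟩
        exact hy
      · intro hx
        exact ⟨x, hx, rfl⟩
    rw [this, pow_zero, AddSubgroup.relIndex_self]
  | succ k ih =>
    set C := B.map (T ^ k : AddMonoid.End G) with hC
    have hCB : C ≤ B := hCk k
    have hmap : B.map (T ^ (k + 1) : AddMonoid.End G) = C.map T := by
      ext y
      constructor
      · rintro ⟨x, hx, rfl⟩
        exact ⟨(T ^ k) x, ⟨x, hx, rfl⟩, by rw [pow_succ']; rfl⟩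
      · rintro ⟨_, ⟨x, hx, rfl⟩, rfl⟩
        exact ⟨x, hx, by rw [pow_succ']; rfl⟩
    have h1 := AddSubgroup.relIndex_mul_relIndex (C.map T) (B.map T) B
      (AddSubgroup.map_mono hCB) hTB'
    have h2 := relIndex_eq_map_mul_ker T hCB
    have h3 : B ⊓ AddMonoidHom.ker T = ⊥ := by
      rw [eq_bot_iff]
      rintro x ⟨hx1, hx2⟩
      exact hker x hx1 hx2
    rw [h3, AddSubgroup.relIndex_bot_right, mul_one] at h2
    rw [hmap, ← h1, ← h2, ih, pow_succ]

end Ranks

namespace Pair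

variable {A : Type*} [AddCommGroup A]

/-- `(A : A_f + A_g) h0 = (A_f : g A_f)`, valid without finiteness assumptions. -/
theorem index_sup_mul_h0 (P : Pair A) :
    (P.f.ker ⊔ P.g.ker).index * P.h0 = (P.f.ker.map P.g).relIndex P.f.ker := by
  have h := relIndex_eq_map_mul_ker P.g (le_top : P.f.ker ⊔ P.g.ker ≤ ⊤)
  rw [AddSubgroup.relIndex_top_right, top_inf_eq,
    inf_eq_right.2 (le_sup_right : P.g.ker ≤ P.f.ker ⊔ P.g.ker), AddSubgroup.relIndex_self,
    mul_one, AddSubgroup.map_sup, (AddSubgroup.map_eq_bot_iff _).2 (le_refl P.g.ker), sup_bot_eq,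
    ← AddMonoidHom.range_eq_map] at h
  rw [h, h0]
  refine AddSubgroup.relIndex_mul_relIndex _ _ _ ?_ P.range_g_le_ker_f
  rintro _ ⟨x, -, rfl⟩
  exact ⟨x, rfl⟩

/-- `(A : A_f + A_g) h1 = (A_g : f A_g)`, valid without finiteness assumptions. -/
theorem index_sup_mul_h1 (P : Pair A) :
    (P.f.ker ⊔ P.g.ker).index * P.h1 = (P.g.ker.map P.f).relIndex P.g.ker := by
  have := P.swap.index_sup_mul_h0
  rw [swap_h0, sup_comm] at this
  exact this

end Pair

namespace Pair

section Prime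

variable {A : Type*} [AddCommGroup A] (p : ℕ) [hp : Fact p.Prime] (σ : AddMonoid.End A)
  (hσ : σ ^ p = 1)

/-- Values of polynomials at `σ` commute. -/
theorem aeval_commute (a b : ℤ[X]) :
    Polynomial.aeval σ a * Polynomial.aeval σ b = Polynomial.aeval σ b * Polynomial.aeval σ a := by
  rw [← map_mul, ← map_mul, mul_comm]

omit hp in
theorem aeval_geom_sum : Polynomial.aeval σ (∑ i ∈ range p, (X : ℤ[X]) ^ i) =
    (∑ i ∈ range p, σ ^ i : AddMonoid.End A) := by
  rw [map_sum]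
  exact sum_congr rfl (fun i _ => by rw [map_pow, aeval_X])

omit hp in
theorem aeval_C_natCast_apply (x : A) : Polynomial.aeval σ (C (p : ℤ)) x = p • x := by
  rw [aeval_C, eq_intCast, Int.cast_natCast, AddMonoid.End.natCast_apply]

include hσ in
/-- On the kernel of the norm, `(σ - 1) ^ (p - 1)` and `p` have the same image. -/
theorem map_sub_one_pow_ker_g :
    (ofCyclic σ p hσ).g.ker.map ((σ - 1) ^ (p - 1) : AddMonoid.End A) =
      (ofCyclic σ p hσ).g.ker.map (nsmulAddMonoidHom p) := by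
  obtain ⟨c, hc⟩ := exists_sub_one_pow_eq p
  obtain ⟨c', e', hc'⟩ := exists_prime_eq p
  have hg : ∀ x, (ofCyclic σ p hσ).g x = (∑ i ∈ range p, σ ^ i : AddMonoid.End A) x :=
    fun x => rfl
  have hstab : ∀ (a : ℤ[X]) (x : A), x ∈ (ofCyclic σ p hσ).g.ker →
      Polynomial.aeval σ a x ∈ (ofCyclic σ p hσ).g.ker := by
    intro a x hx
    rw [AddMonoidHom.mem_ker, hg] at hx ⊢
    rw [← aeval_geom_sum]
    change (Polynomial.aeval σ (∑ i ∈ range p, (X : ℤ[X]) ^ i) * Polynomial.aeval σ a) x = 0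
    rw [aeval_commute]
    change Polynomial.aeval σ a (Polynomial.aeval σ (∑ i ∈ range p, (X : ℤ[X]) ^ i) x) = 0
    rw [aeval_geom_sum, hx, map_zero]
  have h1 := congrArg (Polynomial.aeval σ) hc
  have h2 := congrArg (Polynomial.aeval σ) hc'
  rw [map_pow, map_sub, aeval_X, map_one, map_add, map_mul, aeval_geom_sum] at h1
  rw [map_add, map_mul, map_mul, map_pow, map_sub, aeval_X, map_one, aeval_geom_sum] at h2
  ext y
  constructor
  · rintro ⟨x, hx, rfl⟩
    refine ⟨Polynomial.aeval σ c x, hstab c x hx, ?_⟩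
    rw [h1]
    change p • Polynomial.aeval σ c x = (∑ i ∈ range p, σ ^ i : AddMonoid.End A) x +
      Polynomial.aeval σ (C (p : ℤ)) (Polynomial.aeval σ c x)
    rw [← hg, AddMonoidHom.mem_ker.1 hx, zero_add, aeval_C_natCast_apply]
  · rintro ⟨x, hx, rfl⟩
    refine ⟨Polynomial.aeval σ c' x, hstab c' x hx, ?_⟩
    have h3 := DFunLike.congr_fun h2 x
    rw [aeval_C_natCast_apply] at h3
    change _ = p • x
    rw [h3]
    change _ = ((σ - 1) ^ (p - 1) : AddMonoid.End A) (Polynomial.aeval σ c' x) +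
      (∑ i ∈ range p, σ ^ i : AddMonoid.End A) (Polynomial.aeval σ e' x)
    have h4 := hstab e' x hx
    rw [AddMonoidHom.mem_ker, hg] at h4
    rw [h4, add_zero]
    rfl

end Prime

end Pair

namespace Pair

section TorsionFree

variable {A : Type*} [AddCommGroup A] [Module.Finite ℤ A] [IsAddTorsionFree A] (p : ℕ)
  [hp : Fact p.Prime] (σ : AddMonoid.End A) (hσ : σ ^ p = 1)

/-- The torsion free case: there is `m ≠ 0` with `m h0 = p ^ a` and `m h1 = p ^ b`. -/
theorem exists_index_of_prime_torsionFree (a b : ℕ)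
    (ha : finrank ℤ (ofCyclic σ p hσ).f.ker = a) (hA : finrank ℤ A = a + (p - 1) * b) :
    ∃ m : ℕ, m ≠ 0 ∧ m * (ofCyclic σ p hσ).h0 = p ^ a ∧ m * (ofCyclic σ p hσ).h1 = p ^ b := by
  set P := ofCyclic σ p hσ with hP
  have hp0 : p ≠ 0 := hp.out.ne_zero
  have hgfix : ∀ x, P.f x = 0 → P.g x = p • x := fun x hx =>
    ofCyclic_g_apply_of_fixed σ p hσ (by rwa [hP, ofCyclic_f_apply, sub_eq_zero] at hx)
  have hgg : ∀ x, P.g (P.g x) = p • P.g x := fun x => hgfix _ (P.fg x)
  refine ⟨(P.f.ker ⊔ P.g.ker).index, ?_, ?_, ?_⟩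
  · have hle : (nsmulAddMonoidHom (α := A) p).range ≤ P.f.ker ⊔ P.g.ker := by
      rintro _ ⟨x, rfl⟩
      rw [AddSubgroup.mem_sup]
      refine ⟨P.g x, P.fg x, p • x - P.g x, ?_, ?_⟩
      · rw [AddMonoidHom.mem_ker, map_sub, map_nsmul, hgg, sub_self]
      · change P.g x + (p • x - P.g x) = p • x
        abel
    have h1 : (nsmulAddMonoidHom (α := A) p).range.index ≠ 0 := by
      rw [AddSubgroup.index_range_nsmul]
      exact pow_ne_zero _ hp0
    intro h
    have h2 := AddSubgroup.index_dvd_of_le hle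
    rw [h] at h2
    exact h1 (Nat.eq_zero_of_zero_dvd h2)
  · rw [P.index_sup_mul_h0]
    have h1 : P.f.ker.map P.g = P.f.ker.map (nsmulAddMonoidHom p) := by
      ext y
      constructor
      · rintro ⟨x, hx, rfl⟩
        exact ⟨x, hx, (hgfix x hx).symm⟩
      · rintro ⟨x, hx, rfl⟩
        exact ⟨x, hx, hgfix x hx⟩
    rw [h1, AddSubgroup.relIndex_map_nsmul, ha]
  · rw [P.index_sup_mul_h1]
    have hr1 : finrank ℤ P.g.range = a := by
      rw [← ha]
      exact finrank_eq_of_nsmul_le P.range_g_le_ker_f hp0 (fun y hy => ⟨y, hgfix y hy⟩)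
    have hr2 : finrank ℤ P.g.ker = (p - 1) * b := by
      have := finrank_ker_add_finrank_range P.g
      omega
    have hinj : ∀ x ∈ P.g.ker, P.f x = 0 → x = 0 := by
      intro x hx hfx
      have h1 : p • x = 0 := by
        rw [← hgfix x hfx]
        exact hx
      exact nsmul_right_injective hp0 (by simpa using h1)
    have hstab : ∀ x ∈ P.g.ker, P.f x ∈ P.g.ker := fun x _ => P.gf x
    have hpow := relIndex_map_pow (σ - 1 : AddMonoid.End A) P.g.ker hstab hinj (p - 1)
    rw [map_sub_one_pow_ker_g p σ hσ, AddSubgroup.relIndex_map_nsmul, hr2] at hpow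
    have h3 : ((P.g.ker.map P.f).relIndex P.g.ker) ^ (p - 1) = (p ^ b) ^ (p - 1) := by
      rw [← pow_mul, mul_comm b, hpow]
      rfl
    exact Nat.pow_left_injective (Nat.sub_ne_zero_of_lt hp.out.one_lt) h3

end TorsionFree

end Pair

section RanksMore

theorem index_range_nsmul_ne_zero (M : Type*) [AddCommGroup M] [Module.Finite ℤ M] {n : ℕ}
    (hn : n ≠ 0) : (nsmulAddMonoidHom (α := M) n).range.index ≠ 0 := by
  set S : Submodule ℤ M := LinearMap.range ((n : ℤ) • LinearMap.id : M →ₗ[ℤ] M) with hS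
  have hfin : _root_.Finite (M ⧸ S) := by
    apply Module.finite_of_fg_torsion
    intro x
    refine ⟨⟨(n : ℤ), mem_nonZeroDivisors_of_ne_zero (by exact_mod_cast hn)⟩, ?_⟩
    obtain ⟨y, rfl⟩ := Submodule.Quotient.mk_surjective S x
    change (n : ℤ) • (Submodule.Quotient.mk y : M ⧸ S) = 0
    rw [← Submodule.Quotient.mk_smul, Submodule.Quotient.mk_eq_zero]
    exact ⟨y, by simp⟩
  have hSeq : S.toAddSubgroup = (nsmulAddMonoidHom (α := M) n).range := by
    ext x
    simp [hS, LinearMap.mem_range, AddMonoidHom.mem_range]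
  rw [← hSeq]
  have : _root_.Finite (M ⧸ S.toAddSubgroup) := hfin
  exact AddSubgroup.index_ne_zero_of_finite

end RanksMore

namespace Pair

section General

variable {A : Type*} [AddCommGroup A] [Module.Finite ℤ A] (p : ℕ)
  [hp : Fact p.Prime] (σ : AddMonoid.End A) (hσ : σ ^ p = 1)

/-- **Herbrand quotient of a cyclic group of prime order `p` acting on a finitely generated abelian
group**: if `rank A^σ = a` and `rank A = a + (p - 1) b` then `h(A) = p ^ (a - b)`. -/
theorem q_of_prime_of_finrank (a b : ℕ)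
    (ha : finrank ℤ (ofCyclic σ p hσ).f.ker = a) (hA : finrank ℤ A = a + (p - 1) * b) :
    (ofCyclic σ p hσ).Defined ∧ (ofCyclic σ p hσ).q = (p : ℚ) ^ ((a : ℤ) - b) := by
  obtain ⟨w, hw0, hw⟩ := exists_torsion_exponent A
  set H : AddSubgroup A := (nsmulAddMonoidHom (α := A) w).range with hHdef
  have hH : ∀ x ∈ H, σ x ∈ H := by
    rintro _ ⟨y, rfl⟩
    exact ⟨σ y, by simp⟩
  have hHidx : H.index ≠ 0 := index_range_nsmul_ne_zero A hw0
  have hwH : ∀ y : A, w • y ∈ H := fun y => ⟨y, rfl⟩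
  have : Module.Finite ℤ ↥H := inferInstanceAs (Module.Finite ℤ ↥H.toIntSubmodule)
  have : IsAddTorsionFree ↥H := by
    refine ⟨fun n hn x y hxy => ?_⟩
    have h1 : n • (x - y) = 0 := by
      rw [smul_sub, sub_eq_zero]
      exact hxy
    obtain ⟨u, hu⟩ := (x - y).2
    have h2 : n • (w • u) = 0 := by
      have := congrArg Subtype.val h1
      rw [AddSubgroup.coe_nsmul, ← hu] at this
      exact this
    have h3 : w • u = 0 := by
      apply hw
      refine ⟨n * w, Nat.mul_ne_zero hn hw0, ?_⟩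
      rw [mul_comm, mul_nsmul, h2]
    have h4 : ((x - y : H) : A) = 0 := by
      rw [← hu]
      exact h3
    exact sub_eq_zero.1 (Subtype.ext h4)
  set P := ofCyclic σ p hσ with hP
  set P' := ofCyclic (endRestrict σ H hH) p (endRestrict_pow_eq_one σ H hH p hσ) with hP'
  -- ranks
  have hA' : finrank ℤ ↥H = a + (p - 1) * b := by
    rw [← hA]
    have h1 := finrank_eq_of_nsmul_le (le_top : H ≤ ⊤) hw0 (fun y _ => hwH y)
    rw [h1]
    exact (AddSubgroup.topEquiv (G := A)).toIntLinearEquiv.finrank_eq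
  have ha' : finrank ℤ P'.f.ker = a := by
    rw [← ha]
    have h1 := finrank_map_of_ker_torsion P'.f.ker H.subtype (fun y _ hy =>
      ⟨1, one_ne_zero, by rw [one_smul]; exact Subtype.ext hy⟩)
    have h2 : P'.f.ker.map H.subtype = P.f.ker ⊓ H := by
      ext y
      constructor
      · rintro ⟨x, hx, rfl⟩
        refine ⟨?_, x.2⟩
        have := congrArg Subtype.val (AddMonoidHom.mem_ker.1 hx)
        exact this
      · rintro ⟨hy1, hy2⟩
        refine ⟨⟨y, hy2⟩, ?_, rfl⟩
        exact Subtype.ext hy1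
    rw [← h1, h2]
    refine finrank_eq_of_nsmul_le inf_le_left hw0 (fun y hy => ⟨?_, hwH y⟩)
    change P.f (w • y) = 0
    rw [map_nsmul, AddMonoidHom.mem_ker.1 hy, smul_zero]
  obtain ⟨m, hm0, hm1, hm2⟩ := exists_index_of_prime_torsionFree p (endRestrict σ H hH)
    (endRestrict_pow_eq_one σ H hH p hσ) a b ha' hA'
  have hp0 : p ≠ 0 := hp.out.ne_zero
  have hd' : P'.Defined := by
    refine ⟨fun h => ?_, fun h => ?_⟩
    · rw [h, mul_zero] at hm1
      exact pow_ne_zero a hp0 hm1.symm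
    · rw [h, mul_zero] at hm2
      exact pow_ne_zero b hp0 hm2.symm
  have hq' : P'.q = (p : ℚ) ^ ((a : ℤ) - b) := by
    have hpq : (p : ℚ) ≠ 0 := by exact_mod_cast hp0
    have hmq : (m : ℚ) ≠ 0 := by exact_mod_cast hm0
    have e1 : (m : ℚ) * P'.h0 = (p : ℚ) ^ a := by exact_mod_cast hm1
    have e2 : (m : ℚ) * P'.h1 = (p : ℚ) ^ b := by exact_mod_cast hm2
    rw [q, zpow_sub₀ hpq, zpow_natCast, zpow_natCast, ← e1, ← e2, mul_div_mul_left _ _ hmq]
  have hres := ofCyclic_restrict σ p hσ H hH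
  have hd : (P.restrict H (ofCyclic_stable σ p hσ H hH).1 (ofCyclic_stable σ p hσ H hH).2).Defined := by
    rw [hres]
    exact hd'
  have hdP : P.Defined := (P.defined_restrict_iff H (ofCyclic_stable σ p hσ H hH).1
    (ofCyclic_stable σ p hσ H hH).2 hHidx).1 hd
  refine ⟨hdP, ?_⟩
  rw [← P.q_restrict H (ofCyclic_stable σ p hσ H hH).1 (ofCyclic_stable σ p hσ H hH).2 hHidx hdP,
    hres]
  exact hq'

end General

end Pair

end Fermat.Agent.CFT.Coh.Herbrand
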