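/-
P4 / Layer A/D: norm index bounds.  `NormBound D S n`: the `K`-invariants of `D` are covered by at
most `n` classes modulo the norms of `S`-invariants.  Transitivity along `S ≤ S' ≤ K`, the bound
`[K : S]` for finite `p`-groups from the cyclic layers of degree `p` (`normBound_of_pGroup`), the
cyclic layers from a "formation hypothesis" (`H¹ = 0`, `H² ↪ ℚ/ℤ` on all subgroups), and the
transfer from a `p`-Sylow subgroup (`NormBound.of_sylow`).
-/
import Fermat.Agent.Lib.CFT.Coh.RelNorm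
import Fermat.Agent.Lib.CFT.Coh.CyclicExplicit
import Fermat.Agent.Lib.CFT.Coh.NakayamaTateLow
import Fermat.Agent.Lib.CFT.Coh.InfRes2

set_option autoImplicit false
set_option linter.unusedSectionVars false
set_option linter.style.haveILetI false

namespace Fermat.Agent.CFT.Coh

open CategoryTheory groupCohomology Rep Limits

section NormBound

variable {k : Type} [CommRing k]

/-- every `K`-invariant element is, modulo norms of `S`-invariants, one of at most `n` elements -/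
def NormBound {K : Type} [Group K] (D : Rep.{0} k K) (S : Subgroup K) (n : ℕ) : Prop :=
  ∃ F : Finset D.V, F.card ≤ n ∧
    ∀ c ∈ fixS D ⊤, ∃ f ∈ F, ∃ d ∈ fixS D S, c = f + nmAbs D S d

variable {K : Type} [Group K] [Finite K]

theorem NormBound.mono (D : Rep.{0} k K) (S : Subgroup K) {n m : ℕ} (h : NormBound D S n)
    (hnm : n ≤ m) : NormBound D S m := by
  obtain ⟨F, hF, h⟩ := h
  exact ⟨F, hF.trans hnm, h⟩

theorem normBound_of_index_eq_one (D : Rep.{0} k K) (S : Subgroup K) (hS : S.index = 1) :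
    NormBound D S 1 := by
  refine ⟨{0}, by simp, fun c hc => ⟨0, by simp, c, ?_, ?_⟩⟩
  · exact fixS_mono D le_top hc
  · rw [nmAbs_of_mem_top D S c hc, hS, one_smul, zero_add]

theorem mem_fixS_res_top_iff (D : Rep.{0} k K) (S' : Subgroup K) (m : D.V) :
    m ∈ fixS (Rep.res S'.subtype D) ⊤ ↔ m ∈ fixS D S' := by
  rw [mem_fixS_res_iff, mem_fixS_iff]
  exact ⟨fun h s hs => h ⟨s, hs⟩ trivial, fun h s _ => h s.1 s.2⟩

theorem mem_fixS_res_subgroupOf_iff (D : Rep.{0} k K) {S S' : Subgroup K} (h : S ≤ S') (m : D.V) :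
    m ∈ fixS (Rep.res S'.subtype D) (S.subgroupOf S') ↔ m ∈ fixS D S := by
  rw [mem_fixS_res_iff, mem_fixS_iff]
  exact ⟨fun hm s hs => hm ⟨s, h hs⟩ (Subgroup.mem_subgroupOf.2 hs),
    fun hm s hs => hm s.1 (Subgroup.mem_subgroupOf.1 hs)⟩

/-- **transitivity of norm bounds** along `S ≤ S' ≤ K` -/
theorem NormBound.trans (D : Rep.{0} k K) {S S' : Subgroup K} (h : S ≤ S') {a b : ℕ}
    (h1 : NormBound D S' a) (h2 : NormBound (Rep.res S'.subtype D) (S.subgroupOf S') b) :
    NormBound D S (a * b) := by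
  classical
  obtain ⟨F₁, hF₁, H₁⟩ := h1
  obtain ⟨F₂, hF₂, H₂⟩ := h2
  refine ⟨(F₁ ×ˢ F₂).image (fun x => x.1 + nmAbs D S' x.2), ?_, ?_⟩
  · refine Finset.card_image_le.trans ?_
    rw [Finset.card_product]
    exact Nat.mul_le_mul hF₁ hF₂
  · intro c hc
    obtain ⟨f₁, hf₁, d₁, hd₁, rfl⟩ := H₁ c hc
    obtain ⟨f₂, hf₂, d₂, hd₂, rfl⟩ := H₂ d₁ ((mem_fixS_res_top_iff D S' d₁).2 hd₁)
    have hd₂' : d₂ ∈ fixS D S := (mem_fixS_res_subgroupOf_iff D h d₂).1 hd₂
    refine ⟨f₁ + nmAbs D S' f₂, Finset.mem_image.2 ⟨(f₁, f₂), Finset.mem_product.2 ⟨hf₁, hf₂⟩,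
      rfl⟩, d₂, hd₂', ?_⟩
    rw [nmAbs_add, nmAbs_trans D h d₂ hd₂', add_assoc]

/-- the hypothesis on cyclic layers of degree `p` -/
def CycNormHyp (p : ℕ) (D : Rep.{0} k K) : Prop :=
  ∀ (L : Type) [Group L] [Finite L] (f : L →* K), Function.Injective f →
    ∀ E : Rep.{0} k L, E = Rep.res f D →
      ∀ (S : Subgroup L) [S.Normal], S.index = p → NormBound E S p

theorem CycNormHyp.res {p : ℕ} {D : Rep.{0} k K} (h : CycNormHyp p D) {L : Type} [Group L]
    [Finite L] (f : L →* K) (hf : Function.Injective f) : CycNormHyp p (Rep.res f D) := by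
  intro L' _ _ g hg E hE S _ hS
  exact h L' (f.comp g) (hf.comp hg) E hE S hS

/-- **norm index bound for `p`-groups**: if all cyclic layers of degree `p` have norm index `≤ p`
then `|D^K / N_{K/S} D^S| ≤ [K : S]` for every normal subgroup `S` -/
theorem normBound_of_pGroup (p : ℕ) [Fact p.Prime] (n : ℕ) :
    ∀ (K : Type) [Group K] [Finite K], IsPGroup p K → ∀ D : Rep.{0} k K, CycNormHyp p D →
      ∀ (S : Subgroup K) [S.Normal], S.index = n → NormBound D S n := by
  induction n using Nat.strong_induction_on with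
  | _ n ih =>
  intro K _ _ hK D hD S _ hSn
  by_cases htriv : Subsingleton (K ⧸ S)
  · have h1 : S.index = 1 := by
      rw [Subgroup.index_eq_card]
      exact Nat.card_unique
    rw [← hSn, h1]
    exact normBound_of_index_eq_one D S h1
  · rw [not_subsingleton_iff_nontrivial] at htriv
    have hQ : IsPGroup p (K ⧸ S) := hK.to_quotient S
    obtain ⟨W, hWn, hWp⟩ := exists_normal_index_eq_prime p hQ htriv
    have hp : p.Prime := Fact.out
    set S' : Subgroup K := W.comap (QuotientGroup.mk' S) with hS'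
    have hSS' : S ≤ S' := by
      intro s hs
      rw [hS', Subgroup.mem_comap]
      have : (QuotientGroup.mk' S) s = 1 := (QuotientGroup.eq_one_iff s).2 hs
      rw [this]
      exact W.one_mem
    haveI : S'.Normal := hWn.comap _
    have hS'p : S'.index = p := by
      rw [hS', Subgroup.index_comap_of_surjective W (QuotientGroup.mk'_surjective S)]
      exact hWp
    have hmul : (S.subgroupOf S').index * p = n := by
      have := Subgroup.relIndex_mul_index hSS'
      rw [hS'p, hSn] at this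
      exact this
    have hlt : (S.subgroupOf S').index < n := by
      have hpos : 0 < (S.subgroupOf S').index := Nat.pos_of_ne_zero Subgroup.index_ne_zero_of_finite
      nlinarith [hp.one_lt]
    have h1 : NormBound D S' p := hD K (MonoidHom.id K) Function.injective_id D rfl S' hS'p
    haveI : (S.subgroupOf S').Normal := Subgroup.normal_subgroupOf
    have h2 : NormBound (Rep.res S'.subtype D) (S.subgroupOf S') (S.subgroupOf S').index :=
      ih _ hlt S' (hK.to_subgroup S') _ (hD.res S'.subtype S'.subtype_injective) _ rfl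
    have := NormBound.trans D hSS' h1 h2
    rwa [mul_comm, hmul] at this

end NormBound

section Reps

/-- elements of `ℚ/ℤ` killed by `N` are multiples of `1/N` -/
theorem addCircle_eq_zsmul_of_nsmul_eq_zero (N : ℕ) (hN : N ≠ 0) (a : AddCircle (1 : ℚ))
    (ha : N • a = 0) : ∃ c : ℤ, a = c • (((1 / (N : ℚ)) : ℚ) : AddCircle (1 : ℚ)) := by
  obtain ⟨q, rfl⟩ := QuotientAddGroup.mk_surjective a
  have h1 : (((N : ℚ) * q : ℚ) : AddCircle (1 : ℚ)) = 0 := by
    rw [← ha, ← nsmul_eq_mul]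
    rfl
  rw [AddCircle.coe_eq_zero_iff] at h1
  obtain ⟨c, hc⟩ := h1
  refine ⟨c, ?_⟩
  have hN' : (N : ℚ) ≠ 0 := Nat.cast_ne_zero.2 hN
  have hc' : (c : ℚ) = N * q := by simpa using hc
  have : q = c • (1 / (N : ℚ)) := by
    rw [zsmul_eq_mul, hc']
    field_simp
  rw [this]
  rfl

/-- the elements of `ℚ/ℤ` killed by `N` are the `i/N`, `0 ≤ i < N` -/
theorem addCircle_eq_nsmul_of_nsmul_eq_zero (N : ℕ) (hN : N ≠ 0) (a : AddCircle (1 : ℚ))
    (ha : N • a = 0) : ∃ i < N, a = i • (((1 / (N : ℚ)) : ℚ) : AddCircle (1 : ℚ)) := by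
  obtain ⟨c, rfl⟩ := addCircle_eq_zsmul_of_nsmul_eq_zero N hN a ha
  have hN0 : N • (((1 / (N : ℚ)) : ℚ) : AddCircle (1 : ℚ)) = 0 := by
    have : ((N • (1 / (N : ℚ)) : ℚ) : AddCircle (1 : ℚ)) = 0 := by
      rw [AddCircle.coe_eq_zero_iff]
      refine ⟨1, ?_⟩
      have hN' : (N : ℚ) ≠ 0 := Nat.cast_ne_zero.2 hN
      rw [nsmul_eq_mul, one_smul]
      field_simp
    exact this
  have hpos : (0 : ℤ) < N := by exact_mod_cast Nat.pos_of_ne_zero hN
  refine ⟨(c % (N : ℤ)).toNat, ?_, ?_⟩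
  · have h1 : c % (N : ℤ) < N := Int.emod_lt_of_pos c hpos
    have h0 : 0 ≤ c % (N : ℤ) := Int.emod_nonneg c hpos.ne'
    omega
  · have h0 : 0 ≤ c % (N : ℤ) := Int.emod_nonneg c hpos.ne'
    rw [← natCast_zsmul, Int.toNat_of_nonneg h0]
    conv_lhs => rw [← Int.emod_add_mul_ediv c N]
    rw [add_smul, mul_smul, natCast_zsmul, smul_comm, hN0, smul_zero, add_zero]

/-- an additive map to `ℚ/ℤ` with values killed by `N` has at most `N` values: representatives -/
theorem exists_finset_reps {M : Type*} [AddCommGroup M] (Φ : M →+ AddCircle (1 : ℚ)) (N : ℕ)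
    (hN : N ≠ 0) (hΦ : ∀ m, N • Φ m = 0) :
    ∃ F : Finset M, F.card ≤ N ∧ ∀ m, ∃ f ∈ F, Φ (m - f) = 0 := by
  classical
  let t : AddCircle (1 : ℚ) := (((1 / (N : ℚ)) : ℚ) : AddCircle (1 : ℚ))
  let pick : ℕ → M := fun i => if h : ∃ m, Φ m = i • t then h.choose else 0
  refine ⟨(Finset.range N).image pick, ?_, ?_⟩
  · exact Finset.card_image_le.trans (by rw [Finset.card_range])
  · intro m
    obtain ⟨i, hi, him⟩ := addCircle_eq_nsmul_of_nsmul_eq_zero N hN (Φ m) (hΦ m)
    refine ⟨pick i, Finset.mem_image.2 ⟨i, Finset.mem_range.2 hi, rfl⟩, ?_⟩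
    have hex : ∃ m', Φ m' = i • t := ⟨m, him⟩
    have hpick : Φ (pick i) = i • t := by
      change Φ (if h : ∃ m, Φ m = i • t then h.choose else 0) = i • t
      rw [dif_pos hex]
      exact hex.choose_spec
    rw [map_sub, hpick, him, sub_self]

end Reps

section CyclicLayer

variable {k : Type} [CommRing k]

theorem mem_fixS_top_iff {K : Type} [Group K] (D : Rep.{0} k K) (m : D.V) :
    m ∈ fixS D ⊤ ↔ m ∈ D.ρ.invariants := by
  rw [mem_fixS_iff]
  exact ⟨fun h g => h g trivial, fun h g _ => h g⟩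

/-- `G`-invariants as `G ⧸ V`-invariants of `A^V`, additively -/
noncomputable def invariantsToQuotientHom {L : Type} [Group L] [Finite L] (E : Rep.{0} k L)
    (S : Subgroup L) [S.Normal] : E.ρ.invariants →+ (E.quotientToInvariants S).ρ.invariants where
  toFun := invariantsToQuotient E S
  map_zero' := rfl
  map_add' _ _ := rfl

/-- **cyclic layer**: if `H¹(S, E) = 0` and `H²(L, E)` embeds into `ℚ/ℤ` then for `S` normal of
prime index `p` the norm index `|E^L / N_{L/S} E^S|` is at most `p` -/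
theorem normBound_of_cyclic_layer (p : ℕ) [Fact p.Prime] {L : Type} [Group L] [Finite L]
    (E : Rep.{0} k L) (S : Subgroup L) [S.Normal] (hS : S.index = p)
    (h1 : IsZero (groupCohomology (Rep.res S.subtype E) 1))
    (ι : groupCohomology E 2 →+ AddCircle (1 : ℚ)) (hι : Function.Injective ι) :
    NormBound E S p := by
  classical
  haveI : Fintype (L ⧸ S) := Fintype.ofFinite _
  have hp : p.Prime := Fact.out
  have hcard : Nat.card (L ⧸ S) = p := by rw [← Subgroup.index_eq_card]; exact hS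
  haveI : IsCyclic (L ⧸ S) := isCyclic_of_prime_card hcard
  obtain ⟨g, hg⟩ := IsCyclic.exists_generator (α := L ⧸ S)
  let toInv := invariantsToQuotientHom E S
  let Φ : E.ρ.invariants →+ AddCircle (1 : ℚ) :=
    ι.comp ((map (QuotientGroup.mk' S) (ofHom <| E.ρ.quotientToInvariants_lift S) 2).hom.toAddMonoidHom.comp
      ((cycClass (E.quotientToInvariants S) g hg).toAddMonoidHom.comp toInv))
  have hΦ : ∀ a, Φ a = ι ((map (QuotientGroup.mk' S) (ofHom <| E.ρ.quotientToInvariants_lift S) 2).hom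
      (cycClass (E.quotientToInvariants S) g hg (toInv a))) := fun a => rfl
  have hnorm : ∀ v : (E.quotientToInvariants S).ρ.invariants,
      p • v = normToInvariants (E.quotientToInvariants S) v.1 := by
    intro v
    apply Subtype.ext
    change p • v.1 = (E.quotientToInvariants S).ρ.norm v.1
    rw [norm_apply_eq_sum', Finset.sum_congr rfl (fun q _ => v.2 q), Finset.sum_const,
      Finset.card_univ, ← Nat.card_eq_fintype_card, hcard]
  have hΦp : ∀ a, p • Φ a = 0 := by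
    intro a
    rw [← map_nsmul, hΦ, map_nsmul toInv, hnorm, cycClass_normToInvariants, map_zero, map_zero]
  have hΦ0 : ∀ a, Φ a = 0 → ∃ y : (E.quotientToInvariants S).V,
      (E.quotientToInvariants S).ρ.norm y = (toInv a).1 := by
    intro a ha
    rw [hΦ] at ha
    have h2 := hι (ha.trans (map_zero ι).symm)
    have h3 := inf₂_eq_zero E S h1 _ h2
    exact (cycClass_eq_zero_iff (E.quotientToInvariants S) g hg (toInv a)).1 h3
  obtain ⟨F, hF, hcover⟩ := exists_finset_reps Φ p hp.ne_zero hΦp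
  refine ⟨F.image Subtype.val, Finset.card_image_le.trans hF, fun c hc => ?_⟩
  let a : E.ρ.invariants := ⟨c, (mem_fixS_top_iff E c).1 hc⟩
  obtain ⟨f, hf, hfa⟩ := hcover a
  obtain ⟨y, hy⟩ := hΦ0 (a - f) hfa
  refine ⟨f.1, Finset.mem_image.2 ⟨f, hf, rfl⟩, y.1, y.2, ?_⟩
  have h4 : ((E.quotientToInvariants S).ρ.norm y).1 = nmAbs E S y.1 := by
    rw [norm_apply_eq_sum', nmAbs_eq_sum]
    rw [AddSubmonoidClass.coe_finsetSum]
    refine Finset.sum_congr rfl (fun q _ => ?_)
    conv_lhs => rw [← QuotientGroup.out_eq' q]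
    rfl
  rw [← h4, hy]
  change c = f.1 + (c - f.1)
  abel

end CyclicLayer

section FormHyp

variable {k : Type} [CommRing k]

/-- **formation hypothesis**: on all subgroups, `H¹` vanishes and `H²` embeds into `ℚ/ℤ` -/
def FormHyp {K : Type} [Group K] (D : Rep.{0} k K) : Prop :=
  ∀ (L : Type) [Group L] [Finite L] (f : L →* K), Function.Injective f →
    ∀ E : Rep.{0} k L, E = Rep.res f D →
      IsZero (groupCohomology E 1) ∧
        ∃ ι : groupCohomology E 2 →+ AddCircle (1 : ℚ), Function.Injective ι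

theorem cycNormHyp_of_formHyp (p : ℕ) [Fact p.Prime] {K : Type} [Group K] [Finite K]
    (D : Rep.{0} k K) (hD : FormHyp D) : CycNormHyp p D := by
  intro L _ _ f hf E hE S _ hS
  obtain ⟨-, ι, hι⟩ := hD L f hf E hE
  have h1 : IsZero (groupCohomology (Rep.res S.subtype E) 1) := by
    subst hE
    exact (hD S (f.comp S.subtype) (hf.comp S.subtype_injective) _ rfl).1
  exact normBound_of_cyclic_layer p E S hS h1 ι hι

/-- **norm index bound** for a finite `p`-group satisfying the formation hypothesis -/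
theorem normBound_of_formHyp (p : ℕ) [Fact p.Prime] {K : Type} [Group K] [Finite K]
    (hK : IsPGroup p K) (D : Rep.{0} k K) (hD : FormHyp D) (S : Subgroup K) [S.Normal] :
    NormBound D S S.index :=
  normBound_of_pGroup p S.index K hK D (cycNormHyp_of_formHyp p D hD) S rfl

end FormHyp

section Sylow

variable {k : Type} [CommRing k] {K₀ : Type} [Group K₀] [Finite K₀]

theorem nmAbs_sub (D : Rep.{0} k K₀) (S : Subgroup K₀) (d d' : D.V) :
    nmAbs D S (d - d') = nmAbs D S d - nmAbs D S d' := by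
  have h := nmAbs_add D S (d - d') d'
  rw [sub_add_cancel] at h
  rw [h, add_sub_cancel_right]

/-- a `K₀`-invariant norm from the Sylow level is a norm from `V₀` -/
theorem exists_nmAbs_eq_of_sylow (p : ℕ) [Fact p.Prime] (D₀ : Rep.{0} k K₀) (V₀ : Subgroup K₀)
    (hV : ∃ r, V₀.index = p ^ r) (P₀ : Sylow p K₀) (c : D₀.V) (hc : c ∈ fixS D₀ ⊤) (d : D₀.V)
    (hd : d ∈ fixS (Rep.res (P₀ : Subgroup K₀).subtype D₀) (V₀.subgroupOf (P₀ : Subgroup K₀)))
    (hcd : c = nmAbs (Rep.res (P₀ : Subgroup K₀).subtype D₀)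
      (V₀.subgroupOf (P₀ : Subgroup K₀)) d) :
    ∃ e ∈ fixS D₀ V₀, c = nmAbs D₀ V₀ e := by
  set P : Subgroup K₀ := (P₀ : Subgroup K₀) with hP
  have hd' : d ∈ fixS D₀ (P ⊓ V₀) := by
    rw [mem_fixS_iff]
    intro x hx
    exact (mem_fixS_res_iff D₀ P _ d).1 hd ⟨x, hx.1⟩ (Subgroup.mem_subgroupOf.2 hx.2)
  have hsub : (P ⊓ V₀).subgroupOf P = V₀.subgroupOf P := Subgroup.inf_subgroupOf_left V₀ P
  have T1 : nmAbs D₀ (P ⊓ V₀) d = P.index • c := by
    rw [nmAbs_trans D₀ (inf_le_left : P ⊓ V₀ ≤ P) d hd', hsub, ← hcd, nmAbs_of_mem_top D₀ P c hc]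
  have hd'' : nmAbs (Rep.res V₀.subtype D₀) ((P ⊓ V₀).subgroupOf V₀) d ∈ fixS D₀ V₀ := by
    rw [← mem_fixS_res_top_iff]
    apply nmAbs_mem
    exact (mem_fixS_res_subgroupOf_iff D₀ (inf_le_right : P ⊓ V₀ ≤ V₀) d).2 hd'
  have T2 : nmAbs D₀ (P ⊓ V₀) d =
      nmAbs D₀ V₀ (nmAbs (Rep.res V₀.subtype D₀) ((P ⊓ V₀).subgroupOf V₀) d) :=
    nmAbs_trans D₀ (inf_le_right : P ⊓ V₀ ≤ V₀) d hd'
  obtain ⟨r, hr⟩ := hV
  have T3 : nmAbs D₀ V₀ c = p ^ r • c := by rw [nmAbs_of_mem_top D₀ V₀ c hc, hr]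
  have hcop : Nat.Coprime P.index (p ^ r) :=
    (((Nat.Prime.coprime_iff_not_dvd Fact.out).2 P₀.not_dvd_index).pow_left r).symm
  obtain ⟨a, b, hab⟩ := Nat.isCoprime_iff_coprime.2 hcop
  refine ⟨a • nmAbs (Rep.res V₀.subtype D₀) ((P ⊓ V₀).subgroupOf V₀) d + b • c,
    add_mem (zsmul_mem hd'' a) (zsmul_mem (fixS_mono D₀ le_top hc) b), ?_⟩
  rw [nmAbs_add, nmAbs_zsmul, nmAbs_zsmul, ← T2, T1, T3]
  calc c = (1 : ℤ) • c := (one_smul _ _).symm
    _ = (a * (P.index : ℤ) + b * ((p ^ r : ℕ) : ℤ)) • c := by rw [hab]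
    _ = a • P.index • c + b • p ^ r • c := by
      rw [add_smul, mul_smul, mul_smul, natCast_zsmul, natCast_zsmul]

/-- **transfer of norm bounds from a `p`-Sylow subgroup** -/
theorem NormBound.of_sylow (p : ℕ) [Fact p.Prime] (D₀ : Rep.{0} k K₀) (V₀ : Subgroup K₀)
    (hV : ∃ r, V₀.index = p ^ r) (P₀ : Sylow p K₀) {n : ℕ}
    (h : NormBound (Rep.res (P₀ : Subgroup K₀).subtype D₀)
      (V₀.subgroupOf (P₀ : Subgroup K₀)) n) : NormBound D₀ V₀ n := by
  classical
  obtain ⟨F, hF, H⟩ := h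
  let good : D₀.V → Prop := fun f => ∃ c ∈ fixS D₀ ⊤,
    ∃ d ∈ fixS (Rep.res (P₀ : Subgroup K₀).subtype D₀) (V₀.subgroupOf (P₀ : Subgroup K₀)),
      c = f + nmAbs (Rep.res (P₀ : Subgroup K₀).subtype D₀) (V₀.subgroupOf (P₀ : Subgroup K₀)) d
  let pick : D₀.V → D₀.V := fun f => if h : good f then h.choose else 0
  refine ⟨F.image pick, Finset.card_image_le.trans hF, fun c hc => ?_⟩
  have hcE : c ∈ fixS (Rep.res (P₀ : Subgroup K₀).subtype D₀) ⊤ :=
    (mem_fixS_res_top_iff D₀ (P₀ : Subgroup K₀) c).2 (fixS_mono D₀ le_top hc)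
  obtain ⟨f, hf, d, hd, hcfd⟩ := H c hcE
  have hgood : good f := ⟨c, hc, d, hd, hcfd⟩
  have hpick : pick f = hgood.choose := dif_pos hgood
  obtain ⟨hc₁, d₁, hd₁, hcd₁⟩ := hgood.choose_spec
  rw [← hpick] at hc₁ hcd₁
  have hdiff : c - pick f = nmAbs (Rep.res (P₀ : Subgroup K₀).subtype D₀)
      (V₀.subgroupOf (P₀ : Subgroup K₀)) (d - d₁) := by
    rw [nmAbs_sub, hcfd, hcd₁]
    abel
  obtain ⟨e, he, hce⟩ := exists_nmAbs_eq_of_sylow p D₀ V₀ hV P₀ (c - pick f)
    (sub_mem hc hc₁) (d - d₁) (sub_mem hd hd₁) hdiff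
  refine ⟨pick f, Finset.mem_image.2 ⟨f, hf, rfl⟩, e, he, ?_⟩
  rw [← hce]
  abel

end Sylow

end Fermat.Agent.CFT.Coh
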