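/-
P4 / Layer A, task A-QZ: `H²(G, ℤ) ≃ Hom(G, ℚ/ℤ)` for a finite group `G`, via the connecting
homomorphism of `0 ⟶ ℤ ⟶ ℚ ⟶ ℚ/ℤ ⟶ 0`, with naturality under a group homomorphism and
multiplication by `m` on the coefficients.

* `qzSC G`, `qzSC_shortExact`, `isZero_groupCohomology_trivQ`
* `h2ZChar G : groupCohomology (Rep.trivial ℤ G ℤ) 2 ≃+ (Additive G →+ AddCircle (1 : ℚ))`
* `mulZ f m`, `h2ZChar_map`
* `h2ZChar_apply_generator_injective`
-/
import Fermat.Agent.Lib.CFT.Coh.Cores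
import Fermat.Agent.Lib.CFT.Coh.AugRep

set_option autoImplicit false
set_option linter.unusedSectionVars false
set_option linter.style.haveILetI false

namespace Fermat.Agent.CFT.Coh

open CategoryTheory groupCohomology Rep Limits

section QZ

variable (G : Type) [Group G]

/-- `ℤ ⟶ ℚ` as a morphism of trivial representations -/
noncomputable def trivZtoQ : Rep.trivial ℤ G ℤ ⟶ Rep.trivial ℤ G ℚ :=
  Rep.ofHom ⟨{ toFun := fun n => (n : ℚ)
               map_add' := fun a b => by push_cast; rfl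
               map_smul' := fun c a => by simp }, fun _ => rfl⟩

/-- `ℚ ⟶ ℚ/ℤ` as a morphism of trivial representations -/
noncomputable def trivQtoQZ : Rep.trivial ℤ G ℚ ⟶ Rep.trivial ℤ G (AddCircle (1 : ℚ)) :=
  Rep.ofHom ⟨{ toFun := fun x => (x : AddCircle (1 : ℚ))
               map_add' := fun a b => rfl
               map_smul' := fun c a => by simp }, fun _ => rfl⟩

theorem trivZtoQ_apply (n : ℤ) : (trivZtoQ G).hom n = (n : ℚ) := rfl

theorem trivQtoQZ_apply (x : ℚ) : (trivQtoQZ G).hom x = (x : AddCircle (1 : ℚ)) := rfl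

/-- the short complex `0 ⟶ ℤ ⟶ ℚ ⟶ ℚ/ℤ ⟶ 0` of trivial representations -/
noncomputable def qzSC : ShortComplex (Rep.{0} ℤ G) :=
  ShortComplex.mk (trivZtoQ G) (trivQtoQZ G) (by
    ext
    change (((1 : ℤ) : ℚ) : AddCircle (1 : ℚ)) = 0
    rw [AddCircle.coe_eq_zero_iff]
    exact ⟨1, by simp⟩)

theorem qzSC_shortExact : (qzSC G).ShortExact := by
  refine shortExact_of_functions ?_ ?_ ?_
  · intro (a : ℤ) (b : ℤ) h
    have : ((a : ℤ) : ℚ) = (b : ℚ) := h
    exact_mod_cast this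
  · intro (y : AddCircle (1 : ℚ))
    obtain ⟨x, rfl⟩ := QuotientAddGroup.mk_surjective y
    exact ⟨x, rfl⟩
  · intro (y : ℚ) hy
    have hy' : ((y : ℚ) : AddCircle (1 : ℚ)) = 0 := hy
    rw [AddCircle.coe_eq_zero_iff] at hy'
    obtain ⟨n, hn⟩ := hy'
    refine ⟨n, ?_⟩
    change ((n : ℤ) : ℚ) = y
    rw [← hn]
    simp

/-- `Hⁿ⁺¹(G, ℚ) = 0` for a finite group `G` -/
theorem isZero_groupCohomology_trivQ [Finite G] (n : ℕ) :
    IsZero (groupCohomology (Rep.trivial ℤ G ℚ) (n + 1)) := by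
  classical
  letI : Fintype G := Fintype.ofFinite G
  have hN : ((Fintype.card G : ℕ) : ℚ) ≠ 0 := by exact_mod_cast Fintype.card_ne_zero
  -- multiplication by `1 / |G|`
  let ψ : Rep.trivial ℤ G ℚ ⟶ Rep.trivial ℤ G ℚ :=
    Rep.ofHom ⟨{ toFun := fun x => x / (Fintype.card G : ℚ)
                 map_add' := fun a b => add_div a b _
                 map_smul' := fun c a => by simp [mul_div_assoc] }, fun _ => rfl⟩
  have h1 : Fintype.card G • ψ = 𝟙 (Rep.trivial ℤ G ℚ) := by
    ext x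
    change Fintype.card G • (x / (Fintype.card G : ℚ)) = x
    rw [nsmul_eq_mul, mul_div_cancel₀ _ hN]
  rw [ModuleCat.isZero_iff_subsingleton]
  have key : ∀ x : groupCohomology (Rep.trivial ℤ G ℚ) (n + 1), x = 0 := by
    intro x
    have h2 : map (MonoidHom.id G) (Fintype.card G • ψ) (n + 1) x = x := by
      rw [h1, map_id]
      rfl
    rw [map_id_nsmul] at h2
    have h3 : (Fintype.card G • map (MonoidHom.id G) ψ (n + 1)) x =
        map (MonoidHom.id G) ψ (n + 1) (Fintype.card G • x) := by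
      rw [map_nsmul]
      rfl
    have h4 : Fintype.card G • x = 0 := by
      rw [← Nat.cast_smul_eq_nsmul ℤ]
      exact card_smul_eq_zero _ (n + 1) (Nat.succ_pos n) x
    rw [← h2, h3, h4, map_zero]
  exact ⟨fun a b => by rw [key a, key b]⟩

section Char

variable [Finite G]

theorem δ_qzSC_bijective : Function.Bijective (δ (qzSC_shortExact G) 1 2 rfl) :=
  ⟨δ_injective_of_isZero (qzSC_shortExact G) 1 (isZero_groupCohomology_trivQ G 0),
    δ_surjective_of_isZero (qzSC_shortExact G) 1 (isZero_groupCohomology_trivQ G 1)⟩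

/-- `δ : H¹(G, ℚ/ℤ) ≃ H²(G, ℤ)` -/
noncomputable def δQZ :
    groupCohomology (Rep.trivial ℤ G (AddCircle (1 : ℚ))) 1 ≃+
      groupCohomology (Rep.trivial ℤ G ℤ) 2 :=
  AddEquiv.ofBijective (δ (qzSC_shortExact G) 1 2 rfl).hom.toAddMonoidHom (δ_qzSC_bijective G)

theorem δQZ_apply (y : groupCohomology (Rep.trivial ℤ G (AddCircle (1 : ℚ))) 1) :
    δQZ G y = δ (qzSC_shortExact G) 1 2 rfl y := rfl

/-- `H²(G, ℤ) ≃ Hom(G, ℚ/ℤ)` -/
noncomputable def h2ZChar :
    groupCohomology (Rep.trivial ℤ G ℤ) 2 ≃+ (Additive G →+ AddCircle (1 : ℚ)) :=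
  (δQZ G).symm.trans
    (H1IsoOfIsTrivial (Rep.trivial ℤ G (AddCircle (1 : ℚ)))).toLinearEquiv.toAddEquiv

theorem h2ZChar_δ (y : groupCohomology (Rep.trivial ℤ G (AddCircle (1 : ℚ))) 1) :
    h2ZChar G (δ (qzSC_shortExact G) 1 2 rfl y) =
      (H1IsoOfIsTrivial (Rep.trivial ℤ G (AddCircle (1 : ℚ)))).hom y := by
  unfold h2ZChar
  rw [← δQZ_apply, AddEquiv.trans_apply, AddEquiv.symm_apply_apply]
  rfl

end Char

end QZ

section Naturality

variable {G G' : Type} [Group G] [Group G'] (f : G' →* G) (m : ℤ)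

/-- multiplication by `m` on `ℤ`, over a group homomorphism -/
noncomputable def mulZ : Rep.res f (Rep.trivial ℤ G ℤ) ⟶ Rep.trivial ℤ G' ℤ :=
  Rep.ofHom ⟨{ toFun := fun x => m * x
               map_add' := fun a b => mul_add m a b
               map_smul' := fun c a => by simp [mul_left_comm] }, fun _ => rfl⟩

/-- multiplication by `m` on `ℚ`, over a group homomorphism -/
noncomputable def mulQ : Rep.res f (Rep.trivial ℤ G ℚ) ⟶ Rep.trivial ℤ G' ℚ :=
  Rep.ofHom ⟨{ toFun := fun x => (m : ℚ) * x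
               map_add' := fun a b => mul_add _ a b
               map_smul' := fun c a => by simp [mul_left_comm] }, fun _ => rfl⟩

/-- multiplication by `m` on `ℚ/ℤ`, over a group homomorphism -/
noncomputable def mulQZ :
    Rep.res f (Rep.trivial ℤ G (AddCircle (1 : ℚ))) ⟶ Rep.trivial ℤ G' (AddCircle (1 : ℚ)) :=
  Rep.ofHom ⟨{ toFun := fun x => m • x
               map_add' := fun a b => smul_add m a b
               map_smul' := fun c a => smul_comm m c a }, fun _ => rfl⟩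

theorem mulZ_apply (x : ℤ) : (mulZ f m).hom x = m * x := rfl

theorem mulQ_apply (x : ℚ) : (mulQ f m).hom x = (m : ℚ) * x := rfl

theorem mulQZ_apply (x : AddCircle (1 : ℚ)) : (mulQZ f m).hom x = m • x := rfl

theorem trivZtoQ_comp_mulQ :
    (resFunctor f).map (trivZtoQ G) ≫ mulQ f m = mulZ f m ≫ trivZtoQ G' := by
  ext
  change (m : ℚ) * ((1 : ℤ) : ℚ) = ((m * 1 : ℤ) : ℚ)
  push_cast
  rfl

theorem trivQtoQZ_comp_mulQZ :
    (resFunctor f).map (trivQtoQZ G) ≫ mulQZ f m = mulQ f m ≫ trivQtoQZ G' := by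
  ext x
  change m • ((x : ℚ) : AddCircle (1 : ℚ)) = (((m : ℚ) * x : ℚ) : AddCircle (1 : ℚ))
  rw [← AddCircle.coe_zsmul, zsmul_eq_mul]

variable [Finite G] [Finite G']

/-- the connecting homomorphisms commute with `(f, multiplication by m)` -/
theorem δ_qzSC_naturality :
    δ (qzSC_shortExact G) 1 2 rfl ≫ map f (mulZ f m) 2 =
      map f (mulQZ f m) 1 ≫ δ (qzSC_shortExact G') 1 2 rfl :=
  δ_naturality_map f (qzSC_shortExact G) (qzSC_shortExact G') (mulZ f m) (mulQ f m) (mulQZ f m)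
    (trivZtoQ_comp_mulQ f m) (trivQtoQZ_comp_mulQZ f m) 1 2 rfl

omit [Finite G] [Finite G'] in
/-- naturality of `H¹(G, ℚ/ℤ) ≃ Hom(G, ℚ/ℤ)` -/
theorem H1IsoOfIsTrivial_map_mulQZ
    (y : groupCohomology (Rep.trivial ℤ G (AddCircle (1 : ℚ))) 1) :
    (H1IsoOfIsTrivial (Rep.trivial ℤ G' (AddCircle (1 : ℚ)))).hom (map f (mulQZ f m) 1 y) =
      m • ((H1IsoOfIsTrivial (Rep.trivial ℤ G (AddCircle (1 : ℚ)))).hom y).comp
        (MonoidHom.toAdditive f) := by
  induction y using H1_induction_on with | h c =>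
  have h3 := congr($(H1π_comp_map f (mulQZ f m)) c)
  rw [ConcreteCategory.comp_apply, ConcreteCategory.comp_apply] at h3
  rw [h3]
  refine DFunLike.ext _ _ (fun a => ?_)
  rw [H1IsoOfIsTrivial_H1π_apply_apply]
  change _ = m • ((H1IsoOfIsTrivial (Rep.trivial ℤ G (AddCircle (1 : ℚ)))).hom (H1π _ c))
    (MonoidHom.toAdditive f a)
  rw [H1IsoOfIsTrivial_H1π_apply_apply]
  rfl

/-- **Naturality of `H²(G, ℤ) ≃ Hom(G, ℚ/ℤ)`** under a group homomorphism and multiplication by
`m` on the coefficients. -/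
theorem h2ZChar_map (x : groupCohomology (Rep.trivial ℤ G ℤ) 2) :
    h2ZChar G' ((map f (mulZ f m) 2).hom x) =
      m • (h2ZChar G x).comp (MonoidHom.toAdditive f) := by
  obtain ⟨y, rfl⟩ := (δ_qzSC_bijective G).2 x
  have h1 := congr($(δ_qzSC_naturality f m) y)
  rw [ConcreteCategory.comp_apply, ConcreteCategory.comp_apply] at h1
  have h2 : (map f (mulZ f m) 2).hom (δ (qzSC_shortExact G) 1 2 rfl y) =
      δ (qzSC_shortExact G') 1 2 rfl (map f (mulQZ f m) 1 y) := h1
  rw [h2, h2ZChar_δ, h2ZChar_δ]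
  exact H1IsoOfIsTrivial_map_mulQZ f m y

end Naturality

section Cyclic

variable {G : Type} [Group G] [Finite G]

/-- for a cyclic group, a class in `H²(G, ℤ)` is determined by the value of its character on a
generator -/
theorem h2ZChar_apply_generator_injective (g : G) (hg : ∀ x : G, x ∈ Subgroup.zpowers g) :
    Function.Injective
      (fun x : groupCohomology (Rep.trivial ℤ G ℤ) 2 => h2ZChar G x (Additive.ofMul g)) := by
  intro x x' h
  apply (h2ZChar G).injective
  refine DFunLike.ext _ _ (fun a => ?_)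
  obtain ⟨n, hn⟩ := Subgroup.mem_zpowers_iff.1 (hg a.toMul)
  have ha : a = n • Additive.ofMul g := by
    rw [← ofMul_zpow, hn]
    rfl
  rw [ha, map_zsmul, map_zsmul]
  exact congrArg (fun t => n • t) h

end Cyclic

end Fermat.Agent.CFT.Coh
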