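/-
P4 / Layer A, task A4-H3 (continued): Tate's theorem in degree 3 for arbitrary finite groups,
`p`-primary form (the shape of `PClassFormation.h3` of Layer D).

`G` finite, `C : Rep ℤ G`, `u ∈ H²(G, C)` such that for all `p`-subgroups `P ≤ G`:
`H¹(P, C) = 0`, `|H²(P, C)| ≤ |P|` and `res_P u` has order `|P|`.  Then for every subgroup `U ≤ G`
the group `H³(U, C)` has no `p`-torsion.
-/
import Fermat.Agent.Lib.CFT.Coh.TateH3

set_option autoImplicit false
set_option linter.unusedSectionVars false
set_option linter.style.haveILetI false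

namespace Fermat.Agent.CFT.Coh

open CategoryTheory groupCohomology Rep Limits

section RangeIso

variable {k : Type} [CommRing k] {G K : Type} [Group G] [Group K]

/-- for an injective `f : K →* G`, `Hⁿ(K, res f C) ≅ Hⁿ(f.range, C)` -/
noncomputable def rangeIso (C : Rep.{0} k G) (f : K →* G) (hf : Function.Injective f) (n : ℕ) :
    groupCohomology (Rep.res f C) n ≅ groupCohomology (Rep.res f.range.subtype C) n :=
  mapIso (A := Rep.res f.range.subtype C) (B := Rep.res f C)
    (MonoidHom.ofInjective hf) (LinearEquiv.refl k C.V) (fun _ => rfl) n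

/-- `rangeIso` is compatible with restriction of classes from `G` -/
theorem rangeIso_inv_res (C : Rep.{0} k G) (f : K →* G) (hf : Function.Injective f) (n : ℕ)
    (u : groupCohomology C n) :
    (rangeIso C f hf n).inv ((map f.range.subtype (𝟙 (Rep.res f.range.subtype C)) n).hom u) =
      (map f (𝟙 (Rep.res f C)) n).hom u := by
  have h := map_comp (A := C) (B := Rep.res f.range.subtype C) (C := Rep.res f C)
    f.range.subtype (MonoidHom.ofInjective hf).toMonoidHom (𝟙 _)
    (ofHom ⟨(LinearEquiv.refl k C.V).symm, fun _ => rfl⟩) n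
  have h2 : map (f.range.subtype.comp (MonoidHom.ofInjective hf).toMonoidHom)
      ((resFunctor (MonoidHom.ofInjective hf).toMonoidHom).map
        (𝟙 (Rep.res f.range.subtype C)) ≫
        (ofHom ⟨(LinearEquiv.refl k C.V).symm, fun _ => rfl⟩ :
          Rep.res (MonoidHom.ofInjective hf).toMonoidHom (Rep.res f.range.subtype C) ⟶
            Rep.res f C)) n = map f (𝟙 (Rep.res f C)) n :=
    map_congr (MonoidHom.ext fun _ => rfl) rfl n
  rw [h2] at h
  exact (congrArg (fun φ => φ.hom u) h).symm

theorem rangeIso_inv_injective (C : Rep.{0} k G) (f : K →* G) (hf : Function.Injective f)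
    (n : ℕ) : Function.Injective (rangeIso C f hf n).inv.hom := by
  have : Function.Bijective (rangeIso C f hf n).inv := ConcreteCategory.bijective_of_isIso _
  exact this.1

/-- the order of the restriction of a class along an injective `f` only depends on `f.range` -/
theorem addOrderOf_map_of_injective (C : Rep.{0} k G) (f : K →* G) (hf : Function.Injective f)
    (n : ℕ) (u : groupCohomology C n) :
    addOrderOf ((map f (𝟙 (Rep.res f C)) n).hom u) =
      addOrderOf ((map f.range.subtype (𝟙 (Rep.res f.range.subtype C)) n).hom u) := by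
  rw [← rangeIso_inv_res C f hf n u]
  exact addOrderOf_injective (rangeIso C f hf n).inv.hom.toAddMonoidHom
    (rangeIso_inv_injective C f hf n) _

theorem card_groupCohomology_res_of_injective (C : Rep.{0} k G) (f : K →* G)
    (hf : Function.Injective f) (n : ℕ) :
    Nat.card (groupCohomology (Rep.res f C) n) =
      Nat.card (groupCohomology (Rep.res f.range.subtype C) n) :=
  Nat.card_congr (rangeIso C f hf n).toLinearEquiv.toEquiv

theorem finite_groupCohomology_res_of_injective (C : Rep.{0} k G) (f : K →* G)
    (hf : Function.Injective f) (n : ℕ)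
    (h : Finite (groupCohomology (Rep.res f.range.subtype C) n)) :
    Finite (groupCohomology (Rep.res f C) n) :=
  Finite.of_equiv _ (rangeIso C f hf n).toLinearEquiv.toEquiv.symm

/-- restriction in two steps -/
theorem map_subtype_map_apply (C : Rep.{0} k G) (g : K →* G) (H : Subgroup K) (n : ℕ)
    (u : groupCohomology C n) :
    (map H.subtype (𝟙 (Rep.res H.subtype (Rep.res g C))) n).hom
        ((map g (𝟙 (Rep.res g C)) n).hom u) =
      (map (g.comp H.subtype) (𝟙 (Rep.res (g.comp H.subtype) C)) n).hom u := by
  have h := map_comp (A := C) (B := Rep.res g C) (C := Rep.res (g.comp H.subtype) C)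
    g H.subtype (𝟙 _) (𝟙 _) n
  have h2 : map (g.comp H.subtype) ((resFunctor H.subtype).map (𝟙 (Rep.res g C)) ≫
      (𝟙 (Rep.res H.subtype (Rep.res g C)))) n =
      map (g.comp H.subtype) (𝟙 (Rep.res (g.comp H.subtype) C)) n :=
    map_congr rfl rfl n
  rw [h2] at h
  exact (congrArg (fun φ => φ.hom u) h).symm

end RangeIso

section Torsion

variable {G : Type} [Group G] [Finite G]

/-- **Tate's theorem in degree 3, `p`-primary form for arbitrary finite groups**: if for all
`p`-subgroups `P ≤ G`: `H¹(P, C) = 0`, `|H²(P, C)| ≤ |P|` and `res_P u` has order `|P|`, then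
`H³(U, C)` has no `p`-torsion for every subgroup `U ≤ G`. -/
theorem tate_H3_pTorsion (p : ℕ) [Fact p.Prime] (C : Rep.{0} ℤ G) (u : groupCohomology C 2)
    (h1P : ∀ P : Subgroup G, IsPGroup p P →
      Subsingleton (groupCohomology (Rep.res P.subtype C) 1))
    (h2P : ∀ P : Subgroup G, IsPGroup p P →
      Finite (groupCohomology (Rep.res P.subtype C) 2) ∧
        Nat.card (groupCohomology (Rep.res P.subtype C) 2) ≤ Nat.card P)
    (hord : ∀ P : Subgroup G, IsPGroup p P →
      addOrderOf ((map P.subtype (𝟙 (Rep.res P.subtype C)) 2).hom u) = Nat.card P)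
    (U : Subgroup G) (x : groupCohomology (Rep.res U.subtype C) 3) (hx : p • x = 0) : x = 0 := by
  classical
  letI : Fintype U := Fintype.ofFinite _
  let Q : Sylow p U := default
  have hQ : IsPGroup p (Q : Subgroup U) := Q.isPGroup'
  let g : (Q : Subgroup U) →* G := U.subtype.comp (Q : Subgroup U).subtype
  have hg : Function.Injective g :=
    U.subtype_injective.comp (Q : Subgroup U).subtype_injective
  have hf : ∀ H : Subgroup (Q : Subgroup U), Function.Injective (g.comp H.subtype) :=
    fun H => hg.comp H.subtype_injective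
  have hPf : ∀ H : Subgroup (Q : Subgroup U), IsPGroup p (g.comp H.subtype).range := fun H =>
    (hQ.to_subgroup H).of_surjective (g.comp H.subtype).rangeRestrict
      (g.comp H.subtype).rangeRestrict_surjective
  have hcardH : ∀ H : Subgroup (Q : Subgroup U),
      Nat.card (g.comp H.subtype).range = Nat.card H := fun H =>
    (Nat.card_congr (MonoidHom.ofInjective (hf H)).toEquiv).symm
  have h3 : IsZero (groupCohomology (Rep.res g C) 3) := by
    refine tate_H3_eq_zero p hQ (Rep.res g C) ((map g (𝟙 (Rep.res g C)) 2).hom u) ?_ ?_ ?_ ?_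
    · intro H
      exact isZero_groupCohomology_res_of_injective C (g.comp H.subtype) (hf H) 1
        (ModuleCat.isZero_iff_subsingleton.2 (h1P _ (hPf H)))
    · intro H
      exact finite_groupCohomology_res_of_injective C (g.comp H.subtype) (hf H) 2
        (h2P _ (hPf H)).1
    · intro H
      have h := card_groupCohomology_res_of_injective C (g.comp H.subtype) (hf H) 2
      have h' := (h2P _ (hPf H)).2
      rw [hcardH H] at h'
      exact h.le.trans h'
    · intro H
      rw [map_subtype_map_apply C g H 2 u, addOrderOf_map_of_injective C _ (hf H) 2 u,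
        hord _ (hPf H), hcardH H]
  refine eq_zero_of_sylow (A := Rep.res U.subtype C) p Q 3 (by norm_num) h3 x ⟨1, ?_⟩
  rw [pow_one, Nat.cast_smul_eq_nsmul]
  exact hx

/-- arithmetic: if `|P| = p^b`, `|P| * idx = N` and `p^{v_p(N)} ∣ o * idx` then `|P| ∣ o` -/
theorem dvd_of_pow_factorization_dvd_mul (p : ℕ) (hp : p.Prime) (N cP idx o b : ℕ) (hN : N ≠ 0)
    (ho : o ≠ 0) (hcP : cP = p ^ b) (hmul : cP * idx = N)
    (hdvd : p ^ N.factorization p ∣ o * idx) : cP ∣ o := by
  subst hcP
  have hidx : idx ≠ 0 := by
    rintro rfl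
    rw [mul_zero] at hmul
    exact hN hmul.symm
  have hpb : p ^ b ≠ 0 := pow_ne_zero _ hp.ne_zero
  rw [hp.pow_dvd_iff_le_factorization ho]
  have h1 := (hp.pow_dvd_iff_le_factorization (mul_ne_zero ho hidx)).1 hdvd
  rw [Nat.factorization_mul ho hidx, Finsupp.add_apply] at h1
  have h2 : N.factorization p = b + idx.factorization p := by
    rw [← hmul, Nat.factorization_mul hpb hidx, Finsupp.add_apply, hp.factorization_pow,
      Finsupp.single_eq_same]
  omega

/-- if `u ∈ H²(G, C)` has order `|G|_p` and `|H²(P, C)| ≤ |P|` for a `p`-subgroup `P`, then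
`res_P u` has order exactly `|P|` (by `cores ∘ res = [G : P]`). -/
theorem addOrderOf_res_eq_card (p : ℕ) [Fact p.Prime] (C : Rep.{0} ℤ G)
    (u : groupCohomology C 2) (hu : addOrderOf u = p ^ (Nat.card G).factorization p)
    (P : Subgroup G) (hP : IsPGroup p P)
    (h2 : Finite (groupCohomology (Rep.res P.subtype C) 2) ∧
      Nat.card (groupCohomology (Rep.res P.subtype C) 2) ≤ Nat.card P) :
    addOrderOf ((map P.subtype (𝟙 (Rep.res P.subtype C)) 2).hom u) = Nat.card P := by
  classical
  letI : Fintype G := Fintype.ofFinite _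
  have hp : p.Prime := Fact.out
  haveI := h2.1
  set r := (map P.subtype (𝟙 (Rep.res P.subtype C)) 2).hom u with hr
  have ho_pos : 0 < addOrderOf r := addOrderOf_pos r
  have ho_le : addOrderOf r ≤ Nat.card P :=
    (Nat.le_of_dvd Nat.card_pos (addOrderOf_dvd_natCard r)).trans h2.2
  -- `cores r = [G : P] • u`
  have hcores : (cores C P 2).hom r = P.index • u := by
    have := congrArg (fun φ => φ.hom u) (res_comp_cores C P 2)
    simp only [ModuleCat.hom_comp, LinearMap.comp_apply, ModuleCat.hom_smul,
      LinearMap.smul_apply, ModuleCat.hom_id, LinearMap.id_apply, Nat.cast_smul_eq_nsmul] at this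
    exact this
  have hzero : (addOrderOf r * P.index) • u = 0 := by
    have h0 : (cores C P 2).hom (addOrderOf r • r) = 0 := by
      rw [addOrderOf_nsmul_eq_zero, map_zero]
    rw [map_nsmul, hcores, ← mul_nsmul'] at h0
    exact h0
  have hdvd : p ^ (Nat.card G).factorization p ∣ addOrderOf r * P.index := by
    rw [← hu]
    exact addOrderOf_dvd_of_nsmul_eq_zero hzero
  obtain ⟨b, hb⟩ := (IsPGroup.iff_card (p := p) (G := P)).1 hP
  have hdiv : Nat.card P ∣ addOrderOf r :=
    dvd_of_pow_factorization_dvd_mul p hp (Nat.card G) (Nat.card P) P.index (addOrderOf r) b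
      Nat.card_pos.ne' ho_pos.ne' hb P.card_mul_index hdvd
  exact le_antisymm ho_le (Nat.le_of_dvd ho_pos hdiv)

/-- **Tate's theorem in degree 3 from a fundamental `p`-class**: if `u ∈ H²(G, C)` has order
`|G|_p` and for all `p`-subgroups `P ≤ G`: `H¹(P, C) = 0` and `|H²(P, C)| ≤ |P|`, then `H³(U, C)`
has no `p`-torsion for every subgroup `U ≤ G`. -/
theorem tate_H3_pTorsion_of_fundamental (p : ℕ) [Fact p.Prime] (C : Rep.{0} ℤ G)
    (u : groupCohomology C 2) (hu : addOrderOf u = p ^ (Nat.card G).factorization p)
    (h1P : ∀ P : Subgroup G, IsPGroup p P →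
      Subsingleton (groupCohomology (Rep.res P.subtype C) 1))
    (h2P : ∀ P : Subgroup G, IsPGroup p P →
      Finite (groupCohomology (Rep.res P.subtype C) 2) ∧
        Nat.card (groupCohomology (Rep.res P.subtype C) 2) ≤ Nat.card P)
    (U : Subgroup G) (x : groupCohomology (Rep.res U.subtype C) 3) (hx : p • x = 0) : x = 0 :=
  tate_H3_pTorsion p C u h1P h2P
    (fun P hP => addOrderOf_res_eq_card p C u hu P hP (h2P P hP)) U x hx

end Torsion

end Fermat.Agent.CFT.Coh
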